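/-
S12, package KEY (helper11): the product identity for a finite subgroup `N` of odd order of an
elliptic curve with full 2-torsion.

`W` is a Weierstrass curve over an algebraically closed field `K` (`2 ≠ 0`), whose 2-division
polynomial is `4 (x - e₁)(x - e₂)(x - e₃)`; `N` is a finite subgroup of `W.Point` of odd order `n`;
`Ξ e := ∏_{R ∈ N, R ≠ 0} (x(R) - e)`.  Then
`(e₂ - e₁)^n Ξ(e₃)² + (e₃ - e₂)^n Ξ(e₁)² + (e₁ - e₃)^n Ξ(e₂)² = 0`.
-/
import Fermat.Agent.Lib.Torsion.H11_Order
import Fermat.Agent.Lib.Torsion35.Card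
import Mathlib.Algebra.Polynomial.Roots
import Mathlib.FieldTheory.IsAlgClosed.Basic
import Mathlib.GroupTheory.OrderOfElement
import Mathlib.LinearAlgebra.Lagrange

set_option autoImplicit false

namespace Fermat.Agent.S12.H11

open WeierstrassCurve Polynomial Fermat.Agent.Lib.Torsion.H11

variable {K : Type*} [Field K]

/-- The 2-division polynomial of `W` is `4 (x - e)(x - e')(x - e'')`. -/
structure TwoTors (W : Affine K) (e e' e'' : K) : Prop where
  two_ne : (2 : K) ≠ 0
  hb2 : W.b₂ = -4 * (e + e' + e'')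
  hb4 : W.b₄ = 2 * (e * e' + e * e'' + e' * e'')
  hb6 : W.b₆ = -4 * (e * e' * e'')

namespace TwoTors

variable {W : Affine K} {e e' e'' : K} (H : TwoTors W e e' e'')
include H

lemma perm12 : TwoTors W e' e e'' :=
  ⟨H.two_ne, by rw [H.hb2]; ring, by rw [H.hb4]; ring, by rw [H.hb6]; ring⟩

lemma perm23 : TwoTors W e e'' e' :=
  ⟨H.two_ne, by rw [H.hb2]; ring, by rw [H.hb4]; ring, by rw [H.hb6]; ring⟩

lemma rot : TwoTors W e' e'' e :=
  ⟨H.two_ne, by rw [H.hb2]; ring, by rw [H.hb4]; ring, by rw [H.hb6]; ring⟩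

lemma hb8 : W.b₈ = 4 * (e + e' + e'') * (e * e' * e'') - (e * e' + e * e'' + e' * e'') ^ 2 := by
  have h4 : (4 : K) ≠ 0 := by
    have : (4 : K) = 2 * 2 := by norm_num
    rw [this]; exact mul_ne_zero H.two_ne H.two_ne
  have hr := W.b_relation
  rw [H.hb2, H.hb4, H.hb6] at hr
  apply mul_left_cancel₀ h4
  rw [hr]; ring

lemma psi2sq_eq (x : K) : psi2sq W x = 4 * ((x - e) * (x - e') * (x - e'')) := by
  simp only [psi2sq, H.hb2, H.hb4, H.hb6]; ring

/-- At a 2-torsion abscissa the biquadratic form is a perfect square. -/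
lemma symF_root (u v : K) :
    symF W u v e = ((u - e) * (v - e) - (e - e') * (e - e'')) ^ 2 := by
  simp only [symF, H.hb2, H.hb4, H.hb6, H.hb8]; ring

end TwoTors

/-- Products over a finite set with a fixed-point-free involution: if the products over each
orbit agree, the total products agree. -/
lemma prod_eq_prod_of_pairing {α : Type*} (s : Finset α) (ι : α → α)
    (hι : ∀ a ∈ s, ι a ∈ s) (hinv : ∀ a ∈ s, ι (ι a) = a) (hfix : ∀ a ∈ s, ι a ≠ a)
    (f g : α → K) (hfg : ∀ a ∈ s, f a * f (ι a) = g a * g (ι a)) :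
    ∏ a ∈ s, f a = ∏ a ∈ s, g a := by
  by_cases hz : ∃ a ∈ s, g a = 0
  · obtain ⟨a, ha, hga⟩ := hz
    rw [Finset.prod_eq_zero ha hga]
    have h := hfg a ha
    rw [hga, zero_mul] at h
    rcases mul_eq_zero.mp h with h | h
    · exact Finset.prod_eq_zero ha h
    · exact Finset.prod_eq_zero (hι a ha) h
  · simp only [not_exists, not_and] at hz
    have h1 : ∏ a ∈ s, f a / g a = 1 := by
      apply Finset.prod_involution (fun a _ => ι a)
      · intro a ha
        have := hfg a ha
        have h1 := hz a ha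
        have h2 := hz (ι a) (hι a ha)
        field_simp
        exact this
      · intro a ha _
        exact hfix a ha
      · intro a ha
        exact hι a ha
      · intro a ha
        exact hinv a ha
    rw [Finset.prod_div_distrib] at h1
    have h2 : ∏ a ∈ s, g a ≠ 0 := Finset.prod_ne_zero_iff.mpr hz
    rw [div_eq_one_iff_eq h2] at h1
    exact h1

section points

variable [DecidableEq K] (W : Affine K) {e e' e'' : K} (H : TwoTors W e e' e'')
include H

/-- The product formula for `x(P + R)` and `x(P - R)` at a 2-torsion abscissa. -/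
lemma xc_add_sub_root {P R : W.Point} (hP : P ≠ 0) (hR : R ≠ 0) (hx : xc W P ≠ xc W R) :
    (xc W (P + R) - e) * (xc W (P - R) - e) * (xc W P - xc W R) ^ 2 =
      ((xc W P - e) * (xc W R - e) - (e - e') * (e - e'')) ^ 2 := by
  rw [xc_add_rel W hP hR hx e, H.symF_root]

/-- A nonzero point whose abscissa is a root of the 2-division polynomial is 2-torsion. -/
lemma two_nsmul_eq_zero_of_xc_eq {P : W.Point} (hx : xc W P = e) : 2 • P = 0 := by
  cases P with
  | zero => simp [← Affine.Point.zero_def]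
  | some x y h =>
    simp only [xc_some] at hx
    rw [← psi2v_eq_zero_iff W h]
    have h2 := psi2v_sq W h
    rw [H.psi2sq_eq] at h2
    have : x - e = 0 := by rw [hx]; ring
    rw [this] at h2
    simpa using h2

end points

section subgroup

variable [DecidableEq K] (W : Affine K) (N : AddSubgroup W.Point) [Fintype N]

/-- A subgroup of odd order has no element of order 2. -/
lemma eq_zero_of_two_nsmul (hodd : Odd (Fintype.card N)) {R : W.Point} (hR : R ∈ N)
    (h2 : 2 • R = 0) : R = 0 := by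
  have h1 : addOrderOf (⟨R, hR⟩ : N) ∣ 2 := by
    apply addOrderOf_dvd_of_nsmul_eq_zero
    ext
    simpa using h2
  have h3 : addOrderOf (⟨R, hR⟩ : N) ∣ Fintype.card N := addOrderOf_dvd_card
  have h4 : addOrderOf (⟨R, hR⟩ : N) = 1 := by
    rcases (Nat.dvd_prime Nat.prime_two).mp h1 with h | h
    · exact h
    · exfalso
      rw [h] at h3
      exact (Nat.not_even_iff_odd.mpr hodd) (even_iff_two_dvd.mpr h3)
  have := AddMonoid.addOrderOf_eq_one_iff.mp h4
  exact congrArg Subtype.val this

variable {W N} in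
lemma neg_ne_self (hodd : Odd (Fintype.card N)) {R : W.Point} (hR : R ∈ N) (h0 : R ≠ 0) :
    -R ≠ R := by
  intro h
  apply h0
  apply eq_zero_of_two_nsmul W N hodd hR
  rw [two_nsmul]
  nth_rewrite 1 [← h]
  exact neg_add_cancel R

variable {e e' e'' : K} (H : TwoTors W e e' e'')
include H

/-- The abscissa of a nonzero point of `N` is not a root of the 2-division polynomial. -/
lemma xc_ne_root (hodd : Odd (Fintype.card N)) {R : W.Point} (hR : R ∈ N) (h0 : R ≠ 0) :
    xc W R ≠ e := fun hx =>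
  h0 (eq_zero_of_two_nsmul W N hodd hR (two_nsmul_eq_zero_of_xc_eq W H hx))

omit H [Fintype N] in
/-- A point outside `N` has an abscissa different from the abscissas of the nonzero points
of `N`. -/
lemma xc_ne_of_not_mem {P R : W.Point} (hP : P ∉ N) (hR : R ∈ N) (h0 : R ≠ 0) :
    xc W P ≠ xc W R := by
  intro hx
  have hP0 : P ≠ 0 := fun h => hP (h ▸ N.zero_mem)
  rcases eq_or_eq_neg_of_xc_eq W hP0 h0 hx with h | h
  · exact hP (h ▸ hR)
  · exact hP (h ▸ N.neg_mem hR)

/-- The nonzero elements of `N`. -/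
abbrev nz : Finset N := (Finset.univ : Finset N).erase 0

omit H in
lemma coe_ne_zero_of_mem_nz {R : N} (hR : R ∈ nz W N) : (R : W.Point) ≠ 0 := by
  intro h
  have : R = 0 := Subtype.ext h
  simp [nz, this] at hR

/-- The product formula over the nonzero elements of `N`. -/
lemma prod_formula (hodd : Odd (Fintype.card N)) {P : W.Point} (hP : P ∉ N) :
    (∏ R ∈ nz W N, (xc W (P + R) - e)) * ∏ R ∈ nz W N, (xc W P - xc W (R : W.Point)) =
      ∏ R ∈ nz W N, ((xc W P - e) * (xc W (R : W.Point) - e) - (e - e') * (e - e'')) := by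
  rw [← Finset.prod_mul_distrib]
  have hP0 : P ≠ 0 := fun h => hP (h ▸ N.zero_mem)
  apply prod_eq_prod_of_pairing (nz W N) (fun R => -R)
  · intro R hR
    simp only [nz, Finset.mem_erase, Finset.mem_univ, and_true, ne_eq, neg_eq_zero] at hR ⊢
    exact hR
  · intro R _
    exact neg_neg R
  · intro R hR h
    have h0 := coe_ne_zero_of_mem_nz W N hR
    apply neg_ne_self hodd R.2 h0
    exact congrArg Subtype.val h
  · intro R hR
    have h0 := coe_ne_zero_of_mem_nz W N hR
    have hx := xc_ne_of_not_mem W N hP R.2 h0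
    have key := xc_add_sub_root W H hP0 h0 hx
    simp only [AddSubgroup.coe_neg, xc_neg, ← sub_eq_add_neg]
    linear_combination key

end subgroup

section key

variable [DecidableEq K] (W : Affine K) (N : AddSubgroup W.Point) [Fintype N]

/-- `Ξ(e) = ∏_{R ∈ N, R ≠ 0} (x(R) - e)`. -/
noncomputable def Xi (e : K) : K := ∏ R ∈ nz W N, (xc W (R : W.Point) - e)

/-- `h(x) = ∏_{R ∈ N, R ≠ 0} (x - x(R))`. -/
noncomputable def Hpoly : K[X] := ∏ R ∈ nz W N, (X - C (xc W (R : W.Point)))

/-- The abscissa of `R + T` for the 2-torsion point `T` with abscissa `e`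
(`d = (e - e') (e - e'')`). -/
noncomputable def rho (e d : K) (R : N) : K := e + d / (xc W (R : W.Point) - e)

/-- The numerator of `x' - e'`: `(x - e) ∏_{R ≠ 0} (x - x(R + T))`. -/
noncomputable def Apoly (e d : K) : K[X] := (X - C e) * ∏ R ∈ nz W N, (X - C (rho W N e d R))

/-- `Θ_e(P) = ∏_{R ∈ N} (x(P + R) - e)`. -/
noncomputable def theta (e : K) (P : W.Point) : K := ∏ R : N, (xc W (P + (R : W.Point)) - e)

lemma theta_eq (e : K) (P : W.Point) :
    theta W N e P = (xc W P - e) * ∏ R ∈ nz W N, (xc W (P + (R : W.Point)) - e) := by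
  unfold theta nz
  rw [← Finset.mul_prod_erase Finset.univ _ (Finset.mem_univ (0 : N))]
  simp

/-- `Θ` is invariant under translation by `N`. -/
lemma theta_add (e : K) (P : W.Point) {R₀ : W.Point} (hR₀ : R₀ ∈ N) :
    theta W N e (P + R₀) = theta W N e P := by
  unfold theta
  apply Fintype.prod_equiv (Equiv.addLeft (⟨R₀, hR₀⟩ : N))
  intro R
  simp [add_assoc]

lemma card_nz : (nz W N).card = Fintype.card N - 1 := by
  simp [nz, Finset.card_erase_of_mem, Finset.card_univ]

lemma Hpoly_monic : (Hpoly W N).Monic := monic_prod_X_sub_C _ _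

lemma Hpoly_natDegree : (Hpoly W N).natDegree = Fintype.card N - 1 := by
  unfold Hpoly
  rw [natDegree_prod_of_monic _ _ (fun R _ => monic_X_sub_C _)]
  simp

lemma Apoly_monic (e d : K) : (Apoly W N e d).Monic :=
  (monic_X_sub_C e).mul (monic_prod_X_sub_C _ _)

lemma Apoly_natDegree (e d : K) : (Apoly W N e d).natDegree = Fintype.card N := by
  unfold Apoly
  rw [Monic.natDegree_mul (monic_X_sub_C e) (monic_prod_X_sub_C _ _),
    natDegree_prod_of_monic _ _ (fun R _ => monic_X_sub_C _)]
  have : 0 < Fintype.card N := Fintype.card_pos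
  simp
  omega

lemma Hpoly_eval (x : K) : (Hpoly W N).eval x = ∏ R ∈ nz W N, (x - xc W (R : W.Point)) := by
  simp [Hpoly, eval_prod]

lemma Apoly_eval (e d x : K) :
    (Apoly W N e d).eval x = (x - e) * ∏ R ∈ nz W N, (x - rho W N e d R) := by
  simp [Apoly, eval_prod]

lemma Hpoly_eval_ne {P : W.Point} (hP : P ∉ N) : (Hpoly W N).eval (xc W P) ≠ 0 := by
  rw [Hpoly_eval, Finset.prod_ne_zero_iff]
  intro R hR
  exact sub_ne_zero.mpr (xc_ne_of_not_mem W N hP R.2 (coe_ne_zero_of_mem_nz W N hR))

variable {e e' e'' : K} (H : TwoTors W e e' e'')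
include H

lemma Xi_ne_zero (hodd : Odd (Fintype.card N)) : Xi W N e ≠ 0 := by
  rw [Xi, Finset.prod_ne_zero_iff]
  intro R hR
  exact sub_ne_zero.mpr (xc_ne_root W N H hodd R.2 (coe_ne_zero_of_mem_nz W N hR))

/-- `Θ_e(P) h(x_P) = Ξ(e) A_e(x_P)` for `P ∉ N`. -/
lemma theta_mul_H (hodd : Odd (Fintype.card N)) {P : W.Point} (hP : P ∉ N) :
    theta W N e P * (Hpoly W N).eval (xc W P) =
      Xi W N e * (Apoly W N e ((e - e') * (e - e''))).eval (xc W P) := by
  rw [theta_eq, Hpoly_eval, Apoly_eval, mul_assoc, prod_formula W N H hodd hP, Xi]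
  have : ∀ R ∈ nz W N, (xc W P - e) * (xc W (R : W.Point) - e) - (e - e') * (e - e'') =
      (xc W (R : W.Point) - e) * (xc W P - rho W N e ((e - e') * (e - e'')) R) := by
    intro R hR
    have hne : xc W (R : W.Point) - e ≠ 0 :=
      sub_ne_zero.mpr (xc_ne_root W N H hodd R.2 (coe_ne_zero_of_mem_nz W N hR))
    unfold rho
    field_simp
    ring
  rw [Finset.prod_congr rfl this, Finset.prod_mul_distrib]
  ring

/-- `A_e(e') = (e' - e)^n Ξ(e'') / Ξ(e)`. -/
lemma Apoly_eval_root (hodd : Odd (Fintype.card N)) :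
    (Apoly W N e ((e - e') * (e - e''))).eval e' * Xi W N e =
      (e' - e) ^ Fintype.card N * Xi W N e'' := by
  rw [Apoly_eval, Xi, Xi, mul_assoc, ← Finset.prod_mul_distrib]
  have : ∀ R ∈ nz W N, (e' - rho W N e ((e - e') * (e - e'')) R) * (xc W (R : W.Point) - e) =
      (e' - e) * (xc W (R : W.Point) - e'') := by
    intro R hR
    have hne : xc W (R : W.Point) - e ≠ 0 :=
      sub_ne_zero.mpr (xc_ne_root W N H hodd R.2 (coe_ne_zero_of_mem_nz W N hR))
    unfold rho
    field_simp
    ring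
  rw [Finset.prod_congr rfl this, Finset.prod_mul_distrib, Finset.prod_const, card_nz]
  have hpos : 0 < Fintype.card N := Fintype.card_pos
  have : (e' - e) ^ Fintype.card N = (e' - e) * (e' - e) ^ (Fintype.card N - 1) := by
    rw [← pow_succ']
    congr 1
    omega
  rw [this]
  ring

omit H in
/-- `h(e) = Ξ(e)` (the number of factors is even). -/
lemma Hpoly_eval_root (hodd : Odd (Fintype.card N)) (e : K) :
    (Hpoly W N).eval e = Xi W N e := by
  rw [Hpoly_eval, Xi]
  have : ∀ R ∈ nz W N, e - xc W (R : W.Point) = -(xc W (R : W.Point) - e) := by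
    intro R _; ring
  rw [Finset.prod_congr rfl this, Finset.prod_neg, card_nz]
  have hev : Even (Fintype.card N - 1) := by
    obtain ⟨k, hk⟩ := hodd
    exact ⟨k, by omega⟩
  rw [hev.neg_one_pow, one_mul]

end key

section main

variable [DecidableEq K] [IsAlgClosed K] (W : Affine K) (N : AddSubgroup W.Point) [Fintype N]
  {e e' e'' : K} (H : TwoTors W e e' e'')
include H

omit [DecidableEq K] [IsAlgClosed K] in
/-- `Φ₂(e) = d²` at a root `e` of the 2-division polynomial. -/
lemma phi2_root : phi2 W e = ((e - e') * (e - e'')) ^ 2 := by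
  have h1 := symF_self W e e
  have h2 := H.symF_root e e
  have h3 := H.psi2sq_eq e
  rw [h2] at h1
  rw [h3] at h1
  linear_combination -h1

/-- There is a point `P₀ ∉ N` with `2 • P₀ ∉ N`. -/
lemma exists_generic (hΔ : W.Δ ≠ 0) (hne' : e ≠ e') (hne'' : e ≠ e'') :
    ∃ P₀ : W.Point, P₀ ∉ N ∧ 2 • P₀ ∉ N := by
  classical
  set psq : K[X] := C 4 * ((X - C e) * (X - C e') * (X - C e'')) with hpsq
  set ph : K[X] := X ^ 4 - C W.b₄ * X ^ 2 - C (2 * W.b₆) * X - C W.b₈ with hph
  have hpsq_eval : ∀ x, psq.eval x = psi2sq W x := by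
    intro x
    rw [H.psi2sq_eq]
    simp [hpsq]
  have hph_eval : ∀ x, ph.eval x = phi2 W x := by
    intro x
    simp [hph, phi2]
  have h4 : (4 : K) ≠ 0 := by
    have : (4 : K) = 2 * 2 := by norm_num
    rw [this]; exact mul_ne_zero H.two_ne H.two_ne
  have hpsq_ne : psq ≠ 0 := by
    rw [hpsq]
    exact mul_ne_zero (by simpa using h4)
      (mul_ne_zero (mul_ne_zero (X_sub_C_ne_zero _) (X_sub_C_ne_zero _)) (X_sub_C_ne_zero _))
  have hQ_ne : ∀ S ∈ nz W N, ph - C (xc W (S : W.Point)) * psq ≠ 0 := by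
    intro S _ h0
    have := congrArg (eval e) h0
    simp only [eval_sub, eval_mul, eval_C, hph_eval, hpsq_eval, eval_zero] at this
    rw [H.psi2sq_eq, phi2_root W H] at this
    have hd : (e - e') * (e - e'') ≠ 0 :=
      mul_ne_zero (sub_ne_zero.mpr hne') (sub_ne_zero.mpr hne'')
    apply pow_ne_zero 2 hd
    linear_combination this
  set Bad : K[X] := psq * Hpoly W N * ∏ S ∈ nz W N, (ph - C (xc W (S : W.Point)) * psq)
    with hBad
  have hBad_ne : Bad ≠ 0 :=
    mul_ne_zero (mul_ne_zero hpsq_ne (Hpoly_monic W N).ne_zero)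
      (Finset.prod_ne_zero_iff.mpr hQ_ne)
  obtain ⟨x₀, hx₀⟩ : ∃ x₀, Bad.eval x₀ ≠ 0 := by
    by_contra hcon
    simp only [not_exists, not_not] at hcon
    exact hBad_ne (zero_of_eval_zero Bad hcon)
  obtain ⟨y₀, h₀, -⟩ := Fermat.Agent.Lib.Torsion35.exists_point_of_x W hΔ x₀
  rw [hBad, eval_mul, eval_mul, eval_prod] at hx₀
  have hx1 : psq.eval x₀ ≠ 0 := fun h => hx₀ (by rw [h]; ring)
  have hx2 : (Hpoly W N).eval x₀ ≠ 0 := fun h => hx₀ (by rw [h]; ring)
  have hx3 : ∀ S ∈ nz W N, (ph - C (xc W (S : W.Point)) * psq).eval x₀ ≠ 0 := by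
    have : ∏ S ∈ nz W N, (ph - C (xc W (S : W.Point)) * psq).eval x₀ ≠ 0 :=
      fun h => hx₀ (by rw [h]; ring)
    exact Finset.prod_ne_zero_iff.mp this
  refine ⟨Affine.Point.some x₀ y₀ h₀, ?_, ?_⟩
  · intro hmem
    apply hx2
    rw [Hpoly_eval]
    apply Finset.prod_eq_zero (i := (⟨_, hmem⟩ : N))
    · simp only [nz, Finset.mem_erase, Finset.mem_univ, and_true]
      intro h
      exact Affine.Point.some_ne_zero h₀ (congrArg Subtype.val h)
    · simp
  · intro hmem
    by_cases hS : (2 : ℕ) • Affine.Point.some x₀ y₀ h₀ = 0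
    · apply hx1
      rw [hpsq_eval, ← psi2v_sq W h₀, (psi2v_eq_zero_iff W h₀).mpr hS]
      ring
    · have hy : y₀ ≠ W.negY x₀ y₀ := fun hy => hS ((two_smul_eq_zero_iff W h₀).mpr hy)
      have h2 := xc_two_smul W h₀ hy
      apply hx3 (⟨_, hmem⟩ : N)
      · simp only [nz, Finset.mem_erase, Finset.mem_univ, and_true]
        intro h
        exact hS (congrArg Subtype.val h)
      · simp only [eval_sub, eval_mul, eval_C, hph_eval, hpsq_eval]
        linear_combination -h2

end main

section rc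

variable [DecidableEq K] (W : Affine K) (N : AddSubgroup W.Point) [Fintype N]

omit [Fintype N] in
lemma add_not_mem {B : W.Point} (hB : B ∉ N) (R : N) : B + (R : W.Point) ∉ N := by
  intro h
  apply hB
  have := N.sub_mem h R.2
  simpa using this

omit [Fintype N] in
/-- For generic `B`, the abscissae of the translates `B + R` are pairwise distinct. -/
lemma xc_add_injective {B : W.Point} (hB : B ∉ N) (h2B : 2 • B ∉ N) :
    Function.Injective (fun R : N => xc W (B + (R : W.Point))) := by
  intro R R' h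
  simp only at h
  have h1 : B + (R : W.Point) ≠ 0 := fun h0 => add_not_mem W N hB R (h0 ▸ N.zero_mem)
  have h2 : B + (R' : W.Point) ≠ 0 := fun h0 => add_not_mem W N hB R' (h0 ▸ N.zero_mem)
  rcases eq_or_eq_neg_of_xc_eq W h1 h2 h with h | h
  · exact Subtype.ext (add_left_cancel h)
  · exfalso
    apply h2B
    have : 2 • B = -((R : W.Point) + (R' : W.Point)) := by
      calc 2 • B = (B + (R : W.Point)) + (B + (R' : W.Point)) - ((R : W.Point) + R') := by
            rw [two_nsmul]; abel
        _ = -(B + (R' : W.Point)) + (B + (R' : W.Point)) - ((R : W.Point) + R') := by rw [h]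
        _ = -((R : W.Point) + (R' : W.Point)) := by abel
    rw [this]
    exact N.neg_mem (N.add_mem R.2 R'.2)

/-- `G_B(x) = ∏_{R ∈ N} (x - x(B + R))`. -/
noncomputable def Gpoly (B : W.Point) : K[X] := ∏ R : N, (X - C (xc W (B + (R : W.Point))))

lemma Gpoly_monic (B : W.Point) : (Gpoly W N B).Monic := monic_prod_X_sub_C _ _

lemma Gpoly_natDegree (B : W.Point) : (Gpoly W N B).natDegree = Fintype.card N := by
  unfold Gpoly
  rw [natDegree_prod_of_monic _ _ (fun R _ => monic_X_sub_C _)]
  simp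

lemma Gpoly_eval (B : W.Point) (x : K) :
    (Gpoly W N B).eval x = ∏ R : N, (x - xc W (B + (R : W.Point))) := by
  simp [Gpoly, eval_prod]

lemma Gpoly_eval_self (B : W.Point) (R : N) :
    (Gpoly W N B).eval (xc W (B + (R : W.Point))) = 0 := by
  rw [Gpoly_eval]
  exact Finset.prod_eq_zero (Finset.mem_univ R) (sub_self _)

variable {e e' e'' : K} (H : TwoTors W e e' e'')
include H

/-- Root counting: `A_e - (Θ_e(B)/Ξ(e)) h = G_B` for generic `B`. -/
theorem RC (hodd : Odd (Fintype.card N)) {B : W.Point} (hB : B ∉ N) (h2B : 2 • B ∉ N) :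
    Apoly W N e ((e - e') * (e - e'')) - C (theta W N e B / Xi W N e) * Hpoly W N =
      Gpoly W N B := by
  have hXi := Xi_ne_zero W N H hodd
  have hpos : 0 < Fintype.card N := Fintype.card_pos
  set A := Apoly W N e ((e - e') * (e - e'')) with hA
  set G := Gpoly W N B with hG
  set c := theta W N e B / Xi W N e with hc
  rw [← sub_eq_zero]
  apply eq_zero_of_degree_lt_of_eval_index_eq_zero (s := (Finset.univ : Finset N))
    (v := fun R : N => xc W (B + (R : W.Point)))
  · exact (xc_add_injective W N hB h2B).injOn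
  · rw [Finset.card_univ]
    have hAdeg : A.degree = (Fintype.card N : ℕ) := by
      rw [degree_eq_natDegree (Apoly_monic W N _ _).ne_zero, Apoly_natDegree]
    have hGdeg : G.degree = (Fintype.card N : ℕ) := by
      rw [degree_eq_natDegree (Gpoly_monic W N _).ne_zero, Gpoly_natDegree]
    have hHdeg : (C c * Hpoly W N).degree < (Fintype.card N : ℕ) := by
      rw [C_mul']
      refine lt_of_le_of_lt (degree_smul_le _ _) ?_
      rw [degree_eq_natDegree (Hpoly_monic W N).ne_zero, Hpoly_natDegree]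
      exact_mod_cast Nat.sub_lt hpos Nat.one_pos
    have hAG : (A - G).degree < (Fintype.card N : ℕ) := by
      rw [← hAdeg]
      apply degree_sub_lt_left (hAdeg.trans hGdeg.symm) (Apoly_monic W N _ _).ne_zero
      rw [(Apoly_monic W N _ _).leadingCoeff, (Gpoly_monic W N _).leadingCoeff]
    have : A - C c * Hpoly W N - G = (A - G) - C c * Hpoly W N := by ring
    rw [this]
    exact lt_of_le_of_lt (degree_sub_le _ _) (max_lt hAG hHdeg)
  · intro R _
    have hmem := add_not_mem W N hB R
    have h1 := theta_mul_H W N H hodd hmem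
    rw [theta_add W N e B R.2] at h1
    simp only [eval_sub, eval_mul, eval_C, hG, Gpoly_eval_self, sub_zero]
    rw [hc, hA]
    field_simp
    linear_combination -h1

/-- Polynomial form of the key identity. -/
theorem key_poly (hodd : Odd (Fintype.card N)) {B : W.Point} (hB : B ∉ N) (h2B : 2 • B ∉ N) :
    Apoly W N e ((e - e') * (e - e'')) - Apoly W N e' ((e' - e) * (e' - e'')) =
      C (theta W N e B / Xi W N e - theta W N e' B / Xi W N e') * Hpoly W N := by
  have h1 := RC W N H hodd hB h2B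
  have h2 := RC W N H.perm12 hodd hB h2B
  rw [C_sub]
  linear_combination h1 - h2

omit H in
lemma Apoly_eval_self (e d : K) : (Apoly W N e d).eval e = 0 := by
  rw [Apoly_eval, sub_self, zero_mul]

/-- The key identity, given a generic point. -/
theorem key_of_generic (hodd : Odd (Fintype.card N)) {B : W.Point} (hB : B ∉ N)
    (h2B : 2 • B ∉ N) :
    (e'' - e) ^ Fintype.card N * Xi W N e' ^ 2 - (e'' - e') ^ Fintype.card N * Xi W N e ^ 2 =
      (e' - e) ^ Fintype.card N * Xi W N e'' ^ 2 := by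
  have hk := key_poly W N H hodd hB h2B
  generalize theta W N e B / Xi W N e - theta W N e' B / Xi W N e' = v at hk
  -- evaluation at `e'`
  have E1 := congrArg (eval e') hk
  simp only [eval_sub, eval_mul, eval_C, Apoly_eval_self, sub_zero,
    Hpoly_eval_root W N hodd] at E1
  have R1 := Apoly_eval_root W N H hodd
  -- evaluation at `e''`
  have E2 := congrArg (eval e'') hk
  simp only [eval_sub, eval_mul, eval_C, Hpoly_eval_root W N hodd] at E2
  have R2 := Apoly_eval_root W N H.perm23 hodd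
  rw [mul_comm (e - e'') (e - e')] at R2
  have R3 := Apoly_eval_root W N H.rot hodd
  rw [mul_comm (e' - e'') (e' - e)] at R3
  -- combine
  have hvv : v * Xi W N e' * Xi W N e = (e' - e) ^ Fintype.card N * Xi W N e'' := by
    rw [← R1, E1]
  linear_combination (-Xi W N e') * R2 + (Xi W N e) * R3 + (Xi W N e * Xi W N e') * E2
    + (Xi W N e'') * hvv

end rc

section final

variable [DecidableEq K] [IsAlgClosed K] (W : Affine K) (N : AddSubgroup W.Point) [Fintype N]
  {e e' e'' : K} (H : TwoTors W e e' e'')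
include H

/-- **The key identity.**  For a finite subgroup `N` of odd order `n` of a Weierstrass curve
with 2-division polynomial `4 (x - e)(x - e')(x - e'')`, and
`Ξ(t) = ∏_{R ∈ N, R ≠ 0} (x(R) - t)`:
`(e'' - e)ⁿ Ξ(e')² - (e'' - e')ⁿ Ξ(e)² = (e' - e)ⁿ Ξ(e'')²`. -/
theorem key_identity (hΔ : W.Δ ≠ 0) (hne' : e ≠ e') (hne'' : e ≠ e'')
    (hodd : Odd (Fintype.card N)) :
    (e'' - e) ^ Fintype.card N * Xi W N e' ^ 2 - (e'' - e') ^ Fintype.card N * Xi W N e ^ 2 =
      (e' - e) ^ Fintype.card N * Xi W N e'' ^ 2 := by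
  obtain ⟨B, hB, h2B⟩ := exists_generic W N H hΔ hne' hne''
  exact key_of_generic W N H hodd hB h2B

end final

end Fermat.Agent.S12.H11
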