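/-
S12, package HOM (helper63), concrete form over a field.

`W` a Weierstrass curve over a field `K` with 2-division polynomial
`4 (x - e)(x - e')(x - e'')` (general `a₁ … a₆`), `N` a finite subgroup of `W.Point` of odd
order `n`.  With helper11's `Ξ(t) = ∏_{R ∈ N ∖ 0} (x(R) - t)` and
`Θ_t(P) = ∏_{R ∈ N} (x(P + R) - t)` the quotient curve is

  `W' : y² = (x - t₀)(x - t₁)(x - t₂)`,  `t₁ - t₀ = (e' - e)ⁿ Ξ(e'') / (Ξ(e) Ξ(e'))`,
                                         `t₂ - t₀ = (e'' - e)ⁿ Ξ(e') / (Ξ(e) Ξ(e''))`,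

and the image of `P ∉ N` is `Q' = (ξ, Y)`,

  `ξ - t₀ = Θ_e(P) / Ξ(e)`,  `ξ - t₁ = Θ_e'(P) / Ξ(e')`,  `ξ - t₂ = Θ_e''(P) / Ξ(e'')`,
  `Y = ∏_{R ∈ N} η(P + R) / (2 ∏_{R ∈ N ∖ 0} η(R))`,   `η = 2y + a₁x + a₃`.

Main results: `quotPoint_nonsingular` (the point lies on `W'`) and `quotPoint_smul_eq_zero`
(`p • P = 0`, `k • P ∉ N` for `0 < k < p` imply `p • Q' = 0`).
-/
import Fermat.Agent.S12.H11_Key
import Fermat.Agent.Lib.Torsion.H63_Hom
import Fermat.Agent.Lib.Torsion.H63_TwoTors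

set_option autoImplicit false

namespace Fermat.Agent.S12.H63

open WeierstrassCurve Polynomial Fermat.Agent.Lib.Torsion.H11 Fermat.Agent.Lib.Torsion.H63
  Fermat.Agent.S12.H11

variable {K : Type*} [Field K]

/-- The curve `y² = (x - t₀)(x - t₁)(x - t₂)`. -/
def quotCurve (t₀ t₁ t₂ : K) : Affine K :=
  ⟨0, -(t₀ + t₁ + t₂), 0, t₀ * t₁ + t₀ * t₂ + t₁ * t₂, -(t₀ * t₁ * t₂)⟩

@[simp] lemma quotCurve_a₁ (t₀ t₁ t₂ : K) : (quotCurve t₀ t₁ t₂).a₁ = 0 := rfl
@[simp] lemma quotCurve_a₂ (t₀ t₁ t₂ : K) : (quotCurve t₀ t₁ t₂).a₂ = -(t₀ + t₁ + t₂) := rfl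
@[simp] lemma quotCurve_a₃ (t₀ t₁ t₂ : K) : (quotCurve t₀ t₁ t₂).a₃ = 0 := rfl
@[simp] lemma quotCurve_a₄ (t₀ t₁ t₂ : K) :
    (quotCurve t₀ t₁ t₂).a₄ = t₀ * t₁ + t₀ * t₂ + t₁ * t₂ := rfl
@[simp] lemma quotCurve_a₆ (t₀ t₁ t₂ : K) : (quotCurve t₀ t₁ t₂).a₆ = -(t₀ * t₁ * t₂) := rfl

lemma twoTors_quotCurve (h2 : (2 : K) ≠ 0) (t₀ t₁ t₂ : K) :
    TwoTors (quotCurve t₀ t₁ t₂) t₀ t₁ t₂ where
  two_ne := h2
  hb2 := by simp only [WeierstrassCurve.b₂, quotCurve_a₁, quotCurve_a₂]; ring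
  hb4 := by simp only [WeierstrassCurve.b₄, quotCurve_a₁, quotCurve_a₃, quotCurve_a₄]; ring
  hb6 := by simp only [WeierstrassCurve.b₆, quotCurve_a₃, quotCurve_a₆]; ring

lemma quotCurve_equation_iff (t₀ t₁ t₂ x y : K) :
    (quotCurve t₀ t₁ t₂).Equation x y ↔ y ^ 2 = (x - t₀) * (x - t₁) * (x - t₂) := by
  rw [Affine.equation_iff]
  simp only [quotCurve_a₁, quotCurve_a₂, quotCurve_a₃, quotCurve_a₄, quotCurve_a₆]
  constructor
  · intro h; linear_combination h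
  · intro h; linear_combination h

lemma quotCurve_nonsingular (h2 : (2 : K) ≠ 0) {t₀ t₁ t₂ x y : K}
    (h : y ^ 2 = (x - t₀) * (x - t₁) * (x - t₂)) (hy : y ≠ 0) :
    (quotCurve t₀ t₁ t₂).Nonsingular x y := by
  rw [Affine.nonsingular_iff]
  refine ⟨(quotCurve_equation_iff _ _ _ _ _).mpr h, Or.inr ?_⟩
  simp only [quotCurve_a₁, quotCurve_a₃]
  intro h0
  apply hy
  have : 2 * y = 0 := by linear_combination h0
  rcases mul_eq_zero.mp this with h' | h'
  · exact absurd h' h2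
  · exact h'

lemma quotCurve_negY (t₀ t₁ t₂ x y : K) : (quotCurve t₀ t₁ t₂).negY x y = -y := by
  simp [Affine.negY]

variable [DecidableEq K] (W : Affine K) (N : AddSubgroup W.Point) [Fintype N]

lemma theta_eq_normTheta (e : K) (P : W.Point) : theta W N e P = normTheta W N e P := rfl

section root

variable {e e' e'' : K} (H : TwoTors W e e' e'')
include H

omit [DecidableEq K] in
lemma ttHyp : TTHyp W e e' e'' := ⟨H.two_ne, H.hb2, H.hb4, H.hb6⟩

/-- Root counting, evaluated. -/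
lemma rc_eval (hodd : Odd (Fintype.card N)) {A B : W.Point} (hA : A ∉ N)
    (hB2 : (2 : ℕ) • B ∉ N) :
    (normTheta W N e A - normTheta W N e B) * (Hpoly W N).eval (xc W A) =
      Xi W N e * normD W N (xc W A) B := by
  have hB : B ∉ N := not_mem_of_two_nsmul_not_mem N hB2
  have h1 := congrArg (eval (xc W A)) (RC W N H hodd hB hB2)
  simp only [eval_sub, eval_mul, eval_C, Gpoly_eval] at h1
  have h2 := theta_mul_H W N H hodd hA
  have hXi := Xi_ne_zero W N H hodd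
  rw [theta_eq_normTheta] at h1 h2
  unfold normD
  rw [← h1]
  field_simp
  linear_combination h2

/-- The data for the norm relation at the root `e`. -/
theorem rootData (hodd : Odd (Fintype.card N)) (hne' : e ≠ e') (hne'' : e ≠ e'') :
    RootData W N e ((e - e') * (e - e'')) (Xi W N e) where
  c_ne := Xi_ne_zero W N H hodd
  symF_eq := H.symF_root
  exists_T := by
    have hd : (e - e') * (e - e'') ≠ 0 :=
      mul_ne_zero (sub_ne_zero.mpr hne') (sub_ne_zero.mpr hne'')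
    exact ⟨(ttHyp W H).pointT hd, (ttHyp W H).two_nsmul_pointT hd,
      fun P hP hPT => (ttHyp W H).xc_add_pointT hd hP hPT⟩
  exists_H := ⟨fun x => (Hpoly W N).eval x, fun A hA => Hpoly_eval_ne W N hA,
    fun A B hA hB2 => rc_eval W N H hodd hA hB2⟩

end root

/-- `rootDiff e e' e'' = (e' - e)ⁿ Ξ(e'') / (Ξ(e) Ξ(e'))`: the difference `t' - t` of the images
of the roots `e'` and `e`. -/
noncomputable def rootDiff (e e' e'' : K) : K :=
  (e' - e) ^ Fintype.card N * Xi W N e'' / (Xi W N e * Xi W N e')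

section diff

variable {e e' e'' : K} (H : TwoTors W e e' e'')
include H

lemma rootDiff_ne_zero (hodd : Odd (Fintype.card N)) (hne' : e ≠ e') :
    rootDiff W N e e' e'' ≠ 0 := by
  unfold rootDiff
  have h1 := Xi_ne_zero W N H hodd
  have h2 := Xi_ne_zero W N H.perm12 hodd
  have h3 := Xi_ne_zero W N H.rot.rot hodd
  have h4 : e' - e ≠ 0 := sub_ne_zero.mpr (Ne.symm hne')
  positivity

end diff

end Fermat.Agent.S12.H63
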