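/-
S12 package PHI (helper11): the explicit quotient map, on points.

`W` a Weierstrass curve over a field `K` whose 2-division polynomial is
`4 (x - e)(x - e')(x - e'')`, `N` a finite subgroup of odd order `n`.  With
`Θ_t(P) = ∏_{R ∈ N} (x(P + R) - t)`, `Ξ(t) = ∏_{R ∈ N, R ≠ 0} (x(R) - t)` and
`Ψ(P) = ∏_{R ∈ N} (2 y + a₁ x + a₃)(P + R)`, the functions
  `X' = Ξ(e') Ξ(e'') Θ_e`,   `Y' = Ξ(e) Ξ(e') Ξ(e'') Ψ`
are invariant under translation by `N` and satisfy
  `X' - A' = Ξ(e) Ξ(e'') Θ_e'`,  `X' + B' = Ξ(e) Ξ(e') Θ_e''`,  `Y'² = 4ⁿ X' (X' - A') (X' + B')`,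
where `A' = (e' - e)ⁿ Ξ(e'')²`, `B' = (e - e'')ⁿ Ξ(e')²`  (and `A' + B' = (e' - e'')ⁿ Ξ(e)²`).
-/
import Fermat.Agent.S12.H11_Key

set_option autoImplicit false

namespace Fermat.Agent.S12.H11

open WeierstrassCurve Polynomial Fermat.Agent.Lib.Torsion.H11

variable {K : Type*} [Field K]

section yc

variable (W : Affine K)

/-- The "short" `y`-coordinate `2 y + a₁ x + a₃` of a point (junk value `0` at infinity). -/
def yc : W.Point → K
  | .zero => 0
  | .some x y _ => psi2v W x y

@[simp] lemma yc_some {x y : K} (h : W.Nonsingular x y) :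
    yc W (Affine.Point.some x y h) = psi2v W x y := rfl

lemma yc_sq {P : W.Point} (hP : P ≠ 0) : yc W P ^ 2 = psi2sq W (xc W P) := by
  rcases P with _ | ⟨x, y, h⟩
  · exact absurd rfl hP
  · simp only [yc_some, xc_some]
    exact psi2v_sq W h

end yc

section phi

variable [DecidableEq K] (W : Affine K) (N : AddSubgroup W.Point) [Fintype N]

/-- `Ψ(P) = ∏_{R ∈ N} (2 y + a₁ x + a₃)(P + R)`. -/
noncomputable def psiN (P : W.Point) : K := ∏ R : N, yc W (P + (R : W.Point))

/-- `Ψ` is invariant under translation by `N`. -/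
lemma psiN_add (P : W.Point) {R₀ : W.Point} (hR₀ : R₀ ∈ N) :
    psiN W N (P + R₀) = psiN W N P := by
  unfold psiN
  apply Fintype.prod_equiv (Equiv.addLeft (⟨R₀, hR₀⟩ : N))
  intro R
  simp [add_assoc]

variable {e e' e'' : K} (H : TwoTors W e e' e'')
include H

/-- `Ψ² = 4ⁿ Θ_e Θ_e' Θ_e''`. -/
lemma psiN_sq {P : W.Point} (hP : P ∉ N) :
    psiN W N P ^ 2 =
      4 ^ Fintype.card N * (theta W N e P * theta W N e' P * theta W N e'' P) := by
  unfold psiN theta
  rw [← Finset.prod_pow, ← Finset.prod_mul_distrib, ← Finset.prod_mul_distrib,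
    ← Finset.card_univ, ← Finset.prod_const, ← Finset.prod_mul_distrib]
  apply Finset.prod_congr rfl
  intro R _
  have h0 : P + (R : W.Point) ≠ 0 := fun h => add_not_mem W N hP R (h ▸ N.zero_mem)
  rw [yc_sq W h0, H.psi2sq_eq]

/-- `Θ_e Ξ(e') - Θ_e' Ξ(e) = (e' - e)ⁿ Ξ(e'')` for generic `P`. -/
theorem theta_diff (hodd : Odd (Fintype.card N)) {P : W.Point} (hP : P ∉ N)
    (h2P : 2 • P ∉ N) :
    theta W N e P * Xi W N e' - theta W N e' P * Xi W N e =
      (e' - e) ^ Fintype.card N * Xi W N e'' := by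
  have hk := key_poly W N H hodd hP h2P
  have hXe := Xi_ne_zero W N H hodd
  have hXe' := Xi_ne_zero W N H.perm12 hodd
  have E1 := congrArg (eval e') hk
  simp only [eval_sub, eval_mul, eval_C, Apoly_eval_self, sub_zero,
    Hpoly_eval_root W N hodd] at E1
  have R1 := Apoly_eval_root W N H hodd
  rw [E1] at R1
  rw [← R1]
  field_simp

/-- The first coefficient of the quotient curve `y² = x (x - A') (x + B')`. -/
noncomputable def quotA (e e' e'' : K) : K := (e' - e) ^ Fintype.card N * Xi W N e'' ^ 2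

/-- The second coefficient of the quotient curve `y² = x (x - A') (x + B')`. -/
noncomputable def quotB (e e' e'' : K) : K := (e - e'') ^ Fintype.card N * Xi W N e' ^ 2

/-- `C' = A' + B'`. -/
noncomputable def quotC (e e' e'' : K) : K := (e' - e'') ^ Fintype.card N * Xi W N e ^ 2

/-- The `x`-coordinate of the image of `P` on the quotient curve. -/
noncomputable def quotX (e e' e'' : K) (P : W.Point) : K :=
  Xi W N e' * Xi W N e'' * theta W N e P

/-- The (short) `y`-coordinate of the image of `P` on the quotient curve, times `2ⁿ`. -/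
noncomputable def quotY (e e' e'' : K) (P : W.Point) : K :=
  Xi W N e * Xi W N e' * Xi W N e'' * psiN W N P

omit H in
lemma quotX_add (P : W.Point) {R₀ : W.Point} (hR₀ : R₀ ∈ N) :
    quotX W N e e' e'' (P + R₀) = quotX W N e e' e'' P := by
  unfold quotX; rw [theta_add W N e P hR₀]

omit H in
lemma quotY_add (P : W.Point) {R₀ : W.Point} (hR₀ : R₀ ∈ N) :
    quotY W N e e' e'' (P + R₀) = quotY W N e e' e'' P := by
  unfold quotY; rw [psiN_add W N P hR₀]

/-- `A' + B' = C'`. -/
theorem quotA_add_quotB (hodd : Odd (Fintype.card N)) {P : W.Point} (hP : P ∉ N)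
    (h2P : 2 • P ∉ N) :
    quotA W N e e' e'' + quotB W N e e' e'' = quotC W N e e' e'' := by
  have key := key_of_generic W N H hodd hP h2P
  unfold quotA quotB quotC
  have h1 : (e - e'') ^ Fintype.card N = -(e'' - e) ^ Fintype.card N := by
    rw [← hodd.neg_pow]; ring
  have h2 : (e' - e'') ^ Fintype.card N = -(e'' - e') ^ Fintype.card N := by
    rw [← hodd.neg_pow]; ring
  rw [h1, h2]
  linear_combination -key

theorem quotX_sub_A (hodd : Odd (Fintype.card N)) {P : W.Point} (hP : P ∉ N)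
    (h2P : 2 • P ∉ N) :
    quotX W N e e' e'' P - quotA W N e e' e'' = Xi W N e * Xi W N e'' * theta W N e' P := by
  have h := theta_diff W N H hodd hP h2P
  unfold quotX quotA
  linear_combination (Xi W N e'') * h

theorem quotX_add_B (hodd : Odd (Fintype.card N)) {P : W.Point} (hP : P ∉ N)
    (h2P : 2 • P ∉ N) :
    quotX W N e e' e'' P + quotB W N e e' e'' = Xi W N e * Xi W N e' * theta W N e'' P := by
  have h := theta_diff W N H.perm23 hodd hP h2P
  have h1 : (e - e'') ^ Fintype.card N = -(e'' - e) ^ Fintype.card N := by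
    rw [← hodd.neg_pow]; ring
  unfold quotX quotB
  rw [h1]
  linear_combination (Xi W N e') * h

/-- The image of a generic point lies on `y² = 4ⁿ x (x - A') (x + B')`. -/
theorem quot_equation (hodd : Odd (Fintype.card N)) {P : W.Point} (hP : P ∉ N)
    (h2P : 2 • P ∉ N) :
    quotY W N e e' e'' P ^ 2 =
      4 ^ Fintype.card N * (quotX W N e e' e'' P * (quotX W N e e' e'' P - quotA W N e e' e'') *
        (quotX W N e e' e'' P + quotB W N e e' e'')) := by
  rw [quotX_sub_A W N H hodd hP h2P, quotX_add_B W N H hodd hP h2P]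
  unfold quotY quotX
  rw [mul_pow, psiN_sq W N H hP]
  ring

end phi

end Fermat.Agent.S12.H11
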