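/-
S12 (Frey curve, `p ≥ 17`: no Galois-stable cofixed line).  Shared definitions and the EXACT
statements (interfaces) of the packages.  Coordinator: helper67.  Plan: NOTES/plan/S12.md.

Route (helper11): `E = Frey curve`, short model `E_s : y² = x (x - A) (x + B)`, `A = a^p`,
`B = b^p`, `C = A + B = c^p`, `x_S = 4 X`, roots `e = (0, A, -B)`.  For a cofixed line `N` put
`Ξ_i := ∏_{Q ∈ N, Q ≠ 0} (x_S(Q) - e_i)`.  Then
  (KEY)   `A^p Ξ₂² + B^p Ξ₁² = C^p Ξ₀²`            (explicit quotient curve `E / N`),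
  the `Ξ_i` are rational, `Ξ₀/Ξ₁ = ± 4^(p-1) = Ξ₂/Ξ₁` by local analysis at all primes
  (at the bad primes `ℓ ≥ 5`, `ℓ ≠ p` this needs Mazur = S15), hence
  `16^(p-1) (C^p - A^p) = B^p` with `C - A = B`, which is impossible.
-/
import Fermat.Agent.S13.Defs

set_option autoImplicit false

namespace Fermat.Agent.S12

open WeierstrassCurve WeierstrassCurve.Affine WeierstrassCurve.Affine.Point
open Fermat.Agent.S13

/-- A Galois-stable cofixed line in `E[p]` (a witness of `HasGaloisStableCofixedLine`). -/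
structure CofLine (P : FreyPackage) where
  N : Submodule (ZMod P.p) (Vp P)
  stable : IsGaloisStable ℚ N
  ne_bot : N ≠ ⊥
  ne_top : N ≠ ⊤
  cofixed : ∀ (σ : Gal) (x : Vp P), σ • x - x ∈ N

/-- The roots `e₀ = 0`, `e₁ = a^p`, `e₂ = -b^p` of the short model `y² = x (x - a^p) (x + b^p)`. -/
def eRoot (P : FreyPackage) : Fin 3 → ℤ := ![0, P.a ^ P.p, -(P.b ^ P.p)]

/-- `x_S(Q) - e_i`, where `x_S = 4 X` is the `x`-coordinate in the short model; `1` at `Q = 0`. -/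
noncomputable def xiFactor (P : FreyPackage) (i : Fin 3) : (P.freyCurve⁄Qbar).Point → Qbar
  | .zero => 1
  | .some x _ _ => 4 * x - ((eRoot P i : ℤ) : Qbar)

/-- `Ξ_i = ∏_{Q ∈ N, Q ≠ 0} (x_S(Q) - e_i)`. -/
noncomputable def Xi (P : FreyPackage) (N : Submodule (ZMod P.p) (Vp P)) (i : Fin 3) : Qbar :=
  ∏ᶠ Q : N, xiFactor P i ((Q : Vp P) : (P.freyCurve⁄Qbar).Point)

/-- All factors of the `Ξ_i` are units at `A`. -/
def UnitTypeAt (P : FreyPackage) (N : Submodule (ZMod P.p) (Vp P))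
    (A : ValuationSubring Qbar) : Prop :=
  ∀ Q : Vp P, Q ∈ N → Q ≠ 0 → ∀ i : Fin 3,
    A.valuation (xiFactor P i (Q : (P.freyCurve⁄Qbar).Point)) = 1

/-- No nonzero point of `N` reduces to the node at `A`: if the roots `e_i`, `e_j` collide
modulo `A` then `|x_S(Q) - e_i| ≥ 1`.  ("`N ⊆ E⁰` at `A`", "`N` is of `μ`-type at `A`".) -/
def NodeFreeAt (P : FreyPackage) (N : Submodule (ZMod P.p) (Vp P))
    (A : ValuationSubring Qbar) : Prop :=
  ∀ Q : Vp P, Q ∈ N → Q ≠ 0 → ∀ i j : Fin 3, i ≠ j →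
    A.valuation (((eRoot P i : ℤ) : Qbar) - ((eRoot P j : ℤ) : Qbar)) < 1 →
    1 ≤ A.valuation (xiFactor P i (Q : (P.freyCurve⁄Qbar).Point))

/-! ### Packages -/

/-- (KEY) the identity of the explicit quotient curve.  [helper11] -/
def Stmt_key : Prop :=
  ∀ (P : FreyPackage) (L : CofLine P),
    ((P.a : Qbar) ^ P.p) ^ P.p * Xi P L.N 2 ^ 2 + ((P.b : Qbar) ^ P.p) ^ P.p * Xi P L.N 1 ^ 2 =
      ((P.c : Qbar) ^ P.p) ^ P.p * Xi P L.N 0 ^ 2

/-- (RAT) the `Ξ_i` are nonzero rational numbers. -/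
def Stmt_rat : Prop :=
  ∀ (P : FreyPackage) (L : CofLine P) (i : Fin 3),
    ∃ r : ℚ, r ≠ 0 ∧ algebraMap ℚ Qbar r = Xi P L.N i

/-- (VAL-good) unit type at the odd primes of good reduction. -/
def Stmt_unit_good : Prop :=
  ∀ (P : FreyPackage) (L : CofLine P) (ℓ : ℕ), ℓ.Prime → ℓ ≠ 2 → ℓ ≠ P.p →
    ¬ (ℓ : ℤ) ∣ P.a * P.b * P.c →
    ∀ A : ValuationSubring Qbar, A.LiesOverPrime ℓ → UnitTypeAt P L.N A

/-- (VAL-mu) at an odd bad prime `ℓ ≠ p`, node-free implies unit type. -/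
def Stmt_unit_of_nodeFree : Prop :=
  ∀ (P : FreyPackage) (L : CofLine P) (ℓ : ℕ), ℓ.Prime → ℓ ≠ 2 → ℓ ≠ P.p →
    (ℓ : ℤ) ∣ P.a * P.b * P.c →
    ∀ A : ValuationSubring Qbar, A.LiesOverPrime ℓ → NodeFreeAt P L.N A → UnitTypeAt P L.N A

/-- (VAL-2) at `2`: `|x_S| = |4|`, `|x_S - A| = 1`, `|x_S + B| = |4|` on `N ∖ 0`.
(`N = E[p] ∩ E⁰` at `2` because inertia at `2` is unipotent and nontrivial.) -/
def Stmt_two : Prop :=
  ∀ (P : FreyPackage) (L : CofLine P) (A : ValuationSubring Qbar), A.LiesOverPrime 2 →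
    ∀ Q : Vp P, Q ∈ L.N → Q ≠ 0 →
      A.valuation (xiFactor P 0 (Q : (P.freyCurve⁄Qbar).Point)) = A.valuation (4 : Qbar) ∧
      A.valuation (xiFactor P 1 (Q : (P.freyCurve⁄Qbar).Point)) = 1 ∧
      A.valuation (xiFactor P 2 (Q : (P.freyCurve⁄Qbar).Point)) = A.valuation (4 : Qbar)

/-- (VAL-p) at `p`: `N ∖ 0` lies in the kernel of reduction. -/
def Stmt_p : Prop :=
  ∀ (P : FreyPackage) (L : CofLine P) (A : ValuationSubring Qbar), A.LiesOverPrime P.p →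
    ∀ Q : Vp P, Q ∈ L.N → Q ≠ 0 → InE1 A (Q : (P.freyCurve⁄Qbar).Point)

/-- (THREE) `3 ∣ abc`. -/
def Stmt_three : Prop :=
  ∀ (P : FreyPackage), 11 ≤ P.p → CofLine P → (3 : ℤ) ∣ P.a * P.b * P.c

/-- (STAR-3) node-free at `3`. -/
def Stmt_star_three : Prop :=
  ∀ (P : FreyPackage), 11 ≤ P.p → ∀ (L : CofLine P) (A : ValuationSubring Qbar),
    A.LiesOverPrime 3 → NodeFreeAt P L.N A

/-- (STAR-b) node-free at the bad primes `ℓ ≥ 5`, `ℓ ≠ p`.  This is where Mazur (S15) enters. -/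
def Stmt_star : Prop :=
  ∀ (P : FreyPackage), 17 ≤ P.p → ∀ (L : CofLine P) (ℓ : ℕ), ℓ.Prime → 5 ≤ ℓ → ℓ ≠ P.p →
    (ℓ : ℤ) ∣ P.a * P.b * P.c →
    ∀ A : ValuationSubring Qbar, A.LiesOverPrime ℓ → NodeFreeAt P L.N A

/-- (END) the final inequality. -/
def Stmt_end : Prop :=
  ∀ (A B C : ℤ) (p : ℕ), Odd p → 3 ≤ p → A + B = C → B ≠ 0 →
    16 ^ (p - 1) * (C ^ p - A ^ p) = B ^ p → False

end Fermat.Agent.S12
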