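/-
S12 / STAR, package MODEL-arith (helper11), pure arithmetic:
a triple `(a u², b v², c w²)` of integers with `a u² + b v² = c w²` and `a, b, c` pairwise coprime
is a square times a primitive triple.
-/
import Mathlib

set_option autoImplicit false

namespace Fermat.Agent.S12.H11

/-- `x = a u²` for a divisor `a` of `a₀`. -/
def SqForm (a₀ x : ℤ) : Prop := ∃ a u : ℤ, a ∣ a₀ ∧ x = a * u ^ 2

lemma SqForm.descend {a₀ x : ℤ} {ℓ : ℤ} (hℓ : Prime ℓ) (h : SqForm a₀ x) (hx : ℓ ^ 2 ∣ x) :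
    ∃ x', x = ℓ ^ 2 * x' ∧ SqForm a₀ x' := by
  obtain ⟨a, u, ha, rfl⟩ := h
  by_cases hu : ℓ ∣ u
  · obtain ⟨u', rfl⟩ := hu
    exact ⟨a * u' ^ 2, by ring, a, u', ha, rfl⟩
  · have hcop : IsCoprime (ℓ ^ 2) (u ^ 2) :=
      ((hℓ.coprime_iff_not_dvd).mpr hu).pow
    have hdvd : ℓ ^ 2 ∣ a := hcop.dvd_of_dvd_mul_right hx
    obtain ⟨a', rfl⟩ := hdvd
    exact ⟨a' * u ^ 2, by ring, a', u, (Dvd.intro_left _ rfl).trans ha, rfl⟩

lemma SqForm.sq_dvd {a₀ x : ℤ} {ℓ : ℤ} (hℓ : Prime ℓ) (h : SqForm a₀ x) (ha : ¬ ℓ ∣ a₀)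
    (hx : ℓ ∣ x) : ℓ ^ 2 ∣ x := by
  obtain ⟨a, u, hadvd, rfl⟩ := h
  have ha' : ¬ ℓ ∣ a := fun h => ha (h.trans hadvd)
  have hu : ℓ ∣ u := by
    rcases hℓ.dvd_or_dvd hx with h | h
    · exact absurd h ha'
    · exact hℓ.dvd_of_dvd_pow h
  exact Dvd.dvd.mul_left (pow_dvd_pow_of_dvd hu 2) a

/-- The structure preserved by the descent. -/
structure SqTriple (a b c α β γ : ℤ) : Prop where
  sum : α + β = γ
  hα : SqForm a α
  hβ : SqForm b β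
  hγ : SqForm c γ

lemma SqTriple.descend {a b c α β γ : ℤ} (hab : IsCoprime a b) (hac : IsCoprime a c)
    (hbc : IsCoprime b c) (T : SqTriple a b c α β γ) {ℓ : ℤ} (hℓ : Prime ℓ)
    (h1 : ℓ ∣ α) (h2 : ℓ ∣ β) :
    ∃ α' β' γ', α = ℓ ^ 2 * α' ∧ β = ℓ ^ 2 * β' ∧ SqTriple a b c α' β' γ' := by
  have h3 : ℓ ∣ γ := T.sum ▸ dvd_add h1 h2
  have hnu : ¬ IsUnit ℓ := hℓ.not_isUnit
  -- `ℓ²` divides all three
  have hall : ℓ ^ 2 ∣ α ∧ ℓ ^ 2 ∣ β ∧ ℓ ^ 2 ∣ γ := by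
    by_cases ha : ℓ ∣ a
    · have hb : ¬ ℓ ∣ b := fun hb => hnu (hab.isUnit_of_dvd' ha hb)
      have hc : ¬ ℓ ∣ c := fun hc => hnu (hac.isUnit_of_dvd' ha hc)
      have hβ2 := T.hβ.sq_dvd hℓ hb h2
      have hγ2 := T.hγ.sq_dvd hℓ hc h3
      refine ⟨?_, hβ2, hγ2⟩
      have : α = γ - β := by rw [← T.sum]; ring
      rw [this]
      exact dvd_sub hγ2 hβ2
    · have hα2 := T.hα.sq_dvd hℓ ha h1
      by_cases hb : ℓ ∣ b
      · have hc : ¬ ℓ ∣ c := fun hc => hnu (hbc.isUnit_of_dvd' hb hc)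
        have hγ2 := T.hγ.sq_dvd hℓ hc h3
        refine ⟨hα2, ?_, hγ2⟩
        have : β = γ - α := by rw [← T.sum]; ring
        rw [this]
        exact dvd_sub hγ2 hα2
      · have hβ2 := T.hβ.sq_dvd hℓ hb h2
        exact ⟨hα2, hβ2, T.sum ▸ dvd_add hα2 hβ2⟩
  obtain ⟨α', hα', Fα⟩ := T.hα.descend hℓ hall.1
  obtain ⟨β', hβ', Fβ⟩ := T.hβ.descend hℓ hall.2.1
  obtain ⟨γ', hγ', Fγ⟩ := T.hγ.descend hℓ hall.2.2
  refine ⟨α', β', γ', hα', hβ', ?_, Fα, Fβ, Fγ⟩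
  have hℓ0 : ℓ ^ 2 ≠ 0 := pow_ne_zero _ hℓ.ne_zero
  apply mul_left_cancel₀ hℓ0
  rw [mul_add, ← hα', ← hβ', ← hγ', T.sum]

/-- **Primitive part.**  A triple `(a u², b v², c w²)`, `a u² + b v² = c w²`, with pairwise coprime
`a, b, c` and `a u² ≠ 0` is `h²` times a triple `(α', β', α' + β')` with `α', β'` coprime. -/
theorem SqTriple.exists_primitive {a b c : ℤ} (hab : IsCoprime a b) (hac : IsCoprime a c)
    (hbc : IsCoprime b c) :
    ∀ (n : ℕ) (α β γ : ℤ), α.natAbs = n → α ≠ 0 → SqTriple a b c α β γ →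
      ∃ h α' β' : ℤ, h ≠ 0 ∧ α = h ^ 2 * α' ∧ β = h ^ 2 * β' ∧ IsCoprime α' β' := by
  intro n
  induction n using Nat.strong_induction_on with
  | _ n ih =>
    intro α β γ hn hα0 T
    by_cases hcop : IsCoprime α β
    · exact ⟨1, α, β, one_ne_zero, by ring, by ring, hcop⟩
    · -- a common prime divisor
      have hg : Int.gcd α β ≠ 1 := fun h => hcop (Int.isCoprime_iff_gcd_eq_one.mpr h)
      obtain ⟨q, hq, hqg⟩ := Nat.exists_prime_and_dvd hg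
      have hqα : (q : ℤ) ∣ α := (Int.natCast_dvd_natCast.mpr hqg).trans (Int.gcd_dvd_left α β)
      have hqβ : (q : ℤ) ∣ β := (Int.natCast_dvd_natCast.mpr hqg).trans (Int.gcd_dvd_right α β)
      have hqp : Prime (q : ℤ) := Nat.prime_iff_prime_int.mp hq
      obtain ⟨α', β', γ', hα', hβ', T'⟩ := T.descend hab hac hbc hqp hqα hqβ
      have hα'0 : α' ≠ 0 := by
        rintro rfl
        exact hα0 (by rw [hα', mul_zero])
      have hlt : α'.natAbs < n := by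
        rw [← hn, hα', Int.natAbs_mul, Int.natAbs_pow, Int.natAbs_natCast]
        have h1 : 1 < q ^ 2 := Nat.one_lt_pow (by norm_num) hq.one_lt
        have h2 : 0 < α'.natAbs := Int.natAbs_pos.mpr hα'0
        nlinarith
      obtain ⟨h, α'', β'', hh, e1, e2, hc⟩ := ih _ hlt α' β' γ' rfl hα'0 T'
      refine ⟨q * h, α'', β'', mul_ne_zero (by exact_mod_cast hq.ne_zero) hh, ?_, ?_, hc⟩
      · rw [hα', e1]; ring
      · rw [hβ', e2]; ring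

/-- Rational form: if `a r₂² + b r₁² = c r₀²` with `a, b, c` pairwise coprime integers and
`r_i ∈ ℚ`, then `μ² (a r₂², b r₁²)` is a pair of coprime integers for some `μ ∈ ℚˣ`. -/
theorem exists_primitive_rat {a b c : ℤ} (hab : IsCoprime a b) (hac : IsCoprime a c)
    (hbc : IsCoprime b c) (ha : a ≠ 0) (r₀ r₁ r₂ : ℚ) (hr₂ : r₂ ≠ 0)
    (hsum : (a : ℚ) * r₂ ^ 2 + (b : ℚ) * r₁ ^ 2 = (c : ℚ) * r₀ ^ 2) :
    ∃ (μ : ℚ) (A B : ℤ), μ ≠ 0 ∧ (A : ℚ) = μ ^ 2 * ((a : ℚ) * r₂ ^ 2) ∧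
      (B : ℚ) = μ ^ 2 * ((b : ℚ) * r₁ ^ 2) ∧ IsCoprime A B := by
  set D : ℤ := (r₀.den : ℤ) * r₁.den * r₂.den with hD
  have hD0 : (D : ℚ) ≠ 0 := by
    have h0 := r₀.den_ne_zero
    have h1 := r₁.den_ne_zero
    have h2 := r₂.den_ne_zero
    rw [hD]
    push_cast
    positivity
  set u : ℤ := r₂.num * r₀.den * r₁.den with hu
  set v : ℤ := r₁.num * r₀.den * r₂.den with hv
  set w : ℤ := r₀.num * r₁.den * r₂.den with hw
  have eu : (u : ℚ) = r₂ * D := by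
    rw [hu, hD]
    push_cast
    have := Rat.mul_den_eq_num r₂
    linear_combination (-(r₀.den : ℚ) * r₁.den) * this
  have ev : (v : ℚ) = r₁ * D := by
    rw [hv, hD]
    push_cast
    have := Rat.mul_den_eq_num r₁
    linear_combination (-(r₀.den : ℚ) * r₂.den) * this
  have ew : (w : ℚ) = r₀ * D := by
    rw [hw, hD]
    push_cast
    have := Rat.mul_den_eq_num r₀
    linear_combination (-(r₁.den : ℚ) * r₂.den) * this
  have hT : SqTriple a b c (a * u ^ 2) (b * v ^ 2) (c * w ^ 2) := by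
    refine ⟨?_, ⟨a, u, dvd_refl a, rfl⟩, ⟨b, v, dvd_refl b, rfl⟩, ⟨c, w, dvd_refl c, rfl⟩⟩
    have : ((a * u ^ 2 + b * v ^ 2 : ℤ) : ℚ) = ((c * w ^ 2 : ℤ) : ℚ) := by
      push_cast
      rw [eu, ev, ew]
      linear_combination (D : ℚ) ^ 2 * hsum
    exact_mod_cast this
  have hu0 : u ≠ 0 := by
    intro h0
    have : (u : ℚ) = 0 := by rw [h0]; simp
    rw [eu] at this
    rcases mul_eq_zero.mp this with h | h
    · exact hr₂ h
    · exact hD0 h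
  have hα0 : a * u ^ 2 ≠ 0 := mul_ne_zero ha (pow_ne_zero _ hu0)
  obtain ⟨h, A, B, hh, e1, e2, hcop⟩ :=
    SqTriple.exists_primitive hab hac hbc _ _ _ _ rfl hα0 hT
  have hhQ : (h : ℚ) ≠ 0 := by exact_mod_cast hh
  refine ⟨D / h, A, B, div_ne_zero hD0 hhQ, ?_, ?_, hcop⟩
  · have : ((a * u ^ 2 : ℤ) : ℚ) = ((h ^ 2 * A : ℤ) : ℚ) := by rw [e1]
    push_cast at this
    rw [eu] at this
    field_simp
    linear_combination -this
  · have : ((b * v ^ 2 : ℤ) : ℚ) = ((h ^ 2 * B : ℤ) : ℚ) := by rw [e2]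
    push_cast at this
    rw [ev] at this
    field_simp
    linear_combination -this

end Fermat.Agent.S12.H11
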