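/-
S12 package KEY (helper11): the identity of the explicit quotient curve for the Frey curve,
`A^p Ξ₂² + B^p Ξ₁² = C^p Ξ₀²`  (`Stmt_key` of `Fermat/Agent/S12/Defs.lean`),
deduced from the general identity `H11.key_identity` of `H11_Key.lean`.
-/
import Fermat.Agent.S12.Defs
import Fermat.Agent.S12.H11_Key
import Fermat.Agent.S13.H63_CardOfTP
import Fermat.Agent.S13.H63_TPofPrePsi
import Fermat.Agent.S13.H46_TorsionPrePsi
import Fermat.Agent.S13.H63_Supersingular

set_option autoImplicit false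

namespace Fermat.Agent.S12.H11

open WeierstrassCurve WeierstrassCurve.Affine WeierstrassCurve.Affine.Point
open Fermat.Agent.S13 Fermat.Agent.Lib.Torsion.H11

set_option linter.style.haveILetI false

/-- `#E[p] ≤ p²` for the Frey curve (landed in S13). -/
theorem frey_card : Fermat.Agent.S13.Stmt_card :=
  Fermat.Agent.S13.H63.card_of_torsion_poly
    (Fermat.Agent.S13.H63.torsion_poly_of_preΨ Fermat.Agent.S13.stmt_torsion_preΨ)

/-- The 2-division polynomial of the Frey curve is `4 X (X - a^p/4) (X + b^p/4)`. -/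
lemma frey_twoTors (P : FreyPackage) :
    TwoTors (P.freyCurve⁄Qbar) (0 : Qbar) ((P.a : Qbar) ^ P.p / 4) (-((P.b : Qbar) ^ P.p) / 4) := by
  refine ⟨two_ne_zero, ?_, ?_, ?_⟩
  · simp [WeierstrassCurve.b₂, FreyPackage.freyCurve]
    ring
  · simp [WeierstrassCurve.b₄, FreyPackage.freyCurve]
    ring
  · simp [WeierstrassCurve.b₆, FreyPackage.freyCurve]

/-- A nonzero proper subspace of `E[p]` has exactly `p` elements. -/
lemma card_line (P : FreyPackage) (N : Submodule (ZMod P.p) (Vp P)) (h0 : N ≠ ⊥) (h1 : N ≠ ⊤) :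
    Finite N ∧ Nat.card N = P.p := by
  haveI : Fact P.p.Prime := ⟨P.pp⟩
  obtain ⟨hfin, hcardV⟩ := frey_card P
  haveI : Finite (Vp P) := hfin
  refine ⟨inferInstance, ?_⟩
  have hle := Fermat.Agent.S13.H63.card_le_of_ne_top hcardV N h1
  have hcardN : Nat.card N = P.p ^ Module.finrank (ZMod P.p) N := by
    rw [Module.natCard_eq_pow_finrank (K := ZMod P.p) (V := N), Nat.card_zmod]
  have hfrN : 0 < Module.finrank (ZMod P.p) N := by
    rw [Module.finrank_pos_iff]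
    exact Submodule.nontrivial_iff_ne_bot.mpr h0
  apply le_antisymm hle
  rw [hcardN]
  calc P.p = P.p ^ 1 := (pow_one _).symm
    _ ≤ P.p ^ Module.finrank (ZMod P.p) N := Nat.pow_le_pow_right P.pp.pos hfrN

/-- The factor of `Ξ_i` in terms of the `X`-coordinate. -/
lemma xiFactor_eq (P : FreyPackage) (i : Fin 3) {Q : (P.freyCurve⁄Qbar).Point} (hQ : Q ≠ 0) :
    xiFactor P i Q = 4 * (xc (P.freyCurve⁄Qbar) Q - ((eRoot P i : ℤ) : Qbar) / 4) := by
  rcases Q with _ | ⟨x, y, h⟩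
  · exact absurd rfl hQ
  · simp only [xiFactor, xc_some]
    ring

/-- `Ξ_i` of `Defs.lean` in terms of the `Ξ` of `H11_Key.lean`. -/
lemma Xi_eq (P : FreyPackage) (N : Submodule (ZMod P.p) (Vp P)) (h0 : N ≠ ⊥) (h1 : N ≠ ⊤) :
    ∃ (N' : AddSubgroup (P.freyCurve⁄Qbar).Point) (_ : Fintype N'),
      Fintype.card N' = P.p ∧
      ∀ i : Fin 3, Fermat.Agent.S12.Xi P N i =
        4 ^ (P.p - 1) * Fermat.Agent.S12.H11.Xi (P.freyCurve⁄Qbar) N'
          (((eRoot P i : ℤ) : Qbar) / 4) := by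
  classical
  obtain ⟨hfin, hcard⟩ := card_line P N h0 h1
  haveI : Finite N := hfin
  letI : Fintype N := Fintype.ofFinite _
  let f : Vp P →+ (P.freyCurve⁄Qbar).Point :=
    (Submodule.torsionBy ℤ (P.freyCurve⁄Qbar).Point P.p).subtype.toAddMonoidHom
  have hf : Function.Injective f := Subtype.val_injective
  let N' : AddSubgroup (P.freyCurve⁄Qbar).Point := N.toAddSubgroup.map f
  let eqv : N ≃ N' := (N.toAddSubgroup.equivMapOfInjective f hf).toEquiv
  letI : Fintype N' := Fintype.ofEquiv N eqv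
  have hcard' : Fintype.card N' = P.p := by
    rw [← Fintype.card_congr eqv, ← Nat.card_eq_fintype_card, hcard]
  refine ⟨N', inferInstance, hcard', fun i => ?_⟩
  unfold Fermat.Agent.S12.Xi Fermat.Agent.S12.H11.Xi
  rw [finprod_eq_prod_of_fintype]
  rw [← Finset.mul_prod_erase Finset.univ _ (Finset.mem_univ (0 : N))]
  have h00 : xiFactor P i (((0 : N) : Vp P) : (P.freyCurve⁄Qbar).Point) = 1 := rfl
  rw [h00, one_mul]
  have hne : ∀ Q ∈ (Finset.univ : Finset N).erase 0,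
      (((Q : N) : Vp P) : (P.freyCurve⁄Qbar).Point) ≠ 0 := by
    intro Q hQ h
    rw [Finset.mem_erase] at hQ
    apply hQ.1
    apply Subtype.ext
    apply Subtype.ext
    exact h
  rw [Finset.prod_congr rfl (fun Q hQ => xiFactor_eq P i (hne Q hQ)), Finset.prod_mul_distrib,
    Finset.prod_const, Finset.card_erase_of_mem (Finset.mem_univ _), Finset.card_univ,
    ← Nat.card_eq_fintype_card, hcard]
  congr 1
  apply Finset.prod_equiv eqv
  · intro Q
    simp only [Finset.mem_erase, Finset.mem_univ, and_true, ne_eq]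
    rw [not_iff_not]
    constructor
    · intro h
      rw [h]
      exact _root_.map_zero (N.toAddSubgroup.equivMapOfInjective f hf)
    · intro h
      apply (N.toAddSubgroup.equivMapOfInjective f hf).injective
      rw [_root_.map_zero]
      exact h
  · intro Q _
    rfl

/-- **(KEY)** for the Frey curve: `A^p Ξ₂² + B^p Ξ₁² = C^p Ξ₀²`. -/
theorem stmt_key : Fermat.Agent.S12.Stmt_key := by
  classical
  intro P L
  obtain ⟨N', hFin, hcard, hXi⟩ := Xi_eq P L.N L.ne_bot L.ne_top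
  have hodd : Odd (Fintype.card N') := hcard ▸ P.hp_odd
  have ha : (P.a : Qbar) ≠ 0 := by exact_mod_cast P.ha0
  have hb : (P.b : Qbar) ≠ 0 := by exact_mod_cast P.hb0
  have h4 : (4 : Qbar) ≠ 0 := by norm_num
  have hne' : (0 : Qbar) ≠ (P.a : Qbar) ^ P.p / 4 :=
    (div_ne_zero (pow_ne_zero _ ha) h4).symm
  have hne'' : (0 : Qbar) ≠ -((P.b : Qbar) ^ P.p) / 4 :=
    (div_ne_zero (neg_ne_zero.mpr (pow_ne_zero _ hb)) h4).symm
  have key := key_identity (P.freyCurve⁄Qbar) N' (frey_twoTors P)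
    (Fermat.Agent.S13.H63.freyCurve_Qbar_Δ_ne_zero P) hne' hne'' hodd
  have hFLT : (P.a : Qbar) ^ P.p + (P.b : Qbar) ^ P.p = (P.c : Qbar) ^ P.p := by
    exact_mod_cast P.hFLT
  have e0 : ((eRoot P 0 : ℤ) : Qbar) / 4 = 0 := by simp [eRoot]
  have e1 : ((eRoot P 1 : ℤ) : Qbar) / 4 = (P.a : Qbar) ^ P.p / 4 := by simp [eRoot]
  have e2 : ((eRoot P 2 : ℤ) : Qbar) / 4 = -((P.b : Qbar) ^ P.p) / 4 := by simp [eRoot]
  rw [hXi 0, hXi 1, hXi 2, e0, e1, e2]
  rw [hcard] at key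
  have P1 : (-((P.b : Qbar) ^ P.p) / 4 - 0) ^ P.p = -(((P.b : Qbar) ^ P.p) ^ P.p / 4 ^ P.p) := by
    rw [sub_zero, neg_div, P.hp_odd.neg_pow, div_pow]
  have P2 : (-((P.b : Qbar) ^ P.p) / 4 - (P.a : Qbar) ^ P.p / 4) ^ P.p =
      -(((P.c : Qbar) ^ P.p) ^ P.p / 4 ^ P.p) := by
    have : -((P.b : Qbar) ^ P.p) / 4 - (P.a : Qbar) ^ P.p / 4 = -((P.c : Qbar) ^ P.p / 4) := by
      rw [← hFLT]; ring
    rw [this, P.hp_odd.neg_pow, div_pow]
  have P3 : ((P.a : Qbar) ^ P.p / 4 - 0) ^ P.p = ((P.a : Qbar) ^ P.p) ^ P.p / 4 ^ P.p := by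
    rw [sub_zero, div_pow]
  rw [P1, P2, P3] at key
  have h4p : (4 : Qbar) ^ P.p ≠ 0 := pow_ne_zero _ h4
  generalize Fermat.Agent.S12.H11.Xi (P.freyCurve⁄Qbar) N' (-((P.b : Qbar) ^ P.p) / 4) = X2
    at key ⊢
  generalize Fermat.Agent.S12.H11.Xi (P.freyCurve⁄Qbar) N' ((P.a : Qbar) ^ P.p / 4) = X1
    at key ⊢
  generalize Fermat.Agent.S12.H11.Xi (P.freyCurve⁄Qbar) N' 0 = X0 at key ⊢
  field_simp at key
  linear_combination (-((4 : Qbar) ^ (P.p - 1)) ^ 2) * key

end Fermat.Agent.S12.H11
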