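/-
S12 package PHI (helper11), Frey curve: the image `Q' = φ(Q)` of a point `Q ∈ E[p] ∖ N` on the
explicit quotient curve `E₁ : y² = x (x - A₁) (x + B₁)`,
  `A₁ = A^p Ξ₂²`, `B₁ = B^p Ξ₁²`, `C₁ = C^p Ξ₀² = A₁ + B₁`   (`(A, B, C) = (a^p, b^p, c^p)`),
in the notation of `Fermat/Agent/S12/Defs.lean`:
  `x₁(Q) = Ξ₁ Ξ₂ Θ₀(Q)`,  `y₁(Q) = Ξ₀ Ξ₁ Ξ₂ Ψ(Q)`,
  `Θ_i(Q) = ∏_{R ∈ N} (x_S(Q + R) - e_i)`,  `Ψ(Q) = ∏_{R ∈ N} y_S(Q + R)`,
  `x_S = 4 X`, `y_S = 8 Y + 4 X`.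
-/
import Fermat.Agent.S12.H11_KeyFrey
import Fermat.Agent.S12.H11_Phi

set_option autoImplicit false

namespace Fermat.Agent.S12.H11

open WeierstrassCurve WeierstrassCurve.Affine WeierstrassCurve.Affine.Point
open Fermat.Agent.S13 Fermat.Agent.Lib.Torsion.H11

set_option linter.style.haveILetI false

/-! ### Definitions (interface) -/

/-- The short `y`-coordinate `y_S = 8 Y + 4 X` (junk value `1` at infinity). -/
noncomputable def ySfun (P : FreyPackage) : (P.freyCurve⁄Qbar).Point → Qbar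
  | .zero => 1
  | .some x y _ => 8 * y + 4 * x

/-- `Θ_i(Q) = ∏_{R ∈ N} (x_S(Q + R) - e_i)`. -/
noncomputable def ThetaS (P : FreyPackage) (N : Submodule (ZMod P.p) (Vp P)) (i : Fin 3)
    (Q : (P.freyCurve⁄Qbar).Point) : Qbar :=
  ∏ᶠ R : N, xiFactor P i (Q + ((R : Vp P) : (P.freyCurve⁄Qbar).Point))

/-- `Ψ(Q) = ∏_{R ∈ N} y_S(Q + R)`. -/
noncomputable def PsiS (P : FreyPackage) (N : Submodule (ZMod P.p) (Vp P))
    (Q : (P.freyCurve⁄Qbar).Point) : Qbar :=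
  ∏ᶠ R : N, ySfun P (Q + ((R : Vp P) : (P.freyCurve⁄Qbar).Point))

/-- `A₁ = A^p Ξ₂²`. -/
noncomputable def quotA1 (P : FreyPackage) (N : Submodule (ZMod P.p) (Vp P)) : Qbar :=
  ((P.a : Qbar) ^ P.p) ^ P.p * Fermat.Agent.S12.Xi P N 2 ^ 2

/-- `B₁ = B^p Ξ₁²`. -/
noncomputable def quotB1 (P : FreyPackage) (N : Submodule (ZMod P.p) (Vp P)) : Qbar :=
  ((P.b : Qbar) ^ P.p) ^ P.p * Fermat.Agent.S12.Xi P N 1 ^ 2

/-- `C₁ = C^p Ξ₀²`. -/
noncomputable def quotC1 (P : FreyPackage) (N : Submodule (ZMod P.p) (Vp P)) : Qbar :=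
  ((P.c : Qbar) ^ P.p) ^ P.p * Fermat.Agent.S12.Xi P N 0 ^ 2

/-- `x₁(Q) = Ξ₁ Ξ₂ Θ₀(Q)`. -/
noncomputable def quotX1 (P : FreyPackage) (N : Submodule (ZMod P.p) (Vp P))
    (Q : (P.freyCurve⁄Qbar).Point) : Qbar :=
  Fermat.Agent.S12.Xi P N 1 * Fermat.Agent.S12.Xi P N 2 * ThetaS P N 0 Q

/-- `y₁(Q) = Ξ₀ Ξ₁ Ξ₂ Ψ(Q)`. -/
noncomputable def quotY1 (P : FreyPackage) (N : Submodule (ZMod P.p) (Vp P))
    (Q : (P.freyCurve⁄Qbar).Point) : Qbar :=
  Fermat.Agent.S12.Xi P N 0 * Fermat.Agent.S12.Xi P N 1 * Fermat.Agent.S12.Xi P N 2 * PsiS P N Q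

/-! ### The subgroup of points underlying a subspace of `E[p]` -/

/-- The inclusion `E[p] → E(Q̄)`. -/
noncomputable def inclHom (P : FreyPackage) : Vp P →+ (P.freyCurve⁄Qbar).Point :=
  (Submodule.torsionBy ℤ (P.freyCurve⁄Qbar).Point P.p).subtype.toAddMonoidHom

lemma inclHom_injective (P : FreyPackage) : Function.Injective (inclHom P) :=
  Subtype.val_injective

/-- The subgroup of `E(Q̄)` underlying a subspace of `E[p]`. -/
noncomputable def lineSub (P : FreyPackage) (N : Submodule (ZMod P.p) (Vp P)) :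
    AddSubgroup (P.freyCurve⁄Qbar).Point :=
  N.toAddSubgroup.map (inclHom P)

lemma mem_lineSub {P : FreyPackage} {N : Submodule (ZMod P.p) (Vp P)}
    {T : (P.freyCurve⁄Qbar).Point} :
    T ∈ lineSub P N ↔ ∃ v : Vp P, v ∈ N ∧ (v : (P.freyCurve⁄Qbar).Point) = T := by
  unfold lineSub
  rw [AddSubgroup.mem_map]
  rfl

lemma coe_mem_lineSub {P : FreyPackage} {N : Submodule (ZMod P.p) (Vp P)} (v : Vp P) :
    (v : (P.freyCurve⁄Qbar).Point) ∈ lineSub P N ↔ v ∈ N := by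
  rw [mem_lineSub]
  constructor
  · rintro ⟨w, hw, h⟩
    have : w = v := Subtype.ext h
    exact this ▸ hw
  · intro h
    exact ⟨v, h, rfl⟩

/-- `N ≃ lineSub P N`. -/
noncomputable def lineEquiv (P : FreyPackage) (N : Submodule (ZMod P.p) (Vp P)) :
    N ≃+ lineSub P N :=
  N.toAddSubgroup.equivMapOfInjective (inclHom P) (inclHom_injective P)

@[simp] lemma coe_lineEquiv (P : FreyPackage) (N : Submodule (ZMod P.p) (Vp P)) (R : N) :
    ((lineEquiv P N R : lineSub P N) : (P.freyCurve⁄Qbar).Point) =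
      ((R : Vp P) : (P.freyCurve⁄Qbar).Point) := rfl

lemma finite_lineSub (P : FreyPackage) (N : Submodule (ZMod P.p) (Vp P)) :
    Finite (lineSub P N) := by
  haveI : Finite (Vp P) := (frey_card P).1
  exact Finite.of_equiv N (lineEquiv P N).toEquiv

/-- Conversion of the products of `Defs.lean` to products over the subgroup. -/
lemma finprod_line (P : FreyPackage) (N : Submodule (ZMod P.p) (Vp P))
    [Fintype (lineSub P N)] (f : (P.freyCurve⁄Qbar).Point → Qbar) :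
    ∏ᶠ R : N, f ((R : Vp P) : (P.freyCurve⁄Qbar).Point) =
      ∏ R : lineSub P N, f (R : (P.freyCurve⁄Qbar).Point) := by
  rw [← finprod_eq_prod_of_fintype]
  exact finprod_eq_of_bijective (lineEquiv P N) (lineEquiv P N).bijective (fun R => rfl)

lemma card_lineSub (P : FreyPackage) (N : Submodule (ZMod P.p) (Vp P)) (h0 : N ≠ ⊥)
    (h1 : N ≠ ⊤) [Fintype (lineSub P N)] : Fintype.card (lineSub P N) = P.p := by
  obtain ⟨hfin, hcard⟩ := card_line P N h0 h1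
  rw [← Nat.card_eq_fintype_card, ← Nat.card_congr (lineEquiv P N).toEquiv, hcard]

/-! ### Conversion to the general set-up of `H11_Key.lean`, `H11_Phi.lean` -/

lemma frey_a₁ (P : FreyPackage) : (P.freyCurve⁄Qbar).a₁ = 1 := by
  simp [FreyPackage.freyCurve]

lemma frey_a₃ (P : FreyPackage) : (P.freyCurve⁄Qbar).a₃ = 0 := by
  simp [FreyPackage.freyCurve]

lemma ySfun_eq (P : FreyPackage) {T : (P.freyCurve⁄Qbar).Point} (hT : T ≠ 0) :
    ySfun P T = 4 * yc (P.freyCurve⁄Qbar) T := by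
  rcases T with _ | ⟨x, y, h⟩
  · exact absurd rfl hT
  · simp only [ySfun, yc_some, psi2v, frey_a₁, frey_a₃]
    ring

section conv

variable (P : FreyPackage) (N : Submodule (ZMod P.p) (Vp P)) [Fintype (lineSub P N)]

lemma Xi_eq' (h0 : N ≠ ⊥) (h1 : N ≠ ⊤) (i : Fin 3) :
    Fermat.Agent.S12.Xi P N i =
      4 ^ (P.p - 1) * Fermat.Agent.S12.H11.Xi (P.freyCurve⁄Qbar) (lineSub P N)
        (((eRoot P i : ℤ) : Qbar) / 4) := by
  classical
  unfold Fermat.Agent.S12.Xi Fermat.Agent.S12.H11.Xi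
  rw [finprod_line P N (fun T => xiFactor P i T)]
  rw [← Finset.mul_prod_erase Finset.univ _ (Finset.mem_univ (0 : lineSub P N))]
  have h00 : xiFactor P i ((0 : lineSub P N) : (P.freyCurve⁄Qbar).Point) = 1 := rfl
  rw [h00, one_mul]
  rw [Finset.prod_congr rfl (fun R hR => xiFactor_eq P i
      (coe_ne_zero_of_mem_nz (P.freyCurve⁄Qbar) (lineSub P N) hR)),
    Finset.prod_mul_distrib, Finset.prod_const, card_nz, card_lineSub P N h0 h1]

lemma ThetaS_eq (h0 : N ≠ ⊥) (h1 : N ≠ ⊤) (i : Fin 3) {Q : (P.freyCurve⁄Qbar).Point}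
    (hQ : Q ∉ lineSub P N) :
    ThetaS P N i Q =
      4 ^ P.p * theta (P.freyCurve⁄Qbar) (lineSub P N) (((eRoot P i : ℤ) : Qbar) / 4) Q := by
  classical
  unfold ThetaS theta
  rw [finprod_line P N (fun T => xiFactor P i (Q + T))]
  have hne : ∀ R : lineSub P N, Q + (R : (P.freyCurve⁄Qbar).Point) ≠ 0 := fun R h =>
    add_not_mem (P.freyCurve⁄Qbar) (lineSub P N) hQ R (h ▸ (lineSub P N).zero_mem)
  rw [Finset.prod_congr rfl (fun R _ => xiFactor_eq P i (hne R)),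
    Finset.prod_mul_distrib, Finset.prod_const, Finset.card_univ, card_lineSub P N h0 h1]

lemma PsiS_eq (h0 : N ≠ ⊥) (h1 : N ≠ ⊤) {Q : (P.freyCurve⁄Qbar).Point}
    (hQ : Q ∉ lineSub P N) :
    PsiS P N Q = 4 ^ P.p * psiN (P.freyCurve⁄Qbar) (lineSub P N) Q := by
  classical
  unfold PsiS psiN
  rw [finprod_line P N (fun T => ySfun P (Q + T))]
  have hne : ∀ R : lineSub P N, Q + (R : (P.freyCurve⁄Qbar).Point) ≠ 0 := fun R h =>
    add_not_mem (P.freyCurve⁄Qbar) (lineSub P N) hQ R (h ▸ (lineSub P N).zero_mem)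
  rw [Finset.prod_congr rfl (fun R _ => ySfun_eq P (hne R)),
    Finset.prod_mul_distrib, Finset.prod_const, Finset.card_univ, card_lineSub P N h0 h1]

end conv

/-- A point of `E[p]` outside the line `N` is generic. -/
lemma generic_of_not_mem (P : FreyPackage) (N : Submodule (ZMod P.p) (Vp P)) (Q : Vp P)
    (hQ : Q ∉ N) :
    (Q : (P.freyCurve⁄Qbar).Point) ∉ lineSub P N ∧
      2 • (Q : (P.freyCurve⁄Qbar).Point) ∉ lineSub P N := by
  refine ⟨fun h => hQ ((coe_mem_lineSub Q).mp h), fun h => hQ ?_⟩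
  have h2 : (2 • Q : Vp P) ∈ N := by
    apply (coe_mem_lineSub (2 • Q)).mp
    simpa using h
  obtain ⟨k, hk⟩ := P.hp_odd
  have hpQ : P.p • Q = 0 := by
    have := Q.2
    rw [Submodule.mem_torsionBy_iff] at this
    apply Subtype.ext
    rw [Submodule.coe_smul_of_tower, ← natCast_zsmul]
    simp [this]
  have h3 : 2 * (k + 1) = P.p + 1 := by omega
  have : (k + 1) • (2 • Q) = Q := by
    rw [← mul_nsmul, h3, add_nsmul, hpQ, zero_add, one_nsmul]
  rw [← this]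
  exact N.toAddSubgroup.nsmul_mem h2 _

/-! ### The point on the quotient curve -/

section main

variable (P : FreyPackage) (L : CofLine P)

lemma eRoot_zero (P : FreyPackage) : ((eRoot P 0 : ℤ) : Qbar) / 4 = 0 := by simp [eRoot]

lemma eRoot_one (P : FreyPackage) : ((eRoot P 1 : ℤ) : Qbar) / 4 = (P.a : Qbar) ^ P.p / 4 := by
  simp [eRoot]

lemma eRoot_two (P : FreyPackage) :
    ((eRoot P 2 : ℤ) : Qbar) / 4 = -((P.b : Qbar) ^ P.p) / 4 := by
  simp [eRoot]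

/-- `A₁ + B₁ = C₁`. -/
theorem quotA1_add_quotB1 : quotA1 P L.N + quotB1 P L.N = quotC1 P L.N :=
  stmt_key P L

/-- `x₁ - A₁ = Ξ₀ Ξ₂ Θ₁`. -/
theorem quotX1_sub_A1 (Q : Vp P) (hQ : Q ∉ L.N) :
    quotX1 P L.N Q - quotA1 P L.N =
      Fermat.Agent.S12.Xi P L.N 0 * Fermat.Agent.S12.Xi P L.N 2 * ThetaS P L.N 1 Q := by
  classical
  haveI := finite_lineSub P L.N
  letI : Fintype (lineSub P L.N) := Fintype.ofFinite _
  obtain ⟨hg1, hg2⟩ := generic_of_not_mem P L.N Q hQ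
  have hcard := card_lineSub P L.N L.ne_bot L.ne_top
  have hodd : Odd (Fintype.card (lineSub P L.N)) := hcard ▸ P.hp_odd
  have h := quotX_sub_A (P.freyCurve⁄Qbar) (lineSub P L.N) (frey_twoTors P) hodd hg1 hg2
  unfold quotX quotA at h
  unfold quotX1 quotA1
  rw [Xi_eq' P L.N L.ne_bot L.ne_top 0, Xi_eq' P L.N L.ne_bot L.ne_top 1,
    Xi_eq' P L.N L.ne_bot L.ne_top 2, ThetaS_eq P L.N L.ne_bot L.ne_top 0 hg1,
    ThetaS_eq P L.N L.ne_bot L.ne_top 1 hg1, eRoot_zero, eRoot_one, eRoot_two]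
  rw [hcard, sub_zero, div_pow] at h
  have h4 : (4 : Qbar) ≠ 0 := by norm_num
  have h4p : (4 : Qbar) ^ P.p = 4 * 4 ^ (P.p - 1) := by
    rw [← pow_succ']
    congr 1
    have := P.hppos
    omega
  have h4p0 : (4 : Qbar) ^ P.p ≠ 0 := pow_ne_zero _ h4
  generalize Fermat.Agent.S12.H11.Xi (P.freyCurve⁄Qbar) (lineSub P L.N)
    (-((P.b : Qbar) ^ P.p) / 4) = X2 at h ⊢
  generalize Fermat.Agent.S12.H11.Xi (P.freyCurve⁄Qbar) (lineSub P L.N)
    ((P.a : Qbar) ^ P.p / 4) = X1 at h ⊢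
  generalize Fermat.Agent.S12.H11.Xi (P.freyCurve⁄Qbar) (lineSub P L.N) 0 = X0 at h ⊢
  generalize theta (P.freyCurve⁄Qbar) (lineSub P L.N) 0 Q = T0 at h ⊢
  generalize theta (P.freyCurve⁄Qbar) (lineSub P L.N) ((P.a : Qbar) ^ P.p / 4) Q = T1 at h ⊢
  have h' : X1 * X2 * T0 * 4 ^ P.p - ((P.a : Qbar) ^ P.p) ^ P.p * X2 ^ 2 =
      X0 * X2 * T1 * 4 ^ P.p := by
    field_simp at h
    linear_combination h
  rw [h4p] at h' ⊢
  linear_combination (4 ^ (P.p - 1)) ^ 2 * h'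

/-- `x₁ + B₁ = Ξ₀ Ξ₁ Θ₂`. -/
theorem quotX1_add_B1 (Q : Vp P) (hQ : Q ∉ L.N) :
    quotX1 P L.N Q + quotB1 P L.N =
      Fermat.Agent.S12.Xi P L.N 0 * Fermat.Agent.S12.Xi P L.N 1 * ThetaS P L.N 2 Q := by
  classical
  haveI := finite_lineSub P L.N
  letI : Fintype (lineSub P L.N) := Fintype.ofFinite _
  obtain ⟨hg1, hg2⟩ := generic_of_not_mem P L.N Q hQ
  have hcard := card_lineSub P L.N L.ne_bot L.ne_top
  have hodd : Odd (Fintype.card (lineSub P L.N)) := hcard ▸ P.hp_odd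
  have h := quotX_add_B (P.freyCurve⁄Qbar) (lineSub P L.N) (frey_twoTors P) hodd hg1 hg2
  unfold quotX quotB at h
  unfold quotX1 quotB1
  rw [Xi_eq' P L.N L.ne_bot L.ne_top 0, Xi_eq' P L.N L.ne_bot L.ne_top 1,
    Xi_eq' P L.N L.ne_bot L.ne_top 2, ThetaS_eq P L.N L.ne_bot L.ne_top 0 hg1,
    ThetaS_eq P L.N L.ne_bot L.ne_top 2 hg1, eRoot_zero, eRoot_one, eRoot_two]
  have hB : (0 - -((P.b : Qbar) ^ P.p) / 4) ^ Fintype.card (lineSub P L.N) =
      ((P.b : Qbar) ^ P.p) ^ P.p / 4 ^ P.p := by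
    rw [hcard, ← div_pow]
    congr 1
    ring
  rw [hB] at h
  have h4 : (4 : Qbar) ≠ 0 := by norm_num
  have h4p : (4 : Qbar) ^ P.p = 4 * 4 ^ (P.p - 1) := by
    rw [← pow_succ']
    congr 1
    have := P.hppos
    omega
  have h4p0 : (4 : Qbar) ^ P.p ≠ 0 := pow_ne_zero _ h4
  generalize Fermat.Agent.S12.H11.Xi (P.freyCurve⁄Qbar) (lineSub P L.N)
    (-((P.b : Qbar) ^ P.p) / 4) = X2 at h ⊢
  generalize Fermat.Agent.S12.H11.Xi (P.freyCurve⁄Qbar) (lineSub P L.N)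
    ((P.a : Qbar) ^ P.p / 4) = X1 at h ⊢
  generalize Fermat.Agent.S12.H11.Xi (P.freyCurve⁄Qbar) (lineSub P L.N) 0 = X0 at h ⊢
  generalize theta (P.freyCurve⁄Qbar) (lineSub P L.N) 0 Q = T0 at h ⊢
  generalize theta (P.freyCurve⁄Qbar) (lineSub P L.N) (-((P.b : Qbar) ^ P.p) / 4) Q = T2 at h ⊢
  have h' : X1 * X2 * T0 * 4 ^ P.p + ((P.b : Qbar) ^ P.p) ^ P.p * X1 ^ 2 =
      X0 * X1 * T2 * 4 ^ P.p := by
    field_simp at h
    linear_combination h
  rw [h4p] at h' ⊢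
  linear_combination (4 ^ (P.p - 1)) ^ 2 * h'

/-- `Ψ² = Θ₀ Θ₁ Θ₂`. -/
theorem PsiS_sq (Q : Vp P) (hQ : Q ∉ L.N) :
    PsiS P L.N Q ^ 2 = ThetaS P L.N 0 Q * ThetaS P L.N 1 Q * ThetaS P L.N 2 Q := by
  classical
  haveI := finite_lineSub P L.N
  letI : Fintype (lineSub P L.N) := Fintype.ofFinite _
  obtain ⟨hg1, hg2⟩ := generic_of_not_mem P L.N Q hQ
  have hcard := card_lineSub P L.N L.ne_bot L.ne_top
  have h := psiN_sq (P.freyCurve⁄Qbar) (lineSub P L.N) (frey_twoTors P) hg1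
  rw [PsiS_eq P L.N L.ne_bot L.ne_top hg1, ThetaS_eq P L.N L.ne_bot L.ne_top 0 hg1,
    ThetaS_eq P L.N L.ne_bot L.ne_top 1 hg1, ThetaS_eq P L.N L.ne_bot L.ne_top 2 hg1,
    eRoot_zero, eRoot_one, eRoot_two, mul_pow, h, hcard]
  ring

/-- The point `(x₁, y₁)` lies on `y² = x (x - A₁) (x + B₁)`. -/
theorem quot1_equation (Q : Vp P) (hQ : Q ∉ L.N) :
    quotY1 P L.N Q ^ 2 =
      quotX1 P L.N Q * (quotX1 P L.N Q - quotA1 P L.N) * (quotX1 P L.N Q + quotB1 P L.N) := by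
  rw [quotX1_sub_A1 P L Q hQ, quotX1_add_B1 P L Q hQ]
  unfold quotY1 quotX1
  rw [mul_pow, PsiS_sq P L Q hQ]
  ring

end main

/-! ### Galois invariance -/

section galois

variable (P : FreyPackage)

lemma xiFactor_smul (i : Fin 3) (σ : Gal) (T : (P.freyCurve⁄Qbar).Point) :
    xiFactor P i (σ • T) = σ (xiFactor P i T) := by
  rcases T with _ | ⟨x, y, h⟩
  · change xiFactor P i (0 : (P.freyCurve⁄Qbar).Point) = σ 1
    rw [map_one]
    rfl
  · change 4 * σ x - ((eRoot P i : ℤ) : Qbar) = σ (4 * x - ((eRoot P i : ℤ) : Qbar))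
    rw [map_sub, map_mul, map_ofNat, map_intCast]

lemma ySfun_smul (σ : Gal) (T : (P.freyCurve⁄Qbar).Point) :
    ySfun P (σ • T) = σ (ySfun P T) := by
  rcases T with _ | ⟨x, y, h⟩
  · change ySfun P (0 : (P.freyCurve⁄Qbar).Point) = σ 1
    rw [map_one]
    rfl
  · change 8 * σ y + 4 * σ x = σ (8 * y + 4 * x)
    rw [map_add, map_mul, map_mul, map_ofNat, map_ofNat]

variable (L : CofLine P)

/-- Reindexing of the products over `N` under `σ`. -/
lemma finprod_galois (f : (P.freyCurve⁄Qbar).Point → Qbar)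
    (hf : ∀ (σ : Gal) (T : (P.freyCurve⁄Qbar).Point), f (σ • T) = σ (f T))
    (σ : Gal) (Q : Vp P) :
    σ (∏ᶠ R : L.N, f ((Q : (P.freyCurve⁄Qbar).Point) +
        ((R : Vp P) : (P.freyCurve⁄Qbar).Point))) =
      ∏ᶠ R : L.N, f ((Q : (P.freyCurve⁄Qbar).Point) +
        ((R : Vp P) : (P.freyCurve⁄Qbar).Point)) := by
  haveI : Finite (Vp P) := (frey_card P).1
  have h1 := MonoidHom.map_finprod_of_injective (σ : Qbar →+* Qbar).toMonoidHom
    (by exact σ.injective)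
    (fun R : L.N => f ((Q : (P.freyCurve⁄Qbar).Point) + ((R : Vp P) : (P.freyCurve⁄Qbar).Point)))
  have h1' : σ (∏ᶠ R : L.N, f ((Q : (P.freyCurve⁄Qbar).Point) +
        ((R : Vp P) : (P.freyCurve⁄Qbar).Point))) =
      ∏ᶠ R : L.N, σ (f ((Q : (P.freyCurve⁄Qbar).Point) +
        ((R : Vp P) : (P.freyCurve⁄Qbar).Point))) := h1
  rw [h1']
  -- the bijection `R ↦ σ R + (σ Q - Q)` of `N`
  let e : L.N → L.N := fun R =>
    ⟨σ • (R : Vp P) + (σ • Q - Q), L.N.add_mem (L.stable σ R R.2) (L.cofixed σ Q)⟩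
  have he_inj : Function.Injective e := by
    intro R R' h
    have h' : σ • (R : Vp P) + (σ • Q - Q) = σ • (R' : Vp P) + (σ • Q - Q) :=
      congrArg Subtype.val h
    have h'' : σ • (R : Vp P) = σ • (R' : Vp P) := add_right_cancel h'
    have h3 : (R : Vp P) = (R' : Vp P) := by
      have := congrArg (fun x => σ⁻¹ • x) h''
      simpa using this
    exact Subtype.ext h3
  have he : Function.Bijective e := Finite.injective_iff_bijective.mp he_inj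
  apply finprod_eq_of_bijective e he
  intro R
  rw [← hf]
  congr 1
  change σ • ((Q : (P.freyCurve⁄Qbar).Point) + ((R : Vp P) : (P.freyCurve⁄Qbar).Point)) =
    (Q : (P.freyCurve⁄Qbar).Point) + ((σ • (R : Vp P) + (σ • Q - Q) : Vp P) :
      (P.freyCurve⁄Qbar).Point)
  rw [_root_.smul_add σ (Q : (P.freyCurve⁄Qbar).Point)
    ((R : Vp P) : (P.freyCurve⁄Qbar).Point)]
  change σ • (Q : (P.freyCurve⁄Qbar).Point) + σ • ((R : Vp P) : (P.freyCurve⁄Qbar).Point) =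
    (Q : (P.freyCurve⁄Qbar).Point) + (σ • ((R : Vp P) : (P.freyCurve⁄Qbar).Point) +
      (σ • (Q : (P.freyCurve⁄Qbar).Point) - (Q : (P.freyCurve⁄Qbar).Point)))
  abel

/-- `Θ_i(Q)` is Galois-invariant for `Q ∈ E[p]`. -/
theorem ThetaS_fixed (i : Fin 3) (σ : Gal) (Q : Vp P) :
    σ (ThetaS P L.N i Q) = ThetaS P L.N i Q :=
  finprod_galois P L (xiFactor P i) (xiFactor_smul P i) σ Q

/-- `Ψ(Q)` is Galois-invariant for `Q ∈ E[p]`. -/
theorem PsiS_fixed (σ : Gal) (Q : Vp P) : σ (PsiS P L.N Q) = PsiS P L.N Q :=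
  finprod_galois P L (ySfun P) (ySfun_smul P) σ Q

/-- `Ξ_i` is Galois-invariant. -/
theorem Xi_fixed (i : Fin 3) (σ : Gal) :
    σ (Fermat.Agent.S12.Xi P L.N i) = Fermat.Agent.S12.Xi P L.N i := by
  have h := finprod_galois P L (xiFactor P i) (xiFactor_smul P i) σ 0
  simpa [Fermat.Agent.S12.Xi] using h

theorem quotX1_fixed (σ : Gal) (Q : Vp P) : σ (quotX1 P L.N Q) = quotX1 P L.N Q := by
  unfold quotX1
  rw [map_mul, map_mul, Xi_fixed, Xi_fixed, ThetaS_fixed]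

theorem quotY1_fixed (σ : Gal) (Q : Vp P) : σ (quotY1 P L.N Q) = quotY1 P L.N Q := by
  unfold quotY1
  rw [map_mul, map_mul, map_mul, Xi_fixed, Xi_fixed, Xi_fixed, PsiS_fixed]

theorem quotA1_fixed (σ : Gal) : σ (quotA1 P L.N) = quotA1 P L.N := by
  unfold quotA1
  rw [map_mul, map_pow, map_pow, map_pow, Xi_fixed]
  simp

theorem quotB1_fixed (σ : Gal) : σ (quotB1 P L.N) = quotB1 P L.N := by
  unfold quotB1
  rw [map_mul, map_pow, map_pow, map_pow, Xi_fixed]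
  simp

end galois

/-! ### The quotient curve and the point `Q' = φ(Q)` -/

section curve

variable (P : FreyPackage)

/-- The quotient curve `E₁ : y² = x (x - A₁) (x + B₁)` over `Q̄`. -/
noncomputable def quotCurve1 (N : Submodule (ZMod P.p) (Vp P)) : Affine Qbar :=
  ⟨0, quotB1 P N - quotA1 P N, 0, -(quotA1 P N * quotB1 P N), 0⟩

lemma quotCurve1_Δ (N : Submodule (ZMod P.p) (Vp P)) :
    (quotCurve1 P N).Δ = 16 * (quotA1 P N * quotB1 P N * (quotA1 P N + quotB1 P N)) ^ 2 := by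
  simp only [quotCurve1, WeierstrassCurve.Δ, WeierstrassCurve.b₂, WeierstrassCurve.b₄,
    WeierstrassCurve.b₆, WeierstrassCurve.b₈]
  ring

variable (L : CofLine P)

lemma Xi_ne_zero' (i : Fin 3) : Fermat.Agent.S12.Xi P L.N i ≠ 0 := by
  classical
  haveI := finite_lineSub P L.N
  letI : Fintype (lineSub P L.N) := Fintype.ofFinite _
  have hcard := card_lineSub P L.N L.ne_bot L.ne_top
  have hodd : Odd (Fintype.card (lineSub P L.N)) := hcard ▸ P.hp_odd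
  rw [Xi_eq' P L.N L.ne_bot L.ne_top i]
  have h4 : (4 : Qbar) ≠ 0 := by norm_num
  refine mul_ne_zero (pow_ne_zero _ h4) ?_
  have H := frey_twoTors P
  fin_cases i
  · simp only [Fin.zero_eta, eRoot_zero]
    exact Xi_ne_zero (P.freyCurve⁄Qbar) (lineSub P L.N) H hodd
  · simp only [Fin.mk_one, eRoot_one]
    exact Xi_ne_zero (P.freyCurve⁄Qbar) (lineSub P L.N) H.perm12 hodd
  · have : ((⟨2, by decide⟩ : Fin 3)) = 2 := rfl
    simp only [this, eRoot_two]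
    exact Xi_ne_zero (P.freyCurve⁄Qbar) (lineSub P L.N) H.rot.rot hodd

lemma quotA1_ne_zero : quotA1 P L.N ≠ 0 := by
  have ha : (P.a : Qbar) ≠ 0 := by exact_mod_cast P.ha0
  exact mul_ne_zero (pow_ne_zero _ (pow_ne_zero _ ha)) (pow_ne_zero _ (Xi_ne_zero' P L 2))

lemma quotB1_ne_zero : quotB1 P L.N ≠ 0 := by
  have hb : (P.b : Qbar) ≠ 0 := by exact_mod_cast P.hb0
  exact mul_ne_zero (pow_ne_zero _ (pow_ne_zero _ hb)) (pow_ne_zero _ (Xi_ne_zero' P L 1))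

lemma quotC1_ne_zero : quotC1 P L.N ≠ 0 := by
  have hc : (P.c : Qbar) ≠ 0 := by exact_mod_cast P.hc0
  exact mul_ne_zero (pow_ne_zero _ (pow_ne_zero _ hc)) (pow_ne_zero _ (Xi_ne_zero' P L 0))

lemma quotCurve1_Δ_ne_zero : (quotCurve1 P L.N).Δ ≠ 0 := by
  rw [quotCurve1_Δ, quotA1_add_quotB1 P L]
  have h16 : (16 : Qbar) ≠ 0 := by norm_num
  exact mul_ne_zero h16 (pow_ne_zero _ (mul_ne_zero
    (mul_ne_zero (quotA1_ne_zero P L) (quotB1_ne_zero P L)) (quotC1_ne_zero P L)))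

lemma quot1_nonsingular (Q : Vp P) (hQ : Q ∉ L.N) :
    (quotCurve1 P L.N).Nonsingular (quotX1 P L.N Q) (quotY1 P L.N Q) := by
  apply (Affine.equation_iff_nonsingular_of_Δ_ne_zero (quotCurve1_Δ_ne_zero P L)).mp
  rw [Affine.equation_iff]
  have h := quot1_equation P L Q hQ
  simp only [quotCurve1]
  linear_combination h

/-- The point `Q' = φ(Q)` on the quotient curve, for `Q ∈ E[p] ∖ N`. -/
noncomputable def quotPoint1 (Q : Vp P) (hQ : Q ∉ L.N) : (quotCurve1 P L.N).Point :=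
  Affine.Point.some (quotX1 P L.N Q) (quotY1 P L.N Q) (quot1_nonsingular P L Q hQ)

end curve

end Fermat.Agent.S12.H11
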