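/-
S12, package STAR (sub-coordinator helper11): NodeFreeAt at the bad primes `ℓ ≥ 5`, `ℓ ≠ p`,
from Mazur's key step (statement S15) applied to the explicit quotient curve.
Shared definitions and the EXACT statements of the sub-packages.  Plan: NOTES/plan/S12_STAR.md.

Notation (see `H11_PhiFrey.lean`): `(A₁, B₁, C₁) = (A^p Ξ₂², B^p Ξ₁², C^p Ξ₀²)`,
`E₁ : y² = x (x - A₁) (x + B₁)` (`quotCurve1`), `Q' = (x₁, y₁) = quotPoint1 P L Q` for `Q ∈ E[p] ∖ N`.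
For a primitive integral triple `(A'', B'', C'') = μ² (A₁, B₁, C₁)` with `A'' ≡ 3 mod 4`, `32 ∣ B''`
the curve `freyModel A'' B'' : Y² + X Y = X³ + ((B'' - 1 - A'')/4) X² - (A'' B''/16) X` is an integral
model of `E₁` (`x = 4 X / μ²`, `y = (8 Y + 4 X) / μ³`).
-/
import Fermat.Agent.S12.H11_PhiFrey
import Fermat.Prelude.Def_EllipticCurve_ZeroComponentAt

set_option autoImplicit false

namespace Fermat.Agent.S12

open WeierstrassCurve WeierstrassCurve.Affine WeierstrassCurve.Affine.Point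
open Fermat.Agent.S13

/-- Statement S15 (Mazur's key step), verbatim. -/
def Stmt_S15 : Prop :=
  ∀ {p : ℕ} (_ : p.Prime) (_ : p ∉ ({2, 3, 5, 7, 13} : Finset ℕ))
    (W : WeierstrassCurve ℤ) (_ : W.Δ ≠ 0)
    (Q : ((W.map (Int.castRingHom ℚ))⁄(AlgebraicClosure ℚ)).Point)
    (_ : ∀ σ : AlgebraicClosure ℚ ≃ₐ[ℚ] AlgebraicClosure ℚ, σ • Q = Q)
    (_ : addOrderOf Q = p)
    (_ : (2 : ℤ) ∣ W.Δ) (_ : ¬ (2 : ℤ) ∣ W.c₄)
    (_ : ∀ A : ValuationSubring (AlgebraicClosure ℚ), A.LiesOverPrime 2 →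
      ¬ W.InZeroComponentAt A Q)
    (_ : (3 : ℤ) ∣ W.Δ) (_ : ¬ (3 : ℤ) ∣ W.c₄)
    (_ : ∀ A : ValuationSubring (AlgebraicClosure ℚ), A.LiesOverPrime 3 →
      ¬ W.InZeroComponentAt A Q)
    {ℓ : ℕ} (_ : ℓ.Prime) (_ : ℓ ≠ p) (_ : (ℓ : ℤ) ∣ W.Δ) (_ : ¬ (ℓ : ℤ) ∣ W.c₄)
    (A : ValuationSubring (AlgebraicClosure ℚ)) (_ : A.LiesOverPrime ℓ),
    ¬ W.InZeroComponentAt A Q

/-- The Frey-type integral model `Y² + X Y = X³ + ((B - 1 - A)/4) X² - (A B/16) X` of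
`y² = x (x - A) (x + B)`  (`x = 4 X`, `y = 8 Y + 4 X`). -/
def freyModel (A B : ℤ) : WeierstrassCurve ℤ :=
  ⟨1, (B - 1 - A) / 4, 0, -(A * B) / 16, 0⟩

/-- `(A, B, A + B)` is a primitive triple of Frey type: `A ≡ 3 mod 4`, `32 ∣ B`. -/
structure IsFreyPair (A B : ℤ) : Prop where
  hA : A % 4 = 3
  hB : (32 : ℤ) ∣ B
  hB0 : B ≠ 0
  cop : IsCoprime A B

/-- (HOM) `p • Q' = 0`.  [helper63] -/
def Stmt_hom : Prop :=
  ∀ (P : FreyPackage) (L : CofLine P) (Q : Vp P) (hQ : Q ∉ L.N),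
    P.p • H11.quotPoint1 P L Q hQ = 0

/-- (ZC-small) On a Frey-type curve a rational point of prime order `p ≥ 11` does not lie in the
identity component at `2`, nor at `3` when `3 ∣ A B (A + B)`.
(Otherwise its `p - 1 ≥ 10` nonzero multiples are rational points of `E⁰ ∖ E¹`; two of them have the
same reduction, so their difference lies in `E¹`, which has no `p`-torsion.) -/
def Stmt_zc_small : Prop :=
  ∀ (A B : ℤ), IsFreyPair A B → ∀ (p : ℕ), p.Prime → 11 ≤ p →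
  ∀ (Q : (((freyModel A B).map (Int.castRingHom ℚ))⁄Qbar).Point),
    (∀ σ : Gal, σ • Q = Q) → addOrderOf Q = p →
  ∀ (ℓ : ℕ), (ℓ = 2 ∨ (ℓ = 3 ∧ (3 : ℤ) ∣ A * B * (A + B))) →
  ∀ V : ValuationSubring Qbar, V.LiesOverPrime ℓ → ¬ (freyModel A B).InZeroComponentAt V Q

/-- (MODEL-arith) the rational triple `(A₁, B₁, C₁)` is `μ⁻²` times a primitive integral triple of
Frey type. -/
def Stmt_model_arith : Prop :=
  ∀ (P : FreyPackage) (L : CofLine P),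
    ∃ (μ : ℚ) (A B : ℤ), μ ≠ 0 ∧ IsFreyPair A B ∧
      ((A : ℤ) : Qbar) = (algebraMap ℚ Qbar μ) ^ 2 * H11.quotA1 P L.N ∧
      ((B : ℤ) : Qbar) = (algebraMap ℚ Qbar μ) ^ 2 * H11.quotB1 P L.N

/-- (VAL-B) at an odd bad prime `ℓ ≠ p` where `N` is NOT node-free (`N ∩ E⁰ = 0`), the image `Q'`
of `Q ∈ E[p] ∖ N` is a unit at all three roots after normalisation, and the quotient curve still has
bad reduction:  `|x₁| = |x₁ - A₁| = |x₁ + B₁| = max(|A₁|, |B₁|) =: M ≥ |C₁|`, `|A₁ B₁ C₁| < M³`. -/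
def Stmt_val_B : Prop :=
  ∀ (P : FreyPackage) (L : CofLine P) (ℓ : ℕ), ℓ.Prime → ℓ ≠ 2 → ℓ ≠ P.p →
    (ℓ : ℤ) ∣ P.a * P.b * P.c →
  ∀ V : ValuationSubring Qbar, V.LiesOverPrime ℓ → ¬ NodeFreeAt P L.N V →
  ∀ (Q : Vp P), Q ∉ L.N →
    ∃ M : V.ValueGroup,
      V.valuation (H11.quotA1 P L.N) ≤ M ∧ V.valuation (H11.quotB1 P L.N) ≤ M ∧
      V.valuation (H11.quotC1 P L.N) ≤ M ∧
      (V.valuation (H11.quotA1 P L.N) = M ∨ V.valuation (H11.quotB1 P L.N) = M) ∧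
      V.valuation (H11.quotX1 P L.N Q) = M ∧
      V.valuation (H11.quotX1 P L.N Q - H11.quotA1 P L.N) = M ∧
      V.valuation (H11.quotX1 P L.N Q + H11.quotB1 P L.N) = M ∧
      V.valuation (H11.quotA1 P L.N * H11.quotB1 P L.N * H11.quotC1 P L.N) < M ^ 3

end Fermat.Agent.S12
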