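/-
S12 package RAT (helper67): the products `Ξ_i` are nonzero rational numbers.
Rational: `N` is Galois stable, so the product is Galois invariant.
Nonzero: every factor is a unit at a good odd prime `ℓ ≠ p` (VAL-good), in particular nonzero.
-/
import Fermat.Agent.S12.Defs
import Fermat.Agent.S13.H12_FixedRat

set_option autoImplicit false

namespace Fermat.Agent.S12.H67

open WeierstrassCurve WeierstrassCurve.Affine WeierstrassCurve.Affine.Point
open Fermat.Agent.S13

/-- `xiFactor` is Galois equivariant. -/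
lemma xiFactor_smul (P : FreyPackage) (i : Fin 3) (σ : Gal) (Q : (P.freyCurve⁄Qbar).Point) :
    xiFactor P i (σ • Q) = σ (xiFactor P i Q) := by
  rcases Q with _ | ⟨x, y, h⟩
  · change xiFactor P i Point.zero = σ (xiFactor P i Point.zero)
    simp only [xiFactor]
    exact (_root_.map_one σ).symm
  · rw [algEquiv_smul_def]
    simp only [Point.map_some, xiFactor]
    change 4 * σ x - _ = σ (4 * x - _)
    rw [_root_.map_sub, _root_.map_mul, map_intCast, map_ofNat]

/-- `Ξ_i` as a product over a `Fintype`. -/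
lemma Xi_eq_prod (P : FreyPackage) (N : Submodule (ZMod P.p) (Vp P)) [Fintype N] (i : Fin 3) :
    Xi P N i = ∏ Q : N, xiFactor P i ((Q : Vp P) : (P.freyCurve⁄Qbar).Point) :=
  finprod_eq_prod_of_fintype _

/-- The permutation of a stable subspace induced by a Galois automorphism. -/
noncomputable def stableEquiv (P : FreyPackage) (N : Submodule (ZMod P.p) (Vp P))
    (hN : IsGaloisStable ℚ N) (σ : Gal) : N ≃ N where
  toFun Q := ⟨σ • (Q : Vp P), hN σ Q Q.2⟩
  invFun Q := ⟨σ⁻¹ • (Q : Vp P), hN σ⁻¹ Q Q.2⟩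
  left_inv Q := Subtype.ext (inv_smul_smul σ (Q : Vp P))
  right_inv Q := Subtype.ext (smul_inv_smul σ (Q : Vp P))

/-- `Ξ_i` is Galois invariant. -/
lemma Xi_fixed (P : FreyPackage) (N : Submodule (ZMod P.p) (Vp P)) (hN : IsGaloisStable ℚ N)
    [Finite (Vp P)] (i : Fin 3) (σ : Gal) : σ (Xi P N i) = Xi P N i := by
  classical
  let _ : Fintype N := Fintype.ofFinite _
  rw [Xi_eq_prod, map_prod]
  have h : ∀ Q : N, σ (xiFactor P i ((Q : Vp P) : (P.freyCurve⁄Qbar).Point)) =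
      xiFactor P i (((stableEquiv P N hN σ Q : N) : Vp P) : (P.freyCurve⁄Qbar).Point) := by
    intro Q
    rw [← xiFactor_smul]
    rfl
  simp_rw [h]
  exact Equiv.prod_comp (stableEquiv P N hN σ)
    (fun Q : N => xiFactor P i ((Q : Vp P) : (P.freyCurve⁄Qbar).Point))

/-- `Ξ_i` is rational. -/
lemma Xi_rat (P : FreyPackage) (N : Submodule (ZMod P.p) (Vp P)) (hN : IsGaloisStable ℚ N)
    [Finite (Vp P)] (i : Fin 3) : ∃ r : ℚ, algebraMap ℚ Qbar r = Xi P N i :=
  H12.exists_rat_of_fixed _ (Xi_fixed P N hN i)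

/-- The valuation of `Ξ_i` is the product of the valuations of the factors. -/
lemma val_Xi (P : FreyPackage) (N : Submodule (ZMod P.p) (Vp P)) [Fintype N] (i : Fin 3)
    (A : ValuationSubring Qbar) :
    A.valuation (Xi P N i) =
      ∏ Q : N, A.valuation (xiFactor P i ((Q : Vp P) : (P.freyCurve⁄Qbar).Point)) := by
  rw [Xi_eq_prod, map_prod]

lemma xiFactor_zero (P : FreyPackage) (i : Fin 3) :
    xiFactor P i (((0 : Vp P) : Vp P) : (P.freyCurve⁄Qbar).Point) = 1 := rfl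

/-- If all factors are units at `A`, `Ξ_i` is a unit at `A`. -/
lemma val_Xi_eq_one_of_unitType (P : FreyPackage) (N : Submodule (ZMod P.p) (Vp P))
    [Finite (Vp P)] (A : ValuationSubring Qbar) (h : UnitTypeAt P N A) (i : Fin 3) :
    A.valuation (Xi P N i) = 1 := by
  classical
  let _ : Fintype N := Fintype.ofFinite _
  rw [val_Xi]
  apply Finset.prod_eq_one
  intro Q _
  by_cases hQ : (Q : Vp P) = 0
  · rw [hQ, xiFactor_zero, map_one]
  · exact h Q Q.2 hQ i

/-- There is a prime not dividing a given nonzero natural number. -/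
lemma exists_prime_not_dvd (n : ℕ) (hn : n ≠ 0) : ∃ ℓ : ℕ, ℓ.Prime ∧ ¬ ℓ ∣ n := by
  obtain ⟨ℓ, hℓ1, hℓ2⟩ := Nat.exists_infinite_primes (n + 1)
  exact ⟨ℓ, hℓ2, fun h => absurd (Nat.le_of_dvd (Nat.pos_of_ne_zero hn) h) (by omega)⟩

/-- (RAT) from (I0), (I1) and (VAL-good). -/
theorem stmt_rat_of_inputs (h0 : Stmt_exists_valuationSubring) (h1 : Stmt_card)
    (hgood : Stmt_unit_good) : Stmt_rat := by
  classical
  intro P L i
  obtain ⟨hfin, -⟩ := h1 P
  obtain ⟨r, hr⟩ := Xi_rat P L.N L.stable i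
  refine ⟨r, ?_, hr⟩
  rintro rfl
  rw [_root_.map_zero] at hr
  -- a good odd prime `ℓ ≠ p`
  have hn : 2 * P.p * (P.a * P.b * P.c).natAbs ≠ 0 := by
    have h2 : (P.a * P.b * P.c) ≠ 0 := mul_ne_zero (mul_ne_zero P.ha0 P.hb0) P.hc0
    have := P.pp.ne_zero
    have := Int.natAbs_ne_zero.mpr h2
    positivity
  obtain ⟨ℓ, hℓ, hℓn⟩ := exists_prime_not_dvd _ hn
  have hℓ2 : ℓ ≠ 2 := by
    rintro rfl
    exact hℓn (Dvd.dvd.mul_right (Dvd.dvd.mul_right (dvd_refl 2) _) _)
  have hℓp : ℓ ≠ P.p := by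
    rintro rfl
    exact hℓn (Dvd.dvd.mul_right (Dvd.dvd.mul_left (dvd_refl _) _) _)
  have hℓabc : ¬ (ℓ : ℤ) ∣ P.a * P.b * P.c := by
    intro h
    apply hℓn
    apply Dvd.dvd.mul_left
    exact Int.natCast_dvd.mp h
  obtain ⟨A, hA⟩ := h0 ℓ hℓ
  have hunit := hgood P L ℓ hℓ hℓ2 hℓp hℓabc A hA
  have := val_Xi_eq_one_of_unitType P L.N A hunit i
  rw [← hr, _root_.map_zero] at this
  exact zero_ne_one this

end Fermat.Agent.S12.H67
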