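/-
S12, package VAL-2 (helper87): the interface (UV) between VAL-2 and Lib/UnramVal (helper6).
-/
import Fermat.Agent.S13.Defs

set_option autoImplicit false

namespace Fermat.Agent.S12.H87

open Fermat.Agent.S13

/-- (UV) on a finite normal extension `K/ℚ` on which the inertia group at `A` acts trivially,
every nonzero element has valuation an integral power of `|ℓ|`. -/
def Stmt_unramVal : Prop :=
  ∀ (ℓ : ℕ), ℓ.Prime → ∀ A : ValuationSubring Qbar, A.LiesOverPrime ℓ →
  ∀ K : IntermediateField ℚ Qbar, FiniteDimensional ℚ K → Normal ℚ K →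
    (∀ σ ∈ A.inertiaSubgroupIn ℚ, ∀ x ∈ K, σ x = x) →
    ∀ x ∈ K, x ≠ 0 → ∃ k : ℤ, A.valuation x = A.valuation ((ℓ : ℕ) : Qbar) ^ k

end Fermat.Agent.S12.H87
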