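/-
S12, package VAL-2 (helper87): `Stmt_two` from the interface (UV) `Stmt_unramVal`.

At a valuation subring `A` of `Q̄` over `2`, every nonzero point `Q` of a cofixed line `N` has
`|X(Q)| = 1` (`X` the coordinate of the prelude model of the Frey curve), hence
`|x_S| = |4|`, `|x_S - a^p| = 1`, `|x_S + b^p| = |4|` with `x_S = 4 X`.

Proof.  Inertia at `A` is unipotent on `E[p]` (S13 I4) and `N` is a stable line with trivial
quotient, so inertia fixes `N` pointwise.  The field `K` generated by the `X(Q)`, `Q ∈ N`, is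
finite and normal over `ℚ` and fixed by inertia, so `|X(Q)| ∈ |2|^ℤ` by (UV).  The component
homomorphism (S13/WP3 `torsion_in_E0`) then gives `Q ∈ E₀`, and `Q ∉ E₁` by `F1`.
-/
import Fermat.Agent.S12.Defs
import Fermat.Agent.S12.H87_ValTwoDefs
import Fermat.Agent.S13.Glue
import Fermat.Agent.S13.H63_CardOfTP
import Fermat.Agent.S13.H63_TPofPrePsi
import Fermat.Agent.S13.H46_TorsionPrePsi
import Fermat.Agent.S13.WP3.TwoUnipotent
import Fermat.Agent.S13.WP3.H15_TorsE0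

set_option autoImplicit false

namespace Fermat.Agent.S12.H87

open WeierstrassCurve WeierstrassCurve.Affine WeierstrassCurve.Affine.Point
open Fermat.Agent.S13

/-- The `x`-coordinate of a point, with junk value `0` at the origin. -/
noncomputable def xCoord {L : Type*} [Field L] {W : Affine L} : W.Point → L
  | .zero => 0
  | .some x _ _ => x

lemma xCoord_smul (P : FreyPackage) (σ : Gal) (Q : (P.freyCurve⁄Qbar).Point) :
    xCoord (σ • Q) = σ (xCoord Q) := by
  rcases Q with _ | ⟨x, y, h⟩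
  · exact (_root_.map_zero σ).symm
  · rw [algEquiv_smul_def, Point.map_some]
    rfl

/-- `#E[p](Q̄) ≤ p²`. -/
theorem stmt_card : Stmt_card :=
  H63.card_of_torsion_poly (H63.torsion_poly_of_preΨ stmt_torsion_preΨ)

/-- Inertia at `2` fixes a cofixed line pointwise. -/
theorem inertia_two_fixes_line (P : FreyPackage) (L : CofLine P) (A : ValuationSubring Qbar)
    (hA : A.LiesOverPrime 2) (σ : Gal) (hσ : σ ∈ A.inertiaSubgroupIn ℚ) (x : Vp P)
    (hx : x ∈ L.N) : σ • x = x := by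
  have : Fact P.p.Prime := ⟨P.pp⟩
  obtain ⟨hfin, hcard⟩ := stmt_card P
  obtain ⟨T, hT1, hT2⟩ := WP3.two_unipotent P A hA
  have hst : ∀ σ : Gal, ∀ x ∈ L.N, σ • x ∈ L.N := L.stable
  exact (mem_fixSub_and_cofixSub_of_unipotent hcard L.N hst L.ne_bot L.ne_top T σ
    (hT1 σ hσ) (hT2 σ hσ)).1 x hx

/-- (UV') the form of (UV) for a finite Galois-stable set fixed by inertia
(`Lib/UnramVal.valuation_eq_zpow_of_finite`, helper6). -/
def Stmt_unramVal_finite : Prop :=
  ∀ (ℓ : ℕ), ℓ.Prime → ∀ A : ValuationSubring Qbar, A.LiesOverPrime ℓ →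
  ∀ S : Set Qbar, S.Finite → (∀ σ : Gal, ∀ x ∈ S, σ x ∈ S) →
    (∀ σ ∈ A.inertiaSubgroupIn ℚ, ∀ x ∈ S, σ x = x) →
    ∀ x ∈ S, x ≠ 0 → ∃ k : ℤ, A.valuation x = A.valuation ((ℓ : ℕ) : Qbar) ^ k

/-- The set of `x`-coordinates of the points of a line. -/
def xSet (P : FreyPackage) (N : Submodule (ZMod P.p) (Vp P)) : Set Qbar :=
  Set.range fun Q : N => xCoord ((Q : Vp P) : (P.freyCurve⁄Qbar).Point)

lemma xCoord_mem_xSet (P : FreyPackage) (N : Submodule (ZMod P.p) (Vp P)) (Q : Vp P)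
    (hQ : Q ∈ N) : xCoord (Q : (P.freyCurve⁄Qbar).Point) ∈ xSet P N :=
  ⟨⟨Q, hQ⟩, rfl⟩

lemma finite_xSet (P : FreyPackage) (N : Submodule (ZMod P.p) (Vp P)) : (xSet P N).Finite := by
  obtain ⟨hfin, -⟩ := stmt_card P
  have : Finite (Vp P) := hfin
  exact Set.finite_range _

lemma stable_xSet (P : FreyPackage) (N : Submodule (ZMod P.p) (Vp P))
    (hN : IsGaloisStable ℚ N) (σ : Gal) : ∀ x ∈ xSet P N, σ x ∈ xSet P N := by
  rintro _ ⟨Q, rfl⟩
  refine ⟨⟨σ • (Q : Vp P), hN σ _ Q.2⟩, ?_⟩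
  show xCoord (σ • ((Q : Vp P) : (P.freyCurve⁄Qbar).Point)) = σ (xCoord _)
  exact xCoord_smul P σ _

lemma fixed_xSet (P : FreyPackage) (N : Submodule (ZMod P.p) (Vp P)) (σ : Gal)
    (hσ : ∀ x ∈ N, σ • x = x) : ∀ x ∈ xSet P N, σ x = x := by
  rintro _ ⟨Q, rfl⟩
  have h1 : σ • (Q : Vp P) = Q := hσ _ Q.2
  have h2 : xCoord (σ • ((Q : Vp P) : (P.freyCurve⁄Qbar).Point))
      = xCoord ((Q : Vp P) : (P.freyCurve⁄Qbar).Point) :=
    congrArg (fun v : Vp P => xCoord (v : (P.freyCurve⁄Qbar).Point)) h1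
  rw [← xCoord_smul]
  exact h2

open Fermat.Agent.S13.WP3 in
/-- At `2`, every nonzero point of a cofixed line has `|X| = 1`. -/
theorem val_X_eq_one (hUV : Stmt_unramVal_finite) (P : FreyPackage) (L : CofLine P)
    (A : ValuationSubring Qbar) (hA : A.LiesOverPrime 2) (Q : Vp P) (hQ : Q ∈ L.N)
    {X Y : Qbar} (h : (P.freyCurve⁄Qbar).Nonsingular X Y)
    (hQe : (Q : (P.freyCurve⁄Qbar).Point) = Point.some X Y h) : A.valuation X = 1 := by
  obtain ⟨hyp, hp1, m, hm, hcop, hb⟩ := H15.arith2 P A hA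
  obtain ⟨lam, hlam⟩ : ∃ lam : Qbar, lam ^ 2 + lam = (P.freyCurve⁄Qbar).a₂ := by
    obtain ⟨z, hz⟩ := IsAlgClosed.exists_root
      (Polynomial.X ^ 2 + Polynomial.X - Polynomial.C ((P.freyCurve⁄Qbar).a₂) :
        Polynomial Qbar) (by
        have : (Polynomial.X ^ 2 + Polynomial.X - Polynomial.C ((P.freyCurve⁄Qbar).a₂) :
            Polynomial Qbar).degree = 2 := by
          compute_degree!
        rw [this]; norm_num)
    refine ⟨z, ?_⟩
    simp only [Polynomial.IsRoot.def, Polynomial.eval_sub, Polynomial.eval_add,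
      Polynomial.eval_pow, Polynomial.eval_X, Polynomial.eval_C] at hz
    linear_combination hz
  have hQt : (P.p : ℤ) • (Q : (P.freyCurve⁄Qbar).Point) = 0 := by
    have := Q.2
    rwa [Submodule.mem_torsionBy_iff] at this
  have hfix : ∀ σ ∈ A.inertiaSubgroupIn ℚ, ∀ x ∈ xSet P L.N, σ x = x := fun σ hσ =>
    fixed_xSet P L.N σ (fun x hx => inertia_two_fixes_line P L A hA σ hσ x hx)
  have hE0 : WP3.InE0 A (Q : (P.freyCurve⁄Qbar).Point) := by
    refine H15.torsion_in_E0 stmt2_M1 M1.annulus A _ hyp lam hlam P.p m hm hcop hb _ hQt ?_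
    intro u v huv hQuv hu0
    have hmem : u ∈ xSet P L.N := by
      have := xCoord_mem_xSet P L.N Q hQ
      rw [hQuv] at this
      exact this
    obtain ⟨k, hk⟩ := hUV 2 Nat.prime_two A hA (xSet P L.N) (finite_xSet P L.N)
      (stable_xSet P L.N L.stable) hfix u hmem hu0
    exact ⟨k, by rw [hk]; norm_num⟩
  rw [hQe] at hE0
  refine le_antisymm ?_ hE0
  by_contra hlt
  rw [not_le] at hlt
  have hE1 : WP3.InE1 A (Point.some X Y h : (P.freyCurve⁄Qbar).Point) := hlt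
  have hne : (Point.some X Y h : (P.freyCurve⁄Qbar).Point) ≠ 0 := Point.some_ne_zero h
  refine H5.F1_2 A _ hyp _ hE1 hne P.p hp1 ?_
  rw [hQe, natCast_zsmul] at hQt
  exact hQt

open Fermat.Agent.S13.WP3 in
/-- `|a^p| = 1` at `2`. -/
lemma val_apow_two (P : FreyPackage) (A : ValuationSubring Qbar) (hA : A.LiesOverPrime 2) :
    A.valuation (((P.a ^ P.p : ℤ)) : Qbar) = 1 := by
  apply H15.val_odd hA
  intro h
  exact H15.frey_a_odd P (Int.prime_two.dvd_of_dvd_pow h)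

open Fermat.Agent.S13.WP3 in
/-- `|b^p| < |4|` at `2`. -/
lemma val_bpow_two (P : FreyPackage) (A : ValuationSubring Qbar) (hA : A.LiesOverPrime 2) :
    A.valuation (((P.b ^ P.p : ℤ)) : Qbar) < A.valuation (4 : Qbar) := by
  obtain ⟨b', hb'⟩ := H15.frey_two_dvd_b P
  have hp5 := P.hp5
  have h2lt : A.valuation (2 : Qbar) < 1 := H15.val_two_lt hA
  have h2pos : 0 < A.valuation (2 : Qbar) := zero_lt_iff.mpr (H15.val_two_ne_zero A)
  have e1 : ((P.b ^ P.p : ℤ) : Qbar) = (2 : Qbar) ^ P.p * ((b' ^ P.p : ℤ) : Qbar) := by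
    rw [hb']; push_cast; ring
  have e4 : (4 : Qbar) = 2 ^ 2 := by norm_num
  rw [e1, e4, map_mul, map_pow, map_pow]
  calc A.valuation (2 : Qbar) ^ P.p * A.valuation ((b' ^ P.p : ℤ) : Qbar)
      ≤ A.valuation (2 : Qbar) ^ P.p * 1 :=
        mul_le_mul_right (Fermat.Agent.S05.H15.valuation_intCast_le_one A _) _
    _ = A.valuation (2 : Qbar) ^ P.p := mul_one _
    _ < A.valuation (2 : Qbar) ^ 2 :=
        pow_lt_pow_right_of_lt_one₀ h2pos h2lt (by omega)

/-- (VAL-2) from the interface (UV'). -/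
theorem stmt_two_of_unramVal_finite (hUV : Stmt_unramVal_finite) : Stmt_two := by
  intro P L A hA Q hQ hQ0
  have hQ0' : (Q : (P.freyCurve⁄Qbar).Point) ≠ 0 := fun h => hQ0 (Subtype.ext h)
  rcases hQe : (Q : (P.freyCurve⁄Qbar).Point) with _ | ⟨X, Y, h⟩
  · exact absurd hQe hQ0'
  have hX : A.valuation X = 1 := val_X_eq_one hUV P L A hA Q hQ h hQe
  have h4X : A.valuation (4 * X) = A.valuation (4 : Qbar) := by
    rw [map_mul, hX, mul_one]
  have h4lt : A.valuation (4 : Qbar) < 1 := by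
    have h2lt : A.valuation (2 : Qbar) < 1 := WP3.H15.val_two_lt hA
    have e4 : (4 : Qbar) = 2 ^ 2 := by norm_num
    rw [e4, map_pow]
    exact pow_lt_one₀ zero_le h2lt (by norm_num)
  have e0 : eRoot P 0 = 0 := rfl
  have e1 : eRoot P 1 = P.a ^ P.p := rfl
  have e2 : eRoot P 2 = -(P.b ^ P.p) := rfl
  refine ⟨?_, ?_, ?_⟩
  · show A.valuation (4 * X - ((eRoot P 0 : ℤ) : Qbar)) = _
    rw [e0, Int.cast_zero, sub_zero, h4X]
  · show A.valuation (4 * X - ((eRoot P 1 : ℤ) : Qbar)) = 1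
    rw [e1]
    have hA1 := val_apow_two P A hA
    rw [A.valuation.map_sub_eq_of_lt_right (by rw [h4X, hA1]; exact h4lt), hA1]
  · show A.valuation (4 * X - ((eRoot P 2 : ℤ) : Qbar)) = _
    rw [e2]
    have hB := val_bpow_two P A hA
    have hneg : A.valuation (((-(P.b ^ P.p) : ℤ)) : Qbar)
        = A.valuation (((P.b ^ P.p : ℤ)) : Qbar) := by
      rw [Int.cast_neg, Valuation.map_neg]
    rw [A.valuation.map_sub_eq_of_lt_left (by rw [h4X, hneg]; exact hB), h4X]

end Fermat.Agent.S12.H87
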