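/-
S12, package VAL-2 (helper87): `Stmt_two`, PROVED
(`H87_ValTwo.stmt_two_of_unramVal_finite` + `Lib/UnramVal.valuation_eq_zpow_of_finite` of helper6).
-/
import Fermat.Agent.S12.H87_ValTwo
import Fermat.Agent.Lib.UnramVal

set_option autoImplicit false

namespace Fermat.Agent.S12.H87

open Fermat.Agent.S13

/-- (UV') holds. -/
theorem stmt_unramVal_finite : Stmt_unramVal_finite :=
  fun ℓ hℓ A hA S hS hstab hfix x hx hx0 =>
    Fermat.Agent.Lib.UnramVal.valuation_eq_zpow_of_finite ℓ hℓ A hA S hS hstab hfix x hx hx0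

/-- (VAL-2) at `2`: `|x_S| = |4|`, `|x_S - a^p| = 1`, `|x_S + b^p| = |4|` on `N ∖ 0`. -/
theorem stmt_two : Stmt_two :=
  stmt_two_of_unramVal_finite stmt_unramVal_finite

end Fermat.Agent.S12.H87
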