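/-
S12 / STAR, package MODEL-arith (helper11): `Stmt_model_arith`.
The rational triple `(A₁, B₁, C₁) = (A^p Ξ₂², B^p Ξ₁², C^p Ξ₀²)` is `μ⁻²` times a primitive integral
triple `(A'', B'', C'')` with `A'' ≡ 3 mod 4` and `32 ∣ B''`.
-/
import Fermat.Agent.S12.H11_StarDefs
import Fermat.Agent.S12.H11_Arith
import Fermat.Agent.S12.H87_ValTwoFinal
import Fermat.Agent.S12.H67_Rat
import Fermat.Agent.S13.H12_FixedRat
import Fermat.Agent.Lib.FrobExists

set_option autoImplicit false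

namespace Fermat.Agent.S12.H11

open WeierstrassCurve WeierstrassCurve.Affine WeierstrassCurve.Affine.Point
open Fermat.Agent.S13

set_option linter.style.haveILetI false

section val

/-- `|n| ≤ |2|^k` implies `2^k ∣ n`. -/
lemma two_pow_dvd_of_val_le {V : ValuationSubring Qbar} (hV : V.LiesOverPrime 2) (k : ℕ) :
    ∀ n : ℤ, V.valuation (n : Qbar) ≤ V.valuation (2 : Qbar) ^ k → (2 : ℤ) ^ k ∣ n := by
  have h2lt : V.valuation (2 : Qbar) < 1 := WP3.H15.val_two_lt hV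
  have h2ne : V.valuation (2 : Qbar) ≠ 0 := WP3.H15.val_two_ne_zero V
  have h2pos : 0 < V.valuation (2 : Qbar) := zero_lt_iff.mpr h2ne
  induction k with
  | zero => intro n _; simp
  | succ k ih =>
    intro n hn
    have hlt : V.valuation (n : Qbar) < 1 := by
      refine lt_of_le_of_lt hn ?_
      exact pow_lt_one₀ zero_le h2lt (by omega)
    have h2n : (2 : ℤ) ∣ n := by
      by_contra h
      rw [WP3.H15.val_odd hV h] at hlt
      exact lt_irrefl _ hlt
    obtain ⟨m, rfl⟩ := h2n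
    have hm : V.valuation (m : Qbar) ≤ V.valuation (2 : Qbar) ^ k := by
      push_cast at hn
      rw [map_mul, pow_succ'] at hn
      exact (mul_le_mul_iff_right₀ h2pos).mp hn
    rw [pow_succ']
    exact mul_dvd_mul_left 2 (ih m hm)

/-- If all factors of `Ξ_i` have valuation `g`, then `|Ξ_i| = g^(p-1)`. -/
lemma val_Xi_pow (P : FreyPackage) (L : CofLine P) (V : ValuationSubring Qbar) (i : Fin 3)
    (g : V.ValueGroup)
    (h : ∀ Q : Vp P, Q ∈ L.N → Q ≠ 0 →
      V.valuation (xiFactor P i (Q : (P.freyCurve⁄Qbar).Point)) = g) :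
    V.valuation (Fermat.Agent.S12.Xi P L.N i) = g ^ (P.p - 1) := by
  classical
  obtain ⟨hfin, hcard⟩ := card_line P L.N L.ne_bot L.ne_top
  haveI : Finite L.N := hfin
  letI : Fintype L.N := Fintype.ofFinite _
  rw [H67.val_Xi, ← Finset.mul_prod_erase Finset.univ _ (Finset.mem_univ (0 : L.N))]
  have h0 : V.valuation (xiFactor P i (((0 : L.N) : Vp P) : (P.freyCurve⁄Qbar).Point)) = 1 := by
    have : xiFactor P i (((0 : L.N) : Vp P) : (P.freyCurve⁄Qbar).Point) = 1 := rfl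
    rw [this, map_one]
  rw [h0, one_mul]
  have hfac : ∀ Q ∈ (Finset.univ : Finset L.N).erase 0,
      V.valuation (xiFactor P i (((Q : L.N) : Vp P) : (P.freyCurve⁄Qbar).Point)) = g := by
    intro Q hQ
    refine h (Q : Vp P) Q.2 (fun h0 => ?_)
    rw [Finset.mem_erase] at hQ
    exact hQ.1 (Subtype.ext h0)
  rw [Finset.prod_congr rfl hfac]
  rw [Finset.prod_const, Finset.card_erase_of_mem (Finset.mem_univ _), Finset.card_univ,
    ← Nat.card_eq_fintype_card, hcard]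

/-- The valuations of the `Ξ_i` at `2`. -/
lemma val_Xi_two (P : FreyPackage) (L : CofLine P) (V : ValuationSubring Qbar)
    (hV : V.LiesOverPrime 2) :
    V.valuation (Fermat.Agent.S12.Xi P L.N 0) = V.valuation (4 : Qbar) ^ (P.p - 1) ∧
    V.valuation (Fermat.Agent.S12.Xi P L.N 1) = 1 ∧
    V.valuation (Fermat.Agent.S12.Xi P L.N 2) = V.valuation (4 : Qbar) ^ (P.p - 1) := by
  have h := H87.stmt_two P L V hV
  refine ⟨val_Xi_pow P L V 0 _ (fun Q hQ hQ0 => (h Q hQ hQ0).1), ?_,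
    val_Xi_pow P L V 2 _ (fun Q hQ hQ0 => (h Q hQ hQ0).2.2)⟩
  have := val_Xi_pow P L V 1 1 (fun Q hQ hQ0 => (h Q hQ hQ0).2.1)
  rwa [one_pow] at this

end val

section arith

/-- `c` is odd. -/
lemma frey_c_odd (P : FreyPackage) : ¬ (2 : ℤ) ∣ P.c := by
  intro hc
  have hb : (2 : ℤ) ∣ P.b := WP3.H15.frey_two_dvd_b P
  have ha : ¬ (2 : ℤ) ∣ P.a := WP3.H15.frey_a_odd P
  apply ha
  have h1 : (2 : ℤ) ∣ P.c ^ P.p := dvd_pow hc P.hp0
  have h2 : (2 : ℤ) ∣ P.b ^ P.p := dvd_pow hb P.hp0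
  have h3 : (2 : ℤ) ∣ P.a ^ P.p := by
    have : P.a ^ P.p = P.c ^ P.p - P.b ^ P.p := by rw [← P.hFLT]; ring
    rw [this]
    exact dvd_sub h1 h2
  exact Int.prime_two.dvd_of_dvd_pow h3

lemma isCoprime_of_gcd {x y : ℤ} (h : gcd x y = 1) : IsCoprime x y := by
  rw [Int.isCoprime_iff_gcd_eq_one]
  have : ((Int.gcd x y : ℕ) : ℤ) = 1 := h
  exact_mod_cast this

/-- The square of an odd integer is `1` modulo `4`. -/
lemma sq_modEq_one_of_odd {m : ℤ} (hm : ¬ (2 : ℤ) ∣ m) : m ^ 2 ≡ 1 [ZMOD 4] := by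
  have h : m % 2 = 1 := by omega
  have := Int.sq_mod_four_eq_one_of_odd (Int.odd_iff.mpr h)
  exact this

/-- A rational number of valuation `1` at `2` has odd numerator and denominator. -/
lemma odd_num_den_of_val_eq_one {V : ValuationSubring Qbar} (hV : V.LiesOverPrime 2) (s : ℚ)
    (hs : V.valuation (algebraMap ℚ Qbar s) = 1) :
    ¬ (2 : ℤ) ∣ s.num ∧ ¬ (2 : ℤ) ∣ (s.den : ℤ) := by
  have hden0 : ((s.den : ℤ) : Qbar) ≠ 0 := by exact_mod_cast s.den_ne_zero
  have e : algebraMap ℚ Qbar s * ((s.den : ℤ) : Qbar) = ((s.num : ℤ) : Qbar) := by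
    have := Rat.mul_den_eq_num s
    have h2 := congrArg (algebraMap ℚ Qbar) this
    rw [map_mul, map_natCast, map_intCast] at h2
    rw [Int.cast_natCast]
    exact h2
  have hv : V.valuation ((s.den : ℤ) : Qbar) = V.valuation ((s.num : ℤ) : Qbar) := by
    rw [← e, map_mul, hs, one_mul]
  have hcop : IsCoprime s.num (s.den : ℤ) := by
    rw [Int.isCoprime_iff_gcd_eq_one]
    exact s.reduced
  have hnum : ¬ (2 : ℤ) ∣ s.num := by
    intro h
    have h1 : V.valuation ((s.num : ℤ) : Qbar) < 1 := WP3.H15.val_even hV h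
    rw [← hv] at h1
    have h2 : (2 : ℤ) ∣ (s.den : ℤ) := by
      by_contra hcon
      rw [WP3.H15.val_odd hV hcon] at h1
      exact lt_irrefl _ h1
    exact Int.prime_two.not_isUnit (hcop.isUnit_of_dvd' h h2)
  refine ⟨hnum, fun h => ?_⟩
  have h1 : V.valuation ((s.den : ℤ) : Qbar) < 1 := WP3.H15.val_even hV h
  rw [hv, WP3.H15.val_odd hV hnum] at h1
  exact lt_irrefl _ h1

/-- **(MODEL-arith).** -/
theorem stmt_model_arith : Stmt_model_arith := by
  classical
  intro P L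
  -- the rational numbers `Ξ_i`
  obtain ⟨r0, hr0⟩ := H12.exists_rat_of_fixed _ (fun σ => Xi_fixed P L 0 σ)
  obtain ⟨r1, hr1⟩ := H12.exists_rat_of_fixed _ (fun σ => Xi_fixed P L 1 σ)
  obtain ⟨r2, hr2⟩ := H12.exists_rat_of_fixed _ (fun σ => Xi_fixed P L 2 σ)
  have hr1' : r1 ≠ 0 := by
    rintro rfl
    exact Xi_ne_zero' P L 1 (by rw [← hr1, _root_.map_zero])
  have hr2' : r2 ≠ 0 := by
    rintro rfl
    exact Xi_ne_zero' P L 2 (by rw [← hr2, _root_.map_zero])
  set a : ℤ := (P.a ^ P.p) ^ P.p with ha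
  set b : ℤ := (P.b ^ P.p) ^ P.p with hb
  set c : ℤ := (P.c ^ P.p) ^ P.p with hc
  have hab : IsCoprime a b := ((isCoprime_of_gcd P.hgcdab).pow).pow
  have hac : IsCoprime a c := ((isCoprime_of_gcd P.hgcdac).pow).pow
  have hbc : IsCoprime b c := ((isCoprime_of_gcd P.hgcdbc).pow).pow
  have ha0 : a ≠ 0 := pow_ne_zero _ (pow_ne_zero _ P.ha0)
  have hb0 : b ≠ 0 := pow_ne_zero _ (pow_ne_zero _ P.hb0)
  have hinj : Function.Injective (algebraMap ℚ Qbar) := (algebraMap ℚ Qbar).injective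
  have hsum : (a : ℚ) * r2 ^ 2 + (b : ℚ) * r1 ^ 2 = (c : ℚ) * r0 ^ 2 := by
    apply hinj
    rw [map_add, map_mul, map_mul, map_mul, map_pow, map_pow, map_pow, hr0, hr1, hr2,
      map_intCast, map_intCast, map_intCast, ha, hb, hc]
    push_cast
    exact stmt_key P L
  obtain ⟨μ, A, B, hμ, hA, hB, hcop⟩ :=
    exists_primitive_rat hab hac hbc ha0 r0 r1 r2 hr2' hsum
  -- the equalities in `Q̄`
  have eqA : ((A : ℤ) : Qbar) = (algebraMap ℚ Qbar μ) ^ 2 * quotA1 P L.N := by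
    have := congrArg (algebraMap ℚ Qbar) hA
    rw [map_intCast, map_mul, map_mul, map_pow, map_pow, hr2, map_intCast] at this
    rw [this, quotA1, ha]
    push_cast
    ring
  have eqB : ((B : ℤ) : Qbar) = (algebraMap ℚ Qbar μ) ^ 2 * quotB1 P L.N := by
    have := congrArg (algebraMap ℚ Qbar) hB
    rw [map_intCast, map_mul, map_mul, map_pow, map_pow, hr1, map_intCast] at this
    rw [this, quotB1, hb]
    push_cast
    ring
  have eqC : (((A + B : ℤ)) : Qbar) = (algebraMap ℚ Qbar μ) ^ 2 * quotC1 P L.N := by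
    rw [← quotA1_add_quotB1 P L, mul_add, ← eqA, ← eqB]
    push_cast
    ring
  -- 2-adic analysis
  obtain ⟨V, hV⟩ := Fermat.Agent.Lib.FrobExists.exists_liesOverPrime 2 Nat.prime_two
  obtain ⟨hv0, hv1, hv2⟩ := val_Xi_two P L V hV
  have h2lt : V.valuation (2 : Qbar) < 1 := WP3.H15.val_two_lt hV
  have h2ne : V.valuation (2 : Qbar) ≠ 0 := WP3.H15.val_two_ne_zero V
  have h2pos : 0 < V.valuation (2 : Qbar) := zero_lt_iff.mpr h2ne
  have e4 : V.valuation (4 : Qbar) = V.valuation (2 : Qbar) ^ 2 := by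
    rw [← map_pow]; norm_num
  have hva : V.valuation (((P.a : Qbar) ^ P.p) ^ P.p) = 1 := by
    have : V.valuation ((P.a : ℤ) : Qbar) = 1 := WP3.H15.val_odd hV (WP3.H15.frey_a_odd P)
    rw [map_pow, map_pow, this, one_pow, one_pow]
  have hvc : V.valuation (((P.c : Qbar) ^ P.p) ^ P.p) = 1 := by
    have : V.valuation ((P.c : ℤ) : Qbar) = 1 := WP3.H15.val_odd hV (frey_c_odd P)
    rw [map_pow, map_pow, this, one_pow, one_pow]
  set m := V.valuation (algebraMap ℚ Qbar μ) with hm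
  set t := V.valuation (4 : Qbar) ^ (P.p - 1) with ht
  have hvA : V.valuation ((A : ℤ) : Qbar) = m ^ 2 * t ^ 2 := by
    rw [eqA, quotA1, map_mul, map_mul, map_pow, hva, one_mul, map_pow, hv2]
  have hvC : V.valuation (((A + B : ℤ)) : Qbar) = m ^ 2 * t ^ 2 := by
    rw [eqC, quotC1, map_mul, map_mul, map_pow, hvc, one_mul, map_pow, hv0]
  have hvB : V.valuation ((B : ℤ) : Qbar) = m ^ 2 * V.valuation (((P.b : Qbar) ^ P.p) ^ P.p) := by
    rw [eqB, quotB1, map_mul, map_mul, map_pow, map_pow (V.valuation) (Fermat.Agent.S12.Xi P L.N 1),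
      hv1, one_pow, mul_one]
  have hAodd : ¬ (2 : ℤ) ∣ A := by
    intro h
    have h1 : V.valuation ((A : ℤ) : Qbar) < 1 := WP3.H15.val_even hV h
    have h2 : (2 : ℤ) ∣ A + B := by
      by_contra hcon
      have := WP3.H15.val_odd hV hcon
      rw [hvC, ← hvA] at this
      exact (ne_of_lt h1) this
    have h3 : (2 : ℤ) ∣ B := (dvd_add_right h).mp h2
    exact Int.prime_two.not_isUnit (hcop.isUnit_of_dvd' h h3)
  have hmt : m ^ 2 * t ^ 2 = 1 := by
    rw [← hvA]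
    exact WP3.H15.val_odd hV hAodd
  refine ⟨μ, A, B, hμ, ⟨?_, ?_, ?_, hcop⟩, eqA, eqB⟩
  · -- `A ≡ 3 mod 4`
    have hmt1 : m * t = 1 := by
      have h1 : (m * t) ^ 2 = 1 := by rw [mul_pow, hmt]
      rcases lt_trichotomy (m * t) 1 with h | h | h
      · exact absurd h1 (ne_of_lt (pow_lt_one₀ zero_le h (by norm_num)))
      · exact h
      · exact absurd h1 (ne_of_gt (one_lt_pow₀ h (by norm_num)))
    have hs : V.valuation (algebraMap ℚ Qbar (μ * r2)) = 1 := by
      rw [map_mul, map_mul, hr2, hv2]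
      exact hmt1
    obtain ⟨hnum, hden⟩ := odd_num_den_of_val_eq_one hV (μ * r2) hs
    have hint : A * ((μ * r2).den : ℤ) ^ 2 = a * (μ * r2).num ^ 2 := by
      have h1 := Rat.mul_den_eq_num (μ * r2)
      have : ((A * ((μ * r2).den : ℤ) ^ 2 : ℤ) : ℚ) = ((a * (μ * r2).num ^ 2 : ℤ) : ℚ) := by
        push_cast
        rw [hA, ← h1]
        ring
      exact_mod_cast this
    have hmod : A ≡ a [ZMOD 4] := by
      have h1 : A * ((μ * r2).den : ℤ) ^ 2 ≡ A * 1 [ZMOD 4] :=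
        Int.ModEq.mul_left A (sq_modEq_one_of_odd hden)
      have h2 : a * (μ * r2).num ^ 2 ≡ a * 1 [ZMOD 4] :=
        Int.ModEq.mul_left a (sq_modEq_one_of_odd hnum)
      rw [mul_one] at h1 h2
      rw [hint] at h1
      exact h1.symm.trans h2
    have ha4 : a ≡ -1 [ZMOD 4] := by
      have h := (WP3.H15.frey_a_pow_modEq P).pow P.p
      rwa [P.hp_odd.neg_one_pow] at h
    have := hmod.trans ha4
    have h3 : A % 4 = (-1) % 4 := this
    rw [h3]
    rfl
  · -- `32 ∣ B`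
    obtain ⟨b', hb'⟩ := WP3.H15.frey_two_dvd_b P
    have hp5 := P.hp5
    obtain ⟨k, hk⟩ : ∃ k, P.p = k + 2 := ⟨P.p - 2, by omega⟩
    have hvb : V.valuation (((P.b : Qbar) ^ P.p) ^ P.p) ≤ V.valuation (2 : Qbar) ^ (P.p * P.p) := by
      have e1 : ((P.b : Qbar) ^ P.p) ^ P.p =
          (2 : Qbar) ^ (P.p * P.p) * (((b' ^ (P.p * P.p) : ℤ)) : Qbar) := by
        rw [hb']; push_cast; ring
      rw [e1, map_mul, map_pow]
      calc V.valuation (2 : Qbar) ^ (P.p * P.p) * V.valuation (((b' ^ (P.p * P.p) : ℤ)) : Qbar)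
          ≤ V.valuation (2 : Qbar) ^ (P.p * P.p) * 1 :=
            mul_le_mul_right (Fermat.Agent.S05.H15.valuation_intCast_le_one V _) _
        _ = V.valuation (2 : Qbar) ^ (P.p * P.p) := mul_one _
    have ht2 : t ^ 2 = V.valuation (2 : Qbar) ^ (4 * k + 4) := by
      have hp1 : P.p - 1 = k + 1 := by omega
      rw [ht, e4, hp1, ← pow_mul, ← pow_mul]
      congr 1
      ring
    have hpp : P.p * P.p = (4 * k + 4) + k * k := by rw [hk]; ring
    have ht0 : 0 < t ^ 2 := by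
      rw [ht2]
      exact pow_pos h2pos _
    have hB1 : V.valuation ((B : ℤ) : Qbar) * t ^ 2 ≤ V.valuation (2 : Qbar) ^ (k * k) * t ^ 2 := by
      calc V.valuation ((B : ℤ) : Qbar) * t ^ 2
          = (m ^ 2 * t ^ 2) * V.valuation (((P.b : Qbar) ^ P.p) ^ P.p) := by
            rw [hvB, mul_right_comm]
        _ = V.valuation (((P.b : Qbar) ^ P.p) ^ P.p) := by rw [hmt, one_mul]
        _ ≤ V.valuation (2 : Qbar) ^ (P.p * P.p) := hvb
        _ = V.valuation (2 : Qbar) ^ (k * k) * t ^ 2 := by rw [ht2, hpp, pow_add, mul_comm]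
    have hB2 : V.valuation ((B : ℤ) : Qbar) ≤ V.valuation (2 : Qbar) ^ (k * k) :=
      (mul_le_mul_iff_left₀ ht0).mp hB1
    have hB3 : V.valuation ((B : ℤ) : Qbar) ≤ V.valuation (2 : Qbar) ^ 5 := by
      refine le_trans hB2 ?_
      apply pow_le_pow_of_le_one zero_le h2lt.le
      have : 3 ≤ k := by omega
      nlinarith
    have := two_pow_dvd_of_val_le hV 5 B hB3
    norm_num at this
    exact this
  · -- `B ≠ 0`
    rintro rfl
    have : (0 : ℚ) = μ ^ 2 * ((b : ℚ) * r1 ^ 2) := by exact_mod_cast hB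
    have hne : μ ^ 2 * ((b : ℚ) * r1 ^ 2) ≠ 0 :=
      mul_ne_zero (pow_ne_zero _ hμ)
        (mul_ne_zero (by exact_mod_cast hb0) (pow_ne_zero _ hr1'))
    exact hne this.symm

end arith

end Fermat.Agent.S12.H11
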