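/-
S12, packages VAL-good / VAL-mu (helper87), part 1: local lemmas on the model curve
`y² = x³ + a x² + b x` over a valued field (`ModelHyp A W` of S05: `2` and `a² - 4b` units).

* `sameRed_sub_inE1` : two points with `|x| = 1` and the same reduction differ by a point of `E₁`.
* `val_x_le_one_of_torsion` : torsion of order prime to the residue characteristic is integral.
* `val_x_eq_one_good` : in the good case `|b| = 1` a point of odd order `p`, `|p| = 1`, has `|x| = 1`.
* `val_x_sub_root_eq_one` : a point of odd order `p` with `|x| = 1` does not reduce to a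
  `2`-torsion point `(r, 0)` with `|r| = 1`.
-/
import Fermat.Agent.S05.Core

set_option autoImplicit false

namespace Fermat.Agent.S12.H87

open WeierstrassCurve WeierstrassCurve.Affine WeierstrassCurve.Affine.Point
open Fermat.Agent.S05

section loc

variable {L : Type*} [Field L] [DecidableEq L] {A : ValuationSubring L} {W : Affine L}

/-- Two points with `|x| = 1` and the same reduction differ by an element of `E₁`. -/
theorem sameRed_sub_inE1 (hyp : ModelHyp A W) {x y x' y' : L} (h : W.Nonsingular x y)
    (h' : W.Nonsingular x' y') (hx : A.valuation x = 1) (hx' : A.valuation x' = 1)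
    (hxx : A.valuation (x' - x) < 1) (hyy : A.valuation (y' - y) < 1) :
    S05.InE1 A (Point.some x' y' h' - Point.some x y h) := by
  rw [sub_eq_add_neg, Point.neg_some]
  have heq := H87.model_equation hyp h
  have heq' := H87.model_equation hyp h'
  by_cases hX : x' = x
  · by_cases hY : y' = W.negY x (W.negY x y)
    · rw [Point.add_of_Y_eq hX hY]
      trivial
    · rw [Point.add_of_Y_ne hY]
      show 1 < A.valuation (W.addX x' x (W.slope x' x y' (W.negY x y)))
      rw [Affine.slope_of_Y_ne hX hY, Affine.addX, hyp.a₁, H87.model_negY hyp]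
      rw [H87.model_negY hyp, H87.model_negY hyp, neg_neg] at hY
      have hsq : y' ^ 2 = y ^ 2 := by rw [heq, heq', hX]
      have hσy : y' = -y := by
        have : (y' - y) * (y' + y) = 0 := by linear_combination hsq
        rcases mul_eq_zero.mp this with h0 | h0
        · exact absurd (sub_eq_zero.mp h0) hY
        · exact eq_neg_of_add_eq_zero_left h0
      have hy0 : y ≠ 0 := by
        rintro rfl
        apply hY
        rw [hσy, _root_.neg_zero]
      have hylt : A.valuation y < 1 := by
        have : y' - y = -(2 * y) := by rw [hσy]; ring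
        rw [this, Valuation.map_neg, map_mul, hyp.two, one_mul] at hyy
        exact hyy
      have key := H87.tangent_case (v := A.valuation) hyp.a_le hyp.two hyp.disc hx hylt hy0 heq
      rw [hX, hσy]
      convert key using 2
      ring
  · rw [Point.add_of_X_ne hX]
    show 1 < A.valuation (W.addX x' x (W.slope x' x y' (W.negY x y)))
    rw [Affine.slope_of_X_ne hX, Affine.addX, hyp.a₁, H87.model_negY hyp]
    have key := H87.secant_case (v := A.valuation) hyp.a_le hyp.b_le hyp.two hyp.disc hx hx'
      hxx hyy heq heq' hX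
    convert key using 2
    ring

/-- A torsion point of order `n`, `|n| = 1`, has integral `x`-coordinate. -/
theorem val_x_le_one_of_torsion (hyp : ModelHyp A W) {x y : L} (h : W.Nonsingular x y)
    (n : ℕ) (hn : A.valuation (n : L) = 1) (hP : n • Point.some x y h = 0) :
    A.valuation x ≤ 1 := by
  by_contra hlt
  rw [not_le] at hlt
  exact S05.H5.F1 A W hyp (Point.some x y h) hlt (Point.some_ne_zero h) n hn hP

/-- The point `T = (0,0)`. -/
noncomputable def pointT (hyp : ModelHyp A W) : W.Point :=
  Point.some 0 0 (H55.nonsingular_zero_zero hyp.a₁ hyp.a₃ hyp.a₆ hyp.b_ne)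

omit [DecidableEq L] in
/-- A `2`-torsion point `(r, 0)` of the model. -/
theorem nonsingular_root (hyp : ModelHyp A W) {r : L} (hr : r ^ 2 + W.a₂ * r + W.a₄ = 0)
    (hr0 : r ≠ 0) : W.Nonsingular r 0 := by
  rw [nonsingular_iff, equation_iff]
  refine ⟨?_, Or.inl ?_⟩
  · rw [hyp.a₁, hyp.a₃, hyp.a₆]
    linear_combination -r * hr
  · rw [hyp.a₁]
    intro h0
    -- `3 r² + 2 a r + b = 0` and `r² + a r + b = 0` give `(2 r + a)² = a² - 4 b` and `r (2 r + a) = 0`
    have h1 : r * (2 * r + W.a₂) = 0 := by linear_combination -h0 - hr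
    have h2 : 2 * r + W.a₂ = 0 := by
      rcases mul_eq_zero.mp h1 with h | h
      · exact absurd h hr0
      · exact h
    have h3 : W.a₂ ^ 2 - 4 * W.a₄ = 0 := by linear_combination (2 * r + W.a₂) * h2 - 4 * hr
    have := hyp.disc
    rw [h3, _root_.map_zero] at this
    exact zero_ne_one this

/-- `2 • (r, 0) = 0`. -/
theorem two_nsmul_root (hyp : ModelHyp A W) {r : L} (h : W.Nonsingular r 0) :
    2 • Point.some r 0 h = 0 := by
  have hneg : -Point.some r 0 h = Point.some r 0 h := by
    rw [Point.neg_some]
    congr 1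
    rw [H87.model_negY hyp, _root_.neg_zero]
  rw [two_nsmul]
  nth_rewrite 2 [← hneg]
  exact add_neg_cancel _

/-- A point killed by `2` and by an odd number is zero. -/
theorem eq_zero_of_two_of_odd {G : Type*} [AddCommGroup G] {P : G} (h2 : 2 • P = 0) {p : ℕ}
    (hodd : Odd p) (hp : p • P = 0) : P = 0 := by
  obtain ⟨k, rfl⟩ := hodd
  have : (2 * k + 1) • P = k • (2 • P) + P := by
    rw [add_smul, one_smul, mul_comm, mul_smul]
  rw [this, h2, smul_zero, zero_add] at hp
  exact hp

omit [DecidableEq L] in
/-- `|2 p| = 1`. -/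
theorem val_two_mul (hyp : ModelHyp A W) {p : ℕ} (hp : A.valuation (p : L) = 1) :
    A.valuation ((2 * p : ℕ) : L) = 1 := by
  rw [Nat.cast_mul, map_mul, hp, mul_one]
  exact_mod_cast hyp.two

/-- In the good case `|b| = 1`, a point of odd order `p`, `|p| = 1`, has `|x| = 1`. -/
theorem val_x_eq_one_good (hyp : ModelHyp A W) (hb : A.valuation W.a₄ = 1) {x y : L}
    (h : W.Nonsingular x y) (p : ℕ) (hodd : Odd p) (hp : A.valuation (p : L) = 1)
    (hP : p • Point.some x y h = 0) : A.valuation x = 1 := by
  refine le_antisymm (val_x_le_one_of_torsion hyp h p hp hP) ?_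
  by_contra hlt
  rw [not_le] at hlt
  have hT2 : 2 • pointT hyp = 0 := two_nsmul_root hyp _
  by_cases hx0 : x = 0
  · subst hx0
    have hy0 : y = 0 := H55.y_eq_zero_of_x_eq_zero hyp.a₁ hyp.a₃ hyp.a₆ h
    subst hy0
    exact Point.some_ne_zero h (eq_zero_of_two_of_odd (two_nsmul_root hyp h) hodd hP)
  · have hE1 := H55.inE1_add_T A hyp hb h hx0 hlt
    have hsum : (2 * p) • (Point.some x y h + pointT hyp) = 0 := by
      rw [smul_add, mul_smul, mul_smul, hP, smul_zero, zero_add, smul_comm, hT2, smul_zero]
    by_cases hne : Point.some x y h + pointT hyp = 0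
    · -- then `P = -T = T`, so `x = 0`
      have hPT : Point.some x y h = -pointT hyp := eq_neg_of_add_eq_zero_left hne
      rw [pointT, Point.neg_some] at hPT
      have := (Point.some.injEq _ _ _ _ _ _).mp hPT
      exact hx0 this.1
    · exact S05.H5.F1 A W hyp _ hE1 hne (2 * p) (val_two_mul hyp hp) hsum

/-- A point of odd order `p`, `|p| = 1`, with `|x| = 1` does not reduce to a `2`-torsion
point `(r, 0)` with `|r| = 1`. -/
theorem val_x_sub_root_eq_one (hyp : ModelHyp A W) {r : L}
    (hr : r ^ 2 + W.a₂ * r + W.a₄ = 0) (hr1 : A.valuation r = 1) {x y : L}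
    (h : W.Nonsingular x y) (hx : A.valuation x = 1) (p : ℕ) (hodd : Odd p)
    (hp : A.valuation (p : L) = 1) (hP : p • Point.some x y h = 0) :
    A.valuation (x - r) = 1 := by
  have hle : A.valuation (x - r) ≤ 1 := by
    refine le_trans (A.valuation.map_sub x r) ?_
    rw [hx, hr1, max_self]
  refine le_antisymm hle ?_
  by_contra hlt
  rw [not_le] at hlt
  have hr0 : r ≠ 0 := by
    rintro rfl
    rw [_root_.map_zero] at hr1
    exact zero_ne_one hr1
  have hT := nonsingular_root hyp hr hr0
  -- `|y| < 1`
  have heq := H87.model_equation hyp h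
  have hquad : x ^ 2 + W.a₂ * x + W.a₄ = (x - r) * (x + r + W.a₂) := by
    linear_combination hr
  have hfac : A.valuation (x + r + W.a₂) ≤ 1 := by
    refine le_trans (A.valuation.map_add _ _) (max_le ?_ hyp.a_le)
    refine le_trans (A.valuation.map_add _ _) (max_le hx.le hr1.le)
  have hy2 : A.valuation (y ^ 2) < 1 := by
    have : y ^ 2 = x * ((x - r) * (x + r + W.a₂)) := by rw [← hquad, heq]; ring
    rw [this, map_mul, hx, one_mul, map_mul]
    calc A.valuation (x - r) * A.valuation (x + r + W.a₂)
        ≤ A.valuation (x - r) * 1 := mul_le_mul_right hfac _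
      _ = A.valuation (x - r) := mul_one _
      _ < 1 := hlt
  have hy : A.valuation y < 1 := by
    by_contra hge
    rw [not_lt] at hge
    have : 1 ≤ A.valuation (y ^ 2) := by rw [map_pow]; exact one_le_pow₀ hge
    exact absurd hy2 (not_lt.mpr this)
  have hyy : A.valuation (y - 0) < 1 := by rwa [sub_zero]
  have hE1 := sameRed_sub_inE1 hyp hT h hr1 hx hlt hyy
  have hT2 : 2 • Point.some r 0 hT = 0 := two_nsmul_root hyp hT
  have hsum : (2 * p) • (Point.some x y h - Point.some r 0 hT) = 0 := by
    rw [smul_sub, mul_smul, mul_smul, hP, smul_zero, zero_sub, smul_comm, hT2, smul_zero,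
      _root_.neg_zero]
  by_cases hne : Point.some x y h - Point.some r 0 hT = 0
  · have hPT : Point.some x y h = Point.some r 0 hT := sub_eq_zero.mp hne
    rw [hPT] at hP
    exact Point.some_ne_zero hT (eq_zero_of_two_of_odd hT2 hodd hP)
  · exact S05.H5.F1 A W hyp _ hE1 hne (2 * p) (val_two_mul hyp hp) hsum

end loc

end Fermat.Agent.S12.H87
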