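/-
S12, packages VAL-good and VAL-mu (helper87).

At a valuation subring `A` of `Q̄` over an odd prime `ℓ ≠ p`: if no nonzero point of the line `N`
reduces to the node (`NodeFreeAt`), then all factors `x_S(Q) - e_i` of the `Ξ_i` are units at `A`
(`UnitTypeAt`).  At the primes of good reduction `NodeFreeAt` is automatic.

Main results:
* `Fermat.Agent.S12.H87.stmt_unit_of_nodeFree : Stmt_unit_of_nodeFree`
* `Fermat.Agent.S12.H87.stmt_unit_good : Stmt_unit_good`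
* `Fermat.Agent.S12.H87.unit_of_nodeFree_point` (the statement for a single `p`-torsion point).
-/
import Fermat.Agent.S12.Defs
import Fermat.Agent.S12.H87_LocalOdd
import Fermat.Agent.S05.Transfer
import Fermat.Agent.S05.H15_Val
import Fermat.Agent.S05.Arith

set_option autoImplicit false

namespace Fermat.Agent.S12.H87

open WeierstrassCurve WeierstrassCurve.Affine WeierstrassCurve.Affine.Point
open Fermat.Agent.S05 Fermat.Agent.S13

/-- The short model of the Frey curve centred at the integer root `e`; the other two roots are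
`e + r` and `e + s`. -/
structure Centre (P : FreyPackage) (e r s : ℤ) : Prop where
  h2 : 3 * e + (P.b ^ P.p - P.a ^ P.p) = -(r + s)
  h4 : 3 * e ^ 2 + 2 * (P.b ^ P.p - P.a ^ P.p) * e - P.a ^ P.p * P.b ^ P.p = r * s
  he : e ^ 3 + (P.b ^ P.p - P.a ^ P.p) * e ^ 2 - P.a ^ P.p * P.b ^ P.p * e = 0
  hr : r ≠ 0
  hs : s ≠ 0

lemma centre0 (P : FreyPackage) : Centre P 0 (P.a ^ P.p) (-(P.b ^ P.p)) where
  h2 := by ring
  h4 := by ring
  he := by ring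
  hr := pow_ne_zero _ P.ha0
  hs := neg_ne_zero.2 (pow_ne_zero _ P.hb0)

lemma centre1 (P : FreyPackage) : Centre P (P.a ^ P.p) (-(P.a ^ P.p)) (-(P.c ^ P.p)) where
  h2 := by rw [← P.hFLT]; ring
  h4 := by rw [← P.hFLT]; ring
  he := by ring
  hr := neg_ne_zero.2 (pow_ne_zero _ P.ha0)
  hs := neg_ne_zero.2 (pow_ne_zero _ P.hc0)

lemma centre2 (P : FreyPackage) : Centre P (-(P.b ^ P.p)) (P.b ^ P.p) (P.c ^ P.p) where
  h2 := by rw [← P.hFLT]; ring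
  h4 := by rw [← P.hFLT]; ring
  he := by ring
  hr := pow_ne_zero _ P.hb0
  hs := pow_ne_zero _ P.hc0

section main

open Fermat.Agent.S05.H15

/-- The local statement in the model centred at `e`. -/
theorem unit_of_centre (P : FreyPackage) {e r s : ℤ} (hc : Centre P e r s) {ℓ : ℕ}
    (hℓ : ℓ.Prime) (hℓ2 : ℓ ≠ 2) (hℓp : ℓ ≠ P.p) (A : ValuationSubring Qbar)
    (hA : A.LiesOverPrime ℓ) (hdisc : ¬ (ℓ : ℤ) ∣ r - s) {X Y : Qbar}
    (h : (P.freyCurve⁄Qbar).Nonsingular X Y)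
    (hP : (P.p : ℤ) • (Point.some X Y h : (P.freyCurve⁄Qbar).Point) = 0)
    (hNF : (ℓ : ℤ) ∣ r * s → 1 ≤ A.valuation (4 * X - ((e : ℤ) : Qbar))) :
    A.valuation (4 * X - ((e : ℤ) : Qbar)) = 1 ∧
      (¬ (ℓ : ℤ) ∣ r → A.valuation (4 * X - ((e + r : ℤ) : Qbar)) = 1) ∧
      (¬ (ℓ : ℤ) ∣ s → A.valuation (4 * X - ((e + s : ℤ) : Qbar)) = 1) := by
  have hqK : ((ℓ : ℕ) : Qbar) ∈ A.nonunits := hA
  have h4 : 4 * P.freyCurve.a₂ + 1 = ((P.b ^ P.p - P.a ^ P.p : ℤ) : ℚ) := by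
    simp only [FreyPackage.freyCurve]
    push_cast
    ring
  have h16 : 16 * P.freyCurve.a₄ = ((-(P.a ^ P.p * P.b ^ P.p) : ℤ) : ℚ) := by
    simp only [FreyPackage.freyCurve]
    push_cast
    ring
  have hval2 : A.valuation (2 : Qbar) = 1 := by
    have := valuation_natCast_eq_one_of_ne (A := A) hℓ hqK Nat.prime_two (Ne.symm hℓ2)
    simpa using this
  have hvalp : A.valuation ((P.p : ℕ) : Qbar) = 1 :=
    valuation_natCast_eq_one_of_ne (A := A) hℓ hqK P.pp (Ne.symm hℓp)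
  have hcast : ∀ n : ℤ, algebraMap ℚ Qbar ((n : ℤ) : ℚ) = ((n : ℤ) : Qbar) := fun n => by simp
  have he' : ((e : ℤ) : ℚ) ^ 3 + (4 * P.freyCurve.a₂ + 1) * ((e : ℤ) : ℚ) ^ 2
      + 16 * P.freyCurve.a₄ * ((e : ℤ) : ℚ) = 0 := by
    rw [h4, h16]
    have := congrArg (Int.cast : ℤ → ℚ) hc.he
    push_cast at this ⊢
    linear_combination this
  have ha2 : (modelOf P.freyCurve ((e : ℤ) : ℚ)).a₂ = ((-(r + s) : ℤ) : ℚ) := by
    simp only [modelOf]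
    rw [h4, ← hc.h2]
    push_cast
    ring
  have ha4 : (modelOf P.freyCurve ((e : ℤ) : ℚ)).a₄ = ((r * s : ℤ) : ℚ) := by
    simp only [modelOf]
    rw [h4, h16, ← hc.h4]
    push_cast
    ring
  have ha2' : ((modelOf P.freyCurve ((e : ℤ) : ℚ))⁄Qbar).a₂ = ((-(r + s) : ℤ) : Qbar) := by
    show algebraMap ℚ Qbar _ = _
    rw [ha2, hcast]
  have ha4' : ((modelOf P.freyCurve ((e : ℤ) : ℚ))⁄Qbar).a₄ = ((r * s : ℤ) : Qbar) := by
    show algebraMap ℚ Qbar _ = _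
    rw [ha4, hcast]
  have hyp : ModelHyp A ((modelOf P.freyCurve ((e : ℤ) : ℚ))⁄Qbar) := by
    refine ⟨by simp [modelOf], by simp [modelOf], by simp [modelOf], ?_, ?_, ?_, hval2, ?_⟩
    · rw [ha2']; exact valuation_intCast_le_one A _
    · rw [ha4']; exact valuation_intCast_le_one A _
    · rw [ha4']
      have : (r * s : ℤ) ≠ 0 := mul_ne_zero hc.hr hc.hs
      exact_mod_cast this
    · rw [ha2', ha4']
      have : (((-(r + s) : ℤ) : Qbar)) ^ 2 - 4 * ((r * s : ℤ) : Qbar)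
          = (((r - s) ^ 2 : ℤ) : Qbar) := by
        push_cast; ring
      rw [this]
      exact valuation_intCast_eq_one_of_not_dvd hℓ hqK (H15.not_dvd_pow hℓ hdisc _)
  have hvc := H14.isVarChange_modelOf (L := Qbar) P.freyCurve rfl rfl rfl ((e : ℤ) : ℚ) he'
  -- the image point
  have hfx : H14.fx (2 : Qbar) (algebraMap ℚ Qbar (-((e : ℤ) : ℚ))) X = 4 * X - ((e : ℤ) : Qbar) := by
    rw [H14.fx, map_neg, hcast]
    ring
  have hns := (hvc.nonsingular_iff X Y).2 h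
  have hΦ : (P.p : ℕ) • (Point.some _ _ hns :
      ((modelOf P.freyCurve ((e : ℤ) : ℚ))⁄Qbar).Point) = 0 := by
    have h1 : (P.p : ℤ) • hvc.addEquiv (Point.some X Y h) = 0 :=
      (map_zsmul hvc.addEquiv (P.p : ℤ) _).symm.trans
        ((congrArg hvc.addEquiv hP).trans (_root_.map_zero hvc.addEquiv))
    rw [hvc.addEquiv_some, natCast_zsmul] at h1
    exact h1
  -- `|x'| = 1`
  have hx1 : A.valuation (H14.fx (2 : Qbar) (algebraMap ℚ Qbar (-((e : ℤ) : ℚ))) X) = 1 := by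
    by_cases hrs : (ℓ : ℤ) ∣ r * s
    · refine le_antisymm (val_x_le_one_of_torsion hyp hns P.p hvalp hΦ) ?_
      rw [hfx]
      exact hNF hrs
    · have hb : A.valuation ((modelOf P.freyCurve ((e : ℤ) : ℚ))⁄Qbar).a₄ = 1 := by
        rw [ha4']
        exact valuation_intCast_eq_one_of_not_dvd hℓ hqK hrs
      exact val_x_eq_one_good hyp hb hns P.p P.hp_odd hvalp hΦ
  have hroot : ∀ t : ℤ, (t = r ∨ t = s) → ¬ (ℓ : ℤ) ∣ t →
      A.valuation (4 * X - ((e + t : ℤ) : Qbar)) = 1 := by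
    intro t ht hnd
    have hquad : ((t : ℤ) : Qbar) ^ 2 + ((modelOf P.freyCurve ((e : ℤ) : ℚ))⁄Qbar).a₂ * (t : Qbar)
        + ((modelOf P.freyCurve ((e : ℤ) : ℚ))⁄Qbar).a₄ = 0 := by
      rw [ha2', ha4']
      rcases ht with rfl | rfl
      · push_cast; ring
      · push_cast; ring
    have ht1 : A.valuation ((t : ℤ) : Qbar) = 1 :=
      valuation_intCast_eq_one_of_not_dvd hℓ hqK hnd
    have := val_x_sub_root_eq_one hyp hquad ht1 hns hx1 P.p P.hp_odd hvalp hΦ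
    rw [hfx] at this
    rw [← this]
    congr 1
    push_cast
    ring
  refine ⟨?_, hroot r (Or.inl rfl), hroot s (Or.inr rfl)⟩
  rw [← hfx]
  exact hx1

/-- `ℓ` divides at most one of `a^p`, `b^p`, `c^p`. -/
lemma not_dvd_pair (P : FreyPackage) {ℓ : ℕ} (hℓ : ℓ.Prime) :
    (¬ ((ℓ : ℤ) ∣ P.a ^ P.p ∧ (ℓ : ℤ) ∣ P.b ^ P.p)) ∧
    (¬ ((ℓ : ℤ) ∣ P.a ^ P.p ∧ (ℓ : ℤ) ∣ P.c ^ P.p)) ∧
    (¬ ((ℓ : ℤ) ∣ P.b ^ P.p ∧ (ℓ : ℤ) ∣ P.c ^ P.p)) := by
  have hpr : Prime (ℓ : ℤ) := Nat.prime_iff_prime_int.mp hℓ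
  refine ⟨?_, ?_, ?_⟩
  · rintro ⟨h1, h2⟩
    exact H15.not_dvd_of_gcd_eq_one hℓ P.hgcdab (hpr.dvd_of_dvd_pow h1) (hpr.dvd_of_dvd_pow h2)
  · rintro ⟨h1, h2⟩
    exact H15.not_dvd_of_gcd_eq_one hℓ P.hgcdac (hpr.dvd_of_dvd_pow h1) (hpr.dvd_of_dvd_pow h2)
  · rintro ⟨h1, h2⟩
    exact H15.not_dvd_of_gcd_eq_one hℓ P.hgcdbc (hpr.dvd_of_dvd_pow h1) (hpr.dvd_of_dvd_pow h2)

/-- The statement for a single nonzero `p`-torsion point: if the point does not reduce to the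
node at `A` (over an odd prime `ℓ ≠ p`) then all three `x_S(Q) - e_i` are units at `A`. -/
theorem unit_of_nodeFree_point (P : FreyPackage) {ℓ : ℕ} (hℓ : ℓ.Prime) (hℓ2 : ℓ ≠ 2)
    (hℓp : ℓ ≠ P.p) (A : ValuationSubring Qbar) (hA : A.LiesOverPrime ℓ) (Q : Vp P) (hQ0 : Q ≠ 0)
    (hNF : ∀ i j : Fin 3, i ≠ j →
      A.valuation (((eRoot P i : ℤ) : Qbar) - ((eRoot P j : ℤ) : Qbar)) < 1 →
      1 ≤ A.valuation (xiFactor P i (Q : (P.freyCurve⁄Qbar).Point)))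
    (i : Fin 3) : A.valuation (xiFactor P i (Q : (P.freyCurve⁄Qbar).Point)) = 1 := by
  have hqK : ((ℓ : ℕ) : Qbar) ∈ A.nonunits := hA
  have hpr : Prime (ℓ : ℤ) := Nat.prime_iff_prime_int.mp hℓ
  obtain ⟨Q, hQmem⟩ := Q
  have hQ0' : Q ≠ 0 := fun h => hQ0 (Subtype.ext h)
  have hQtor : (P.p : ℤ) • Q = 0 := by
    rwa [Submodule.mem_torsionBy_iff] at hQmem
  rcases Q with _ | ⟨X, Y, h⟩
  · exact absurd rfl hQ0'
  obtain ⟨hab, hac, hbc⟩ := not_dvd_pair P hℓ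
  -- the node-free hypothesis in terms of divisibility
  have hNF' : ∀ i j : Fin 3, i ≠ j → (ℓ : ℤ) ∣ eRoot P i - eRoot P j →
      1 ≤ A.valuation (4 * X - ((eRoot P i : ℤ) : Qbar)) := by
    intro i j hij hd
    refine hNF i j hij ?_
    rw [← Int.cast_sub]
    exact valuation_intCast_lt_one_of_dvd hqK hd
  have e0 : eRoot P 0 = 0 := rfl
  have e1 : eRoot P 1 = P.a ^ P.p := rfl
  have e2 : eRoot P 2 = -(P.b ^ P.p) := rfl
  have hcab : P.c ^ P.p = P.a ^ P.p + P.b ^ P.p := P.hFLT.symm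
  -- the three models
  have U0 := fun (hd : ¬ (ℓ : ℤ) ∣ P.a ^ P.p - -(P.b ^ P.p)) =>
    unit_of_centre P (centre0 P) hℓ hℓ2 hℓp A hA hd h hQtor
  have U1 := fun (hd : ¬ (ℓ : ℤ) ∣ -(P.a ^ P.p) - -(P.c ^ P.p)) =>
    unit_of_centre P (centre1 P) hℓ hℓ2 hℓp A hA hd h hQtor
  have U2 := fun (hd : ¬ (ℓ : ℤ) ∣ P.b ^ P.p - P.c ^ P.p) =>
    unit_of_centre P (centre2 P) hℓ hℓ2 hℓp A hA hd h hQtor
  -- node-free hypotheses of the three models
  have N0 : (ℓ : ℤ) ∣ P.a ^ P.p * -(P.b ^ P.p) → 1 ≤ A.valuation (4 * X - ((0 : ℤ) : Qbar)) := by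
    intro hd
    rcases hpr.dvd_or_dvd hd with hd | hd
    · exact hNF' 0 1 (by decide) (by rw [e0, e1, zero_sub]; exact (dvd_neg).2 hd)
    · exact hNF' 0 2 (by decide) (by rw [e0, e2, zero_sub]; exact (dvd_neg).2 hd)
  have N1 : (ℓ : ℤ) ∣ -(P.a ^ P.p) * -(P.c ^ P.p) →
      1 ≤ A.valuation (4 * X - ((P.a ^ P.p : ℤ) : Qbar)) := by
    intro hd
    rcases hpr.dvd_or_dvd hd with hd | hd
    · exact hNF' 1 0 (by decide) (by rw [e0, e1, sub_zero]; exact (dvd_neg).1 hd)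
    · refine hNF' 1 2 (by decide) ?_
      rw [e1, e2, sub_neg_eq_add, ← hcab]
      exact (dvd_neg).1 hd
  have N2 : (ℓ : ℤ) ∣ P.b ^ P.p * P.c ^ P.p →
      1 ≤ A.valuation (4 * X - ((-(P.b ^ P.p) : ℤ) : Qbar)) := by
    intro hd
    rcases hpr.dvd_or_dvd hd with hd | hd
    · exact hNF' 2 0 (by decide) (by rw [e0, e2, sub_zero]; exact (dvd_neg).2 hd)
    · refine hNF' 2 1 (by decide) ?_
      have : -(P.b ^ P.p) - P.a ^ P.p = -(P.c ^ P.p) := by rw [hcab]; ring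
      rw [e1, e2, this]
      exact (dvd_neg).2 hd
  -- discriminants of the three models
  have D0 : ¬ (ℓ : ℤ) ∣ P.c ^ P.p → ¬ (ℓ : ℤ) ∣ P.a ^ P.p - -(P.b ^ P.p) := by
    intro hc hd
    rw [sub_neg_eq_add, ← hcab] at hd
    exact hc hd
  have D1 : ¬ (ℓ : ℤ) ∣ P.b ^ P.p → ¬ (ℓ : ℤ) ∣ -(P.a ^ P.p) - -(P.c ^ P.p) := by
    intro hb hd
    have : -(P.a ^ P.p) - -(P.c ^ P.p) = P.b ^ P.p := by rw [hcab]; ring
    rw [this] at hd
    exact hb hd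
  have D2 : ¬ (ℓ : ℤ) ∣ P.a ^ P.p → ¬ (ℓ : ℤ) ∣ P.b ^ P.p - P.c ^ P.p := by
    intro ha hd
    have : P.b ^ P.p - P.c ^ P.p = -(P.a ^ P.p) := by rw [hcab]; ring
    rw [this] at hd
    exact ha ((dvd_neg).1 hd)
  show A.valuation (4 * X - ((eRoot P i : ℤ) : Qbar)) = 1
  fin_cases i
  · -- `i = 0`
    show A.valuation (4 * X - ((eRoot P 0 : ℤ) : Qbar)) = 1
    rw [e0]
    by_cases hc : (ℓ : ℤ) ∣ P.c ^ P.p
    · -- use the model centred at `e₁ = a^p`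
      have ha : ¬ (ℓ : ℤ) ∣ P.a ^ P.p := fun ha => hac ⟨ha, hc⟩
      have hb : ¬ (ℓ : ℤ) ∣ P.b ^ P.p := fun hb => hbc ⟨hb, hc⟩
      have := (U1 (D1 hb) N1).2.1 (fun hd => ha ((dvd_neg).1 hd))
      rw [add_neg_cancel] at this
      exact this
    · exact (U0 (D0 hc) N0).1
  · -- `i = 1`
    show A.valuation (4 * X - ((eRoot P 1 : ℤ) : Qbar)) = 1
    rw [e1]
    by_cases hb : (ℓ : ℤ) ∣ P.b ^ P.p
    · -- use the model centred at `e₀ = 0`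
      have ha : ¬ (ℓ : ℤ) ∣ P.a ^ P.p := fun ha => hab ⟨ha, hb⟩
      have hc : ¬ (ℓ : ℤ) ∣ P.c ^ P.p := fun hc => hbc ⟨hb, hc⟩
      have := (U0 (D0 hc) N0).2.1 ha
      rw [zero_add] at this
      exact this
    · exact (U1 (D1 hb) N1).1
  · -- `i = 2`
    show A.valuation (4 * X - ((eRoot P 2 : ℤ) : Qbar)) = 1
    rw [e2]
    by_cases ha : (ℓ : ℤ) ∣ P.a ^ P.p
    · -- use the model centred at `e₀ = 0`
      have hb : ¬ (ℓ : ℤ) ∣ P.b ^ P.p := fun hb => hab ⟨ha, hb⟩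
      have hc : ¬ (ℓ : ℤ) ∣ P.c ^ P.p := fun hc => hac ⟨ha, hc⟩
      have := (U0 (D0 hc) N0).2.2 (fun hd => hb ((dvd_neg).1 hd))
      rw [zero_add] at this
      exact this
    · exact (U2 (D2 ha) N2).1

/-- (VAL-mu) at an odd bad prime `ℓ ≠ p`, node-free implies unit type. -/
theorem stmt_unit_of_nodeFree : Stmt_unit_of_nodeFree := by
  intro P L ℓ hℓ hℓ2 hℓp _ A hA hNF Q hQ hQ0 i
  exact unit_of_nodeFree_point P hℓ hℓ2 hℓp A hA Q hQ0 (fun i j hij hlt => hNF Q hQ hQ0 i j hij hlt) i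

/-- At a prime of good reduction the roots `e_i` stay distinct. -/
lemma val_eRoot_sub_eq_one (P : FreyPackage) {ℓ : ℕ} (hℓ : ℓ.Prime)
    (hnd : ¬ (ℓ : ℤ) ∣ P.a * P.b * P.c) (A : ValuationSubring Qbar) (hA : A.LiesOverPrime ℓ)
    (i j : Fin 3) (hij : i ≠ j) :
    A.valuation (((eRoot P i : ℤ) : Qbar) - ((eRoot P j : ℤ) : Qbar)) = 1 := by
  have hqK : ((ℓ : ℕ) : Qbar) ∈ A.nonunits := hA
  have ha : ¬ (ℓ : ℤ) ∣ P.a ^ P.p :=
    H15.not_dvd_pow hℓ (fun h => hnd (dvd_mul_of_dvd_left (dvd_mul_of_dvd_left h _) _)) _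
  have hb : ¬ (ℓ : ℤ) ∣ P.b ^ P.p :=
    H15.not_dvd_pow hℓ (fun h => hnd (dvd_mul_of_dvd_left (dvd_mul_of_dvd_right h _) _)) _
  have hc : ¬ (ℓ : ℤ) ∣ P.c ^ P.p :=
    H15.not_dvd_pow hℓ (fun h => hnd (dvd_mul_of_dvd_right h _)) _
  have hcab : P.c ^ P.p = P.a ^ P.p + P.b ^ P.p := P.hFLT.symm
  rw [← Int.cast_sub]
  apply valuation_intCast_eq_one_of_not_dvd hℓ hqK
  have e0 : eRoot P 0 = 0 := rfl
  have e1 : eRoot P 1 = P.a ^ P.p := rfl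
  have e2 : eRoot P 2 = -(P.b ^ P.p) := rfl
  fin_cases i <;> fin_cases j
  · exact absurd rfl hij
  · show ¬ (ℓ : ℤ) ∣ eRoot P 0 - eRoot P 1
    rw [e0, e1, zero_sub, dvd_neg]; exact ha
  · show ¬ (ℓ : ℤ) ∣ eRoot P 0 - eRoot P 2
    rw [e0, e2, zero_sub, neg_neg]; exact hb
  · show ¬ (ℓ : ℤ) ∣ eRoot P 1 - eRoot P 0
    rw [e0, e1, sub_zero]; exact ha
  · exact absurd rfl hij
  · show ¬ (ℓ : ℤ) ∣ eRoot P 1 - eRoot P 2
    rw [e1, e2, sub_neg_eq_add, ← hcab]; exact hc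
  · show ¬ (ℓ : ℤ) ∣ eRoot P 2 - eRoot P 0
    rw [e0, e2, sub_zero, dvd_neg]; exact hb
  · show ¬ (ℓ : ℤ) ∣ eRoot P 2 - eRoot P 1
    have : -(P.b ^ P.p) - P.a ^ P.p = -(P.c ^ P.p) := by rw [hcab]; ring
    rw [e1, e2, this, dvd_neg]; exact hc
  · exact absurd rfl hij

/-- (VAL-good) unit type at the odd primes of good reduction. -/
theorem stmt_unit_good : Stmt_unit_good := by
  intro P L ℓ hℓ hℓ2 hℓp hnd A hA Q hQ hQ0 i
  refine unit_of_nodeFree_point P hℓ hℓ2 hℓp A hA Q hQ0 (fun i j hij hlt => ?_) i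
  rw [val_eRoot_sub_eq_one P hℓ hnd A hA i j hij] at hlt
  exact absurd hlt (lt_irrefl _)

end main

end Fermat.Agent.S12.H87
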