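/-
S12 / STAR (helper11): assembly.  `Stmt_star` (NodeFreeAt at the bad primes `ℓ ≥ 5`, `ℓ ≠ p`) from
Mazur's key step `Stmt_S15` and the packages HOM, ZC-small, VAL-B, THREE, STAR-3
(MODEL-arith, PHI, VAL-mu are plugged in).
-/
import Fermat.Agent.S12.H11_ModelArith
import Fermat.Agent.S12.H87_ValOdd
import Fermat.Agent.S05.H14_VarChange

set_option autoImplicit false

namespace Fermat.Agent.S12.H11

open WeierstrassCurve WeierstrassCurve.Affine WeierstrassCurve.Affine.Point
open Fermat.Agent.S13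

set_option linter.style.haveILetI false

/-! ### The integral model -/

section model

variable {A B : ℤ}

lemma freyModel_four_a₂ (h : IsFreyPair A B) : 4 * (freyModel A B).a₂ = B - 1 - A := by
  have hA := h.hA
  have hB := h.hB
  change 4 * ((B - 1 - A) / 4) = B - 1 - A
  omega

lemma freyModel_sixteen_a₄ (h : IsFreyPair A B) : 16 * (freyModel A B).a₄ = -(A * B) := by
  have hB : (16 : ℤ) ∣ -(A * B) := by
    rw [dvd_neg]
    exact Dvd.dvd.mul_left (Dvd.dvd.trans (by norm_num) h.hB) A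
  change 16 * (-(A * B) / 16) = -(A * B)
  exact Int.mul_ediv_cancel' hB

lemma freyModel_c₄ (h : IsFreyPair A B) : (freyModel A B).c₄ = A ^ 2 + A * B + B ^ 2 := by
  have h2 := freyModel_four_a₂ h
  have h4 := freyModel_sixteen_a₄ h
  have e1 : (freyModel A B).a₁ = 1 := rfl
  have e3 : (freyModel A B).a₃ = 0 := rfl
  simp only [WeierstrassCurve.c₄, WeierstrassCurve.b₂, WeierstrassCurve.b₄, e1, e3]
  linear_combination (4 * (freyModel A B).a₂ + B + 1 - A) * h2 - 3 * h4

lemma freyModel_Δ (h : IsFreyPair A B) :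
    256 * (freyModel A B).Δ = (A * B * (A + B)) ^ 2 := by
  have h2 := freyModel_four_a₂ h
  have h4 := freyModel_sixteen_a₄ h
  have e1 : (freyModel A B).a₁ = 1 := rfl
  have e3 : (freyModel A B).a₃ = 0 := rfl
  have e6 : (freyModel A B).a₆ = 0 := rfl
  simp only [WeierstrassCurve.Δ, WeierstrassCurve.b₂, WeierstrassCurve.b₄, WeierstrassCurve.b₆,
    WeierstrassCurve.b₈, e1, e3, e6]
  linear_combination ((2 + 4 * (freyModel A B).a₂ + (B - 1 - A)) * (16 * (freyModel A B).a₄) ^ 2) * h2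
    + ((B - A) ^ 2 * (16 * (freyModel A B).a₄ - A * B)
      - 4 * ((16 * (freyModel A B).a₄) ^ 2 + 16 * (freyModel A B).a₄ * (-(A * B)) + A ^ 2 * B ^ 2)) * h4

lemma freyPair_A_ne_zero (h : IsFreyPair A B) : A ≠ 0 := by
  have := h.hA
  rintro rfl
  omega

lemma freyPair_C_ne_zero (h : IsFreyPair A B) : A + B ≠ 0 := by
  have hA := h.hA
  have hB := h.hB
  intro h0
  omega

lemma freyModel_Δ_ne_zero (h : IsFreyPair A B) : (freyModel A B).Δ ≠ 0 := by
  intro h0
  have := freyModel_Δ h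
  rw [h0, mul_zero] at this
  exact pow_ne_zero 2 (mul_ne_zero (mul_ne_zero (freyPair_A_ne_zero h) h.hB0) (freyPair_C_ne_zero h)) this.symm

lemma freyModel_two_dvd_Δ (h : IsFreyPair A B) : (2 : ℤ) ∣ (freyModel A B).Δ := by
  obtain ⟨B', hB'⟩ := h.hB
  have h1 := freyModel_Δ h
  have h2 : (freyModel A B).Δ = 4 * (A * B' * (A + B)) ^ 2 := by
    have : (256 : ℤ) * (freyModel A B).Δ = 256 * (4 * (A * B' * (A + B)) ^ 2) := by
      rw [h1, hB']; ring
    exact mul_left_cancel₀ (by norm_num) this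
  rw [h2]
  exact ⟨2 * (A * B' * (A + B)) ^ 2, by ring⟩

lemma freyModel_two_not_dvd_c₄ (h : IsFreyPair A B) : ¬ (2 : ℤ) ∣ (freyModel A B).c₄ := by
  rw [freyModel_c₄ h]
  have hA : Odd A := by
    rw [Int.odd_iff]
    have := h.hA
    omega
  have hB : Even B := by
    rw [Int.even_iff]
    have := h.hB
    omega
  have h1 : Odd (A ^ 2 + A * B + B ^ 2) :=
    ((hA.pow).add_even (hB.mul_left A)).add_even ((Int.even_pow' (by norm_num)).mpr hB)
  rw [← even_iff_two_dvd, Int.not_even_iff_odd]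
  exact h1

/-- A prime dividing `A B (A + B)` does not divide `c₄`. -/
lemma freyModel_not_dvd_c₄ (h : IsFreyPair A B) {q : ℤ} (hq : Prime q)
    (hdvd : q ∣ A * B * (A + B)) : ¬ q ∣ (freyModel A B).c₄ := by
  rw [freyModel_c₄ h]
  intro hc
  have hnu : ¬ IsUnit q := hq.not_isUnit
  have hcop := h.cop
  rcases hq.dvd_or_dvd hdvd with hAB | hC
  · rcases hq.dvd_or_dvd hAB with hA | hB
    · -- `q ∣ A`, so `q ∣ B²`
      have : q ∣ B ^ 2 := by
        have e : B ^ 2 = (A ^ 2 + A * B + B ^ 2) - A * (A + B) := by ring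
        rw [e]
        exact dvd_sub hc (Dvd.dvd.mul_right hA _)
      exact hnu (hcop.isUnit_of_dvd' hA (hq.dvd_of_dvd_pow this))
    · have : q ∣ A ^ 2 := by
        have e : A ^ 2 = (A ^ 2 + A * B + B ^ 2) - B * (A + B) := by ring
        rw [e]
        exact dvd_sub hc (Dvd.dvd.mul_right hB _)
      exact hnu (hcop.isUnit_of_dvd' (hq.dvd_of_dvd_pow this) hB)
  · have : q ∣ A * B := by
      have e : A * B = (A + B) ^ 2 - (A ^ 2 + A * B + B ^ 2) := by ring
      rw [e]
      exact dvd_sub (Dvd.dvd.mul_left hC _ |>.trans (by rw [← pow_two])) hc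
    rcases hq.dvd_or_dvd this with hA | hB
    · have hB : q ∣ B := by
        have e : B = (A + B) - A := by ring
        rw [e]
        exact dvd_sub hC hA
      exact hnu (hcop.isUnit_of_dvd' hA hB)
    · have hA : q ∣ A := by
        have e : A = (A + B) - B := by ring
        rw [e]
        exact dvd_sub hC hB
      exact hnu (hcop.isUnit_of_dvd' hA hB)

/-- An odd prime dividing `A B (A + B)` divides `Δ`. -/
lemma freyModel_dvd_Δ (h : IsFreyPair A B) {q : ℕ} (hq : q.Prime) (hq2 : q ≠ 2)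
    (hdvd : (q : ℤ) ∣ A * B * (A + B)) : (q : ℤ) ∣ (freyModel A B).Δ := by
  have hqp : Prime (q : ℤ) := Nat.prime_iff_prime_int.mp hq
  have h1 : (q : ℤ) ∣ 256 * (freyModel A B).Δ := by
    rw [freyModel_Δ h]
    exact Dvd.dvd.trans hdvd (Dvd.intro_left _ (pow_two _).symm)
  rcases hqp.dvd_or_dvd h1 with h2 | h2
  · exfalso
    have h3 : (q : ℤ) ∣ 2 ^ 8 := by norm_num; exact h2
    have h4 : (q : ℤ) ∣ 2 := hqp.dvd_of_dvd_pow h3
    have h5 : q ∣ 2 := by exact_mod_cast h4
    exact hq2 ((Nat.prime_dvd_prime_iff_eq hq Nat.prime_two).mp h5)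
  · exact h2

end model

/-! ### The model over `Q̄` and the change of variables -/

section varchange

variable {A B : ℤ}

/-- The integral model, over `Q̄`. -/
noncomputable abbrev freyModelQbar (A B : ℤ) : Affine Qbar :=
  ((freyModel A B).map (Int.castRingHom ℚ))⁄Qbar

lemma freyModelQbar_a₁ : (freyModelQbar A B).a₁ = 1 := by
  simp [freyModel]

lemma freyModelQbar_a₃ : (freyModelQbar A B).a₃ = 0 := by
  simp [freyModel]

lemma freyModelQbar_a₆ : (freyModelQbar A B).a₆ = 0 := by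
  simp [freyModel]

lemma freyModelQbar_a₂ (h : IsFreyPair A B) :
    4 * (freyModelQbar A B).a₂ = (B : Qbar) - 1 - (A : Qbar) := by
  have h2 := freyModel_four_a₂ h
  have : (freyModelQbar A B).a₂ = (((freyModel A B).a₂ : ℤ) : Qbar) := by simp
  rw [this]
  have h3 : (((4 * (freyModel A B).a₂ : ℤ)) : Qbar) = ((B - 1 - A : ℤ) : Qbar) := by rw [h2]
  push_cast at h3
  exact h3

lemma freyModelQbar_a₄ (h : IsFreyPair A B) :
    16 * (freyModelQbar A B).a₄ = -((A : Qbar) * (B : Qbar)) := by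
  have h2 := freyModel_sixteen_a₄ h
  have : (freyModelQbar A B).a₄ = (((freyModel A B).a₄ : ℤ) : Qbar) := by simp
  rw [this]
  have h3 : (((16 * (freyModel A B).a₄ : ℤ)) : Qbar) = ((-(A * B) : ℤ) : Qbar) := by rw [h2]
  push_cast at h3
  exact h3

/-- The change of variables from `y² = x (x - A₁) (x + B₁)` to the integral model:
`X = μ² x / 4`, `Y = (μ³ y - μ² x) / 8`. -/
lemma isVarChange_quot (P : FreyPackage) (L : CofLine P) (h : IsFreyPair A B) {μ : Qbar}
    (hμ : μ ≠ 0) (eqA : (A : Qbar) = μ ^ 2 * quotA1 P L.N)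
    (eqB : (B : Qbar) = μ ^ 2 * quotB1 P L.N) :
    Fermat.Agent.S05.H14.IsVarChange (quotCurve1 P L.N) (freyModelQbar A B)
      (μ / 2) 0 (-1 / 2) 0 := by
  have h2 := freyModelQbar_a₂ h
  have h4 := freyModelQbar_a₄ h
  refine ⟨div_ne_zero hμ two_ne_zero, ?_, ?_, ?_, ?_, ?_⟩
  · rw [freyModelQbar_a₁]
    simp only [quotCurve1]
    norm_num
  · rw [freyModelQbar_a₁]
    simp only [quotCurve1]
    linear_combination (-1 / 4 : Qbar) * h2 - (1 / 4 : Qbar) * eqB + (1 / 4 : Qbar) * eqA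
  · rw [freyModelQbar_a₁, freyModelQbar_a₃]
    simp [quotCurve1]
  · rw [freyModelQbar_a₁, freyModelQbar_a₃]
    simp only [quotCurve1]
    linear_combination (-1 / 16 : Qbar) * h4 + ((B : Qbar) / 16) * eqA
      + (μ ^ 2 * quotA1 P L.N / 16) * eqB
  · rw [freyModelQbar_a₁, freyModelQbar_a₃, freyModelQbar_a₆]
    simp [quotCurve1]

end varchange

/-! ### Membership in the identity component from valuations -/

section zero

variable {A B : ℤ}

/-- A point of the integral model with integral coordinates and `2 Y + X` a unit lies in the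
identity component. -/
lemma inZeroComponentAt_of_unit (V : ValuationSubring Qbar) {X Y : Qbar}
    (hns : (freyModelQbar A B).Nonsingular X Y) (hX : V.valuation X ≤ 1)
    (hY : V.valuation Y ≤ 1) (hunit : V.valuation (2 * Y + X) = 1) :
    (freyModel A B).InZeroComponentAt V (Point.some X Y hns) := by
  right
  have hXV : X ∈ V := (V.valuation_le_one_iff X).mp hX
  have hYV : Y ∈ V := (V.valuation_le_one_iff Y).mp hY
  refine ⟨X, Y, hns, rfl, Or.inr ⟨hXV, hYV, ?_⟩⟩
  set x : V := ⟨X, hXV⟩ with hx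
  set y : V := ⟨Y, hYV⟩ with hy
  -- the equation over `V`
  have heq := hns.1
  rw [Affine.equation_iff] at heq
  have hVeq : y ^ 2 + x * y = x ^ 3 + (((freyModel A B).a₂ : ℤ) : V) * x ^ 2
      + (((freyModel A B).a₄ : ℤ) : V) * x := by
    apply Subtype.ext
    have e2 : (freyModelQbar A B).a₂ = (((freyModel A B).a₂ : ℤ) : Qbar) := by simp
    have e4 : (freyModelQbar A B).a₄ = (((freyModel A B).a₄ : ℤ) : Qbar) := by simp
    rw [freyModelQbar_a₁, freyModelQbar_a₃, freyModelQbar_a₆, e2, e4] at heq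
    push_cast
    simp only [hx, hy]
    linear_combination heq
  have hres := congrArg (IsLocalRing.residue V) hVeq
  simp only [map_add, map_mul, map_pow, map_intCast] at hres
  rw [Affine.nonsingular_iff', Affine.equation_iff]
  have e1 : ((freyModel A B).map (Int.castRingHom (IsLocalRing.ResidueField V))).toAffine.a₁ = 1 := by
    simp [freyModel]
  have e3 : ((freyModel A B).map (Int.castRingHom (IsLocalRing.ResidueField V))).toAffine.a₃ = 0 := by
    simp [freyModel]
  have e6 : ((freyModel A B).map (Int.castRingHom (IsLocalRing.ResidueField V))).toAffine.a₆ = 0 := by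
    simp [freyModel]
  have e2 : ((freyModel A B).map (Int.castRingHom (IsLocalRing.ResidueField V))).toAffine.a₂ =
      (((freyModel A B).a₂ : ℤ) : IsLocalRing.ResidueField V) := by simp
  have e4 : ((freyModel A B).map (Int.castRingHom (IsLocalRing.ResidueField V))).toAffine.a₄ =
      (((freyModel A B).a₄ : ℤ) : IsLocalRing.ResidueField V) := by simp
  rw [e1, e3, e6, e2, e4]
  refine ⟨by linear_combination hres, Or.inr ?_⟩
  have hu : IsUnit (2 * y + x) := by
    rw [V.valuation_eq_one_iff]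
    have hcoe : ((2 * y + x : V) : Qbar) = 2 * Y + X := by
      push_cast
      rfl
    rw [hcoe]
    exact hunit
  have := (IsLocalRing.residue_ne_zero_iff_isUnit (2 * y + x)).mpr hu
  intro h0
  apply this
  rw [map_add, map_mul, map_ofNat]
  linear_combination h0

end zero

/-! ### Valuations of coprime integers -/

section cop

/-- Coprime integers are not both non-units at `V`. -/
lemma val_eq_one_of_isCoprime (V : ValuationSubring Qbar) {A B : ℤ} (h : IsCoprime A B) :
    V.valuation ((A : ℤ) : Qbar) = 1 ∨ V.valuation ((B : ℤ) : Qbar) = 1 := by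
  obtain ⟨u, v, huv⟩ := h
  have hA := H63.val_intCast_le_one V A
  have hB := H63.val_intCast_le_one V B
  have hu := H63.val_intCast_le_one V u
  have hv := H63.val_intCast_le_one V v
  by_contra hcon
  rw [not_or] at hcon
  have hA' : V.valuation ((A : ℤ) : Qbar) < 1 := lt_of_le_of_ne hA hcon.1
  have hB' : V.valuation ((B : ℤ) : Qbar) < 1 := lt_of_le_of_ne hB hcon.2
  have h1 : V.valuation (((u * A + v * B : ℤ)) : Qbar) < 1 := by
    push_cast
    refine lt_of_le_of_lt (V.valuation.map_add _ _) (max_lt ?_ ?_)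
    · rw [map_mul]
      calc V.valuation ((u : ℤ) : Qbar) * V.valuation ((A : ℤ) : Qbar)
          ≤ 1 * V.valuation ((A : ℤ) : Qbar) := by gcongr
        _ = V.valuation ((A : ℤ) : Qbar) := one_mul _
        _ < 1 := hA'
    · rw [map_mul]
      calc V.valuation ((v : ℤ) : Qbar) * V.valuation ((B : ℤ) : Qbar)
          ≤ 1 * V.valuation ((B : ℤ) : Qbar) := by gcongr
        _ = V.valuation ((B : ℤ) : Qbar) := one_mul _
        _ < 1 := hB'
  rw [huv] at h1
  simp at h1

/-- An integer of valuation `< 1` at `V` over `q` is divisible by `q`. -/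
lemma dvd_of_val_lt_one {V : ValuationSubring Qbar} {q : ℕ} (hq : q.Prime)
    (hV : V.LiesOverPrime q) {n : ℤ} (hn : V.valuation ((n : ℤ) : Qbar) < 1) : (q : ℤ) ∣ n := by
  by_contra hcon
  rw [H63.val_intCast_eq_one_of_not_dvd hq hV hcon] at hn
  exact lt_irrefl _ hn

end cop

/-! ### The assembly -/

section assembly

/-- The image point on the integral model. -/
lemma exists_point (P : FreyPackage) (L : CofLine P) (hhom : Stmt_hom) (Q : Vp P) (hQ : Q ∉ L.N)
    {A B : ℤ} (h : IsFreyPair A B) {μ : ℚ} (hμ : μ ≠ 0)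
    (eqA : ((A : ℤ) : Qbar) = (algebraMap ℚ Qbar μ) ^ 2 * quotA1 P L.N)
    (eqB : ((B : ℤ) : Qbar) = (algebraMap ℚ Qbar μ) ^ 2 * quotB1 P L.N) :
    ∃ (X Y : Qbar) (hns : (freyModelQbar A B).Nonsingular X Y),
      X = (algebraMap ℚ Qbar μ) ^ 2 * quotX1 P L.N Q / 4 ∧
      2 * Y + X = (algebraMap ℚ Qbar μ) ^ 3 * quotY1 P L.N Q / 4 ∧
      (∀ σ : Gal, σ • (Point.some X Y hns : (freyModelQbar A B).Point) = Point.some X Y hns) ∧
      addOrderOf (Point.some X Y hns : (freyModelQbar A B).Point) = P.p := by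
  have hμ' : algebraMap ℚ Qbar μ ≠ 0 :=
    (map_ne_zero_iff _ (algebraMap ℚ Qbar).injective).mpr hμ
  have hvc := isVarChange_quot P L h hμ' eqA eqB
  set m : Qbar := algebraMap ℚ Qbar μ with hm
  have hpt := hvc.addEquiv_some (quot1_nonsingular P L Q hQ)
  set X : Qbar := Fermat.Agent.S05.H14.fx (m / 2) 0 (quotX1 P L.N Q) with hX
  set Y : Qbar := Fermat.Agent.S05.H14.fy (m / 2) (-1 / 2) 0 (quotX1 P L.N Q) (quotY1 P L.N Q)
    with hY
  have hns : (freyModelQbar A B).Nonsingular X Y :=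
    (hvc.nonsingular_iff _ _).2 (quot1_nonsingular P L Q hQ)
  have hXe : X = m ^ 2 * quotX1 P L.N Q / 4 := by
    simp only [hX, Fermat.Agent.S05.H14.fx]
    ring
  have hYe : 2 * Y + X = m ^ 3 * quotY1 P L.N Q / 4 := by
    simp only [hX, hY, Fermat.Agent.S05.H14.fx, Fermat.Agent.S05.H14.fy]
    ring
  refine ⟨X, Y, hns, hXe, hYe, ?_, ?_⟩
  · intro σ
    have hσm : σ m = m := σ.commutes μ
    have hσX : σ X = X := by
      rw [hXe, map_div₀, map_mul, map_pow, hσm, quotX1_fixed, map_ofNat]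
    have hσY : σ Y = Y := by
      have h1 : σ (2 * Y + X) = 2 * Y + X := by
        rw [hYe, map_div₀, map_mul, map_pow, hσm, quotY1_fixed, map_ofNat]
      rw [map_add, map_mul, map_ofNat, hσX] at h1
      have h2 : (2 : Qbar) * σ Y = 2 * Y := add_right_cancel h1
      exact mul_left_cancel₀ two_ne_zero h2
    rw [algEquiv_smul_def, Point.map_some]
    exact Fermat.Agent.S05.H14.IsVarChange.some_congr hσX hσY _ _
  · haveI : Fact P.p.Prime := ⟨P.pp⟩
    apply addOrderOf_eq_prime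
    · have h0 := hhom P L Q hQ
      have h1 : hvc.addEquiv (P.p • quotPoint1 P L Q hQ) = 0 := by
        rw [h0]; exact map_zero _
      rw [map_nsmul] at h1
      exact h1
    · exact Point.some_ne_zero hns

/-- Normalisation: if `(A, B) = m² (A₁, B₁)` are coprime integers and `M = max(|A₁|, |B₁|)`,
then `|m|² M = 1`. -/
lemma norm_of_coprime (V : ValuationSubring Qbar) {A B : ℤ} (hcop : IsCoprime A B)
    {g α β M : V.ValueGroup} (hA : V.valuation ((A : ℤ) : Qbar) = g * α)
    (hB : V.valuation ((B : ℤ) : Qbar) = g * β) (hα : α ≤ M) (hβ : β ≤ M)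
    (hM : α = M ∨ β = M) : g * M = 1 := by
  have hA1 := H63.val_intCast_le_one V A
  have hB1 := H63.val_intCast_le_one V B
  apply le_antisymm
  · rcases hM with h | h
    · rw [← h, ← hA]; exact hA1
    · rw [← h, ← hB]; exact hB1
  · rcases val_eq_one_of_isCoprime V hcop with h | h
    · rw [← h, hA]
      exact mul_le_mul_right hα g
    · rw [← h, hB]
      exact mul_le_mul_right hβ g

lemma cm3 {Γ : Type*} [CommMonoid Γ] (g a b c : Γ) :
    g * a * (g * b) * (g * c) = g ^ 3 * (a * b * c) := by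
  rw [pow_succ, pow_two]
  ac_rfl

lemma cm6 {Γ : Type*} [CommMonoid Γ] (v M : Γ) :
    v ^ (3 * 2) * (M * M * M) = (v ^ 2) ^ 3 * M ^ 3 := by
  rw [← pow_mul, mul_comm 3 2, pow_succ M, pow_two M]

/-- An integer divisible by `q` has valuation `< 1` at `V` over `q`. -/
lemma val_lt_one_of_dvd {V : ValuationSubring Qbar} {q : ℕ} (hV : V.LiesOverPrime q) {n : ℤ}
    (hn : (q : ℤ) ∣ n) : V.valuation ((n : ℤ) : Qbar) < 1 := by
  obtain ⟨k, rfl⟩ := hn
  have hq : V.valuation ((q : ℕ) : Qbar) < 1 := H63.val_lt_one_of_mem_nonunits hV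
  push_cast
  rw [map_mul]
  calc V.valuation ((q : ℕ) : Qbar) * V.valuation ((k : ℤ) : Qbar)
      ≤ V.valuation ((q : ℕ) : Qbar) * 1 := mul_le_mul_right (H63.val_intCast_le_one V k) _
    _ = V.valuation ((q : ℕ) : Qbar) := mul_one _
    _ < 1 := hq

/-- The valuations of the entries of the triple. -/
lemma val_quot (P : FreyPackage) (L : CofLine P) (V : ValuationSubring Qbar) :
    V.valuation (quotA1 P L.N) =
      V.valuation ((P.a : ℤ) : Qbar) ^ (P.p * P.p) * V.valuation (Fermat.Agent.S12.Xi P L.N 2) ^ 2 ∧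
    V.valuation (quotB1 P L.N) =
      V.valuation ((P.b : ℤ) : Qbar) ^ (P.p * P.p) * V.valuation (Fermat.Agent.S12.Xi P L.N 1) ^ 2 ∧
    V.valuation (quotC1 P L.N) =
      V.valuation ((P.c : ℤ) : Qbar) ^ (P.p * P.p) * V.valuation (Fermat.Agent.S12.Xi P L.N 0) ^ 2 := by
  refine ⟨?_, ?_, ?_⟩
  · rw [quotA1, map_mul, map_pow, map_pow, map_pow, ← pow_mul]
  · rw [quotB1, map_mul, map_pow, map_pow, map_pow, ← pow_mul]
  · rw [quotC1, map_mul, map_pow, map_pow, map_pow, ← pow_mul]

/-- **STAR** from Mazur's key step and the packages. -/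
theorem stmt_star_of_inputs (h15 : Stmt_S15) (hhom : Stmt_hom) (hzc : Stmt_zc_small)
    (hvalB : Stmt_val_B) (hthree : Stmt_three) (hstar3 : Stmt_star_three) : Stmt_star := by
  classical
  intro P hp17 L ℓ hℓ hℓ5 hℓp hℓabc V₀ hV₀
  by_contra hnf
  have hℓ2 : ℓ ≠ 2 := by omega
  haveI : Finite (Vp P) := (frey_card P).1
  -- a point outside `N`
  obtain ⟨Q, hQ⟩ : ∃ Q : Vp P, Q ∉ L.N := by
    by_contra hcon
    simp only [not_exists, not_not] at hcon
    exact L.ne_top (Submodule.eq_top_iff'.mpr hcon)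
  -- the integral model
  obtain ⟨μ, A, B, hμ, hAB, eqA, eqB⟩ := stmt_model_arith P L
  set m : Qbar := algebraMap ℚ Qbar μ with hm
  have eqC : (((A + B : ℤ)) : Qbar) = m ^ 2 * quotC1 P L.N := by
    rw [← quotA1_add_quotB1 P L, mul_add, ← eqA, ← eqB]
    push_cast
    ring
  obtain ⟨X, Y, hns, hXe, hYe, hfix, hord⟩ := exists_point P L hhom Q hQ hAB hμ eqA eqB
  have hp11 : 11 ≤ P.p := by omega
  have hcab : IsCoprime P.a P.b := isCoprime_of_gcd P.hgcdab
  -- at `2`
  have h2 : ∀ V : ValuationSubring Qbar, V.LiesOverPrime 2 →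
      ¬ (freyModel A B).InZeroComponentAt V (Point.some X Y hns) :=
    fun V hV => hzc A B hAB P.p P.pp hp11 _ hfix hord 2 (Or.inl rfl) V hV
  -- at `3`: `3 ∣ A B (A + B)`
  have h3dvd : (3 : ℤ) ∣ A * B * (A + B) := by
    obtain ⟨V₃, hV₃⟩ := Fermat.Agent.Lib.FrobExists.exists_liesOverPrime 3 Nat.prime_three
    have habc3 := hthree P hp11 L
    have hnf3 := hstar3 P hp11 L V₃ hV₃
    have hp3 : (3 : ℕ) ≠ P.p := by omega
    have hunit := H87.stmt_unit_of_nodeFree P L 3 Nat.prime_three (by norm_num) hp3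
      (by exact_mod_cast habc3) V₃ hV₃ hnf3
    have hΞ : ∀ i, V₃.valuation (Fermat.Agent.S12.Xi P L.N i) = 1 :=
      fun i => H67.val_Xi_eq_one_of_unitType P L.N V₃ hunit i
    obtain ⟨vA, vB, vC⟩ := val_quot P L V₃
    rw [hΞ, one_pow, mul_one] at vA vB vC
    have hla := H63.val_intCast_le_one V₃ P.a
    have hlb := H63.val_intCast_le_one V₃ P.b
    have hvA : V₃.valuation ((A : ℤ) : Qbar) = V₃.valuation m ^ 2 * V₃.valuation (quotA1 P L.N) := by
      rw [eqA, map_mul, map_pow]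
    have hvB : V₃.valuation ((B : ℤ) : Qbar) = V₃.valuation m ^ 2 * V₃.valuation (quotB1 P L.N) := by
      rw [eqB, map_mul, map_pow]
    have hvC : V₃.valuation (((A + B : ℤ)) : Qbar) =
        V₃.valuation m ^ 2 * V₃.valuation (quotC1 P L.N) := by
      rw [eqC, map_mul, map_pow]
    have hg : V₃.valuation m ^ 2 * 1 = 1 := by
      apply norm_of_coprime V₃ hAB.cop hvA hvB
      · rw [vA]; exact pow_le_one₀ zero_le hla
      · rw [vB]; exact pow_le_one₀ zero_le hlb
      · rcases val_eq_one_of_isCoprime V₃ hcab with h | h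
        · left; rw [vA, h, one_pow]
        · right; rw [vB, h, one_pow]
    rw [mul_one] at hg
    apply dvd_of_val_lt_one Nat.prime_three hV₃
    have hprod : V₃.valuation (((A * B * (A + B) : ℤ)) : Qbar) =
        V₃.valuation (((P.a * P.b * P.c : ℤ)) : Qbar) ^ (P.p * P.p) := by
      have e : (((A * B * (A + B) : ℤ)) : Qbar) =
          ((A : ℤ) : Qbar) * ((B : ℤ) : Qbar) * (((A + B : ℤ)) : Qbar) := by push_cast; ring
      rw [e, map_mul, map_mul, hvA, hvB, hvC, hg, one_mul, one_mul, one_mul, vA, vB, vC,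
        ← mul_pow, ← mul_pow, ← map_mul, ← map_mul]
      push_cast
      rfl
    rw [hprod]
    exact pow_lt_one₀ zero_le (val_lt_one_of_dvd hV₃ (by exact_mod_cast habc3))
      (Nat.mul_ne_zero P.hp0 P.hp0)
  have h3 : ∀ V : ValuationSubring Qbar, V.LiesOverPrime 3 →
      ¬ (freyModel A B).InZeroComponentAt V (Point.some X Y hns) :=
    fun V hV => hzc A B hAB P.p P.pp hp11 _ hfix hord 3 (Or.inr ⟨rfl, h3dvd⟩) V hV
  -- at `ℓ`
  obtain ⟨M, hA1, hB1, hC1, hmax, hx, hxA, hxB, hlt⟩ :=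
    hvalB P L ℓ hℓ hℓ2 hℓp hℓabc V₀ hV₀ hnf Q hQ
  have hvA : V₀.valuation ((A : ℤ) : Qbar) = V₀.valuation m ^ 2 * V₀.valuation (quotA1 P L.N) := by
    rw [eqA, map_mul, map_pow]
  have hvB : V₀.valuation ((B : ℤ) : Qbar) = V₀.valuation m ^ 2 * V₀.valuation (quotB1 P L.N) := by
    rw [eqB, map_mul, map_pow]
  have hvC : V₀.valuation (((A + B : ℤ)) : Qbar) =
      V₀.valuation m ^ 2 * V₀.valuation (quotC1 P L.N) := by
    rw [eqC, map_mul, map_pow]
  have hg : V₀.valuation m ^ 2 * M = 1 := norm_of_coprime V₀ hAB.cop hvA hvB hA1 hB1 hmax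
  have hg3 : (V₀.valuation m ^ 2) ^ 3 * M ^ 3 = 1 := by rw [← mul_pow, hg, one_pow]
  have hℓdvd : (ℓ : ℤ) ∣ A * B * (A + B) := by
    apply dvd_of_val_lt_one hℓ hV₀
    have e : (((A * B * (A + B) : ℤ)) : Qbar) =
        ((A : ℤ) : Qbar) * ((B : ℤ) : Qbar) * (((A + B : ℤ)) : Qbar) := by push_cast; ring
    have hm0 : 0 < (V₀.valuation m ^ 2) ^ 3 := by
      apply pow_pos
      apply pow_pos
      rw [zero_lt_iff, Ne, map_eq_zero]
      exact (map_ne_zero_iff _ (algebraMap ℚ Qbar).injective).mpr hμ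
    rw [e, map_mul, map_mul, hvA, hvB, hvC, ← hg3]
    calc V₀.valuation m ^ 2 * V₀.valuation (quotA1 P L.N) *
          (V₀.valuation m ^ 2 * V₀.valuation (quotB1 P L.N)) *
          (V₀.valuation m ^ 2 * V₀.valuation (quotC1 P L.N))
        = (V₀.valuation m ^ 2) ^ 3 *
          V₀.valuation (quotA1 P L.N * quotB1 P L.N * quotC1 P L.N) := by
          rw [map_mul, map_mul, cm3]
      _ < (V₀.valuation m ^ 2) ^ 3 * M ^ 3 := (mul_lt_mul_iff_right₀ hm0).mpr hlt
  have hℓΔ : (ℓ : ℤ) ∣ (freyModel A B).Δ := freyModel_dvd_Δ hAB hℓ hℓ2 hℓdvd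
  have hℓc₄ : ¬ (ℓ : ℤ) ∣ (freyModel A B).c₄ :=
    freyModel_not_dvd_c₄ hAB (Nat.prime_iff_prime_int.mp hℓ) hℓdvd
  have h3Δ : (3 : ℤ) ∣ (freyModel A B).Δ :=
    freyModel_dvd_Δ hAB Nat.prime_three (by norm_num) (by exact_mod_cast h3dvd)
  have h3c₄ : ¬ (3 : ℤ) ∣ (freyModel A B).c₄ :=
    freyModel_not_dvd_c₄ hAB (by exact_mod_cast Nat.prime_iff_prime_int.mp Nat.prime_three) h3dvd
  have hpn : P.p ∉ ({2, 3, 5, 7, 13} : Finset ℕ) := by
    simp only [Finset.mem_insert, Finset.mem_singleton]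
    omega
  -- Mazur
  have hmazur := h15 P.pp hpn (freyModel A B) (freyModel_Δ_ne_zero hAB) (Point.some X Y hns) hfix
    hord (freyModel_two_dvd_Δ hAB) (freyModel_two_not_dvd_c₄ hAB) h2 h3Δ h3c₄ h3 hℓ hℓp hℓΔ hℓc₄
    V₀ hV₀
  apply hmazur
  -- the point lies in the identity component
  have h2u : V₀.valuation (2 : Qbar) = 1 := by
    have : ¬ (ℓ : ℤ) ∣ 2 := by
      intro h
      have h' : ℓ ∣ 2 := by exact_mod_cast h
      have := Nat.le_of_dvd (by norm_num) h'
      omega
    have := H63.val_intCast_eq_one_of_not_dvd hℓ hV₀ this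
    simpa using this
  have h4u : V₀.valuation (4 : Qbar) = 1 := by
    have : (4 : Qbar) = 2 * 2 := by norm_num
    rw [this, map_mul, h2u, one_mul]
  have hXv : V₀.valuation X = 1 := by
    rw [hXe, map_div₀, map_mul, map_pow, hx, h4u, div_one, hg]
  have hYXv : V₀.valuation (2 * Y + X) = 1 := by
    have hsq : V₀.valuation (2 * Y + X) ^ 2 = 1 := by
      have h16u : V₀.valuation (16 : Qbar) = 1 := by
        have : (16 : Qbar) = 4 * 4 := by norm_num
        rw [this, map_mul, h4u, one_mul]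
      have e : (2 * Y + X) ^ 2 = (m ^ 2) ^ 3 * (quotX1 P L.N Q *
          (quotX1 P L.N Q - quotA1 P L.N) * (quotX1 P L.N Q + quotB1 P L.N)) / 16 := by
        rw [hYe, div_pow, mul_pow, quot1_equation P L Q hQ]
        ring
      rw [← map_pow, e, map_div₀, map_mul, map_pow, map_pow, map_mul, map_mul, hx, hxA, hxB,
        h16u, div_one]
      have : M * M * M = M ^ 3 := by rw [pow_succ, pow_two]
      rw [this]
      exact hg3
    rcases lt_trichotomy (V₀.valuation (2 * Y + X)) 1 with h | h | h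
    · exact absurd hsq (ne_of_lt (pow_lt_one₀ zero_le h (by norm_num)))
    · exact h
    · exact absurd hsq (ne_of_gt (one_lt_pow₀ h (by norm_num)))
  have hYv : V₀.valuation Y ≤ 1 := by
    have e : 2 * Y = (2 * Y + X) - X := by ring
    have h1 : V₀.valuation (2 * Y) ≤ 1 := by
      rw [e]
      refine le_trans (V₀.valuation.map_sub _ _) (max_le hYXv.le hXv.le)
    rwa [map_mul, h2u, one_mul] at h1
  exact inZeroComponentAt_of_unit V₀ hns hXv.le hYv hYXv

end assembly

end Fermat.Agent.S12.H11
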