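/-
S12, package HOM (helper63): `p • Q' = 0` for the image `Q' = quotPoint1 P L Q` of a point
`Q ∈ E[p] ∖ N` on the explicit quotient curve (`Stmt_hom` of `H11_StarDefs.lean`).

Proof: the abstract theorem `smul_eq_zero_of_normTheta_on` (x-only ladder + norm relation),
with the root data coming from helper11's root counting `H11.RC`.
-/
import Fermat.Agent.S12.H11_StarDefs
import Fermat.Agent.S12.H63_HomPoint

set_option autoImplicit false

namespace Fermat.Agent.S12.H63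

open WeierstrassCurve WeierstrassCurve.Affine WeierstrassCurve.Affine.Point
open Fermat.Agent.S13 Fermat.Agent.Lib.Torsion.H11 Fermat.Agent.Lib.Torsion.H63
  Fermat.Agent.S12.H11

set_option linter.style.haveILetI false

/-- The quotient curve has 2-division polynomial `4 x (x - A₁) (x + B₁)`. -/
lemma twoTors_quotCurve1 (P : FreyPackage) (N : Submodule (ZMod P.p) (Vp P)) :
    TwoTors (quotCurve1 P N) (0 : Qbar) (quotA1 P N) (-(quotB1 P N)) := by
  refine ⟨two_ne_zero, ?_, ?_, ?_⟩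
  · simp only [WeierstrassCurve.b₂, quotCurve1]; ring
  · simp only [WeierstrassCurve.b₄, quotCurve1]; ring
  · simp only [WeierstrassCurve.b₆, quotCurve1]; ring

/-- The coercion `E[p] → E(Q̄)` commutes with `k • ·`. -/
lemma coe_nsmul_Vp (P : FreyPackage) (k : ℕ) (Q : Vp P) :
    ((k • Q : Vp P) : (P.freyCurve⁄Qbar).Point) = k • (Q : (P.freyCurve⁄Qbar).Point) := by
  simp

/-- `p • Q = 0` for `Q ∈ E[p]`. -/
lemma p_nsmul_coe (P : FreyPackage) (Q : Vp P) :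
    P.p • (Q : (P.freyCurve⁄Qbar).Point) = 0 := by
  have := Q.2
  rw [Submodule.mem_torsionBy_iff] at this
  rw [← natCast_zsmul]
  exact this

/-- The multiples `k • Q`, `0 < k < p`, of a point `Q ∈ E[p] ∖ N` lie outside `N`. -/
lemma nsmul_not_mem (P : FreyPackage) (N : Submodule (ZMod P.p) (Vp P)) (Q : Vp P)
    (hQ : Q ∉ N) (k : ℕ) (hk0 : 0 < k) (hkp : k < P.p) : k • Q ∉ N := by
  intro h
  apply hQ
  haveI : Fact P.p.Prime := ⟨P.pp⟩
  have hk : ((k : ℕ) : ZMod P.p) ≠ 0 := by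
    intro h0
    rw [ZMod.natCast_eq_zero_iff] at h0
    exact absurd (Nat.le_of_dvd hk0 h0) (by omega)
  have h1 : ((k : ℕ) : ZMod P.p) • Q ∈ N := by
    rw [Nat.cast_smul_eq_nsmul]
    exact h
  have h2 := N.smul_mem (((k : ℕ) : ZMod P.p)⁻¹) h1
  rw [smul_smul, inv_mul_cancel₀ hk, one_smul] at h2
  exact h2

/-- `Θ_i(T) ≠ 0` for a generic point `T`. -/
lemma theta_ne_zero {K : Type*} [Field K] [DecidableEq K] (W : Affine K)
    (N : AddSubgroup W.Point) [Fintype N] {e e' e'' : K} (H : TwoTors W e e' e'')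
    {T : W.Point} (h2T : (2 : ℕ) • T ∉ N) : theta W N e T ≠ 0 := by
  unfold theta
  rw [Finset.prod_ne_zero_iff]
  intro R _ h0
  apply h2T
  have h1 := two_nsmul_eq_zero_of_xc_eq W H (sub_eq_zero.mp h0)
  have h2 : (2 : ℕ) • T = -((2 : ℕ) • (R : W.Point)) := by
    rw [nsmul_add] at h1
    exact eq_neg_of_add_eq_zero_left h1
  rw [h2]
  exact N.neg_mem (N.nsmul_mem R.2 2)

/-- **(HOM)** `p • Q' = 0`. -/
theorem stmt_hom : Stmt_hom := by
  classical
  intro P L Q hQ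
  haveI := finite_lineSub P L.N
  letI : Fintype (lineSub P L.N) := Fintype.ofFinite _
  have hcard := card_lineSub P L.N L.ne_bot L.ne_top
  have hodd : Odd (Fintype.card (lineSub P L.N)) := hcard ▸ P.hp_odd
  have ha : (P.a : Qbar) ≠ 0 := by exact_mod_cast P.ha0
  have hb : (P.b : Qbar) ≠ 0 := by exact_mod_cast P.hb0
  have hc : (P.c : Qbar) ≠ 0 := by exact_mod_cast P.hc0
  have h4 : (4 : Qbar) ≠ 0 := by norm_num
  have hFLT : (P.a : Qbar) ^ P.p + (P.b : Qbar) ^ P.p = (P.c : Qbar) ^ P.p := by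
    exact_mod_cast P.hFLT
  have H := frey_twoTors P
  have hne01 : (0 : Qbar) ≠ (P.a : Qbar) ^ P.p / 4 :=
    (div_ne_zero (pow_ne_zero _ ha) h4).symm
  have hne02 : (0 : Qbar) ≠ -((P.b : Qbar) ^ P.p) / 4 :=
    (div_ne_zero (neg_ne_zero.mpr (pow_ne_zero _ hb)) h4).symm
  have hne12 : (P.a : Qbar) ^ P.p / 4 ≠ -((P.b : Qbar) ^ P.p) / 4 := by
    intro h
    apply pow_ne_zero P.p hc
    rw [← hFLT]
    field_simp at h
    linear_combination h
  -- the Ξ's
  have hX0 := Xi_ne_zero' P L 0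
  have hX1 := Xi_ne_zero' P L 1
  have hX2 := Xi_ne_zero' P L 2
  have h4p : (4 : Qbar) ^ P.p ≠ 0 := pow_ne_zero _ h4
  -- root data, rescaled
  have D₀ := (rootData (P.freyCurve⁄Qbar) (lineSub P L.N) H hodd hne01 hne02).rescale
    (c' := (Fermat.Agent.S12.Xi P L.N 1 * Fermat.Agent.S12.Xi P L.N 2 * 4 ^ P.p)⁻¹)
    (inv_ne_zero (mul_ne_zero (mul_ne_zero hX1 hX2) h4p))
  have D₁ := (rootData (P.freyCurve⁄Qbar) (lineSub P L.N) H.perm12 hodd hne01.symm
    hne12).rescale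
    (c' := (Fermat.Agent.S12.Xi P L.N 0 * Fermat.Agent.S12.Xi P L.N 2 * 4 ^ P.p)⁻¹)
    (inv_ne_zero (mul_ne_zero (mul_ne_zero hX0 hX2) h4p))
  have H' := twoTors_quotCurve1 P L.N
  have hpow : ∀ x : Qbar, (x / 4) ^ P.p * (4 ^ P.p) = x ^ P.p := by
    intro x
    rw [div_pow]
    field_simp
  -- the multiples of `Q`
  have hPN : ∀ k, 0 < k → k < P.p →
      k • (Q : (P.freyCurve⁄Qbar).Point) ∉ lineSub P L.N := by
    intro k hk0 hkp h
    rw [← coe_nsmul_Vp, coe_mem_lineSub] at h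
    exact nsmul_not_mem P L.N Q hQ k hk0 hkp h
  have hgen := generic_of_not_mem P L.N Q hQ
  unfold quotPoint1
  refine smul_eq_zero_of_normTheta_on (W := (P.freyCurve⁄Qbar)) (W' := quotCurve1 P L.N)
    (e₀' := 0) (e₁' := quotA1 P L.N)
    (lineSub P L.N) D₀ D₁ ?_ ?_ ?_ (fun T => quotX1 P L.N T) P.p
    (by have := P.hp5; omega) (Q : (P.freyCurve⁄Qbar).Point) (p_nsmul_coe P Q) hPN ?_ ?_
    (quot1_nonsingular P L Q hQ) ?_
  · -- `hM₀`
    intro u v
    rw [H'.symF_root, hcard]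
    congr 2
    unfold quotA1 quotB1
    have e1 := hpow ((P.a : Qbar) ^ P.p)
    have e2 := hpow ((P.b : Qbar) ^ P.p)
    have hd : ((0 - (P.a : Qbar) ^ P.p / 4) * (0 - -((P.b : Qbar) ^ P.p) / 4)) ^ P.p =
        -(((P.a : Qbar) ^ P.p / 4) ^ P.p * ((P.b : Qbar) ^ P.p / 4) ^ P.p) := by
      have : (0 - (P.a : Qbar) ^ P.p / 4) * (0 - -((P.b : Qbar) ^ P.p) / 4) =
          -(((P.a : Qbar) ^ P.p / 4) * ((P.b : Qbar) ^ P.p / 4)) := by ring
      rw [this, P.hp_odd.neg_pow, mul_pow]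
    rw [hd, inv_pow, div_inv_eq_mul]
    linear_combination (Fermat.Agent.S12.Xi P L.N 1 ^ 2 * Fermat.Agent.S12.Xi P L.N 2 ^ 2) *
      (((P.a : Qbar) ^ P.p / 4) ^ P.p * 4 ^ P.p * e2 + ((P.b : Qbar) ^ P.p) ^ P.p * e1)
  · -- `hM₁`
    intro u v
    rw [H'.perm12.symF_root, hcard]
    congr 2
    have hC := quotA1_add_quotB1 P L
    unfold quotA1 quotB1 quotC1 at hC
    unfold quotA1 quotB1
    have e1 := hpow ((P.a : Qbar) ^ P.p)
    have e3 := hpow ((P.c : Qbar) ^ P.p)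
    have hd : (((P.a : Qbar) ^ P.p / 4 - 0) *
        ((P.a : Qbar) ^ P.p / 4 - -((P.b : Qbar) ^ P.p) / 4)) ^ P.p =
        ((P.a : Qbar) ^ P.p / 4) ^ P.p * ((P.c : Qbar) ^ P.p / 4) ^ P.p := by
      have : ((P.a : Qbar) ^ P.p / 4 - 0) *
          ((P.a : Qbar) ^ P.p / 4 - -((P.b : Qbar) ^ P.p) / 4) =
          ((P.a : Qbar) ^ P.p / 4) * ((P.c : Qbar) ^ P.p / 4) := by
        rw [← hFLT]; ring
      rw [this, mul_pow]
    rw [hd, inv_pow, div_inv_eq_mul]
    linear_combination (((P.a : Qbar) ^ P.p) ^ P.p * Fermat.Agent.S12.Xi P L.N 2 ^ 2) * hC -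
      (Fermat.Agent.S12.Xi P L.N 0 ^ 2 * Fermat.Agent.S12.Xi P L.N 2 ^ 2) *
      (((P.a : Qbar) ^ P.p / 4) ^ P.p * 4 ^ P.p * e3 + ((P.c : Qbar) ^ P.p) ^ P.p * e1)
  · -- `e₀' ≠ e₁'`
    exact (quotA1_ne_zero P L).symm
  · -- `hξ₀`
    intro k hk0 hkp
    have hk := hPN k hk0 hkp
    unfold quotX1
    rw [ThetaS_eq P L.N L.ne_bot L.ne_top 0 hk, eRoot_zero, ← theta_eq_normTheta, zero_add,
      div_inv_eq_mul]
    ring
  · -- `hξ₁`
    intro k hk0 hkp
    have hk := hPN k hk0 hkp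
    have hkN : k • Q ∉ L.N := nsmul_not_mem P L.N Q hQ k hk0 hkp
    have h := quotX1_sub_A1 P L (k • Q) hkN
    rw [coe_nsmul_Vp] at h
    rw [ThetaS_eq P L.N L.ne_bot L.ne_top 1 hk, eRoot_one] at h
    rw [← theta_eq_normTheta, div_inv_eq_mul]
    linear_combination h
  · -- `y' ≠ negY`
    have hy : quotY1 P L.N Q ≠ 0 := by
      intro h0
      have heq := quot1_equation P L Q hQ
      rw [h0, quotX1_sub_A1 P L Q hQ, quotX1_add_B1 P L Q hQ] at heq
      unfold quotX1 at heq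
      rw [ThetaS_eq P L.N L.ne_bot L.ne_top 0 hgen.1, ThetaS_eq P L.N L.ne_bot L.ne_top 1 hgen.1,
        ThetaS_eq P L.N L.ne_bot L.ne_top 2 hgen.1, eRoot_zero, eRoot_one, eRoot_two] at heq
      have t0 := theta_ne_zero (P.freyCurve⁄Qbar) (lineSub P L.N) H hgen.2
      have t1 := theta_ne_zero (P.freyCurve⁄Qbar) (lineSub P L.N) H.perm12 hgen.2
      have t2 := theta_ne_zero (P.freyCurve⁄Qbar) (lineSub P L.N) H.rot.rot hgen.2
      have : Fermat.Agent.S12.Xi P L.N 1 * Fermat.Agent.S12.Xi P L.N 2 *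
          (4 ^ P.p * theta (P.freyCurve⁄Qbar) (lineSub P L.N) 0 Q) *
          (Fermat.Agent.S12.Xi P L.N 0 * Fermat.Agent.S12.Xi P L.N 2 *
          (4 ^ P.p * theta (P.freyCurve⁄Qbar) (lineSub P L.N) ((P.a : Qbar) ^ P.p / 4) Q)) *
          (Fermat.Agent.S12.Xi P L.N 0 * Fermat.Agent.S12.Xi P L.N 1 *
          (4 ^ P.p * theta (P.freyCurve⁄Qbar) (lineSub P L.N)
            (-((P.b : Qbar) ^ P.p) / 4) Q)) ≠ 0 := by
        repeat' apply mul_ne_zero
        all_goals assumption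
      apply this
      rw [← heq]
      ring
    intro h
    apply hy
    have hneg : (quotCurve1 P L.N).negY (quotX1 P L.N Q) (quotY1 P L.N Q) = -quotY1 P L.N Q := by
      simp [Affine.negY, quotCurve1]
    rw [hneg] at h
    have h2 : (2 : Qbar) * quotY1 P L.N Q = 0 := by linear_combination h
    rcases mul_eq_zero.mp h2 with h3 | h3
    · exact absurd h3 two_ne_zero
    · exact h3

end Fermat.Agent.S12.H63
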