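/-
S12, packages THREE and STAR-3 (helper66), part 1: abstract lemmas.

* `pigeonhole3` : on the model curve `y² = x³ + a x² + b x` (`ModelHyp A W` of S05), a point `Q`
  of prime order `p ≥ 11` (`|p| = 1`) all of whose nonzero multiples have `|x| ≥ 1` and
  coordinates in a set `R` of elements with at most three residue classes, is zero.
  (Residue characteristic `3`, `R` = elements fixed by a Frobenius: `#Ẽ_ns(𝔽₃) ≤ 9 < p - 1`.)
* `exists_mul_pow_mem_zpowers` : in a commutative group without `p`-torsion the `p`-torsion of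
  `G / ⟨g⟩` is cyclic.
-/
import Fermat.Agent.S12.H87_LocalOdd

set_option autoImplicit false

namespace Fermat.Agent.S12.H66

open WeierstrassCurve WeierstrassCurve.Affine WeierstrassCurve.Affine.Point
open Fermat.Agent.S05

section pigeon

variable {L : Type*} [Field L] [DecidableEq L] {A : ValuationSubring L} {W : Affine L}

/-- In a group, a nonzero element killed by a prime `p` is not killed by `0 < k < p`. -/
lemma nsmul_ne_zero_of_lt {G : Type*} [AddGroup G] {Q : G} {p : ℕ} (hp : p.Prime)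
    (hpQ : p • Q = 0) (hQ : Q ≠ 0) {k : ℕ} (hk0 : 0 < k) (hkp : k < p) : k • Q ≠ 0 := by
  intro h
  have h1 : addOrderOf Q ∣ p := addOrderOf_dvd_of_nsmul_eq_zero hpQ
  have h2 : addOrderOf Q ∣ k := addOrderOf_dvd_of_nsmul_eq_zero h
  rcases (Nat.dvd_prime hp).1 h1 with h3 | h3
  · exact hQ (AddMonoid.addOrderOf_eq_one_iff.1 h3)
  · rw [h3] at h2
    exact absurd (Nat.le_of_dvd hk0 h2) (not_le.2 hkp)

/-- The reduction data of a nonzero multiple `k • Q`, `0 < k < p`. -/
lemma pg3_data (hyp : ModelHyp A W) (R : Set L) (c : Fin 3 → L)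
    (hR : ∀ r ∈ R, A.valuation r ≤ 1 → ∃ i : Fin 3, A.valuation (r - c i) < 1)
    {p : ℕ} (hp : p.Prime) (hpu : A.valuation (p : L) = 1)
    (Q : W.Point) (hpQ : p • Q = 0)
    (hRQ : ∀ (k : ℕ) (x y : L) (h : W.Nonsingular x y), k • Q = .some x y h →
      1 ≤ A.valuation x ∧ x ∈ R ∧ y ∈ R)
    (hQ : Q ≠ 0) {k : ℕ} (hk0 : 0 < k) (hkp : k < p) :
    ∃ (x y : L) (h : W.Nonsingular x y) (i j : Fin 3), k • Q = .some x y h ∧
      A.valuation x = 1 ∧ A.valuation (x - c i) < 1 ∧ A.valuation (y - c j) < 1 := by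
  have hk : k • Q ≠ 0 := nsmul_ne_zero_of_lt hp hpQ hQ hk0 hkp
  have hpk : p • (k • Q) = 0 := by
    rw [smul_comm, hpQ, smul_zero]
  have hRk := hRQ k
  generalize k • Q = P at hk hpk hRk
  rcases P with _ | ⟨x, y, h⟩
  · exact absurd rfl hk
  obtain ⟨hx1, hxR, hyR⟩ := hRk x y h rfl
  have hx2 : A.valuation x ≤ 1 := H87.val_x_le_one_of_torsion hyp h p hpu hpk
  have hx : A.valuation x = 1 := le_antisymm hx2 hx1
  have hy : A.valuation y ≤ 1 :=
    S05.H87.val_y_le_one hyp.a_le hyp.b_le hx (S05.H87.model_equation hyp h)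
  obtain ⟨i, hi⟩ := hR x hxR hx2
  obtain ⟨j, hj⟩ := hR y hyR hy
  exact ⟨x, y, h, i, j, rfl, hx, hi, hj⟩

/-- Two multiples `j • Q`, `i • Q` (`i < j < p`) with the same reduction: contradiction. -/
lemma pg3_clash (hyp : ModelHyp A W) {p : ℕ} (hp : p.Prime) (hpu : A.valuation (p : L) = 1)
    (Q : W.Point) (hpQ : p • Q = 0) (hQ : Q ≠ 0) {i j : ℕ} (hij : i < j) (hjp : j < p)
    {x y x' y' : L} {h : W.Nonsingular x y} {h' : W.Nonsingular x' y'}
    (hj : j • Q = .some x y h) (hi : i • Q = .some x' y' h')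
    (hx : A.valuation x = 1) (hx' : A.valuation x' = 1) (hxx : A.valuation (x - x') < 1)
    (hyy : A.valuation (y - y') < 1) : False := by
  have h1 : S05.InE1 A (Point.some x y h - Point.some x' y' h') :=
    H87.sameRed_sub_inE1 hyp h' h hx' hx hxx hyy
  have h2 : Point.some x y h - Point.some x' y' h' = (j - i) • Q := by
    rw [← hj, ← hi, sub_eq_add_neg, ← sub_nsmul _ hij.le]
  rw [h2] at h1
  have h3 : (j - i) • Q ≠ 0 :=
    nsmul_ne_zero_of_lt hp hpQ hQ (Nat.sub_pos_of_lt hij) (lt_of_le_of_lt (Nat.sub_le _ _) hjp)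
  have h4 : p • ((j - i) • Q) = 0 := by rw [smul_comm, hpQ, smul_zero]
  exact S05.H5.F1 A W hyp _ h1 h3 p hpu h4

omit [DecidableEq L] in
lemma pg3_sub_lt {u w c : L} (hu : A.valuation (u - c) < 1)
    (hw : A.valuation (w - c) < 1) : A.valuation (u - w) < 1 := by
  have : u - w = (u - c) - (w - c) := by ring
  rw [this]
  exact Valuation.map_sub_lt _ hu hw

/-- **Pigeonhole at `3`.**  A point `Q` of prime order `p ≥ 11`, `|p| = 1`, all of whose affine
multiples have `|x| ≥ 1` and coordinates in `R` (a set whose integral elements fall into at most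
three residue classes), is zero. -/
theorem pigeonhole3 (hyp : ModelHyp A W) (R : Set L) (c : Fin 3 → L)
    (hR : ∀ r ∈ R, A.valuation r ≤ 1 → ∃ i : Fin 3, A.valuation (r - c i) < 1)
    {p : ℕ} (hp : p.Prime) (hp11 : 11 ≤ p) (hpu : A.valuation (p : L) = 1)
    (Q : W.Point) (hpQ : p • Q = 0)
    (hRQ : ∀ (k : ℕ) (x y : L) (h : W.Nonsingular x y), k • Q = .some x y h →
      1 ≤ A.valuation x ∧ x ∈ R ∧ y ∈ R) :
    Q = 0 := by
  by_contra hQ
  have data : ∀ k : Fin 10, ∃ (x y : L) (h : W.Nonsingular x y) (i j : Fin 3),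
      (k.val + 1) • Q = .some x y h ∧
      A.valuation x = 1 ∧ A.valuation (x - c i) < 1 ∧ A.valuation (y - c j) < 1 := fun k =>
    pg3_data hyp R c hR hp hpu Q hpQ hRQ hQ (Nat.succ_pos _) (by have := k.isLt; omega)
  choose x y h i j hk hx hxi hyj using data
  obtain ⟨k, k', hne, heq⟩ := Fintype.exists_ne_map_eq_of_card_lt
    (fun k : Fin 10 => (i k, j k)) (by simp)
  have hi : i k = i k' := congrArg Prod.fst heq
  have hj : j k = j k' := congrArg Prod.snd heq
  have key : ∀ k k' : Fin 10, k'.val < k.val → i k = i k' → j k = j k' → False := by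
    intro k k' hlt hi hj
    refine pg3_clash hyp hp hpu Q hpQ hQ (i := k'.val + 1) (j := k.val + 1) (by omega)
      (by have := k.isLt; omega) (hk k) (hk k') (hx k) (hx k') ?_ ?_
    · exact pg3_sub_lt (hxi k) (by rw [hi]; exact hxi k')
    · exact pg3_sub_lt (hyj k) (by rw [hj]; exact hyj k')
  rcases lt_or_gt_of_ne (fun hv => hne (Fin.ext hv)) with hlt | hlt
  · exact key k' k hlt hi.symm hj.symm
  · exact key k k' hlt hi hj

end pigeon

section group

/-- In a commutative group `G` in which `x ↦ x ^ p` is injective (`p` prime), the `p`-torsion of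
`G / ⟨g⟩` is cyclic: if `u ^ p, w ^ p ∈ ⟨g⟩` and `u ∉ ⟨g⟩` then `w * u ^ m ∈ ⟨g⟩` for some `m`. -/
theorem exists_mul_pow_mem_zpowers {G : Type*} [CommGroup G] {p : ℕ} (hp : p.Prime)
    (hinj : Function.Injective (fun x : G => x ^ p)) (g u w : G)
    (hu : u ^ p ∈ Subgroup.zpowers g) (hw : w ^ p ∈ Subgroup.zpowers g)
    (hu' : u ∉ Subgroup.zpowers g) : ∃ m : ℕ, w * u ^ m ∈ Subgroup.zpowers g := by
  haveI : Fact p.Prime := ⟨hp⟩
  obtain ⟨a, ha⟩ := Subgroup.mem_zpowers_iff.1 hu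
  obtain ⟨b, hb⟩ := Subgroup.mem_zpowers_iff.1 hw
  -- `p ∤ a`
  have hpa : ((a : ℤ) : ZMod p) ≠ 0 := by
    intro h0
    obtain ⟨a', rfl⟩ := (ZMod.intCast_zmod_eq_zero_iff_dvd a p).1 h0
    apply hu'
    have : u ^ p = (g ^ a') ^ p := by
      rw [← ha, ← zpow_natCast (g ^ a') p, ← zpow_mul, mul_comm]
    rw [hinj this]
    exact Subgroup.zpow_mem _ (Subgroup.mem_zpowers _) _
  -- choose `m` with `m a + b ≡ 0`
  set m : ℕ := (-(b : ZMod p) * ((a : ℤ) : ZMod p)⁻¹).val with hm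
  have hmab : (((m : ℤ) * a + b : ℤ) : ZMod p) = 0 := by
    push_cast
    rw [hm, ZMod.natCast_val, ZMod.cast_id', id_eq, mul_assoc, inv_mul_cancel₀ hpa, mul_one,
      neg_add_cancel]
  obtain ⟨t, ht⟩ := (ZMod.intCast_zmod_eq_zero_iff_dvd _ p).1 hmab
  refine ⟨m, ?_⟩
  have : (w * u ^ m) ^ p = (g ^ t) ^ p := by
    rw [mul_pow, ← pow_mul, mul_comm m p, pow_mul, ← hb, ← ha, ← zpow_natCast (g ^ a) m,
      ← zpow_mul, ← zpow_add, ← zpow_natCast (g ^ t) p, ← zpow_mul]
    congr 1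
    rw [add_comm, mul_comm a, ht, mul_comm]
  rw [hinj this]
  exact Subgroup.zpow_mem _ (Subgroup.mem_zpowers _) _

end group

end Fermat.Agent.S12.H66
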