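/-
S12, packages THREE and STAR-3 (helper66), part 3.

* `stmt_three : Stmt_three` : `3 ∣ a b c`.
* `stmt_star_three : Stmt_star_three` : the cofixed line is node-free at `3`.

Both by the same argument: a nonzero point of `E[p]` fixed by a Frobenius element at a place over
`3`, all of whose multiples reduce to nonsingular points, contradicts `#Ẽ_ns(𝔽₃) ≤ 9 < p - 1`
(`pigeonhole3`).
-/
import Fermat.Agent.S12.Defs
import Fermat.Agent.S12.H66_Pigeon3
import Fermat.Agent.S12.H66_Frob3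
import Fermat.Agent.S12.H87_ValOdd
import Fermat.Agent.S13.Assemble
import Fermat.Agent.S05.M1Final
import Fermat.Agent.Lib.FrobExists

set_option autoImplicit false

namespace Fermat.Agent.S12.H66

open WeierstrassCurve WeierstrassCurve.Affine WeierstrassCurve.Affine.Point
open Fermat.Agent.S05 Fermat.Agent.S13

section centre

open Fermat.Agent.S05.H15

/-- The model `y² = x (x - r) (x - s)` of the Frey curve centred at the root `e`, at a place `A`
over an odd prime `ℓ` not dividing `r - s`: hypotheses of S05, and the transfer map. -/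
theorem centre_data (P : FreyPackage) {e r s : ℤ} (hc : H87.Centre P e r s) {ℓ : ℕ}
    (hℓ : ℓ.Prime) (hℓ2 : ℓ ≠ 2) (A : ValuationSubring Qbar)
    (hA : A.LiesOverPrime ℓ) (hdisc : ¬ (ℓ : ℤ) ∣ r - s) :
    ModelHyp A ((modelOf P.freyCurve ((e : ℤ) : ℚ))⁄Qbar) ∧
    ((modelOf P.freyCurve ((e : ℤ) : ℚ))⁄Qbar).a₄ = ((r * s : ℤ) : Qbar) ∧
    ∃ Φ : (P.freyCurve⁄Qbar).Point ≃+ ((modelOf P.freyCurve ((e : ℤ) : ℚ))⁄Qbar).Point,
      (∀ (σ : Gal) (Q : (P.freyCurve⁄Qbar).Point), Φ (σ • Q) = σ • Φ Q) ∧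
      (∀ (X Y : Qbar) (h : (P.freyCurve⁄Qbar).Nonsingular X Y),
        ∃ h' : ((modelOf P.freyCurve ((e : ℤ) : ℚ))⁄Qbar).Nonsingular
            (4 * X - ((e : ℤ) : Qbar)) (8 * Y + 4 * X),
          Φ (.some X Y h) = .some (4 * X - ((e : ℤ) : Qbar)) (8 * Y + 4 * X) h') := by
  have hqK : ((ℓ : ℕ) : Qbar) ∈ A.nonunits := hA
  have h4 : 4 * P.freyCurve.a₂ + 1 = ((P.b ^ P.p - P.a ^ P.p : ℤ) : ℚ) := by
    simp only [FreyPackage.freyCurve]
    push_cast
    ring
  have h16 : 16 * P.freyCurve.a₄ = ((-(P.a ^ P.p * P.b ^ P.p) : ℤ) : ℚ) := by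
    simp only [FreyPackage.freyCurve]
    push_cast
    ring
  have hval2 : A.valuation (2 : Qbar) = 1 := by
    have := valuation_natCast_eq_one_of_ne (A := A) hℓ hqK Nat.prime_two (Ne.symm hℓ2)
    simpa using this
  have hcast : ∀ n : ℤ, algebraMap ℚ Qbar ((n : ℤ) : ℚ) = ((n : ℤ) : Qbar) := fun n => by simp
  have he' : ((e : ℤ) : ℚ) ^ 3 + (4 * P.freyCurve.a₂ + 1) * ((e : ℤ) : ℚ) ^ 2
      + 16 * P.freyCurve.a₄ * ((e : ℤ) : ℚ) = 0 := by
    rw [h4, h16]
    have := congrArg (Int.cast : ℤ → ℚ) hc.he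
    push_cast at this ⊢
    linear_combination this
  have ha2 : (modelOf P.freyCurve ((e : ℤ) : ℚ)).a₂ = ((-(r + s) : ℤ) : ℚ) := by
    simp only [modelOf]
    rw [h4, ← hc.h2]
    push_cast
    ring
  have ha4 : (modelOf P.freyCurve ((e : ℤ) : ℚ)).a₄ = ((r * s : ℤ) : ℚ) := by
    simp only [modelOf]
    rw [h4, h16, ← hc.h4]
    push_cast
    ring
  have ha2' : ((modelOf P.freyCurve ((e : ℤ) : ℚ))⁄Qbar).a₂ = ((-(r + s) : ℤ) : Qbar) := by
    show algebraMap ℚ Qbar _ = _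
    rw [ha2, hcast]
  have ha4' : ((modelOf P.freyCurve ((e : ℤ) : ℚ))⁄Qbar).a₄ = ((r * s : ℤ) : Qbar) := by
    show algebraMap ℚ Qbar _ = _
    rw [ha4, hcast]
  have hyp : ModelHyp A ((modelOf P.freyCurve ((e : ℤ) : ℚ))⁄Qbar) := by
    refine ⟨by simp [modelOf], by simp [modelOf], by simp [modelOf], ?_, ?_, ?_, hval2, ?_⟩
    · rw [ha2']; exact valuation_intCast_le_one A _
    · rw [ha4']; exact valuation_intCast_le_one A _
    · rw [ha4']
      have : (r * s : ℤ) ≠ 0 := mul_ne_zero hc.hr hc.hs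
      exact_mod_cast this
    · rw [ha2', ha4']
      have : (((-(r + s) : ℤ) : Qbar)) ^ 2 - 4 * ((r * s : ℤ) : Qbar)
          = (((r - s) ^ 2 : ℤ) : Qbar) := by
        push_cast; ring
      rw [this]
      exact valuation_intCast_eq_one_of_not_dvd hℓ hqK (H15.not_dvd_pow hℓ hdisc _)
  have hvc := H14.isVarChange_modelOf (L := Qbar) P.freyCurve rfl rfl rfl ((e : ℤ) : ℚ) he'
  have hfx : ∀ X : Qbar, H14.fx (2 : Qbar) (algebraMap ℚ Qbar (-((e : ℤ) : ℚ))) X
      = 4 * X - ((e : ℤ) : Qbar) := by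
    intro X
    rw [H14.fx, map_neg, hcast]
    ring
  have hfy : ∀ X Y : Qbar, H14.fy (2 : Qbar) (1 : Qbar) (0 : Qbar) X Y = 8 * Y + 4 * X := by
    intro X Y
    rw [H14.fy]
    ring
  refine ⟨hyp, ha4', hvc.addEquiv, ?_, ?_⟩
  · intro σ Q
    rcases Q with _ | ⟨X, Y, hXY⟩
    · rfl
    · rw [WeierstrassCurve.Affine.Point.algEquiv_smul_def, Affine.Point.map_some,
        hvc.addEquiv_some, hvc.addEquiv_some,
        WeierstrassCurve.Affine.Point.algEquiv_smul_def, Affine.Point.map_some]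
      apply H14.IsVarChange.some_congr
      · simp only [H14.fx, map_add, map_mul, map_pow, map_ofNat, AlgEquiv.coe_toAlgHom,
          AlgEquiv.commutes]
      · simp only [H14.fy, map_add, map_mul, map_pow, map_ofNat, _root_.map_zero, map_one,
          AlgEquiv.coe_toAlgHom]
  · intro X Y h
    have hns := (hvc.nonsingular_iff X Y).2 h
    have hns' : ((modelOf P.freyCurve ((e : ℤ) : ℚ))⁄Qbar).Nonsingular
        (4 * X - ((e : ℤ) : Qbar)) (8 * Y + 4 * X) := by
      rw [← hfx, ← hfy]; exact hns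
    refine ⟨hns', ?_⟩
    rw [hvc.addEquiv_some]
    exact H14.IsVarChange.some_congr (hfx X) (hfy X Y) _ _

end centre


section core

/-- `|p| = 1` at a place over `ℓ ≠ p`. -/
lemma val_p_eq_one (P : FreyPackage) {ℓ : ℕ} (hℓ : ℓ.Prime) (hℓp : ℓ ≠ P.p)
    (A : ValuationSubring Qbar) (hA : A.LiesOverPrime ℓ) :
    A.valuation ((P.p : ℕ) : Qbar) = 1 :=
  Fermat.Agent.S05.H15.valuation_natCast_eq_one_of_ne (A := A) hℓ hA P.pp (Ne.symm hℓp)

/-- **Core of THREE and STAR-3.**  At a place `A` over `3`, in the model centred at `e`: a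
`p`-torsion point (`p ≥ 11`) fixed by a Frobenius element at `A`, all of whose affine multiples
satisfy `|x_S - e| ≥ 1`, is zero. -/
theorem no_frob_fixed (P : FreyPackage) (hp11 : 11 ≤ P.p) {e r s : ℤ} (hc : H87.Centre P e r s)
    (A : ValuationSubring Qbar) (hA : A.LiesOverPrime 3) (hdisc : ¬ ((3 : ℕ) : ℤ) ∣ r - s)
    (σ : Gal) (hσ : A.IsFrobeniusAt σ 3)
    (R : (P.freyCurve⁄Qbar).Point) (hpR : (P.p : ℤ) • R = 0) (hσR : σ • R = R)
    (hE0 : ∀ (k : ℕ) (X Y : Qbar) (h : (P.freyCurve⁄Qbar).Nonsingular X Y),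
      k • R = .some X Y h → 1 ≤ A.valuation (4 * X - ((e : ℤ) : Qbar))) :
    R = 0 := by
  have h3p : (3 : ℕ) ≠ P.p := by omega
  obtain ⟨hyp, -, Φ, -, hΦ⟩ := centre_data P hc Nat.prime_three (by norm_num) A hA hdisc
  have hvalp := val_p_eq_one P Nat.prime_three h3p A hA
  apply Φ.injective
  rw [_root_.map_zero]
  have hpΦ : P.p • Φ R = 0 := by
    rw [← map_nsmul, ← natCast_zsmul, hpR, _root_.map_zero]
  refine pigeonhole3 hyp {t : Qbar | σ t = t} cls3
    (fun t ht ht1 => frob3_classes A σ hσ t ht ht1) P.pp hp11 hvalp (Φ R) hpΦ ?_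
  intro k x y h hk
  rw [← map_nsmul] at hk
  have hσk : σ • (k • R) = k • R := by
    rw [← natCast_zsmul, algEquiv_smul_zsmul, hσR]
  have hE0k := hE0 k
  generalize k • R = T at hk hσk hE0k
  rcases T with _ | ⟨X, Y, hXY⟩
  · rw [← Affine.Point.zero_def, _root_.map_zero] at hk
    exact absurd hk.symm (Point.some_ne_zero h)
  · obtain ⟨h', hΦ'⟩ := hΦ X Y hXY
    rw [hΦ'] at hk
    have hxy := (Point.some.injEq _ _ _ _ _ _).mp hk
    obtain ⟨hx, hy⟩ := hxy
    rw [algEquiv_smul_def, Point.map_some] at hσk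
    have hXY' := (Point.some.injEq _ _ _ _ _ _).mp hσk
    have hσX : σ X = X := hXY'.1
    have hσY : σ Y = Y := hXY'.2
    refine ⟨?_, ?_, ?_⟩
    · rw [← hx]; exact hE0k X Y hXY rfl
    · show σ x = x
      rw [← hx]
      simp only [map_sub, map_mul, map_ofNat, map_intCast, hσX]
    · show σ y = y
      rw [← hy]
      simp only [map_add, map_mul, map_ofNat, hσX, hσY]

end core


section three

/-- (I1) for the Frey curve, in closed form. -/
theorem vp_card (P : FreyPackage) : Finite (Vp P) ∧ Nat.card (Vp P) ≤ P.p ^ 2 :=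
  H63.card_of_torsion_poly stmt_torsion_poly P

/-- An element `σ` acting trivially on `V / N` (`N` a proper subspace of the finite space `V`)
fixes a nonzero vector. -/
theorem exists_fixed_ne_zero (P : FreyPackage) (L : CofLine P) (σ : Gal) :
    ∃ v : Vp P, v ≠ 0 ∧ σ • v = v := by
  obtain ⟨hfin, -⟩ := vp_card P
  by_contra hno
  have hno' : ∀ v : Vp P, σ • v = v → v = 0 := fun v hv => by
    by_contra h0
    exact hno ⟨v, h0, hv⟩
  have hinj : Function.Injective (fun v : Vp P => (⟨σ • v - v, L.cofixed σ v⟩ : L.N)) := by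
    intro v w hvw
    have h1 : σ • v - v = σ • w - w := congrArg Subtype.val hvw
    have h2 : σ • (v - w) = v - w := by
      rw [smul_sub]
      have : σ • v - σ • w - (v - w) = (σ • v - v) - (σ • w - w) := by abel
      exact sub_eq_zero.mp (by rw [this, h1, sub_self])
    exact sub_eq_zero.mp (hno' _ h2)
  have h1 : Nat.card (Vp P) ≤ Nat.card L.N := Nat.card_le_card_of_injective _ hinj
  obtain ⟨x, hx⟩ : ∃ x : Vp P, x ∉ L.N := by
    by_contra hall
    exact L.ne_top (eq_top_iff.mpr fun x _ => by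
      by_contra hx
      exact hall ⟨x, hx⟩)
  have h2 : Nat.card L.N < Nat.card (Vp P) := Finite.card_subtype_lt hx
  omega

/-- (THREE) `3 ∣ a b c`. -/
theorem stmt_three : Stmt_three := by
  intro P hp11 L
  by_contra h3
  have h3' : ¬ ((3 : ℕ) : ℤ) ∣ P.a * P.b * P.c := h3
  obtain ⟨A, hA⟩ := Fermat.Agent.Lib.FrobExists.exists_liesOverPrime 3 Nat.prime_three
  obtain ⟨σ, hσ⟩ := Fermat.Agent.Lib.FrobExists.exists_isFrobeniusAt 3 Nat.prime_three A hA
  obtain ⟨v, hv0, hσv⟩ := exists_fixed_ne_zero P L σ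
  have h3p : (3 : ℕ) ≠ P.p := by omega
  have ha : ¬ ((3 : ℕ) : ℤ) ∣ P.a ^ P.p :=
    H15.not_dvd_pow Nat.prime_three
      (fun h => h3' (dvd_mul_of_dvd_left (dvd_mul_of_dvd_left h _) _)) _
  have hb : ¬ ((3 : ℕ) : ℤ) ∣ P.b ^ P.p :=
    H15.not_dvd_pow Nat.prime_three
      (fun h => h3' (dvd_mul_of_dvd_left (dvd_mul_of_dvd_right h _) _)) _
  have hc : ¬ ((3 : ℕ) : ℤ) ∣ P.c ^ P.p :=
    H15.not_dvd_pow Nat.prime_three (fun h => h3' (dvd_mul_of_dvd_right h _)) _
  have hdisc : ¬ ((3 : ℕ) : ℤ) ∣ P.a ^ P.p - -(P.b ^ P.p) := by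
    rw [sub_neg_eq_add, P.hFLT]; exact hc
  have hrs : ¬ ((3 : ℕ) : ℤ) ∣ P.a ^ P.p * -(P.b ^ P.p) := by
    intro hd
    rcases (Nat.prime_iff_prime_int.mp Nat.prime_three).dvd_or_dvd hd with hd | hd
    · exact ha hd
    · exact hb ((dvd_neg).1 hd)
  have hpv : (P.p : ℤ) • (v : (P.freyCurve⁄Qbar).Point) = 0 := by
    have := v.2
    rwa [Submodule.mem_torsionBy_iff] at this
  have hR := no_frob_fixed P hp11 (H87.centre0 P) A hA hdisc σ hσ v.1 hpv
    (congrArg Subtype.val hσv) (by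
      intro k X Y h hk
      have hpk : (P.p : ℤ) • (Point.some X Y h : (P.freyCurve⁄Qbar).Point) = 0 := by
        rw [← hk, ← natCast_zsmul, smul_comm, hpv]
        exact zsmul_zero _
      exact (H87.unit_of_centre P (H87.centre0 P) Nat.prime_three (by norm_num) h3p A hA hdisc h
        hpk (fun hd => absurd hd hrs)).1.ge)
  exact hv0 (Subtype.ext hR)

end three

end Fermat.Agent.S12.H66
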