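/-
S12, package STAR-3 (helper66): the cofixed line is node-free at `3`.

If a nonzero point of `N` reduced to the node at `A` over `3`, then `N ∩ E⁰ = 0`, while
`T = E[p] ∩ E⁰` is nonzero (the `p`-torsion of the component group is cyclic); the decomposition
group acts trivially on `T` (cofixedness), so a Frobenius element fixes a nonzero point of `T`,
which contradicts `no_frob_fixed`.
-/
import Fermat.Agent.S12.H66_Three

set_option autoImplicit false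

namespace Fermat.Agent.S12.H66

open WeierstrassCurve WeierstrassCurve.Affine WeierstrassCurve.Affine.Point
open Fermat.Agent.S05 Fermat.Agent.S13

section star

/-- The local statement in the model centred at `e`. -/
theorem nodeFree_of_centre (P : FreyPackage) (hp11 : 11 ≤ P.p) (L : CofLine P) {e r s : ℤ}
    (hc : H87.Centre P e r s) (A : ValuationSubring Qbar) (hA : A.LiesOverPrime 3)
    (hdisc : ¬ ((3 : ℕ) : ℤ) ∣ r - s) (hrs : ((3 : ℕ) : ℤ) ∣ r * s)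
    (Q : Vp P) (hQN : Q ∈ L.N) (X Y : Qbar) (h : (P.freyCurve⁄Qbar).Nonsingular X Y)
    (hQ : (Q : (P.freyCurve⁄Qbar).Point) = .some X Y h) :
    1 ≤ A.valuation (4 * X - ((e : ℤ) : Qbar)) := by
  by_contra hlt
  have : Fact P.p.Prime := ⟨P.pp⟩
  obtain ⟨hfin, hcard⟩ := vp_card P
  obtain ⟨hyp, ha4, Φ, hΦσ, hΦ⟩ := centre_data P hc Nat.prime_three (by norm_num) A hA hdisc
  have hb : A.valuation ((modelOf P.freyCurve ((e : ℤ) : ℚ))⁄Qbar).a₄ < 1 := by
    rw [ha4]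
    exact H15.valuation_intCast_lt_one_of_dvd hA hrs
  obtain ⟨β, hβ⟩ := IsAlgClosed.exists_pow_nat_eq
    (((modelOf P.freyCurve ((e : ℤ) : ℚ))⁄Qbar).a₂) (n := 2) (by norm_num)
  obtain ⟨φ, hker, -⟩ := S05.M1 A _ hyp hb β hβ
  -- the component map on `V`
  let ψ : Vp P →+ Additive (CompGroup hyp) :=
    (φ.comp Φ.toAddMonoidHom).comp (Submodule.torsionBy ℤ (P.freyCurve⁄Qbar).Point P.p).subtype.toAddMonoidHom
  have hψ : ∀ v : Vp P, ψ v = 0 ↔ S05.InE0 A (Φ v.1) := fun v => hker _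
  have hpV : ∀ v : Vp P, P.p • v = 0 := by
    intro v
    apply Subtype.ext
    have := v.2
    rw [Submodule.mem_torsionBy_iff, natCast_zsmul] at this
    exact this
  -- `T = E[p] ∩ E⁰`
  let T : Submodule (ZMod P.p) (Vp P) := AddSubgroup.toZModSubmodule P.p ψ.ker
  have hT : ∀ v : Vp P, v ∈ T ↔ ψ v = 0 := fun v => by
    rw [AddSubgroup.mem_toZModSubmodule, AddMonoidHom.mem_ker]
  -- `Q ∉ T`
  have hQT : Q ∉ T := by
    rw [hT, hψ, hQ]
    obtain ⟨h', e'⟩ := hΦ X Y h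
    rw [e']
    exact hlt
  -- `N ∩ T = 0`
  have hinf : ∀ z ∈ L.N, z ∈ T → z = 0 := by
    intro z hzN hzT
    by_contra hz
    exact hQT (le_of_mem_of_ne_zero hcard L.N L.ne_top T hzN hzT hz hQN)
  -- a point outside `N`
  obtain ⟨R₀, hR₀⟩ : ∃ R₀ : Vp P, R₀ ∉ L.N := by
    by_contra hall
    exact L.ne_top (eq_top_iff.mpr fun x _ => by
      by_contra hx
      exact hall ⟨x, hx⟩)
  -- the `p`-torsion of the component group is cyclic
  obtain ⟨m, hm⟩ : ∃ m : ℕ, ψ (R₀ + m • Q) = 0 := by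
    obtain ⟨u, hu⟩ := QuotientGroup.mk_surjective (Additive.toMul (ψ Q))
    obtain ⟨w, hw⟩ := QuotientGroup.mk_surjective (Additive.toMul (ψ R₀))
    have hpow : ∀ (v : Vp P) (g : (A.ValueGroup)ˣ),
        (QuotientGroup.mk g : CompGroup hyp) = Additive.toMul (ψ v) →
        g ^ P.p ∈ Subgroup.zpowers (bUnit hyp ^ 2) := by
      intro v g hg
      rw [← QuotientGroup.eq_one_iff, QuotientGroup.mk_pow, hg, ← toMul_nsmul, ← map_nsmul,
        hpV v, _root_.map_zero, toMul_zero]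
    have hu' : u ∉ Subgroup.zpowers (bUnit hyp ^ 2) := by
      rw [← QuotientGroup.eq_one_iff, hu]
      intro h1
      apply hQT
      rw [hT]
      apply Additive.toMul.injective
      rw [h1, toMul_zero]
    obtain ⟨m, hm⟩ := exists_mul_pow_mem_zpowers P.pp (pow_left_injective P.hp0)
      (bUnit hyp ^ 2) u w (hpow Q u hu) (hpow R₀ w hw) hu'
    refine ⟨m, ?_⟩
    apply Additive.toMul.injective
    rw [map_add, map_nsmul, toMul_add, toMul_nsmul, ← hu, ← hw, toMul_zero,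
      ← QuotientGroup.mk_pow, ← QuotientGroup.mk_mul, QuotientGroup.eq_one_iff]
    exact hm
  set R' : Vp P := R₀ + m • Q with hR'
  have hR'T : R' ∈ T := (hT _).2 hm
  have hR'N : R' ∉ L.N := by
    intro hmem
    apply hR₀
    have h1 : m • Q ∈ L.N := L.N.toAddSubgroup.nsmul_mem hQN m
    have h2 := L.N.sub_mem hmem h1
    rwa [hR', add_sub_cancel_right] at h2
  -- a Frobenius element
  obtain ⟨σ, hσ⟩ := Fermat.Agent.Lib.FrobExists.exists_isFrobeniusAt 3 Nat.prime_three A hA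
  -- `T` is stable under `σ`
  have hσT : ∀ v ∈ T, σ • v ∈ T := by
    intro v hv
    rw [hT, hψ] at hv ⊢
    show S05.InE0 A (Φ (σ • (v : (P.freyCurve⁄Qbar).Point)))
    rw [hΦσ]
    generalize Φ v.1 = Z at hv
    rcases Z with _ | ⟨x, y, hxy⟩
    · trivial
    · show 1 ≤ A.valuation (σ x)
      rw [frob_val A σ 3 hσ]
      exact hv
  have hσR' : σ • R' = R' :=
    sub_eq_zero.mp (hinf _ (L.cofixed σ R') (T.sub_mem (hσT R' hR'T) hR'T))
  have hpR' : (P.p : ℤ) • (R' : (P.freyCurve⁄Qbar).Point) = 0 := by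
    have := R'.2
    rwa [Submodule.mem_torsionBy_iff] at this
  have hzero := no_frob_fixed P hp11 hc A hA hdisc σ hσ R'.1 hpR' (congrArg Subtype.val hσR') (by
    intro k X' Y' h' hk
    have hkT : k • R' ∈ T := T.toAddSubgroup.nsmul_mem hR'T k
    rw [hT, hψ] at hkT
    have hk' : ((k • R' : Vp P) : (P.freyCurve⁄Qbar).Point) = .some X' Y' h' := by
      rw [← hk]; rfl
    rw [hk'] at hkT
    obtain ⟨h'', e''⟩ := hΦ X' Y' h'
    rw [e''] at hkT
    exact hkT)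
  exact hR'N (by
    have : R' = 0 := Subtype.ext hzero
    rw [this]
    exact L.N.zero_mem)

/-- (STAR-3) node-free at `3`. -/
theorem stmt_star_three : Stmt_star_three := by
  intro P hp11 L A hA Q hQN hQ0 i j hij hlt
  have hqK : ((3 : ℕ) : Qbar) ∈ A.nonunits := hA
  have hpr : Prime ((3 : ℕ) : ℤ) := Nat.prime_iff_prime_int.mp Nat.prime_three
  -- the colliding roots
  have hdvd : ((3 : ℕ) : ℤ) ∣ eRoot P i - eRoot P j := by
    by_contra hnd
    have := H15.valuation_intCast_eq_one_of_not_dvd (A := A) Nat.prime_three hqK hnd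
    rw [← Int.cast_sub, this] at hlt
    exact lt_irrefl _ hlt
  obtain ⟨hab, hac, hbc⟩ := H87.not_dvd_pair P Nat.prime_three
  have e0 : eRoot P 0 = 0 := rfl
  have e1 : eRoot P 1 = P.a ^ P.p := rfl
  have e2 : eRoot P 2 = -(P.b ^ P.p) := rfl
  have hcab : P.c ^ P.p = P.a ^ P.p + P.b ^ P.p := P.hFLT.symm
  -- the point
  obtain ⟨Q', hQmem⟩ := Q
  have hQ0' : Q' ≠ 0 := fun h => hQ0 (Subtype.ext h)
  rcases Q' with _ | ⟨X, Y, h⟩
  · exact absurd rfl hQ0'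
  show 1 ≤ A.valuation (4 * X - ((eRoot P i : ℤ) : Qbar))
  -- which of `a^p`, `b^p`, `c^p` is divisible by `3`
  have hcases : ∀ i j : Fin 3, i ≠ j → ((3 : ℕ) : ℤ) ∣ eRoot P i - eRoot P j →
      (i = 0 ∧ j = 1 ∧ ((3 : ℕ) : ℤ) ∣ P.a ^ P.p) ∨ (i = 1 ∧ j = 0 ∧ ((3 : ℕ) : ℤ) ∣ P.a ^ P.p) ∨
      (i = 0 ∧ j = 2 ∧ ((3 : ℕ) : ℤ) ∣ P.b ^ P.p) ∨ (i = 2 ∧ j = 0 ∧ ((3 : ℕ) : ℤ) ∣ P.b ^ P.p) ∨
      (i = 1 ∧ j = 2 ∧ ((3 : ℕ) : ℤ) ∣ P.c ^ P.p) ∨ (i = 2 ∧ j = 1 ∧ ((3 : ℕ) : ℤ) ∣ P.c ^ P.p) := by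
    intro i j hij hd
    fin_cases i <;> fin_cases j
    · exact absurd rfl hij
    · left
      refine ⟨rfl, rfl, ?_⟩
      have hd' : ((3 : ℕ) : ℤ) ∣ eRoot P 0 - eRoot P 1 := hd
      rw [e0, e1, zero_sub, dvd_neg] at hd'
      exact hd'
    · right; right; left
      refine ⟨rfl, rfl, ?_⟩
      have hd' : ((3 : ℕ) : ℤ) ∣ eRoot P 0 - eRoot P 2 := hd
      rw [e0, e2, zero_sub, neg_neg] at hd'
      exact hd'
    · right; left
      refine ⟨rfl, rfl, ?_⟩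
      have hd' : ((3 : ℕ) : ℤ) ∣ eRoot P 1 - eRoot P 0 := hd
      rw [e0, e1, sub_zero] at hd'
      exact hd'
    · exact absurd rfl hij
    · right; right; right; right; left
      refine ⟨rfl, rfl, ?_⟩
      have hd' : ((3 : ℕ) : ℤ) ∣ eRoot P 1 - eRoot P 2 := hd
      rw [e1, e2, sub_neg_eq_add, ← hcab] at hd'
      exact hd'
    · right; right; right; left
      refine ⟨rfl, rfl, ?_⟩
      have hd' : ((3 : ℕ) : ℤ) ∣ eRoot P 2 - eRoot P 0 := hd
      rw [e0, e2, sub_zero, dvd_neg] at hd'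
      exact hd'
    · right; right; right; right; right
      refine ⟨rfl, rfl, ?_⟩
      have hd' : ((3 : ℕ) : ℤ) ∣ eRoot P 2 - eRoot P 1 := hd
      have : -(P.b ^ P.p) - P.a ^ P.p = -(P.c ^ P.p) := by rw [hcab]; ring
      rw [e1, e2, this, dvd_neg] at hd'
      exact hd'
    · exact absurd rfl hij
  -- the three centres
  have C0 : ((3 : ℕ) : ℤ) ∣ P.a ^ P.p ∨ ((3 : ℕ) : ℤ) ∣ P.b ^ P.p →
      1 ≤ A.valuation (4 * X - ((0 : ℤ) : Qbar)) := by
    intro hd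
    refine nodeFree_of_centre P hp11 L (H87.centre0 P) A hA ?_ ?_ ⟨_, hQmem⟩ hQN X Y h rfl
    · rw [sub_neg_eq_add, ← hcab]
      intro hc
      rcases hd with hd | hd
      · exact hac ⟨hd, hc⟩
      · exact hbc ⟨hd, hc⟩
    · rcases hd with hd | hd
      · exact dvd_mul_of_dvd_left hd _
      · exact dvd_mul_of_dvd_right ((dvd_neg).2 hd) _
  have C1 : ((3 : ℕ) : ℤ) ∣ P.a ^ P.p ∨ ((3 : ℕ) : ℤ) ∣ P.c ^ P.p →
      1 ≤ A.valuation (4 * X - ((P.a ^ P.p : ℤ) : Qbar)) := by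
    intro hd
    refine nodeFree_of_centre P hp11 L (H87.centre1 P) A hA ?_ ?_ ⟨_, hQmem⟩ hQN X Y h rfl
    · have : -(P.a ^ P.p) - -(P.c ^ P.p) = P.b ^ P.p := by rw [hcab]; ring
      rw [this]
      intro hb
      rcases hd with hd | hd
      · exact hab ⟨hd, hb⟩
      · exact hbc ⟨hb, hd⟩
    · rcases hd with hd | hd
      · exact dvd_mul_of_dvd_left ((dvd_neg).2 hd) _
      · exact dvd_mul_of_dvd_right ((dvd_neg).2 hd) _
  have C2 : ((3 : ℕ) : ℤ) ∣ P.b ^ P.p ∨ ((3 : ℕ) : ℤ) ∣ P.c ^ P.p →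
      1 ≤ A.valuation (4 * X - ((-(P.b ^ P.p) : ℤ) : Qbar)) := by
    intro hd
    refine nodeFree_of_centre P hp11 L (H87.centre2 P) A hA ?_ ?_ ⟨_, hQmem⟩ hQN X Y h rfl
    · have : P.b ^ P.p - P.c ^ P.p = -(P.a ^ P.p) := by rw [hcab]; ring
      rw [this, dvd_neg]
      intro ha
      rcases hd with hd | hd
      · exact hab ⟨ha, hd⟩
      · exact hac ⟨ha, hd⟩
    · rcases hd with hd | hd
      · exact dvd_mul_of_dvd_left hd _
      · exact dvd_mul_of_dvd_right hd _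
  rcases hcases i j hij hdvd with ⟨rfl, -, hd⟩ | ⟨rfl, -, hd⟩ | ⟨rfl, -, hd⟩ | ⟨rfl, -, hd⟩ |
    ⟨rfl, -, hd⟩ | ⟨rfl, -, hd⟩
  · rw [e0]; exact C0 (Or.inl hd)
  · rw [e1]; exact C1 (Or.inl hd)
  · rw [e0]; exact C0 (Or.inr hd)
  · rw [e2]; exact C2 (Or.inl hd)
  · rw [e1]; exact C1 (Or.inr hd)
  · rw [e2]; exact C2 (Or.inr hd)

end star

end Fermat.Agent.S12.H66
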