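/-
S12, packages THREE and STAR-3 (helper66), part 2: Frobenius elements.

* `frob_val` : a Frobenius element at `A` preserves the valuation of `A`.
* `frob_sub_pow_lt` : `|σ x - x ^ q| < 1` for `x ∈ A`.
* `frob3_classes` : an integral element fixed by a Frobenius at `A` over `3` is congruent to
  `0`, `1` or `-1`.
-/
import Fermat.Agent.S13.Defs
import Fermat.Agent.S05.Inertia
import Fermat.Prelude.Def_EllipticCurve_FrobeniusTrace

set_option autoImplicit false

namespace Fermat.Agent.S12.H66

open Fermat.Agent.S13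

/-- A Frobenius element at `A` preserves the valuation of `A`. -/
theorem frob_val (A : ValuationSubring Qbar) (σ : Gal) (q : ℕ) (hσ : A.IsFrobeniusAt σ q)
    (x : Qbar) : A.valuation (σ x) = A.valuation x := by
  have := Fermat.Agent.S05.isAlgebraic_algebraicClosure_rat
  exact Fermat.Agent.S05.H37.valuation_apply_eq_of_mem_decomposition A
    hσ.mem_decompositionSubgroup x

/-- A Frobenius element at `A` acts as `x ↦ x ^ q` modulo the maximal ideal of `A`. -/
theorem frob_sub_pow_lt (A : ValuationSubring Qbar) (σ : Gal) (q : ℕ)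
    (hσ : A.IsFrobeniusAt σ q) (x : Qbar) (hx : A.valuation x ≤ 1) :
    A.valuation (σ x - x ^ q) < 1 := by
  have hxA : x ∈ A := (A.valuation_le_one_iff x).1 hx
  have h := hσ.smul_residue_eq (IsLocalRing.residue A ⟨x, hxA⟩)
  rw [← IsLocalRing.ResidueField.residue_smul, ← map_pow, ← sub_eq_zero, ← map_sub,
    IsLocalRing.residue_eq_zero_iff, ← ValuationSubring.coe_mem_nonunits_iff,
    A.mem_nonunits_iff] at h
  exact h

/-- The three residue classes of `𝔽₃`. -/
noncomputable def cls3 : Fin 3 → Qbar := ![0, 1, -1]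

/-- An integral element fixed by a Frobenius element at `A` over `3` is congruent to
`0`, `1` or `-1`. -/
theorem frob3_classes (A : ValuationSubring Qbar) (σ : Gal) (hσ : A.IsFrobeniusAt σ 3)
    (r : Qbar) (hr : σ r = r) (hr1 : A.valuation r ≤ 1) :
    ∃ i : Fin 3, A.valuation (r - cls3 i) < 1 := by
  have h := frob_sub_pow_lt A σ 3 hσ r hr1
  rw [hr] at h
  have hfac : r - r ^ 3 = -(r * ((r - 1) * (r + 1))) := by ring
  rw [hfac, Valuation.map_neg, map_mul, map_mul] at h
  have h1 : A.valuation (r - 1) ≤ 1 :=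
    le_trans (A.valuation.map_sub r 1) (max_le hr1 (by rw [map_one]))
  have h2 : A.valuation (r + 1) ≤ 1 :=
    le_trans (A.valuation.map_add r 1) (max_le hr1 (by rw [map_one]))
  by_cases c0 : A.valuation r < 1
  · exact ⟨0, by simpa [cls3] using c0⟩
  by_cases c1 : A.valuation (r - 1) < 1
  · exact ⟨1, by simpa [cls3] using c1⟩
  by_cases c2 : A.valuation (r + 1) < 1
  · exact ⟨2, by simpa [cls3] using c2⟩
  exfalso
  have e0 : A.valuation r = 1 := le_antisymm hr1 (not_lt.1 c0)
  have e1 : A.valuation (r - 1) = 1 := le_antisymm h1 (not_lt.1 c1)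
  have e2 : A.valuation (r + 1) = 1 := le_antisymm h2 (not_lt.1 c2)
  rw [e0, e1, e2, one_mul, one_mul] at h
  exact lt_irrefl _ h

end Fermat.Agent.S12.H66
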