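/-
S12, package ZC-small (helper66), part 1: unpacking `InZeroComponentAt`.

For an integral Weierstrass curve `W` and a valuation subring `V` of `Q̄`, a nonsingular reduction
of an integral point `(x, y)` means that one of the two partial derivatives is a unit at `V`.
-/
import Fermat.Agent.S13.Defs
import Fermat.Prelude.Def_EllipticCurve_ZeroComponentAt

set_option autoImplicit false

namespace Fermat.Agent.S12.H66

open WeierstrassCurve WeierstrassCurve.Affine WeierstrassCurve.Affine.Point
open Fermat.Agent.S13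

/-- The residue of an element of `V` vanishes iff its valuation is `< 1`. -/
lemma residue_eq_zero_iff_val (V : ValuationSubring Qbar) (z : V) :
    IsLocalRing.residue V z = 0 ↔ V.valuation (z : Qbar) < 1 := by
  rw [IsLocalRing.residue_eq_zero_iff, ← ValuationSubring.coe_mem_nonunits_iff,
    V.mem_nonunits_iff]

/-- A nonsingular reduction: one of the partial derivatives is a unit. -/
theorem val_of_nonsingular_residue (W : WeierstrassCurve ℤ) (V : ValuationSubring Qbar)
    (x y : Qbar) (hx : x ∈ V) (hy : y ∈ V)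
    (h : (W.map (Int.castRingHom (IsLocalRing.ResidueField V))).toAffine.Nonsingular
      (IsLocalRing.residue V ⟨x, hx⟩) (IsLocalRing.residue V ⟨y, hy⟩)) :
    ¬ V.valuation (((W.a₁ : ℤ) : Qbar) * y
        - (3 * x ^ 2 + 2 * ((W.a₂ : ℤ) : Qbar) * x + ((W.a₄ : ℤ) : Qbar))) < 1 ∨
      ¬ V.valuation (2 * y + ((W.a₁ : ℤ) : Qbar) * x + ((W.a₃ : ℤ) : Qbar)) < 1 := by
  rw [Affine.nonsingular_iff'] at h
  obtain ⟨-, h⟩ := h
  set x' : V := ⟨x, hx⟩ with hx'
  set y' : V := ⟨y, hy⟩ with hy'
  rcases h with h | h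
  · left
    intro hlt
    apply h
    have : (W.map (Int.castRingHom (IsLocalRing.ResidueField V))).toAffine.a₁
          * IsLocalRing.residue V y'
        - (3 * IsLocalRing.residue V x' ^ 2
          + 2 * (W.map (Int.castRingHom (IsLocalRing.ResidueField V))).toAffine.a₂
            * IsLocalRing.residue V x'
          + (W.map (Int.castRingHom (IsLocalRing.ResidueField V))).toAffine.a₄)
        = IsLocalRing.residue V (((W.a₁ : ℤ) : V) * y'
          - (3 * x' ^ 2 + 2 * ((W.a₂ : ℤ) : V) * x' + ((W.a₄ : ℤ) : V))) := by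
      simp only [map_sub, map_add, map_mul, map_pow, map_ofNat, map_intCast]
      rfl
    rw [this, residue_eq_zero_iff_val]
    exact hlt
  · right
    intro hlt
    apply h
    have : 2 * IsLocalRing.residue V y'
        + (W.map (Int.castRingHom (IsLocalRing.ResidueField V))).toAffine.a₁
          * IsLocalRing.residue V x'
        + (W.map (Int.castRingHom (IsLocalRing.ResidueField V))).toAffine.a₃
        = IsLocalRing.residue V (2 * y' + ((W.a₁ : ℤ) : V) * x' + ((W.a₃ : ℤ) : V)) := by
      simp only [map_add, map_mul, map_ofNat, map_intCast]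
      rfl
    rw [this, residue_eq_zero_iff_val]
    exact hlt

/-- Unpacking `InZeroComponentAt` for an affine point. -/
theorem zc_unpack (W : WeierstrassCurve ℤ) (V : ValuationSubring Qbar) (x y : Qbar)
    (h : ((W.map (Int.castRingHom ℚ))⁄Qbar).Nonsingular x y)
    (hZ : W.InZeroComponentAt V (.some x y h)) :
    x ∉ V ∨ (x ∈ V ∧ y ∈ V ∧
      (¬ V.valuation (((W.a₁ : ℤ) : Qbar) * y
          - (3 * x ^ 2 + 2 * ((W.a₂ : ℤ) : Qbar) * x + ((W.a₄ : ℤ) : Qbar))) < 1 ∨
        ¬ V.valuation (2 * y + ((W.a₁ : ℤ) : Qbar) * x + ((W.a₃ : ℤ) : Qbar)) < 1)) := by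
  rcases hZ with h0 | ⟨x', y', h', heq, hcase⟩
  · exact absurd h0 (Point.some_ne_zero h)
  · have hxy := (Point.some.injEq _ _ _ _ _ _).mp heq
    obtain ⟨rfl, rfl⟩ := hxy
    rcases hcase with hx | ⟨hx, hy, hns⟩
    · exact Or.inl hx
    · exact Or.inr ⟨hx, hy, val_of_nonsingular_residue W V x y hx hy hns⟩

end Fermat.Agent.S12.H66
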