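/-
S12, package ZC-small (helper66), part 2: the prime `2`.

On a Frey-type curve `freyModel A B` a rational point of prime order `p ≥ 5` does not lie in the
identity component at a place over `2`  (pigeonhole of S13/WP3: `#Ẽ_ns(𝔽₂) ≤ 3`).
-/
import Fermat.Agent.S12.H11_StarDefs
import Fermat.Agent.S12.H66_ZCBridge
import Fermat.Agent.S13.WP3.NoFixedPoint

set_option autoImplicit false

namespace Fermat.Agent.S12.H66

open WeierstrassCurve WeierstrassCurve.Affine WeierstrassCurve.Affine.Point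
open Fermat.Agent.S13

section freyModel

variable {A B : ℤ}

lemma freyModel_four_a₂ (hF : IsFreyPair A B) : 4 * (freyModel A B).a₂ = B - 1 - A := by
  show 4 * ((B - 1 - A) / 4) = B - 1 - A
  have h4 : (4 : ℤ) ∣ B - 1 - A := by
    obtain ⟨k, hk⟩ := hF.hB
    have := hF.hA
    omega
  exact Int.mul_ediv_cancel' h4

lemma freyModel_sixteen_a₄ (hF : IsFreyPair A B) : 16 * (freyModel A B).a₄ = -(A * B) := by
  show 16 * (-(A * B) / 16) = -(A * B)
  have h16 : (16 : ℤ) ∣ -(A * B) := by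
    obtain ⟨k, hk⟩ := hF.hB
    exact ⟨-(A * (2 * k)), by rw [hk]; ring⟩
  exact Int.mul_ediv_cancel' h16

lemma freyModel_a₄_even (hF : IsFreyPair A B) : (2 : ℤ) ∣ (freyModel A B).a₄ := by
  have h := freyModel_sixteen_a₄ hF
  obtain ⟨k, hk⟩ := hF.hB
  refine ⟨-(A * k), ?_⟩
  have : 16 * (freyModel A B).a₄ = 16 * (2 * -(A * k)) := by rw [h, hk]; ring
  exact mul_left_cancel₀ (by norm_num) this

lemma freyModel_A_ne_zero (hF : IsFreyPair A B) : A ≠ 0 := by
  rintro rfl
  have := hF.hA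
  norm_num at this

lemma freyModel_a₄_ne_zero (hF : IsFreyPair A B) : (freyModel A B).a₄ ≠ 0 := by
  intro h0
  have h := freyModel_sixteen_a₄ hF
  rw [h0, mul_zero] at h
  have : A * B = 0 := by linarith
  rcases mul_eq_zero.mp this with h1 | h1
  · exact freyModel_A_ne_zero hF h1
  · exact hF.hB0 h1

/-- The rational Frey-type curve. -/
abbrev freyModelQ (A B : ℤ) : Affine ℚ := (freyModel A B).map (Int.castRingHom ℚ)

lemma freyModelQ_a₁ : (freyModelQ A B).a₁ = 1 := by simp [freyModelQ, freyModel]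
lemma freyModelQ_a₃ : (freyModelQ A B).a₃ = 0 := by simp [freyModelQ, freyModel]
lemma freyModelQ_a₆ : (freyModelQ A B).a₆ = 0 := by simp [freyModelQ, freyModel]

lemma freyModelQbar_a₁ : ((freyModelQ A B)⁄Qbar).a₁ = 1 := by
  show algebraMap ℚ Qbar (freyModelQ A B).a₁ = 1
  rw [freyModelQ_a₁, map_one]

lemma freyModelQbar_a₃ : ((freyModelQ A B)⁄Qbar).a₃ = 0 := by
  show algebraMap ℚ Qbar (freyModelQ A B).a₃ = 0
  rw [freyModelQ_a₃, _root_.map_zero]

lemma freyModelQbar_a₆ : ((freyModelQ A B)⁄Qbar).a₆ = 0 := by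
  show algebraMap ℚ Qbar (freyModelQ A B).a₆ = 0
  rw [freyModelQ_a₆, _root_.map_zero]

lemma freyModelQbar_a₂ : ((freyModelQ A B)⁄Qbar).a₂ = (((freyModel A B).a₂ : ℤ) : Qbar) := by
  show algebraMap ℚ Qbar ((Int.castRingHom ℚ) (freyModel A B).a₂) = _
  simp

lemma freyModelQbar_a₄ : ((freyModelQ A B)⁄Qbar).a₄ = (((freyModel A B).a₄ : ℤ) : Qbar) := by
  show algebraMap ℚ Qbar ((Int.castRingHom ℚ) (freyModel A B).a₄) = _
  simp

end freyModel

section two

open Fermat.Agent.S13.WP3

variable {A B : ℤ}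

/-- `ModelHyp2` for a Frey-type curve. -/
theorem modelHyp2_freyModel (hF : IsFreyPair A B) (V : ValuationSubring Qbar)
    (hV : V.LiesOverPrime 2) : ModelHyp2 V ((freyModelQ A B)⁄Qbar) where
  a₁ := freyModelQbar_a₁
  a₃ := freyModelQbar_a₃
  a₆ := freyModelQbar_a₆
  a_le := by rw [freyModelQbar_a₂]; exact Fermat.Agent.S05.H15.valuation_intCast_le_one V _
  b_lt := by rw [freyModelQbar_a₄]; exact WP3.H15.val_even hV (freyModel_a₄_even hF)
  b_ne := by
    rw [freyModelQbar_a₄]
    exact_mod_cast freyModel_a₄_ne_zero hF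
  two := WP3.H15.val_two_lt hV

/-- At a place over `2`: a point of the identity component lies in `E₀` (`|x| ≥ 1`). -/
theorem inE0_of_zc_two (hF : IsFreyPair A B) (V : ValuationSubring Qbar)
    (hV : V.LiesOverPrime 2) (Q : ((freyModelQ A B)⁄Qbar).Point)
    (hZ : (freyModel A B).InZeroComponentAt V Q) : WP3.InE0 V Q := by
  have hyp := modelHyp2_freyModel hF V hV
  rcases Q with _ | ⟨x, y, h⟩
  · trivial
  show 1 ≤ V.valuation x
  rcases zc_unpack (freyModel A B) V x y h hZ with hx | ⟨hx, hy, hns⟩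
  · rw [← V.valuation_le_one_iff, not_le] at hx
    exact hx.le
  by_contra hlt
  rw [not_le] at hlt
  have hy1 : V.valuation y ≤ 1 := (V.valuation_le_one_iff y).2 hy
  have h2 : V.valuation (2 : Qbar) < 1 := hyp.two
  have heq := (H6P.pg_equation_iff hyp.a₁ hyp.a₃ hyp.a₆ x y).1 h.1
  have ha2 := hyp.a_le
  have hb := hyp.b_lt
  rw [freyModelQbar_a₂] at ha2 heq
  rw [freyModelQbar_a₄] at hb heq
  -- `|y| < 1`
  have hrhs : V.valuation (x ^ 3 + (((freyModel A B).a₂ : ℤ) : Qbar) * x ^ 2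
      + (((freyModel A B).a₄ : ℤ) : Qbar) * x) < 1 := by
    have e : x ^ 3 + (((freyModel A B).a₂ : ℤ) : Qbar) * x ^ 2
        + (((freyModel A B).a₄ : ℤ) : Qbar) * x
        = x * (x ^ 2 + (((freyModel A B).a₂ : ℤ) : Qbar) * x
          + (((freyModel A B).a₄ : ℤ) : Qbar)) := by ring
    rw [e, map_mul]
    have h1 : V.valuation (x ^ 2 + (((freyModel A B).a₂ : ℤ) : Qbar) * x
        + (((freyModel A B).a₄ : ℤ) : Qbar)) ≤ 1 := by
      refine V.valuation.map_add_le (V.valuation.map_add_le ?_ ?_) hb.le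
      · rw [map_pow]; exact pow_le_one₀ zero_le hlt.le
      · rw [map_mul]; exact mul_le_one₀ ha2 zero_le hlt.le
    calc V.valuation x * _ ≤ V.valuation x * 1 := mul_le_mul_right h1 _
      _ = V.valuation x := mul_one _
      _ < 1 := hlt
  have hylt : V.valuation y < 1 := by
    by_contra hge
    rw [not_lt] at hge
    have hyx : V.valuation (y + x) = V.valuation y :=
      V.valuation.map_add_eq_of_lt_left (lt_of_lt_of_le hlt hge)
    have : V.valuation (y ^ 2 + x * y) = V.valuation y * V.valuation y := by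
      have e : y ^ 2 + x * y = y * (y + x) := by ring
      rw [e, map_mul, hyx]
    rw [heq] at this
    rw [this] at hrhs
    exact absurd hrhs (not_lt.2 (one_le_mul_of_one_le_of_one_le hge hge))
  have ha1 : (((freyModel A B).a₁ : ℤ) : Qbar) = 1 := by simp [freyModel]
  have ha3 : (((freyModel A B).a₃ : ℤ) : Qbar) = 0 := by simp [freyModel]
  rw [ha1, ha3] at hns
  rcases hns with hns | hns
  · apply hns
    rw [one_mul]
    refine V.valuation.map_sub_lt hylt ?_
    refine V.valuation.map_add_lt (V.valuation.map_add_lt ?_ ?_) hb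
    · rw [map_mul, map_pow]
      exact mul_lt_one_of_nonneg_of_lt_one_right
        (by
          have := Fermat.Agent.S05.H15.valuation_natCast_le_one V 3
          exact_mod_cast this) zero_le
        (pow_lt_one₀ zero_le hlt two_ne_zero)
    · rw [map_mul, map_mul]
      exact mul_lt_one_of_nonneg_of_lt_one_right (mul_le_one₀ h2.le zero_le ha2) zero_le hlt
  · apply hns
    rw [one_mul, add_zero]
    refine V.valuation.map_add_lt ?_ hlt
    rw [map_mul]
    exact mul_lt_one_of_nonneg_of_lt_one_left zero_le h2 hy1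

/-- (ZC-small) at `2`. -/
theorem zc_small_two (hF : IsFreyPair A B) (p : ℕ) (hp : p.Prime) (hp5 : 5 ≤ p)
    (Q : ((freyModelQ A B)⁄Qbar).Point) (hfix : ∀ σ : Gal, σ • Q = Q)
    (hord : addOrderOf Q = p) (V : ValuationSubring Qbar) (hV : V.LiesOverPrime 2) :
    ¬ (freyModel A B).InZeroComponentAt V Q := by
  intro hZ
  have hyp := modelHyp2_freyModel hF V hV
  have hp1 : V.valuation ((p : ℕ) : Qbar) = 1 :=
    Fermat.Agent.S05.H15.valuation_natCast_eq_one_of_ne (A := V) Nat.prime_two hV hp (by omega)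
  have hQ0 : Q ≠ 0 := by
    intro h0
    rw [h0, addOrderOf_zero] at hord
    exact hp.one_lt.ne hord
  have hQt : (p : ℤ) • Q = 0 := by
    rw [natCast_zsmul, ← hord]
    exact addOrderOf_nsmul_eq_zero Q
  have hfixk : ∀ (k : ℕ) (σ : Gal), σ • (k • Q) = k • Q := by
    intro k σ
    rw [← natCast_zsmul, algEquiv_smul_zsmul, hfix σ]
  have hrat : ∀ (k : ℕ) (u v : Qbar) (h : ((freyModelQ A B)⁄Qbar).Nonsingular u v),
      k • Q = .some u v h →
      u ∈ Set.range (algebraMap ℚ Qbar) ∧ v ∈ Set.range (algebraMap ℚ Qbar) := by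
    intro k u v h hk
    apply WP3.H14.coords_rat_of_fixed (freyModelQ A B) u v h
    intro σ
    rw [← hk]
    exact hfixk k σ
  have hE0 := inE0_of_zc_two hF V hV Q hZ
  have hR : ∀ r ∈ Set.range (algebraMap ℚ Qbar), V.valuation r ≤ 1 →
      V.valuation r < 1 ∨ V.valuation (r - 1) < 1 := by
    rintro _ ⟨r, rfl⟩ hr
    exact WP3.H15.ratRes V hV r hr
  exact hQ0 (H6P.pigeonhole_of_F1 H5.F1_2 V _ hyp _ hR p hp hp5 hp1 _ hQt hE0 hrat)

end two

end Fermat.Agent.S12.H66
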