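/-
S12, package ZC-small (helper66), part 3: the prime `3`, and the final statement.

On a Frey-type curve `freyModel A B` with `3 ∣ A B (A + B)` a rational point of prime order
`p ≥ 11` does not lie in the identity component at a place over `3`
(`pigeonhole3`: `#Ẽ_ns(𝔽₃) ≤ 9 < p - 1`).
-/
import Fermat.Agent.S12.H66_ZCTwo
import Fermat.Agent.S12.H66_Pigeon3
import Fermat.Agent.S12.H66_Frob3
import Fermat.Agent.S05.Transfer
import Fermat.Agent.S05.H15_Val
import Fermat.Agent.S05.Arith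
import Fermat.Agent.S05.M1Final
import Fermat.Agent.Lib.FrobExists

set_option autoImplicit false

namespace Fermat.Agent.S12.H66

open WeierstrassCurve WeierstrassCurve.Affine WeierstrassCurve.Affine.Point
open Fermat.Agent.S05 Fermat.Agent.S13

/-- A rational curve `Y² + X Y = X³ + a₂ X² + a₄ X` whose short model is
`y² = (x - e) (x - e - r) (x - e - s)` with integers `e`, `r`, `s`. -/
structure CentreQ (W : Affine ℚ) (e r s : ℤ) : Prop where
  a₁ : W.a₁ = 1
  a₃ : W.a₃ = 0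
  a₆ : W.a₆ = 0
  h2 : 4 * W.a₂ + 1 + 3 * (e : ℚ) = -((r : ℚ) + s)
  h4 : 3 * (e : ℚ) ^ 2 + 2 * (4 * W.a₂ + 1) * e + 16 * W.a₄ = (r : ℚ) * s
  he : (e : ℚ) ^ 3 + (4 * W.a₂ + 1) * (e : ℚ) ^ 2 + 16 * W.a₄ * (e : ℚ) = 0
  hr : r ≠ 0
  hs : s ≠ 0

section centre

open Fermat.Agent.S05.H15

/-- The S05 model centred at `e`, at a place `V` over an odd prime `ℓ` not dividing `r - s`. -/
theorem centreQ_data {W : Affine ℚ} {e r s : ℤ} (hc : CentreQ W e r s) {ℓ : ℕ}
    (hℓ : ℓ.Prime) (hℓ2 : ℓ ≠ 2) (V : ValuationSubring Qbar)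
    (hV : V.LiesOverPrime ℓ) (hdisc : ¬ (ℓ : ℤ) ∣ r - s) :
    ModelHyp V ((modelOf W ((e : ℤ) : ℚ))⁄Qbar) ∧
    ((modelOf W ((e : ℤ) : ℚ))⁄Qbar).a₂ = ((-(r + s) : ℤ) : Qbar) ∧
    ((modelOf W ((e : ℤ) : ℚ))⁄Qbar).a₄ = ((r * s : ℤ) : Qbar) ∧
    ∃ Φ : (W⁄Qbar).Point ≃+ ((modelOf W ((e : ℤ) : ℚ))⁄Qbar).Point,
      (∀ (σ : Gal) (Q : (W⁄Qbar).Point), Φ (σ • Q) = σ • Φ Q) ∧
      (∀ (X Y : Qbar) (h : (W⁄Qbar).Nonsingular X Y),
        ∃ h' : ((modelOf W ((e : ℤ) : ℚ))⁄Qbar).Nonsingular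
            (4 * X - ((e : ℤ) : Qbar)) (8 * Y + 4 * X),
          Φ (.some X Y h) = .some (4 * X - ((e : ℤ) : Qbar)) (8 * Y + 4 * X) h') := by
  have hqK : ((ℓ : ℕ) : Qbar) ∈ V.nonunits := hV
  have hval2 : V.valuation (2 : Qbar) = 1 := by
    have := valuation_natCast_eq_one_of_ne (A := V) hℓ hqK Nat.prime_two (Ne.symm hℓ2)
    simpa using this
  have hcast : ∀ n : ℤ, algebraMap ℚ Qbar ((n : ℤ) : ℚ) = ((n : ℤ) : Qbar) := fun n => by simp
  have ha2 : (modelOf W ((e : ℤ) : ℚ)).a₂ = ((-(r + s) : ℤ) : ℚ) := by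
    simp only [modelOf]
    rw [hc.h2]
    push_cast
    ring
  have ha4 : (modelOf W ((e : ℤ) : ℚ)).a₄ = ((r * s : ℤ) : ℚ) := by
    simp only [modelOf]
    rw [hc.h4]
    push_cast
    ring
  have ha2' : ((modelOf W ((e : ℤ) : ℚ))⁄Qbar).a₂ = ((-(r + s) : ℤ) : Qbar) := by
    show algebraMap ℚ Qbar _ = _
    rw [ha2, hcast]
  have ha4' : ((modelOf W ((e : ℤ) : ℚ))⁄Qbar).a₄ = ((r * s : ℤ) : Qbar) := by
    show algebraMap ℚ Qbar _ = _
    rw [ha4, hcast]
  have hyp : ModelHyp V ((modelOf W ((e : ℤ) : ℚ))⁄Qbar) := by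
    refine ⟨by simp [modelOf], by simp [modelOf], by simp [modelOf], ?_, ?_, ?_, hval2, ?_⟩
    · rw [ha2']; exact valuation_intCast_le_one V _
    · rw [ha4']; exact valuation_intCast_le_one V _
    · rw [ha4']
      have : (r * s : ℤ) ≠ 0 := mul_ne_zero hc.hr hc.hs
      exact_mod_cast this
    · rw [ha2', ha4']
      have : (((-(r + s) : ℤ) : Qbar)) ^ 2 - 4 * ((r * s : ℤ) : Qbar)
          = (((r - s) ^ 2 : ℤ) : Qbar) := by
        push_cast; ring
      rw [this]
      exact valuation_intCast_eq_one_of_not_dvd hℓ hqK (H15.not_dvd_pow hℓ hdisc _)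
  have hvc := H14.isVarChange_modelOf (L := Qbar) W hc.a₁ hc.a₃ hc.a₆ ((e : ℤ) : ℚ) hc.he
  have hfx : ∀ X : Qbar, H14.fx (2 : Qbar) (algebraMap ℚ Qbar (-((e : ℤ) : ℚ))) X
      = 4 * X - ((e : ℤ) : Qbar) := by
    intro X
    rw [H14.fx, map_neg, hcast]
    ring
  have hfy : ∀ X Y : Qbar, H14.fy (2 : Qbar) (1 : Qbar) (0 : Qbar) X Y = 8 * Y + 4 * X := by
    intro X Y
    rw [H14.fy]
    ring
  refine ⟨hyp, ha2', ha4', hvc.addEquiv, ?_, ?_⟩
  · intro σ Q
    rcases Q with _ | ⟨X, Y, hXY⟩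
    · rfl
    · rw [WeierstrassCurve.Affine.Point.algEquiv_smul_def, Affine.Point.map_some,
        hvc.addEquiv_some, hvc.addEquiv_some,
        WeierstrassCurve.Affine.Point.algEquiv_smul_def, Affine.Point.map_some]
      apply H14.IsVarChange.some_congr
      · simp only [H14.fx, map_add, map_mul, map_pow, map_ofNat, AlgEquiv.coe_toAlgHom,
          AlgEquiv.commutes]
      · simp only [H14.fy, map_add, map_mul, map_pow, map_ofNat, _root_.map_zero, map_one,
          AlgEquiv.coe_toAlgHom]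
  · intro X Y h
    have hns := (hvc.nonsingular_iff X Y).2 h
    have hns' : ((modelOf W ((e : ℤ) : ℚ))⁄Qbar).Nonsingular
        (4 * X - ((e : ℤ) : Qbar)) (8 * Y + 4 * X) := by
      rw [← hfx, ← hfy]; exact hns
    refine ⟨hns', ?_⟩
    rw [hvc.addEquiv_some]
    exact H14.IsVarChange.some_congr (hfx X) (hfy X Y) _ _

end centre

section core

/-- General form of `no_frob_fixed`: at a place `V` over `3`, in the model centred at `e`, a
point of prime order dividing `p ≥ 11` fixed by a Frobenius element at `V`, all of whose affine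
multiples satisfy `|x_S - e| ≥ 1`, is zero. -/
theorem no_frob_fixed_gen {W : Affine ℚ} {e r s : ℤ} (hc : CentreQ W e r s) {p : ℕ}
    (hp : p.Prime) (hp11 : 11 ≤ p)
    (V : ValuationSubring Qbar) (hV : V.LiesOverPrime 3) (hdisc : ¬ ((3 : ℕ) : ℤ) ∣ r - s)
    (σ : Gal) (hσ : V.IsFrobeniusAt σ 3)
    (R : (W⁄Qbar).Point) (hpR : (p : ℤ) • R = 0) (hσR : σ • R = R)
    (hE0 : ∀ (k : ℕ) (X Y : Qbar) (h : (W⁄Qbar).Nonsingular X Y),
      k • R = .some X Y h → 1 ≤ V.valuation (4 * X - ((e : ℤ) : Qbar))) :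
    R = 0 := by
  have h3p : (3 : ℕ) ≠ p := by omega
  obtain ⟨hyp, -, -, Φ, -, hΦ⟩ := centreQ_data hc Nat.prime_three (by norm_num) V hV hdisc
  have hvalp : V.valuation ((p : ℕ) : Qbar) = 1 :=
    Fermat.Agent.S05.H15.valuation_natCast_eq_one_of_ne (A := V) Nat.prime_three hV hp
      (Ne.symm h3p)
  apply Φ.injective
  rw [_root_.map_zero]
  have hpΦ : p • Φ R = 0 := by
    rw [← map_nsmul, ← natCast_zsmul, hpR, _root_.map_zero]
  refine pigeonhole3 hyp {t : Qbar | σ t = t} cls3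
    (fun t ht ht1 => frob3_classes V σ hσ t ht ht1) hp hp11 hvalp (Φ R) hpΦ ?_
  intro k x y h hk
  rw [← map_nsmul] at hk
  have hσk : σ • (k • R) = k • R := by
    rw [← natCast_zsmul, algEquiv_smul_zsmul, hσR]
  have hE0k := hE0 k
  generalize k • R = T at hk hσk hE0k
  rcases T with _ | ⟨X, Y, hXY⟩
  · rw [← Affine.Point.zero_def, _root_.map_zero] at hk
    exact absurd hk.symm (Point.some_ne_zero h)
  · obtain ⟨h', hΦ'⟩ := hΦ X Y hXY
    rw [hΦ'] at hk
    have hxy := (Point.some.injEq _ _ _ _ _ _).mp hk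
    obtain ⟨hx, hy⟩ := hxy
    rw [algEquiv_smul_def, Point.map_some] at hσk
    have hXY' := (Point.some.injEq _ _ _ _ _ _).mp hσk
    have hσX : σ X = X := hXY'.1
    have hσY : σ Y = Y := hXY'.2
    refine ⟨?_, ?_, ?_⟩
    · rw [← hx]; exact hE0k X Y hXY rfl
    · show σ x = x
      rw [← hx]
      simp only [map_sub, map_mul, map_ofNat, map_intCast, hσX]
    · show σ y = y
      rw [← hy]
      simp only [map_add, map_mul, map_ofNat, hσX, hσY]

end core


section three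

variable {A B : ℤ}

lemma freyModelQ_four_a₂ (hF : IsFreyPair A B) :
    4 * (freyModelQ A B).a₂ + 1 = (B : ℚ) - A := by
  have h := freyModel_four_a₂ hF
  have h' : (4 : ℚ) * (((freyModel A B).a₂ : ℤ) : ℚ) = (B : ℚ) - 1 - A := by exact_mod_cast h
  show 4 * (Int.castRingHom ℚ) (freyModel A B).a₂ + 1 = _
  rw [eq_intCast]
  linarith

lemma freyModelQ_sixteen_a₄ (hF : IsFreyPair A B) :
    16 * (freyModelQ A B).a₄ = -((A : ℚ) * B) := by
  have h := freyModel_sixteen_a₄ hF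
  have h' : (16 : ℚ) * (((freyModel A B).a₄ : ℤ) : ℚ) = -((A : ℚ) * B) := by exact_mod_cast h
  show 16 * (Int.castRingHom ℚ) (freyModel A B).a₄ = _
  rw [eq_intCast]
  exact h'

/-- The centre at the root `0`: the other roots are `A` and `-B`. -/
lemma centreQ_zero (hF : IsFreyPair A B) : CentreQ (freyModelQ A B) 0 A (-B) where
  a₁ := freyModelQ_a₁
  a₃ := freyModelQ_a₃
  a₆ := freyModelQ_a₆
  h2 := by rw [freyModelQ_four_a₂ hF]; push_cast; ring
  h4 := by
    have h16 := freyModelQ_sixteen_a₄ hF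
    push_cast
    linear_combination h16
  he := by push_cast; ring
  hr := freyModel_A_ne_zero hF
  hs := neg_ne_zero.2 hF.hB0

lemma freyModel_add_ne_zero (hF : IsFreyPair A B) : A + B ≠ 0 := by
  obtain ⟨k, hk⟩ := hF.hB
  have := hF.hA
  omega

/-- The centre at the root `A`: the other roots are `0` and `-B`. -/
lemma centreQ_A (hF : IsFreyPair A B) : CentreQ (freyModelQ A B) A (-A) (-(A + B)) where
  a₁ := freyModelQ_a₁
  a₃ := freyModelQ_a₃
  a₆ := freyModelQ_a₆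
  h2 := by rw [freyModelQ_four_a₂ hF]; push_cast; ring
  h4 := by
    have h16 := freyModelQ_sixteen_a₄ hF
    rw [freyModelQ_four_a₂ hF]
    push_cast
    linear_combination h16
  he := by
    have h16 := freyModelQ_sixteen_a₄ hF
    rw [freyModelQ_four_a₂ hF]
    linear_combination (A : ℚ) * h16
  hr := neg_ne_zero.2 (freyModel_A_ne_zero hF)
  hs := neg_ne_zero.2 (freyModel_add_ne_zero hF)

/-- At a place over `3` of multiplicative reduction, with the node at the root `e`: an affine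
point of the identity component satisfies `|x_S - e| ≥ 1`. -/
theorem val_ge_of_zc_three {e r s : ℤ} (hc : CentreQ (freyModelQ A B) e r s)
    (V : ValuationSubring Qbar) (hV : V.LiesOverPrime 3) (hdisc : ¬ ((3 : ℕ) : ℤ) ∣ r - s)
    (hrs : ((3 : ℕ) : ℤ) ∣ r * s) (X Y : Qbar) (h : ((freyModelQ A B)⁄Qbar).Nonsingular X Y)
    (hZ : (freyModel A B).InZeroComponentAt V (.some X Y h)) :
    1 ≤ V.valuation (4 * X - ((e : ℤ) : Qbar)) := by
  obtain ⟨hyp, ha2', ha4', Φ, -, hΦ⟩ := centreQ_data hc Nat.prime_three (by norm_num) V hV hdisc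
  obtain ⟨h', -⟩ := hΦ X Y h
  have h2 : V.valuation (2 : Qbar) = 1 := hyp.two
  have h4 : V.valuation (4 : Qbar) = 1 := by
    have : (4 : Qbar) = 2 * 2 := by norm_num
    rw [this, map_mul, h2, one_mul]
  have h16 : V.valuation (16 : Qbar) = 1 := by
    have : (16 : Qbar) = 4 * 4 := by norm_num
    rw [this, map_mul, h4, one_mul]
  have h3 : V.valuation (3 : Qbar) ≤ 1 := by
    have := Fermat.Agent.S05.H15.valuation_natCast_le_one V 3
    exact_mod_cast this
  have he1 : V.valuation ((e : ℤ) : Qbar) ≤ 1 :=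
    Fermat.Agent.S05.H15.valuation_intCast_le_one V e
  rcases zc_unpack (freyModel A B) V X Y h hZ with hx | ⟨hx, hy, hns⟩
  · rw [← V.valuation_le_one_iff, not_le] at hx
    have h4X : V.valuation (4 * X) = V.valuation X := by rw [map_mul, h4, one_mul]
    rw [sub_eq_add_neg, V.valuation.map_add_eq_of_lt_left
      (by rw [Valuation.map_neg, h4X]; exact lt_of_le_of_lt he1 hx), h4X]
    exact hx.le
  by_contra hlt
  rw [not_le] at hlt
  set x : Qbar := 4 * X - ((e : ℤ) : Qbar) with hxdef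
  set y : Qbar := 8 * Y + 4 * X with hydef
  have heq := S05.H87.model_equation hyp h'
  have ha2le := hyp.a_le
  have hblt : V.valuation ((modelOf (freyModelQ A B) ((e : ℤ) : ℚ))⁄Qbar).a₄ < 1 := by
    rw [ha4']
    exact H15.valuation_intCast_lt_one_of_dvd hV hrs
  -- `|y| < 1`
  have hq : V.valuation (x ^ 2 + ((modelOf (freyModelQ A B) ((e : ℤ) : ℚ))⁄Qbar).a₂ * x
      + ((modelOf (freyModelQ A B) ((e : ℤ) : ℚ))⁄Qbar).a₄) ≤ 1 := by
    refine V.valuation.map_add_le (V.valuation.map_add_le ?_ ?_) hblt.le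
    · rw [map_pow]; exact pow_le_one₀ zero_le hlt.le
    · rw [map_mul]; exact mul_le_one₀ ha2le zero_le hlt.le
  have hy2 : V.valuation (y ^ 2) < 1 := by
    have e' : x ^ 3 + ((modelOf (freyModelQ A B) ((e : ℤ) : ℚ))⁄Qbar).a₂ * x ^ 2
        + ((modelOf (freyModelQ A B) ((e : ℤ) : ℚ))⁄Qbar).a₄ * x
        = x * (x ^ 2 + ((modelOf (freyModelQ A B) ((e : ℤ) : ℚ))⁄Qbar).a₂ * x
          + ((modelOf (freyModelQ A B) ((e : ℤ) : ℚ))⁄Qbar).a₄) := by ring
    rw [heq, e', map_mul]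
    calc V.valuation x * _ ≤ V.valuation x * 1 := mul_le_mul_right hq _
      _ = V.valuation x := mul_one _
      _ < 1 := hlt
  have hylt : V.valuation y < 1 := by
    by_contra hge
    rw [not_lt] at hge
    have : 1 ≤ V.valuation (y ^ 2) := by rw [map_pow]; exact one_le_pow₀ hge
    exact absurd hy2 (not_lt.2 this)
  -- the derivative of the cubic
  have hder : V.valuation (3 * x ^ 2 + 2 * ((modelOf (freyModelQ A B) ((e : ℤ) : ℚ))⁄Qbar).a₂ * x
      + ((modelOf (freyModelQ A B) ((e : ℤ) : ℚ))⁄Qbar).a₄) < 1 := by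
    refine V.valuation.map_add_lt (V.valuation.map_add_lt ?_ ?_) hblt
    · rw [map_mul, map_pow]
      exact mul_lt_one_of_nonneg_of_lt_one_right h3 zero_le (pow_lt_one₀ zero_le hlt two_ne_zero)
    · rw [map_mul, map_mul, h2, one_mul]
      exact mul_lt_one_of_nonneg_of_lt_one_right ha2le zero_le hlt
  have ha1 : (((freyModel A B).a₁ : ℤ) : Qbar) = 1 := by simp [freyModel]
  have ha3 : (((freyModel A B).a₃ : ℤ) : Qbar) = 0 := by simp [freyModel]
  rw [ha1, ha3] at hns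
  -- the coefficients of the model in terms of those of the curve
  have hcast : ∀ n : ℤ, algebraMap ℚ Qbar ((n : ℤ) : ℚ) = ((n : ℤ) : Qbar) := fun n => by simp
  have hW2 : algebraMap ℚ Qbar (freyModelQ A B).a₂ = (((freyModel A B).a₂ : ℤ) : Qbar) :=
    freyModelQbar_a₂
  have hW4 : algebraMap ℚ Qbar (freyModelQ A B).a₄ = (((freyModel A B).a₄ : ℤ) : Qbar) :=
    freyModelQbar_a₄
  have hm2 : ((modelOf (freyModelQ A B) ((e : ℤ) : ℚ))⁄Qbar).a₂
      = 4 * (((freyModel A B).a₂ : ℤ) : Qbar) + 1 + 3 * ((e : ℤ) : Qbar) := by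
    show algebraMap ℚ Qbar (4 * (freyModelQ A B).a₂ + 1 + 3 * ((e : ℤ) : ℚ)) = _
    rw [map_add, map_add, map_mul, map_mul, hW2, hcast, map_one, map_ofNat, map_ofNat]
  have hm4 : ((modelOf (freyModelQ A B) ((e : ℤ) : ℚ))⁄Qbar).a₄
      = 3 * ((e : ℤ) : Qbar) ^ 2 + 2 * (4 * (((freyModel A B).a₂ : ℤ) : Qbar) + 1) * ((e : ℤ) : Qbar)
        + 16 * (((freyModel A B).a₄ : ℤ) : Qbar) := by
    show algebraMap ℚ Qbar (3 * ((e : ℤ) : ℚ) ^ 2
      + 2 * (4 * (freyModelQ A B).a₂ + 1) * ((e : ℤ) : ℚ) + 16 * (freyModelQ A B).a₄) = _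
    simp only [map_add, map_mul, map_pow, hW2, hW4, hcast, map_one, map_ofNat]
  rcases hns with hns | hns
  · apply hns
    have e16 : (1 : Qbar) * Y - (3 * X ^ 2 + 2 * (((freyModel A B).a₂ : ℤ) : Qbar) * X
        + (((freyModel A B).a₄ : ℤ) : Qbar))
        = (2 * y - (3 * x ^ 2 + 2 * ((modelOf (freyModelQ A B) ((e : ℤ) : ℚ))⁄Qbar).a₂ * x
          + ((modelOf (freyModelQ A B) ((e : ℤ) : ℚ))⁄Qbar).a₄)) / 16 := by
      rw [hm2, hm4, hxdef, hydef]
      ring
    rw [e16, map_div₀, h16, div_one]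
    refine V.valuation.map_sub_lt ?_ hder
    rw [map_mul, h2, one_mul]
    exact hylt
  · apply hns
    have e4 : 2 * Y + (1 : Qbar) * X + 0 = y / 4 := by
      rw [hydef]; ring
    rw [e4, map_div₀, h4, div_one]
    exact hylt

/-- (ZC-small) at `3`, in the model centred at the node. -/
theorem zc_small_three_centre {e r s : ℤ} (hc : CentreQ (freyModelQ A B) e r s)
    (p : ℕ) (hp : p.Prime) (hp11 : 11 ≤ p)
    (Q : ((freyModelQ A B)⁄Qbar).Point) (hfix : ∀ σ : Gal, σ • Q = Q)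
    (hord : addOrderOf Q = p) (V : ValuationSubring Qbar) (hV : V.LiesOverPrime 3)
    (hdisc : ¬ ((3 : ℕ) : ℤ) ∣ r - s) (hrs : ((3 : ℕ) : ℤ) ∣ r * s) :
    ¬ (freyModel A B).InZeroComponentAt V Q := by
  intro hZ
  have hQ0 : Q ≠ 0 := by
    intro h0
    rw [h0, addOrderOf_zero] at hord
    exact hp.one_lt.ne hord
  have hQt : (p : ℤ) • Q = 0 := by
    rw [natCast_zsmul, ← hord]
    exact addOrderOf_nsmul_eq_zero Q
  obtain ⟨hyp, -, ha4', Φ, -, hΦ⟩ := centreQ_data hc Nat.prime_three (by norm_num) V hV hdisc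
  have hb : V.valuation ((modelOf (freyModelQ A B) ((e : ℤ) : ℚ))⁄Qbar).a₄ < 1 := by
    rw [ha4']
    exact H15.valuation_intCast_lt_one_of_dvd hV hrs
  obtain ⟨β, hβ⟩ := IsAlgClosed.exists_pow_nat_eq
    (((modelOf (freyModelQ A B) ((e : ℤ) : ℚ))⁄Qbar).a₂) (n := 2) (by norm_num)
  obtain ⟨φ, hker, -⟩ := S05.M1 V _ hyp hb β hβ
  -- `Φ Q ∈ E⁰`
  have hQE0 : φ (Φ Q) = 0 := by
    rw [hker]
    rcases Q with _ | ⟨X, Y, h⟩
    · exact absurd rfl hQ0
    · obtain ⟨h', e'⟩ := hΦ X Y h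
      rw [e']
      exact val_ge_of_zc_three hc V hV hdisc hrs X Y h hZ
  obtain ⟨σ, hσ⟩ := Fermat.Agent.Lib.FrobExists.exists_isFrobeniusAt 3 Nat.prime_three V hV
  refine hQ0 (no_frob_fixed_gen hc hp hp11 V hV hdisc σ hσ Q hQt (hfix σ) ?_)
  intro k X Y h hk
  have hkE0 : φ (Φ (k • Q)) = 0 := by
    rw [map_nsmul, map_nsmul, hQE0]
    exact nsmul_zero _
  rw [hker, hk] at hkE0
  obtain ⟨h', e'⟩ := hΦ X Y h
  rw [e'] at hkE0
  exact hkE0

/-- (ZC-small) at `3`. -/
theorem zc_small_three (hF : IsFreyPair A B) (p : ℕ) (hp : p.Prime) (hp11 : 11 ≤ p)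
    (Q : ((freyModelQ A B)⁄Qbar).Point) (hfix : ∀ σ : Gal, σ • Q = Q)
    (hord : addOrderOf Q = p) (h3 : (3 : ℤ) ∣ A * B * (A + B))
    (V : ValuationSubring Qbar) (hV : V.LiesOverPrime 3) :
    ¬ (freyModel A B).InZeroComponentAt V Q := by
  have hpr : Prime (3 : ℤ) := by
    have := Nat.prime_iff_prime_int.mp Nat.prime_three
    simpa using this
  have hcop : ∀ x y : ℤ, (3 : ℤ) ∣ x → (3 : ℤ) ∣ y → IsCoprime x y → False := by
    intro x y hx hy hxy
    have : IsUnit (3 : ℤ) := hxy.isUnit_of_dvd' hx hy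
    rw [Int.isUnit_iff] at this
    omega
  rcases hpr.dvd_or_dvd h3 with hAB | hAB
  · -- `3 ∣ A B`: node at the root `0`
    refine zc_small_three_centre (centreQ_zero hF) p hp hp11 Q hfix hord V hV ?_ ?_
    · intro hd
      have hd' : (3 : ℤ) ∣ A + B := by
        have : A - -B = A + B := by ring
        rw [this] at hd
        exact_mod_cast hd
      rcases hpr.dvd_or_dvd hAB with hA | hB
      · exact hcop A B hA (by have := dvd_sub hd' hA; simpa using this) hF.cop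
      · exact hcop A B (by have := dvd_sub hd' hB; simpa using this) hB hF.cop
    · have : (3 : ℤ) ∣ A * -B := by
        rw [mul_neg, dvd_neg]; exact hAB
      exact_mod_cast this
  · -- `3 ∣ A + B`: node at the root `A`
    refine zc_small_three_centre (centreQ_A hF) p hp hp11 Q hfix hord V hV ?_ ?_
    · intro hd
      have hd' : (3 : ℤ) ∣ B := by
        have : -A - -(A + B) = B := by ring
        rw [this] at hd
        exact_mod_cast hd
      exact hcop A B (by have := dvd_sub hAB hd'; simpa using this) hd' hF.cop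
    · have : (3 : ℤ) ∣ -A * -(A + B) := by
        rw [neg_mul_neg]; exact dvd_mul_of_dvd_right hAB _
      exact_mod_cast this

end three

/-- (ZC-small) On a Frey-type curve a rational point of prime order `p ≥ 11` does not lie in the
identity component at `2`, nor at `3` when `3 ∣ A B (A + B)`. -/
theorem stmt_zc_small : Stmt_zc_small := by
  intro A B hF p hp hp11 Q hfix hord ℓ hℓ V hV
  rcases hℓ with rfl | ⟨rfl, h3⟩
  · exact zc_small_two hF p hp (by omega) Q hfix hord V hV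
  · exact zc_small_three hF p hp hp11 Q hfix hord h3 V hV

end Fermat.Agent.S12.H66
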