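import Fermat.Agent.S12.H11_Star
import Fermat.Agent.S12.H63_HomFrey
import Fermat.Agent.S12.H66_ZCThree
import Fermat.Agent.S12.H66_StarThree

/-!
# S12 / STAR: final composition (helper11)

`Stmt_star` from the frozen-type hypothesis `Stmt_S15` and the last open package `Stmt_val_B`;
all other inputs (HOM helper63, ZC-small + THREE + STAR-3 helper66, MODEL-arith helper11) are
plugged in.
-/

set_option autoImplicit false

namespace Fermat.Agent.S12.H11

theorem stmt_star_of_S15_valB (h15 : Stmt_S15) (hvalB : Stmt_val_B) : Stmt_star :=
  stmt_star_of_inputs h15 H63.stmt_hom H66.stmt_zc_small hvalB H66.stmt_three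
    H66.stmt_star_three

end Fermat.Agent.S12.H11
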