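/-
S12 / STAR, package ZC-small, the part at `2` (helper63):
on a Frey-type curve `freyModel A B` a rational point of prime order `p ≥ 5` does not lie in the
identity component at a place over `2`.

Proof: `freyModel A B` satisfies `ModelHyp2` of S13/WP3 at `2`; a point of the identity component
(in the sense of the prelude) lies in `E₀` of WP3 (`|x| ≥ 1`: the point `(0,0)` of the reduced curve
is singular); the pigeonhole of WP3 (`H6P.pigeonhole_of_F1`) shows that a rational `p`-torsion
point of `E₀` is zero.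
-/
import Fermat.Agent.S12.H11_Star
import Fermat.Agent.S13.WP3.NoFixedPoint

set_option autoImplicit false

namespace Fermat.Agent.S12.H63

open WeierstrassCurve WeierstrassCurve.Affine WeierstrassCurve.Affine.Point
open Fermat.Agent.S13 Fermat.Agent.S13.WP3

set_option linter.style.haveILetI false

section coeffs

variable (A B : ℤ)

lemma fm_a₁ : (((freyModel A B).map (Int.castRingHom ℚ))⁄Qbar).a₁ = 1 := by
  simp [freyModel]

lemma fm_a₃ : (((freyModel A B).map (Int.castRingHom ℚ))⁄Qbar).a₃ = 0 := by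
  simp [freyModel]

lemma fm_a₆ : (((freyModel A B).map (Int.castRingHom ℚ))⁄Qbar).a₆ = 0 := by
  simp [freyModel]

lemma fm_a₂ : (((freyModel A B).map (Int.castRingHom ℚ))⁄Qbar).a₂ =
    (((freyModel A B).a₂ : ℤ) : Qbar) := by
  simp

lemma fm_a₄ : (((freyModel A B).map (Int.castRingHom ℚ))⁄Qbar).a₄ =
    (((freyModel A B).a₄ : ℤ) : Qbar) := by
  simp

variable {A B}

/-- `a₄ = 2 m`, `m ≠ 0`. -/
lemma freyModel_a₄_even (h : IsFreyPair A B) :
    ∃ m : ℤ, m ≠ 0 ∧ (freyModel A B).a₄ = 2 * m := by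
  obtain ⟨B', hB'⟩ := h.hB
  have h16 := H11.freyModel_sixteen_a₄ h
  have hA0 := H11.freyPair_A_ne_zero h
  have hB0 : B' ≠ 0 := by
    rintro rfl
    exact h.hB0 (by rw [hB']; ring)
  refine ⟨-(A * B'), neg_ne_zero.mpr (mul_ne_zero hA0 hB0), ?_⟩
  have : (16 : ℤ) * (freyModel A B).a₄ = 16 * (2 * -(A * B')) := by
    rw [h16, hB']; ring
  exact mul_left_cancel₀ (by norm_num) this

end coeffs

/-- `freyModel A B` satisfies the hypotheses of the local analysis at `2`. -/
lemma modelHyp2_freyModel {A B : ℤ} (h : IsFreyPair A B) (V : ValuationSubring Qbar)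
    (hV : V.LiesOverPrime 2) :
    ModelHyp2 V (((freyModel A B).map (Int.castRingHom ℚ))⁄Qbar) := by
  obtain ⟨m, hm0, hm⟩ := freyModel_a₄_even h
  have h2 : V.valuation (2 : Qbar) < 1 := H15.val_two_lt hV
  refine ⟨fm_a₁ A B, fm_a₃ A B, fm_a₆ A B, ?_, ?_, ?_, h2⟩
  · rw [fm_a₂, ValuationSubring.valuation_le_one_iff]
    exact intCast_mem V _
  · rw [fm_a₄]
    exact H15.val_even hV ⟨m, hm⟩
  · rw [fm_a₄, hm]
    have : ((m : ℤ) : Qbar) ≠ 0 := by exact_mod_cast hm0
    push_cast
    exact mul_ne_zero two_ne_zero this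

/-- A point of the identity component (prelude) at a place over `2` lies in `E₀` (WP3). -/
lemma inE0_of_inZeroComponentAt {A B : ℤ} (h : IsFreyPair A B) (V : ValuationSubring Qbar)
    (hV : V.LiesOverPrime 2)
    (Q : (((freyModel A B).map (Int.castRingHom ℚ))⁄Qbar).Point)
    (hQ : (freyModel A B).InZeroComponentAt V Q) : WP3.InE0 V Q := by
  rcases hQ with rfl | ⟨x, y, hns, rfl, hx | ⟨hx, hy, hred⟩⟩
  · trivial
  · change 1 ≤ V.valuation x
    rw [← ValuationSubring.valuation_le_one_iff, not_le] at hx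
    exact hx.le
  · change 1 ≤ V.valuation x
    by_contra hlt
    rw [not_le] at hlt
    -- the residue of `x` is zero
    have hx0 : IsLocalRing.residue V ⟨x, hx⟩ = 0 := by
      rw [IsLocalRing.residue_eq_zero_iff, ValuationSubring.valuation_lt_one_iff]
      exact hlt
    -- `2 = 0` in the residue field
    have h2 : V.valuation (2 : Qbar) < 1 := H15.val_two_lt hV
    have h20 : (2 : IsLocalRing.ResidueField V) = 0 := by
      have h2V : (2 : Qbar) ∈ V := by
        rw [← ValuationSubring.valuation_le_one_iff]; exact h2.le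
      have : IsLocalRing.residue V ⟨2, h2V⟩ = 0 := by
        rw [IsLocalRing.residue_eq_zero_iff, ValuationSubring.valuation_lt_one_iff]
        exact h2
      have e : (⟨2, h2V⟩ : V) = 2 := rfl
      rw [e, map_ofNat] at this
      exact this
    obtain ⟨m, -, hm⟩ := freyModel_a₄_even h
    have ha₄ : ((freyModel A B).map (Int.castRingHom (IsLocalRing.ResidueField V))).a₄ = 0 := by
      rw [WeierstrassCurve.map_a₄, hm]
      simp only [eq_intCast, Int.cast_mul, Int.cast_ofNat]
      rw [h20, zero_mul]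
    have ha₃ : ((freyModel A B).map (Int.castRingHom (IsLocalRing.ResidueField V))).a₃ = 0 := by
      simp [freyModel]
    have ha₆ : ((freyModel A B).map (Int.castRingHom (IsLocalRing.ResidueField V))).a₆ = 0 := by
      simp [freyModel]
    rw [Affine.nonsingular_iff, Affine.equation_iff, hx0, ha₄, ha₃, ha₆] at hred
    obtain ⟨heq, hd⟩ := hred
    have hy0 : IsLocalRing.residue V ⟨y, hy⟩ = 0 := by
      have : (IsLocalRing.residue V ⟨y, hy⟩) ^ 2 = 0 := by linear_combination heq
      exact pow_eq_zero_iff (two_ne_zero) |>.mp this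
    rw [hy0] at hd
    rcases hd with hd | hd
    · apply hd; ring
    · apply hd; ring

/-- **ZC-small at `2`.** -/
theorem zc_small_two (A B : ℤ) (h : IsFreyPair A B) (p : ℕ) (hp : p.Prime) (hp5 : 5 ≤ p)
    (Q : (((freyModel A B).map (Int.castRingHom ℚ))⁄Qbar).Point)
    (hfix : ∀ σ : Gal, σ • Q = Q) (hord : addOrderOf Q = p)
    (V : ValuationSubring Qbar) (hV : V.LiesOverPrime 2) :
    ¬ (freyModel A B).InZeroComponentAt V Q := by
  intro hZ
  have hyp := modelHyp2_freyModel h V hV
  have hE0 := inE0_of_inZeroComponentAt h V hV Q hZ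
  have hpodd : ¬ (2 : ℤ) ∣ (p : ℤ) := by
    intro h2
    have h2' : 2 ∣ p := by exact_mod_cast h2
    have := (Nat.prime_dvd_prime_iff_eq Nat.prime_two hp).mp h2'
    omega
  have hp1 : V.valuation ((p : ℕ) : Qbar) = 1 := by
    have := H15.val_odd hV hpodd
    exact_mod_cast this
  have hQt : (p : ℤ) • Q = 0 := by
    rw [natCast_zsmul, ← hord]
    exact addOrderOf_nsmul_eq_zero Q
  have hfixk : ∀ (k : ℕ) (σ : Gal), σ • (k • Q) = k • Q := by
    intro k σ
    rw [← natCast_zsmul, algEquiv_smul_zsmul, hfix σ]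
  have hrat : ∀ (k : ℕ) (u v : Qbar)
      (hns : (((freyModel A B).map (Int.castRingHom ℚ))⁄Qbar).Nonsingular u v),
      k • Q = .some u v hns →
      u ∈ Set.range (algebraMap ℚ Qbar) ∧ v ∈ Set.range (algebraMap ℚ Qbar) := by
    intro k u v hns hk
    apply WP3.H14.coords_rat_of_fixed ((freyModel A B).map (Int.castRingHom ℚ)) u v hns
    intro σ
    rw [← hk]
    exact hfixk k σ
  have hR : ∀ r ∈ Set.range (algebraMap ℚ Qbar), V.valuation r ≤ 1 →
      V.valuation r < 1 ∨ V.valuation (r - 1) < 1 := by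
    rintro _ ⟨r, rfl⟩ hr
    exact H15.ratRes V hV r hr
  have hQ0 : Q = 0 :=
    H6P.pigeonhole_of_F1 H5.F1_2 V _ hyp _ hR p hp hp5 hp1 Q hQt hE0 hrat
  rw [hQ0, addOrderOf_zero] at hord
  exact hp.one_lt.ne hord

end Fermat.Agent.S12.H63
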