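/-
S12, package END (helper67): the final inequality.
`16^(p-1) (C^p - A^p) = B^p`, `A + B = C`, `B ≠ 0`, `p` odd, `p ≥ 3` is impossible.
-/
import Mathlib

set_option autoImplicit false

namespace Fermat.Agent.S12.H67

/-- For `0 ≤ v ≤ u`: `(u - v)^n ≤ u^n - v^n`. -/
theorem sub_pow_le_pow_sub_pow {u v : ℤ} (hv : 0 ≤ v) (huv : v ≤ u) {n : ℕ} (hn : n ≠ 0) :
    (u - v) ^ n ≤ u ^ n - v ^ n := by
  have h := pow_add_pow_le (sub_nonneg.2 huv) hv hn
  rw [sub_add_cancel] at h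
  linarith

/-- `|u - v|^p ≤ 2^(p-1) |u^p - v^p|` for odd `p`. -/
theorem abs_sub_pow_le {u v : ℤ} {p : ℕ} (hp : Odd p) :
    |u - v| ^ p ≤ 2 ^ (p - 1) * |u ^ p - v ^ p| := by
  have hp0 : p ≠ 0 := by rintro rfl; simp at hp
  have h2 : (1 : ℤ) ≤ 2 ^ (p - 1) := one_le_pow₀ (by norm_num)
  have key : ∀ {u v : ℤ}, 0 ≤ v → v ≤ u → |u - v| ^ p ≤ 2 ^ (p - 1) * |u ^ p - v ^ p| := by
    intro u v hv huv
    have h1 := sub_pow_le_pow_sub_pow hv huv hp0
    have h3 : 0 ≤ u ^ p - v ^ p := le_trans (pow_nonneg (sub_nonneg.2 huv) p) h1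
    rw [abs_of_nonneg (sub_nonneg.2 huv), abs_of_nonneg h3]
    calc (u - v) ^ p ≤ u ^ p - v ^ p := h1
      _ = 1 * (u ^ p - v ^ p) := (one_mul _).symm
      _ ≤ 2 ^ (p - 1) * (u ^ p - v ^ p) := by gcongr
  have opp : ∀ {u v : ℤ}, 0 ≤ u → v ≤ 0 → |u - v| ^ p ≤ 2 ^ (p - 1) * |u ^ p - v ^ p| := by
    intro u v hu hv
    have hv' : 0 ≤ -v := neg_nonneg.2 hv
    have h1 := add_pow_le hu hv' p
    have h3 : u ^ p - v ^ p = u ^ p + (-v) ^ p := by
      rw [Odd.neg_pow hp]; ring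
    have h4 : 0 ≤ u ^ p + (-v) ^ p := add_nonneg (pow_nonneg hu p) (pow_nonneg hv' p)
    have h5 : u - v = u + -v := by ring
    rw [h3, abs_of_nonneg h4, h5, abs_of_nonneg (add_nonneg hu hv')]
    exact h1
  rcases le_total 0 u with hu | hu <;> rcases le_total 0 v with hv | hv
  · rcases le_total v u with h | h
    · exact key hv h
    · have := key hu h
      rwa [abs_sub_comm, abs_sub_comm (v ^ p)] at this
  · exact opp hu hv
  · have := opp hv hu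
    rwa [abs_sub_comm, abs_sub_comm (v ^ p)] at this
  · -- both nonpositive: negate
    have hu' : 0 ≤ -u := neg_nonneg.2 hu
    have hv' : 0 ≤ -v := neg_nonneg.2 hv
    have e1 : |u - v| = |(-v) - (-u)| := by
      rw [show (-v) - (-u) = u - v by ring]
    have e2 : |u ^ p - v ^ p| = |(-v) ^ p - (-u) ^ p| := by
      rw [Odd.neg_pow hp, Odd.neg_pow hp, show -v ^ p - -u ^ p = u ^ p - v ^ p by ring]
    rw [e1, e2]
    rcases le_total (-u) (-v) with h | h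
    · exact key hu' h
    · have := key hv' h
      rwa [abs_sub_comm, abs_sub_comm ((-u) ^ p)] at this

/-- (END) -/
theorem stmt_end (A B C : ℤ) (p : ℕ) (hp : Odd p) (hp3 : 3 ≤ p) (hABC : A + B = C) (hB : B ≠ 0)
    (h : 16 ^ (p - 1) * (C ^ p - A ^ p) = B ^ p) : False := by
  have hCA : C - A = B := by rw [← hABC]; ring
  have h1 : |B| ^ p ≤ 2 ^ (p - 1) * |C ^ p - A ^ p| := by
    have := abs_sub_pow_le (u := C) (v := A) hp
    rwa [hCA] at this
  have h2 : |B| ^ p = 16 ^ (p - 1) * |C ^ p - A ^ p| := by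
    rw [← abs_pow, ← h, abs_mul, abs_of_nonneg (by positivity : (0 : ℤ) ≤ 16 ^ (p - 1))]
  have hBpos : 0 < |B| ^ p := pow_pos (abs_pos.2 hB) p
  have hXpos : 0 < |C ^ p - A ^ p| := by
    by_contra hcon
    have h0 : |C ^ p - A ^ p| = 0 := le_antisymm (not_lt.1 hcon) (abs_nonneg _)
    rw [h0, mul_zero] at h2
    rw [h2] at hBpos
    exact lt_irrefl _ hBpos
  have h3 : (2 : ℤ) ^ (p - 1) < 16 ^ (p - 1) :=
    pow_lt_pow_left₀ (by norm_num) (by norm_num) (by omega)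
  have h4 : 2 ^ (p - 1) * |C ^ p - A ^ p| < 16 ^ (p - 1) * |C ^ p - A ^ p| :=
    mul_lt_mul_of_pos_right h3 hXpos
  rw [h2] at h1
  exact absurd h1 (not_le.2 h4)

end Fermat.Agent.S12.H67
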