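/-
S12 package VAL-p (helper67): at `p`, every nonzero point of a cofixed line `N` lies in the
kernel of reduction.  Otherwise inertia at `p` acts trivially on `N` (I6), so the character of
`N` is unramified everywhere (I3, I4), hence trivial (I8), contradicting (I5).
-/
import Fermat.Agent.S12.Defs
import Fermat.Agent.S13.Assemble

set_option autoImplicit false

namespace Fermat.Agent.S12.H67

open WeierstrassCurve WeierstrassCurve.Affine WeierstrassCurve.Affine.Point
open Fermat.Agent.S13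

/-- (I1) for the Frey curve, proven. -/
theorem stmt_card : Stmt_card := H63.card_of_torsion_poly stmt_torsion_poly

/-- (VAL-p) from the S13 inputs. -/
theorem stmt_p_of_inputs
    (h0 : Stmt_exists_valuationSubring) (h1 : Stmt_card)
    (h3 : Stmt_S05) (h4 : Stmt_two_unipotent) (h5 : Stmt_no_fixed_point)
    (h6 : Stmt_p_kernel) (h8 : Stmt_minkowski) : Stmt_p := by
  classical
  intro P L Ap hAp Q hQN hQ0
  have : Fact P.p.Prime := ⟨P.pp⟩
  obtain ⟨hfin, hcard⟩ := h1 P
  obtain ⟨T, hT1, hT2⟩ := h6 P Ap hAp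
  by_contra hQ
  have hQT : Q ∉ T := fun h => hQ ((hT1 Q).mp h)
  have hNs' : ∀ σ : Gal, ∀ x ∈ L.N, σ • x ∈ L.N := L.stable
  have hinf : ∀ z ∈ L.N, z ∈ T → z = 0 := by
    intro z hzN hzT
    by_contra hz
    exact hQT (le_of_mem_of_ne_zero hcard L.N L.ne_top T hzN hzT hz hQN)
  -- the finite set of all coordinates
  let _ : Fintype (Vp P) := Fintype.ofFinite _
  let S : Finset Qbar := Finset.univ.biUnion fun v : Vp P =>
    coordSet (v : (P.freyCurve⁄Qbar).Point)
  have hS : ∀ σ : Gal, (∀ x ∈ S, σ x = x) → ∀ v : Vp P, σ • v = v := by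
    intro σ hσ v
    apply smul_eq_of_fix_coords
    intro x hx
    exact hσ x (Finset.mem_biUnion.mpr ⟨v, Finset.mem_univ _, hx⟩)
  have hS1 : ∃ S : Finset Qbar, ∀ σ : Gal, (∀ x ∈ S, σ x = x) → σ ∈ fixSub Gal L.N :=
    ⟨S, fun σ hσ x _ => hS σ hσ x⟩
  have hmink : fixSub Gal L.N = ⊤ := by
    refine h8 _ (fixSub_normal L.N hNs') hS1 fun ℓ hℓ => ?_
    by_cases hℓp : ℓ = P.p
    · subst hℓp
      refine ⟨Ap, hAp, fun σ hσ x hx => ?_⟩
      exact sub_eq_zero.mp (hinf _ (L.N.sub_mem (hNs' σ x hx) hx) (hT2 σ hσ x))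
    · obtain ⟨A, hA⟩ := h0 ℓ hℓ
      refine ⟨A, hA, ?_⟩
      by_cases h2ℓ : ℓ = 2
      · subst h2ℓ
        obtain ⟨T', hT1', hT2'⟩ := h4 P A hA
        exact fun σ hσ =>
          (mem_fixSub_and_cofixSub_of_unipotent hcard L.N hNs' L.ne_bot L.ne_top T' σ
            (hT1' σ hσ) (hT2' σ hσ)).1
      · have hunr := h3 P ℓ hℓ h2ℓ hℓp A hA
        exact fun σ hσ x _ => hunr σ hσ x
  apply hQ0
  apply h5 P Q
  intro σ
  have : σ ∈ fixSub Gal L.N := by rw [hmink]; exact Subgroup.mem_top σ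
  exact this Q hQN

/-- (VAL-p), all inputs plugged in. -/
theorem stmt_p : Stmt_p :=
  stmt_p_of_inputs stmt_exists_valuationSubring stmt_card stmt_S05 WP3.two_unipotent
    WP3.H14.no_fixed_point H87.p_kernel Fermat.Agent.Lib.Minkowski.stmt_minkowski

end Fermat.Agent.S12.H67
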