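/-
S12 wiring, arithmetic lemma (helper67): a nonzero rational number which is a unit at some
valuation subring over every prime is `±1`.
-/
import Fermat.Agent.S13.Defs
import Fermat.Agent.S13.H63_Val

set_option autoImplicit false

namespace Fermat.Agent.S12.H67

open Fermat.Agent.S13

variable {L : Type*} [Field L] {A : ValuationSubring L}

theorem val_intCast_lt_one_of_dvd {q : ℕ} (hq : (q : L) ∈ A.nonunits) {n : ℤ}
    (h : (q : ℤ) ∣ n) : A.valuation (n : L) < 1 := by
  obtain ⟨k, rfl⟩ := h
  push_cast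
  rw [map_mul]
  calc A.valuation (q : L) * A.valuation (k : L) ≤ A.valuation (q : L) * 1 := by
        gcongr; exact H63.val_intCast_le_one A k
    _ = A.valuation (q : L) := mul_one _
    _ < 1 := H63.val_lt_one_of_mem_nonunits hq

/-- A nonzero rational number which is a unit at some valuation subring over every prime
is `±1`. -/
theorem rat_eq_one_or_neg_one [CharZero L] (z : ℚ) (hz : z ≠ 0)
    (h : ∀ ℓ : ℕ, ℓ.Prime → ∃ A : ValuationSubring L, (ℓ : L) ∈ A.nonunits ∧
      A.valuation ((z : ℚ) : L) = 1) : z = 1 ∨ z = -1 := by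
  have hz' : ((z : ℚ) : L) = (z.num : L) / (z.den : L) := by
    conv_lhs => rw [← Rat.num_div_den z]
    push_cast
    rfl
  have hden0 : ((z.den : ℕ) : L) ≠ 0 := by exact_mod_cast z.den_ne_zero
  have hcop : Nat.Coprime z.num.natAbs z.den := z.reduced
  -- the numerator has no prime factor
  have hnum : z.num.natAbs = 1 := by
    by_contra hne
    obtain ⟨ℓ, hℓ, hdvd⟩ := Nat.exists_prime_and_dvd hne
    obtain ⟨A, hA, hval⟩ := h ℓ hℓ
    have h1 : A.valuation ((z.num : ℤ) : L) < 1 :=
      val_intCast_lt_one_of_dvd hA (Int.natCast_dvd.mpr hdvd)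
    have h2 : A.valuation (((z.den : ℕ) : ℤ) : L) = 1 := by
      apply H63.val_intCast_eq_one_of_not_dvd hℓ hA
      intro hd
      have hd' : ℓ ∣ z.den := by exact_mod_cast hd
      have := Nat.dvd_gcd hdvd hd'
      rw [hcop] at this
      exact hℓ.one_lt.ne' (Nat.dvd_one.mp this)
    rw [hz', map_div₀] at hval
    have h2' : A.valuation ((z.den : ℕ) : L) = 1 := by simpa using h2
    rw [h2', div_one] at hval
    exact absurd hval (ne_of_lt h1)
  have hden : z.den = 1 := by
    by_contra hne
    obtain ⟨ℓ, hℓ, hdvd⟩ := Nat.exists_prime_and_dvd hne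
    obtain ⟨A, hA, hval⟩ := h ℓ hℓ
    have h1 : A.valuation (((z.den : ℕ) : ℤ) : L) < 1 :=
      val_intCast_lt_one_of_dvd hA (by exact_mod_cast hdvd)
    have h2 : A.valuation ((z.num : ℤ) : L) = 1 := by
      apply H63.val_intCast_eq_one_of_not_dvd hℓ hA
      intro hd
      have hd' : ℓ ∣ z.num.natAbs := Int.natCast_dvd.mp hd
      have := Nat.dvd_gcd hd' hdvd
      rw [hcop] at this
      exact hℓ.one_lt.ne' (Nat.dvd_one.mp this)
    rw [hz', map_div₀, h2] at hval
    have h1' : A.valuation ((z.den : ℕ) : L) < 1 := by simpa using h1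
    have h3 : A.valuation ((z.den : ℕ) : L) = 1 := by
      have hne0 : A.valuation ((z.den : ℕ) : L) ≠ 0 := by
        rw [Ne, map_eq_zero]; exact hden0
      field_simp at hval
      exact hval.symm
    exact absurd h3 (ne_of_lt h1')
  rcases Int.natAbs_eq z.num with hn | hn
  · left
    rw [← Rat.num_div_den z, hn, hnum, hden]; simp
  · right
    rw [← Rat.num_div_den z, hn, hnum, hden]; simp

end Fermat.Agent.S12.H67
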