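/-
S12 wiring (helper67): `result_of_inputs` derives the statement of S12 from the packages
`Stmt_*` of `Fermat/Agent/S12/Defs.lean`.

Local analysis gives `Ξ₀/Ξ₁ = ± 4^(p-1) = ± Ξ₂/Ξ₁`; then (KEY) becomes
`16^(p-1) (C^p - A^p) = B^p`, which is impossible (END).
-/
import Fermat.Agent.S12.Defs
import Fermat.Agent.S12.H67_Rat
import Fermat.Agent.S12.H67_RatUnit
import Fermat.Agent.S13.Glue

set_option autoImplicit false

namespace Fermat.Agent.S12.H67

open WeierstrassCurve WeierstrassCurve.Affine WeierstrassCurve.Affine.Point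
open Fermat.Agent.S13

/-- A line in a space with at most `p²` elements has `p` elements. -/
lemma card_of_line {p : ℕ} [Fact p.Prime] {V : Type*} [AddCommGroup V] [Module (ZMod p) V]
    [Finite V] (hV : Nat.card V ≤ p ^ 2) (N : Submodule (ZMod p) V) (h0 : N ≠ ⊥) (h1 : N ≠ ⊤) :
    Nat.card N = p := by
  classical
  have hp : p.Prime := Fact.out
  have hcardV : Nat.card V = p ^ Module.finrank (ZMod p) V := by
    rw [Module.natCard_eq_pow_finrank (K := ZMod p) (V := V), Nat.card_zmod]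
  have hfrV : Module.finrank (ZMod p) V ≤ 2 := by
    rw [hcardV] at hV
    exact (Nat.pow_le_pow_iff_right hp.one_lt).mp hV
  have hfrN : Module.finrank (ZMod p) N < Module.finrank (ZMod p) V :=
    Submodule.finrank_lt h1
  have hfrN0 : 0 < Module.finrank (ZMod p) N := by
    rw [Module.finrank_pos_iff]
    exact Submodule.nontrivial_iff_ne_bot.mpr h0
  have h : Module.finrank (ZMod p) N = 1 := by omega
  rw [Module.natCard_eq_pow_finrank (K := ZMod p) (V := N), Nat.card_zmod, h, pow_one]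

/-- A product over a finite subspace of a function which is `1` at `0` and `c` elsewhere. -/
lemma prod_eq_pow_of_const {p : ℕ} {V : Type*} [AddCommGroup V] [Module (ZMod p) V]
    (N : Submodule (ZMod p) V) [Fintype N] {M : Type*} [CommMonoid M] (f : N → M) (c : M)
    (h0 : f 0 = 1) (h : ∀ Q : N, Q ≠ 0 → f Q = c) :
    ∏ Q : N, f Q = c ^ (Fintype.card N - 1) := by
  classical
  rw [← Finset.mul_prod_erase Finset.univ f (Finset.mem_univ (0 : N)), h0, one_mul]
  rw [Finset.prod_congr rfl (fun Q hQ => h Q (Finset.ne_of_mem_erase hQ)),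
    Finset.prod_const, Finset.card_erase_of_mem (Finset.mem_univ _), Finset.card_univ]

section Local

variable (P : FreyPackage) (N : Submodule (ZMod P.p) (Vp P))

lemma coe_zero_point : (((0 : N) : Vp P) : (P.freyCurve⁄Qbar).Point) = 0 := rfl

/-- (at 2) the valuations of the `Ξ_i`. -/
lemma val_Xi_two [Fintype N] (A : ValuationSubring Qbar)
    (h : ∀ Q : Vp P, Q ∈ N → Q ≠ 0 →
      A.valuation (xiFactor P 0 (Q : (P.freyCurve⁄Qbar).Point)) = A.valuation (4 : Qbar) ∧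
      A.valuation (xiFactor P 1 (Q : (P.freyCurve⁄Qbar).Point)) = 1 ∧
      A.valuation (xiFactor P 2 (Q : (P.freyCurve⁄Qbar).Point)) = A.valuation (4 : Qbar)) :
    A.valuation (Xi P N 0) = A.valuation (4 : Qbar) ^ (Fintype.card N - 1) ∧
    A.valuation (Xi P N 1) = 1 ∧
    A.valuation (Xi P N 2) = A.valuation (4 : Qbar) ^ (Fintype.card N - 1) := by
  have hne : ∀ Q : N, Q ≠ 0 → (Q : Vp P) ≠ 0 := fun Q hQ h0 => hQ (Subtype.ext h0)
  have hz : ∀ i, A.valuation (xiFactor P i (((0 : N) : Vp P) : (P.freyCurve⁄Qbar).Point)) = 1 := by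
    intro i
    change A.valuation (xiFactor P i Point.zero) = 1
    simp [xiFactor]
  refine ⟨?_, ?_, ?_⟩
  · rw [val_Xi]
    exact prod_eq_pow_of_const N _ _ (hz 0) (fun Q hQ => (h Q Q.2 (hne Q hQ)).1)
  · rw [val_Xi]
    rw [prod_eq_pow_of_const N _ 1 (hz 1) (fun Q hQ => (h Q Q.2 (hne Q hQ)).2.1), one_pow]
  · rw [val_Xi]
    exact prod_eq_pow_of_const N _ _ (hz 2) (fun Q hQ => (h Q Q.2 (hne Q hQ)).2.2)

/-- (at p) a point in the kernel of reduction: the three factors have the same valuation. -/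
lemma val_xiFactor_of_inE1 {A : ValuationSubring Qbar} (hA : A.LiesOverPrime P.p)
    (Q : (P.freyCurve⁄Qbar).Point) (hQ : InE1 A Q) (i j : Fin 3) :
    A.valuation (xiFactor P i Q) = A.valuation (xiFactor P j Q) := by
  rcases Q with _ | ⟨x, y, hxy⟩
  · rfl
  · have hx : 1 < A.valuation x := by
      by_contra hle
      rw [not_lt] at hle
      exact hQ ((A.valuation_le_one_iff x).mp hle)
    have h4 : A.valuation (4 : Qbar) = 1 := by
      have h := H63.val_intCast_eq_one_of_not_dvd (L := Qbar) (A := A) P.pp hA (n := 4) (by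
        intro hdvd
        have h1 : (P.p : ℤ) ∣ 2 ^ 2 := by norm_num; exact hdvd
        have h2 := (Nat.prime_iff_prime_int.mp P.pp).dvd_of_dvd_pow h1
        have h3 : P.p ∣ 2 := by exact_mod_cast h2
        have := Nat.le_of_dvd (by norm_num) h3
        have := P.hp5
        omega)
      simpa using h
    have key : ∀ k : Fin 3, A.valuation (xiFactor P k (Point.some x y hxy)) = A.valuation x := by
      intro k
      simp only [xiFactor]
      have h1 : A.valuation (4 * x) = A.valuation x := by rw [map_mul, h4, one_mul]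
      have h2 : A.valuation (((eRoot P k : ℤ) : Qbar)) < A.valuation (4 * x) := by
        rw [h1]
        exact lt_of_le_of_lt (H63.val_intCast_le_one A _) hx
      rw [Valuation.map_sub_eq_of_lt_left _ h2, h1]
    rw [key i, key j]

/-- (at p) the three `Ξ_i` have the same valuation. -/
lemma val_Xi_p [Fintype N] {A : ValuationSubring Qbar} (hA : A.LiesOverPrime P.p)
    (h : ∀ Q : Vp P, Q ∈ N → Q ≠ 0 → InE1 A (Q : (P.freyCurve⁄Qbar).Point)) (i j : Fin 3) :
    A.valuation (Xi P N i) = A.valuation (Xi P N j) := by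
  rw [val_Xi, val_Xi]
  apply Finset.prod_congr rfl
  intro Q _
  by_cases hQ : (Q : Vp P) = 0
  · rw [hQ]; rfl
  · exact val_xiFactor_of_inE1 P hA _ (h Q Q.2 hQ) i j

end Local

/-- **S12 from its inputs.** -/
theorem result_of_inputs
    (h0 : Stmt_exists_valuationSubring) (h1 : Stmt_card)
    (hkey : Stmt_key) (hrat : Stmt_rat) (hgood : Stmt_unit_good)
    (hmu : Stmt_unit_of_nodeFree) (htwo : Stmt_two) (hpp : Stmt_p)
    (hstar3 : Stmt_star_three) (hstar : Stmt_star) (hend : Stmt_end)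
    (P : FreyPackage) (hp : 17 ≤ P.p) :
    ¬ HasGaloisStableCofixedLine (K := AlgebraicClosure ℚ) ℚ P.freyCurve P.p := by
  classical
  rintro ⟨N, hNs, hN0, hN1, hNc⟩
  let L : CofLine P := ⟨N, hNs, hN0, hN1, hNc⟩
  have : Fact P.p.Prime := ⟨P.pp⟩
  obtain ⟨hfin, hcardV⟩ := h1 P
  let _ : Fintype N := Fintype.ofFinite _
  have hcardN : Fintype.card N = P.p := by
    rw [← Nat.card_eq_fintype_card]
    exact card_of_line hcardV N hN0 hN1
  -- the rational numbers `r_i`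
  obtain ⟨r0, hr0, hr0'⟩ := hrat P L 0
  obtain ⟨r1, hr1, hr1'⟩ := hrat P L 1
  obtain ⟨r2, hr2, hr2'⟩ := hrat P L 2
  change algebraMap ℚ Qbar r0 = Xi P N 0 at hr0'
  change algebraMap ℚ Qbar r1 = Xi P N 1 at hr1'
  change algebraMap ℚ Qbar r2 = Xi P N 2 at hr2'
  -- unit type at the odd primes `≠ p`
  have hunit : ∀ ℓ : ℕ, ℓ.Prime → ℓ ≠ 2 → ℓ ≠ P.p → ∀ A : ValuationSubring Qbar,
      A.LiesOverPrime ℓ → UnitTypeAt P N A := by
    intro ℓ hℓ hℓ2 hℓp A hA
    by_cases hbad : (ℓ : ℤ) ∣ P.a * P.b * P.c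
    · refine hmu P L ℓ hℓ hℓ2 hℓp hbad A hA ?_
      by_cases hℓ3 : ℓ = 3
      · subst hℓ3
        exact hstar3 P (by omega) L A hA
      · have h5 : 5 ≤ ℓ := by
          have := hℓ.two_le
          by_contra hlt
          have h4 : ℓ = 4 := by omega
          subst h4
          exact absurd hℓ (by norm_num)
        exact hstar P hp L ℓ hℓ h5 hℓp hbad A hA
    · exact hgood P L ℓ hℓ hℓ2 hℓp hbad A hA
  -- the valuations of the ratios
  have h4ne : (4 : Qbar) ≠ 0 := by norm_num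
  have hval : ∀ i : Fin 3, i ≠ 1 → ∀ ℓ : ℕ, ℓ.Prime → ∃ A : ValuationSubring Qbar,
      (ℓ : Qbar) ∈ A.nonunits ∧
        A.valuation (Xi P N i / Xi P N 1 / (4 : Qbar) ^ (P.p - 1)) = 1 := by
    intro i hi ℓ hℓ
    obtain ⟨A, hA⟩ := h0 ℓ hℓ
    refine ⟨A, hA, ?_⟩
    have h1ne : A.valuation (Xi P N 1) ≠ 0 := by
      rw [Ne, map_eq_zero, ← hr1']
      simpa using hr1
    have h4v : A.valuation (4 : Qbar) ≠ 0 := by
      rw [Ne, map_eq_zero]; exact h4ne
    rw [map_div₀, map_div₀, map_pow]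
    by_cases hℓ2 : ℓ = 2
    · subst hℓ2
      obtain ⟨e0, e1, e2⟩ := val_Xi_two P N A (htwo P L A hA)
      rw [hcardN] at e0 e2
      have hi' : A.valuation (Xi P N i) = A.valuation (4 : Qbar) ^ (P.p - 1) := by
        fin_cases i
        · exact e0
        · exact absurd rfl hi
        · exact e2
      rw [hi', e1, div_one]
      exact div_self (pow_ne_zero _ h4v)
    · have h4one : A.valuation (4 : Qbar) = 1 := by
        have h := H63.val_intCast_eq_one_of_not_dvd (L := Qbar) (A := A) hℓ hA (n := 4) (by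
          intro hdvd
          have h1 : (ℓ : ℤ) ∣ 2 ^ 2 := by norm_num; exact hdvd
          have h2 := (Nat.prime_iff_prime_int.mp hℓ).dvd_of_dvd_pow h1
          have h3 : ℓ ∣ 2 := by exact_mod_cast h2
          exact hℓ2 ((Nat.prime_dvd_prime_iff_eq hℓ Nat.prime_two).mp h3))
        simpa using h
      rw [h4one, one_pow, div_one]
      by_cases hℓp : ℓ = P.p
      · subst hℓp
        rw [val_Xi_p P N hA (hpp P L A hA) i 1]
        exact div_self h1ne
      · have hu := hunit ℓ hℓ hℓ2 hℓp A hA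
        rw [val_Xi_eq_one_of_unitType P N A hu i, val_Xi_eq_one_of_unitType P N A hu 1, div_one]
  -- the ratios are `± 4^(p-1)`
  have hratio : ∀ (i : Fin 3) (r : ℚ), i ≠ 1 → r ≠ 0 → algebraMap ℚ Qbar r = Xi P N i →
      (r / r1) ^ 2 = 16 ^ (P.p - 1) := by
    intro i r hi hr hr'
    have hz : r / r1 / 4 ^ (P.p - 1) ≠ 0 :=
      div_ne_zero (div_ne_zero hr hr1) (pow_ne_zero _ (by norm_num))
    have hcast : ((r / r1 / 4 ^ (P.p - 1) : ℚ) : Qbar) =
        Xi P N i / Xi P N 1 / (4 : Qbar) ^ (P.p - 1) := by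
      rw [← hr', ← hr1']
      simp [eq_ratCast]
    have := rat_eq_one_or_neg_one (L := Qbar) (r / r1 / 4 ^ (P.p - 1)) hz (by
      intro ℓ hℓ
      obtain ⟨A, hA, hv⟩ := hval i hi ℓ hℓ
      exact ⟨A, hA, by rw [hcast]; exact hv⟩)
    have h4 : (4 : ℚ) ^ (P.p - 1) ≠ 0 := pow_ne_zero _ (by norm_num)
    have h16 : (16 : ℚ) ^ (P.p - 1) = (4 ^ (P.p - 1)) ^ 2 := by
      rw [← pow_mul, mul_comm, pow_mul]; norm_num
    rcases this with h | h
    · rw [div_eq_iff h4, one_mul] at h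
      rw [h, h16]
    · rw [div_eq_iff h4] at h
      rw [h, h16]; ring
  have hρ0 := hratio 0 r0 (by decide) hr0 hr0'
  have hρ2 := hratio 2 r2 (by decide) hr2 hr2'
  -- (KEY) in `ℚ`
  have hkeyQ : ((P.a : ℚ) ^ P.p) ^ P.p * r2 ^ 2 + ((P.b : ℚ) ^ P.p) ^ P.p * r1 ^ 2 =
      ((P.c : ℚ) ^ P.p) ^ P.p * r0 ^ 2 := by
    have hk := hkey P L
    change ((P.a : Qbar) ^ P.p) ^ P.p * Xi P N 2 ^ 2 + ((P.b : Qbar) ^ P.p) ^ P.p * Xi P N 1 ^ 2 =
      ((P.c : Qbar) ^ P.p) ^ P.p * Xi P N 0 ^ 2 at hk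
    rw [← hr0', ← hr1', ← hr2'] at hk
    apply (algebraMap ℚ Qbar).injective
    simpa using hk
  have hr1sq : r1 ^ 2 ≠ 0 := pow_ne_zero _ hr1
  have hQ : (16 : ℚ) ^ (P.p - 1) * (((P.c : ℚ) ^ P.p) ^ P.p - ((P.a : ℚ) ^ P.p) ^ P.p) =
      ((P.b : ℚ) ^ P.p) ^ P.p := by
    have e0 : r0 ^ 2 = 16 ^ (P.p - 1) * r1 ^ 2 := by
      rw [← hρ0, div_pow, div_mul_cancel₀ _ hr1sq]
    have e2 : r2 ^ 2 = 16 ^ (P.p - 1) * r1 ^ 2 := by
      rw [← hρ2, div_pow, div_mul_cancel₀ _ hr1sq]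
    rw [e0, e2] at hkeyQ
    have : (16 ^ (P.p - 1) * (((P.c : ℚ) ^ P.p) ^ P.p - ((P.a : ℚ) ^ P.p) ^ P.p)) * r1 ^ 2 =
        (((P.b : ℚ) ^ P.p) ^ P.p) * r1 ^ 2 := by linear_combination -hkeyQ
    exact mul_right_cancel₀ hr1sq this
  have hZ : (16 : ℤ) ^ (P.p - 1) * ((P.c ^ P.p) ^ P.p - (P.a ^ P.p) ^ P.p) = (P.b ^ P.p) ^ P.p := by
    exact_mod_cast hQ
  exact hend (P.a ^ P.p) (P.b ^ P.p) (P.c ^ P.p) P.p P.hp_odd (by omega) P.hFLT
    (pow_ne_zero _ P.hb0) hZ

end Fermat.Agent.S12.H67
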