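/-
S12 assembly (helper67): all landed packages plugged into the wiring.  What remains are
the two node-freeness packages: (STAR-3) at `3` and (STAR) at the bad primes `ℓ ≥ 5`.
-/
import Fermat.Agent.S12.H67_Wiring
import Fermat.Agent.S12.H67_ValP
import Fermat.Agent.S12.H67_End
import Fermat.Agent.S12.H11_KeyFrey
import Fermat.Agent.S12.H87_ValOdd
import Fermat.Agent.S12.H87_ValTwoFinal

set_option autoImplicit false

namespace Fermat.Agent.S12.H67

open WeierstrassCurve WeierstrassCurve.Affine WeierstrassCurve.Affine.Point
open Fermat.Agent.S13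

/-- (RAT), all inputs plugged in. -/
theorem stmt_rat : Stmt_rat :=
  stmt_rat_of_inputs stmt_exists_valuationSubring stmt_card H87.stmt_unit_good

/-- **S12 from (STAR-3) and (STAR).** -/
theorem result_of_star (hstar3 : Stmt_star_three) (hstar : Stmt_star)
    (P : FreyPackage) (hp : 17 ≤ P.p) :
    ¬ HasGaloisStableCofixedLine (K := AlgebraicClosure ℚ) ℚ P.freyCurve P.p :=
  result_of_inputs stmt_exists_valuationSubring stmt_card H11.stmt_key stmt_rat
    H87.stmt_unit_good H87.stmt_unit_of_nodeFree H87.stmt_two stmt_p hstar3 hstar stmt_end P hp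

end Fermat.Agent.S12.H67
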