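/-
S12, package VAL-B (helper87), part 1: local lemmas on the model curve `y² = x³ + a x² + b x`
(`ModelHyp A W` of S05) in the multiplicative case `|b| < 1`, in terms of the component
homomorphism `φ` of S05 (`Stmt_M1`).

For a point `P` of odd order `p` (`|p| = 1`) which does not lie in `E₀` (`|x| < 1`):
* `torsion_annulus`   : `|b| < |x|`;
* `phi_eq_or`         : `φ P = ± [|x|]`;
* `val_eq_of_phi_eq`  : `|x|` is determined by `φ P`;
* `exists_zsmul_phi`  : the `p`-torsion classes are the multiples of `φ R₀`, `R₀ ∉ E₀`;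
* `pow_val_mem`       : `|x|^p ∈ ⟨|b|²⟩`.
-/
import Fermat.Agent.S05.M1Final
import Fermat.Agent.S12.H87_LocalOdd

set_option autoImplicit false

namespace Fermat.Agent.S12.H87

open WeierstrassCurve WeierstrassCurve.Affine WeierstrassCurve.Affine.Point
open Fermat.Agent.S05

section valB

variable {L : Type*} [Field L] [DecidableEq L] {A : ValuationSubring L} {W : Affine L}

/-- The properties of the component homomorphism (the output of S05 `Stmt_M1`). -/
structure CompHom (hyp : ModelHyp A W) (β : L) (φ : W.Point →+ Additive (CompGroup hyp)) :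
    Prop where
  ker : ∀ P, φ P = 0 ↔ S05.InE0 A P
  val : ∀ (x y : L) (h : W.Nonsingular x y) (hx0 : x ≠ 0),
    A.valuation W.a₄ < A.valuation x → A.valuation x < 1 →
    A.valuation (y - β * x) < A.valuation x →
    φ (.some x y h) = Additive.ofMul (QuotientGroup.mk (valUnit A x hx0))

variable {hyp : ModelHyp A W} {β : L} {φ : W.Point →+ Additive (CompGroup hyp)}

/-- A point of odd order outside `E₀` lies in the annulus `|b| < |x| < 1`. -/
theorem torsion_annulus (hφ : CompHom hyp β φ) {x y : L} (h : W.Nonsingular x y)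
    (hx : A.valuation x < 1) (p : ℕ) (hodd : Odd p) (hP : p • Point.some x y h = 0) :
    A.valuation W.a₄ < A.valuation x := by
  by_contra hle
  rw [not_lt] at hle
  by_cases hx0 : x = 0
  · subst hx0
    have hy0 : y = 0 := H55.y_eq_zero_of_x_eq_zero hyp.a₁ hyp.a₃ hyp.a₆ h
    subst hy0
    exact Point.some_ne_zero h (eq_zero_of_two_of_odd (two_nsmul_root hyp h) hodd hP)
  · -- `P + T ∈ E₀`
    have hsum : S05.InE0 A (Point.some x y h + pointT hyp) := by
      rw [pointT, add_of_X_ne hx0]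
      show 1 ≤ A.valuation (W.addX x 0 (W.slope x 0 y 0))
      rw [H55.addX_zero_zero hyp.a₁ hyp.a₃ hyp.a₆ hx0 h, map_div₀]
      have hv0 : 0 < A.valuation x := zero_lt_iff.mpr ((Valuation.ne_zero_iff _).mpr hx0)
      rw [one_le_div₀ hv0]
      exact hle
    have h1 : φ (Point.some x y h) + φ (pointT hyp) = 0 := by
      rw [← map_add]; exact (hφ.ker _).mpr hsum
    have hT2 : 2 • φ (pointT hyp) = 0 := by
      rw [← map_nsmul, pointT, two_nsmul_root hyp, _root_.map_zero]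
    have hP2 : 2 • φ (Point.some x y h) = 0 := by
      have : φ (Point.some x y h) = -φ (pointT hyp) := eq_neg_of_add_eq_zero_left h1
      rw [this, _root_.neg_nsmul, hT2, _root_.neg_zero]
    have hPp : p • φ (Point.some x y h) = 0 := by
      rw [← map_nsmul, hP, _root_.map_zero]
    have h0 : φ (Point.some x y h) = 0 := eq_zero_of_two_of_odd hP2 hodd hPp
    have : S05.InE0 A (Point.some x y h) := (hφ.ker _).mp h0
    exact absurd hx (not_lt.mpr this)

/-- On the annulus, `φ P = ± [|x|]`. -/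
theorem phi_eq_or (hφ : CompHom hyp β φ) (hb : A.valuation W.a₄ < 1) (hβ : β ^ 2 = W.a₂)
    {x y : L} (h : W.Nonsingular x y) (hx0 : x ≠ 0)
    (hxb : A.valuation W.a₄ < A.valuation x) (hx1 : A.valuation x < 1) :
    φ (Point.some x y h) = M1.cls hyp (valUnit A x hx0) ∨
      φ (Point.some x y h) = -M1.cls hyp (valUnit A x hx0) := by
  rcases M1.mid_or hyp hb hβ h hxb hx1 with h1 | h1
  · exact Or.inl (hφ.val x y h hx0 hxb hx1 h1)
  · right
    have hns : W.Nonsingular x (-y) := by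
      have := (nonsingular_neg x y).mpr h
      rwa [H87.model_negY hyp x y] at this
    have hneg : -Point.some x y h = Point.some x (-y) hns := by
      rw [Point.neg_some]
      congr 1
      exact H87.model_negY hyp x y
    have h2 : A.valuation (-y - β * x) < A.valuation x := by
      have : -y - β * x = -(y + β * x) := by ring
      rw [this, Valuation.map_neg]
      exact h1
    have h3 := hφ.val x (-y) hns hx0 hxb hx1 h2
    rw [← hneg, map_neg] at h3
    have h4 : -φ (Point.some x y h) = M1.cls hyp (valUnit A x hx0) := h3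
    rw [← h4, neg_neg]

/-! ### The value group modulo `⟨|b|²⟩` -/

omit [DecidableEq L] in
/-- Membership of `⟨|b|²⟩`, in the value group. -/
lemma mem_zpowers_val {u : (A.ValueGroup)ˣ} (hu : u ∈ Subgroup.zpowers (bUnit hyp ^ 2)) :
    ∃ K : ℤ, (u : A.ValueGroup) = (A.valuation W.a₄ ^ 2) ^ K := by
  obtain ⟨k, rfl⟩ := Subgroup.mem_zpowers_iff.1 hu
  exact ⟨k, by rw [Units.val_zpow_eq_zpow_val, Units.val_pow_eq_pow_val, M1.val_bUnit]⟩

omit [DecidableEq L] in
lemma val_b_pos (hyp : ModelHyp A W) : (0 : A.ValueGroup) < A.valuation W.a₄ :=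
  zero_lt_iff.2 (by simpa using hyp.b_ne)

omit [DecidableEq L] in
/-- Two units of the annulus with the same class are equal. -/
lemma le_of_cls_eq (hb : A.valuation W.a₄ < 1) {u u' : (A.ValueGroup)ˣ}
    (hu : A.valuation W.a₄ < (u : A.ValueGroup)) (hu' : (u' : A.ValueGroup) < 1)
    (h : M1.cls hyp u = M1.cls hyp u') : (u' : A.ValueGroup) ≤ u := by
  have h0 : M1.cls hyp (u * u'⁻¹) = 0 := by
    rw [M1.cls_mul, M1.cls_inv, h, add_neg_cancel]
  have hu'pos : (0 : A.ValueGroup) < u' := zero_lt_iff.2 u'.ne_zero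
  rcases M1.mem_zpowers_cases hyp hb ((M1.cls_eq_zero_iff hyp _).1 h0) with h1 | h1
  · rw [Units.val_mul, Units.val_inv_eq_inv_val] at h1
    rwa [le_mul_inv_iff₀ hu'pos, one_mul] at h1
  · exfalso
    rw [Units.val_mul, Units.val_inv_eq_inv_val, mul_inv_le_iff₀ hu'pos] at h1
    have h2 : A.valuation W.a₄ ^ 2 * (u' : A.ValueGroup) ≤ A.valuation W.a₄ ^ 2 * 1 := by
      gcongr
    rw [mul_one] at h2
    exact absurd (lt_of_le_of_lt (h1.trans h2) (M1.b_sq_lt_b hyp hb)) (not_lt.2 hu.le)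

omit [DecidableEq L] in
lemma eq_of_cls_eq (hb : A.valuation W.a₄ < 1) {u u' : (A.ValueGroup)ˣ}
    (hu : A.valuation W.a₄ < (u : A.ValueGroup)) (hu1 : (u : A.ValueGroup) < 1)
    (hu' : A.valuation W.a₄ < (u' : A.ValueGroup)) (hu1' : (u' : A.ValueGroup) < 1)
    (h : M1.cls hyp u = M1.cls hyp u') : (u : A.ValueGroup) = u' :=
  le_antisymm (le_of_cls_eq hb hu' hu1 h.symm) (le_of_cls_eq hb hu hu1' h)

omit [DecidableEq L] in
lemma false_of_cls_eq_neg (hb : A.valuation W.a₄ < 1) {u u' : (A.ValueGroup)ˣ}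
    (hu : A.valuation W.a₄ < (u : A.ValueGroup)) (hu1 : (u : A.ValueGroup) < 1)
    (hu' : A.valuation W.a₄ < (u' : A.ValueGroup)) (hu1' : (u' : A.ValueGroup) < 1)
    (h : M1.cls hyp u = -M1.cls hyp u') : False := by
  have h0 : M1.cls hyp (u * u') = 0 := by
    rw [M1.cls_mul, h, neg_add_cancel]
  have hbpos := val_b_pos hyp
  have hu'pos : (0 : A.ValueGroup) < u' := zero_lt_iff.2 u'.ne_zero
  rcases M1.mem_zpowers_cases hyp hb ((M1.cls_eq_zero_iff hyp _).1 h0) with h1 | h1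
  · rw [Units.val_mul] at h1
    have h2 : (u : A.ValueGroup) * u' < 1 * 1 := by
      gcongr
      exact zero_le
    rw [mul_one] at h2
    exact absurd h2 (not_lt.2 h1)
  · rw [Units.val_mul, sq] at h1
    have h2 : A.valuation W.a₄ * A.valuation W.a₄ < (u : A.ValueGroup) * u' := by gcongr
    exact absurd h2 (not_lt.2 h1)

/-- `|x|^p ∈ ⟨|b|²⟩` for a `p`-torsion point of the annulus. -/
theorem pow_val_mem (hφ : CompHom hyp β φ) (hb : A.valuation W.a₄ < 1) (hβ : β ^ 2 = W.a₂)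
    {x y : L} (h : W.Nonsingular x y) (hx0 : x ≠ 0)
    (hxb : A.valuation W.a₄ < A.valuation x) (hx1 : A.valuation x < 1) (p : ℕ)
    (hP : p • Point.some x y h = 0) :
    ∃ K : ℤ, A.valuation x ^ p = (A.valuation W.a₄ ^ 2) ^ K := by
  have hp0 : p • φ (Point.some x y h) = 0 := by rw [← map_nsmul, hP, _root_.map_zero]
  have hcls : p • M1.cls hyp (valUnit A x hx0) = 0 := by
    rcases phi_eq_or hφ hb hβ h hx0 hxb hx1 with h1 | h1
    · rwa [h1] at hp0
    · rw [h1, _root_.neg_nsmul, neg_eq_zero] at hp0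
      exact hp0
  have h0 : M1.cls hyp (valUnit A x hx0 ^ p) = 0 := hcls
  obtain ⟨K, hK⟩ := mem_zpowers_val ((M1.cls_eq_zero_iff hyp _).1 h0)
  exact ⟨K, by rw [← hK, Units.val_pow_eq_pow_val, M1.val_valUnit]⟩

/-- On the annulus `|x|` is determined by `φ`. -/
theorem val_eq_of_phi_eq (hφ : CompHom hyp β φ) (hb : A.valuation W.a₄ < 1)
    (hβ : β ^ 2 = W.a₂) {x y x' y' : L} (h : W.Nonsingular x y) (h' : W.Nonsingular x' y')
    (hxb : A.valuation W.a₄ < A.valuation x) (hx1 : A.valuation x < 1)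
    (hxb' : A.valuation W.a₄ < A.valuation x') (hx1' : A.valuation x' < 1)
    (heq : φ (Point.some x y h) = φ (Point.some x' y' h')) :
    A.valuation x = A.valuation x' := by
  have hx0 : x ≠ 0 := by
    rintro rfl
    rw [_root_.map_zero] at hxb
    exact not_lt_zero hxb
  have hx0' : x' ≠ 0 := by
    rintro rfl
    rw [_root_.map_zero] at hxb'
    exact not_lt_zero hxb'
  rcases phi_eq_or hφ hb hβ h hx0 hxb hx1 with h1 | h1 <;>
    rcases phi_eq_or hφ hb hβ h' hx0' hxb' hx1' with h2 | h2 <;>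
    rw [h1, h2] at heq
  · exact eq_of_cls_eq (u := valUnit A x hx0) (u' := valUnit A x' hx0') hb hxb hx1 hxb' hx1' heq
  · exact (false_of_cls_eq_neg (u := valUnit A x hx0) (u' := valUnit A x' hx0') hb hxb hx1
      hxb' hx1' heq).elim
  · exact (false_of_cls_eq_neg (u := valUnit A x' hx0') (u' := valUnit A x hx0) hb hxb' hx1'
      hxb hx1 heq.symm).elim
  · exact eq_of_cls_eq (u := valUnit A x hx0) (u' := valUnit A x' hx0') hb hxb hx1 hxb' hx1'
      (neg_injective heq)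

/-- Torsion-freeness of the value group: the `p`-torsion of `Γ / ⟨B²⟩` is cyclic. -/
lemma bezout_val {Γ : Type*} [LinearOrderedCommGroupWithZero Γ] {B u v : Γ} (hB0 : 0 < B)
    (hB1 : B < 1) (hv0 : B < v) (hv1 : v < 1) {p : ℕ} (hp : p.Prime) {k l : ℤ}
    (hu : u ^ p = (B ^ 2) ^ k) (hv : v ^ p = (B ^ 2) ^ l) :
    ∃ m n : ℤ, u = v ^ m * (B ^ 2) ^ n := by
  have hB2 : (0 : Γ) < B ^ 2 := pow_pos hB0 2
  have hB21 : B ^ 2 ≤ 1 := pow_le_one₀ zero_le hB1.le
  have hl0 : 0 < l := by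
    by_contra hl
    rw [not_lt] at hl
    have h1 : 1 ≤ (B ^ 2) ^ l := one_le_zpow_of_nonpos₀ hB2 hB21 hl
    rw [← hv] at h1
    exact absurd (pow_lt_one₀ zero_le hv1 hp.ne_zero) (not_lt.2 h1)
  have hlp : 2 * l < p := by
    have h1 : B ^ p < v ^ p := pow_lt_pow_left₀ hv0 zero_le hp.ne_zero
    rw [hv, ← zpow_natCast, ← zpow_natCast B 2, ← zpow_mul] at h1
    exact (zpow_lt_zpow_iff_right_of_lt_one₀ hB0 hB1).1 h1
  have hnd : ¬ (p : ℤ) ∣ l := by
    intro hd
    have := Int.le_of_dvd hl0 hd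
    omega
  obtain ⟨a, b', hab⟩ := (Prime.coprime_iff_not_dvd (Nat.prime_iff_prime_int.mp hp)).2 hnd
  refine ⟨k * b', k * a, ?_⟩
  apply (pow_left_inj₀ zero_le zero_le hp.ne_zero).1
  rw [hu, mul_pow, ← zpow_natCast (v ^ (k * b')), ← zpow_mul, mul_comm (k * b') (p : ℤ),
    zpow_mul, zpow_natCast, hv, ← zpow_natCast ((B ^ 2) ^ (k * a)) p, ← zpow_mul, ← zpow_mul,
    ← zpow_add₀ hB2.ne']
  congr 1
  linear_combination (-k) * hab

/-- The classes of the `p`-torsion points are the multiples of the class of one `p`-torsion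
point outside `E₀`. -/
theorem exists_zsmul_phi (hφ : CompHom hyp β φ) (hb : A.valuation W.a₄ < 1)
    (hβ : β ^ 2 = W.a₂) {p : ℕ} (hp : p.Prime) (hodd : Odd p) {R₀ Q : W.Point}
    (hR₀ : p • R₀ = 0) (hR₀E : ¬ S05.InE0 A R₀) (hQ : p • Q = 0) :
    ∃ m : ℤ, φ Q = m • φ R₀ := by
  by_cases hQE : S05.InE0 A Q
  · exact ⟨0, by rw [zero_zsmul]; exact (hφ.ker Q).2 hQE⟩
  rcases Q with _ | ⟨x, y, h⟩
  · exact absurd trivial hQE
  rcases R₀ with _ | ⟨x₀, y₀, h₀⟩
  · exact absurd trivial hR₀E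
  have hx1 : A.valuation x < 1 := not_le.1 hQE
  have hx1' : A.valuation x₀ < 1 := not_le.1 hR₀E
  have hxb := torsion_annulus hφ h hx1 p hodd hQ
  have hxb' := torsion_annulus hφ h₀ hx1' p hodd hR₀
  have hx0 : x ≠ 0 := by
    rintro rfl
    rw [_root_.map_zero] at hxb
    exact not_lt_zero hxb
  have hx0' : x₀ ≠ 0 := by
    rintro rfl
    rw [_root_.map_zero] at hxb'
    exact not_lt_zero hxb'
  obtain ⟨k, hk⟩ := pow_val_mem hφ hb hβ h hx0 hxb hx1 p hQ
  obtain ⟨l, hl⟩ := pow_val_mem hφ hb hβ h₀ hx0' hxb' hx1' p hR₀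
  obtain ⟨m, n, hmn⟩ := bezout_val (val_b_pos hyp) hb hxb' hx1' hp hk hl
  have hu : valUnit A x hx0 = valUnit A x₀ hx0' ^ m * (bUnit hyp ^ 2) ^ n := by
    apply Units.ext
    rw [Units.val_mul, Units.val_zpow_eq_zpow_val, Units.val_zpow_eq_zpow_val,
      Units.val_pow_eq_pow_val, M1.val_valUnit, M1.val_valUnit, M1.val_bUnit]
    exact hmn
  have hb0 : M1.cls hyp ((bUnit hyp ^ 2) ^ n) = 0 :=
    (M1.cls_eq_zero_iff hyp _).2 (Subgroup.zpow_mem _ (Subgroup.mem_zpowers _) n)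
  have hcls : M1.cls hyp (valUnit A x hx0) = m • M1.cls hyp (valUnit A x₀ hx0') := by
    rw [hu, M1.cls_mul, hb0, add_zero]
    rfl
  rcases phi_eq_or hφ hb hβ h hx0 hxb hx1 with h1 | h1 <;>
    rcases phi_eq_or hφ hb hβ h₀ hx0' hxb' hx1' with h2 | h2
  · exact ⟨m, by rw [h1, h2, hcls]⟩
  · exact ⟨-m, by rw [h1, h2, hcls, neg_zsmul, zsmul_neg, neg_neg]⟩
  · exact ⟨-m, by rw [h1, h2, hcls, neg_zsmul]⟩
  · exact ⟨m, by rw [h1, h2, hcls, zsmul_neg]⟩

/-! ### The function `|x|` on torsion points -/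

/-- `|x(P)|`, with the value `1` at infinity. -/
noncomputable def xv1 (A : ValuationSubring L) {W : Affine L} : W.Point → A.ValueGroup
  | .zero => 1
  | .some x _ _ => A.valuation x

omit [DecidableEq L] in
lemma xv1_zero : xv1 A (0 : W.Point) = 1 := rfl

omit [DecidableEq L] in
lemma xv1_some {x y : L} (h : W.Nonsingular x y) : xv1 A (Point.some x y h) = A.valuation x :=
  rfl

/-- A torsion point of `E₀` has `|x| = 1`. -/
theorem xv1_eq_one_of_InE0 (hyp : ModelHyp A W) {p : ℕ} (hvp : A.valuation (p : L) = 1)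
    {T : W.Point} (hT : p • T = 0) (hE : S05.InE0 A T) : xv1 A T = 1 := by
  rcases T with _ | ⟨x, y, h⟩
  · rfl
  · exact le_antisymm (val_x_le_one_of_torsion hyp h p hvp hT) hE

/-- Outside `E₀`, `|x|` is determined by `φ`. -/
theorem xv1_eq_of_phi_eq (hφ : CompHom hyp β φ) (hb : A.valuation W.a₄ < 1)
    (hβ : β ^ 2 = W.a₂) {p : ℕ} (hodd : Odd p) {T T' : W.Point} (hT : p • T = 0)
    (hT' : p • T' = 0) (hE : ¬ S05.InE0 A T) (heq : φ T = φ T') : xv1 A T = xv1 A T' := by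
  have hE' : ¬ S05.InE0 A T' := fun h' => hE ((hφ.ker T).1 (heq.trans ((hφ.ker T').2 h')))
  rcases T with _ | ⟨x, y, h⟩
  · exact absurd trivial hE
  rcases T' with _ | ⟨x', y', h'⟩
  · exact absurd trivial hE'
  have hx1 : A.valuation x < 1 := not_le.1 hE
  have hx1' : A.valuation x' < 1 := not_le.1 hE'
  exact val_eq_of_phi_eq hφ hb hβ h h' (torsion_annulus hφ h hx1 p hodd hT) hx1
    (torsion_annulus hφ h' hx1' p hodd hT') hx1' heq

/-- `|x|^p ∈ ⟨|b|²⟩` for a `p`-torsion point. -/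
theorem xv1_pow_mem (hφ : CompHom hyp β φ) (hb : A.valuation W.a₄ < 1)
    (hβ : β ^ 2 = W.a₂) {p : ℕ} (hodd : Odd p) (hvp : A.valuation (p : L) = 1) {T : W.Point}
    (hT : p • T = 0) : ∃ K : ℤ, xv1 A T ^ p = (A.valuation W.a₄ ^ 2) ^ K := by
  by_cases hE : S05.InE0 A T
  · exact ⟨0, by rw [xv1_eq_one_of_InE0 hyp hvp hT hE, one_pow, zpow_zero]⟩
  rcases T with _ | ⟨x, y, h⟩
  · exact absurd trivial hE
  have hx1 : A.valuation x < 1 := not_le.1 hE
  have hxb := torsion_annulus hφ h hx1 p hodd hT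
  have hx0 : x ≠ 0 := by
    rintro rfl
    rw [_root_.map_zero] at hxb
    exact not_lt_zero hxb
  exact pow_val_mem hφ hb hβ h hx0 hxb hx1 p hT

/-- For a `p`-torsion point, `|x - r| = |x|` when `|r| ≤ |b|` (`r` the colliding root). -/
theorem val_sub_small (hφ : CompHom hyp β φ) (hb : A.valuation W.a₄ < 1) {p : ℕ}
    (hodd : Odd p) (hvp : A.valuation (p : L) = 1) {x y : L} (h : W.Nonsingular x y)
    (hP : p • Point.some x y h = 0) {r : L} (hr : A.valuation r ≤ A.valuation W.a₄) :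
    A.valuation (x - r) = A.valuation x := by
  apply Valuation.map_sub_eq_of_lt_left
  rcases lt_or_eq_of_le (val_x_le_one_of_torsion hyp h p hvp hP) with hx | hx
  · exact lt_of_le_of_lt hr (torsion_annulus hφ h hx p hodd hP)
  · rw [hx]
    exact lt_of_le_of_lt hr hb

/-- For a `p`-torsion point, `|x - s| = 1` when `s` is the unit root. -/
theorem val_sub_unit (hyp : ModelHyp A W) {p : ℕ} (hodd : Odd p)
    (hvp : A.valuation (p : L) = 1) {x y : L} (h : W.Nonsingular x y)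
    (hP : p • Point.some x y h = 0) {s : L} (hs : s ^ 2 + W.a₂ * s + W.a₄ = 0)
    (hs1 : A.valuation s = 1) : A.valuation (x - s) = 1 := by
  rcases lt_or_eq_of_le (val_x_le_one_of_torsion hyp h p hvp hP) with hx | hx
  · rw [Valuation.map_sub_eq_of_lt_right _ (by rw [hs1]; exact hx), hs1]
  · exact val_x_sub_root_eq_one hyp hs hs1 h hx p hodd hvp hP

/-! ### Products over a line -/

section coset

variable {G : Type*} [AddCommGroup G] (Φ : G →+ W.Point) (S : AddSubgroup G) [Fintype S]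

/-- The product of the `|x|` over a coset `Q + S` of a line `S` with `S ∩ E₀ = 0` equals the
product over `S`. -/
theorem prod_coset_eq (hφ : CompHom hyp β φ) (hb : A.valuation W.a₄ < 1) (hβ : β ^ 2 = W.a₂)
    {p : ℕ} (hp : p.Prime) (hodd : Odd p) (hvp : A.valuation (p : L) = 1)
    (hcard : Nat.card S = p) (hS : ∀ R ∈ S, p • R = 0)
    {R₀ : G} (hR₀ : R₀ ∈ S) (hR₀E : ¬ S05.InE0 A (Φ R₀)) {Q : G} (hQ : p • Q = 0)
    (hQS : Q ∉ S) :
    ∏ R : S, xv1 A (Φ (Q + R)) = ∏ R : S, xv1 A (Φ (R : G)) := by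
  -- every nonzero point of `S` is outside `E₀`
  have hSE : ∀ R : S, R ≠ 0 → ¬ S05.InE0 A (Φ (R : G)) := by
    intro R hR0 hE
    have : Fact p.Prime := ⟨hp⟩
    have htop := zmultiples_eq_top_of_prime_card (G := S) hcard hR0
    have hmem : (⟨R₀, hR₀⟩ : S) ∈ AddSubgroup.zmultiples R := by
      rw [htop]; trivial
    obtain ⟨m, hm⟩ := AddSubgroup.mem_zmultiples_iff.1 hmem
    have hm' : m • (R : G) = R₀ := by
      have := congrArg Subtype.val hm
      simpa using this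
    apply hR₀E
    apply (hφ.ker _).1
    rw [← hm', map_zsmul, map_zsmul, (hφ.ker _).2 hE, zsmul_zero]
  have hR₀p : p • Φ R₀ = 0 := by rw [← map_nsmul, hS R₀ hR₀, _root_.map_zero]
  have hQp : p • Φ Q = 0 := by rw [← map_nsmul, hQ, _root_.map_zero]
  obtain ⟨m, hm⟩ := exists_zsmul_phi hφ hb hβ hp hodd hR₀p hR₀E hQp
  have hcS : m • R₀ ∈ S := S.zsmul_mem hR₀ m
  have htE : S05.InE0 A (Φ (Q - m • R₀)) := by
    apply (hφ.ker _).1
    rw [map_sub, map_sub, map_zsmul, map_zsmul, hm, sub_self]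
  have ht0 : Q - m • R₀ ≠ 0 := fun h => hQS (by rw [sub_eq_zero.1 h]; exact hcS)
  have htp : p • (Q - m • R₀) = 0 := by
    rw [smul_sub, hQ, smul_comm, hS R₀ hR₀, smul_zero, sub_zero]
  have hstep : ∀ R : S, xv1 A (Φ ((Q - m • R₀) + (R : G))) = xv1 A (Φ (R : G)) := by
    intro R
    by_cases hR0 : R = 0
    · rw [hR0, AddSubgroup.coe_zero, add_zero, _root_.map_zero, xv1_zero]
      exact xv1_eq_one_of_InE0 hyp hvp (by rw [← map_nsmul, htp, _root_.map_zero]) htE
    · symm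
      apply xv1_eq_of_phi_eq hφ hb hβ hodd
      · rw [← map_nsmul, hS R R.2, _root_.map_zero]
      · rw [← map_nsmul, smul_add, htp, hS R R.2, add_zero, _root_.map_zero]
      · exact hSE R hR0
      · rw [map_add, map_add, (hφ.ker _).2 htE, zero_add]
  calc ∏ R : S, xv1 A (Φ (Q + R))
      = ∏ R : S, xv1 A (Φ ((Q - m • R₀) + ((Equiv.addLeft (⟨m • R₀, hcS⟩ : S) R : S) : G))) := by
        refine Finset.prod_congr rfl (fun R _ => ?_)
        congr 2
        simp only [Equiv.coe_addLeft, AddSubgroup.coe_add]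
        abel
    _ = ∏ R : S, xv1 A (Φ ((Q - m • R₀) + (R : G))) :=
        Equiv.prod_comp (Equiv.addLeft (⟨m • R₀, hcS⟩ : S))
          (fun R : S => xv1 A (Φ ((Q - m • R₀) + (R : G))))
    _ = ∏ R : S, xv1 A (Φ (R : G)) := Finset.prod_congr rfl (fun R _ => hstep R)

/-- The `p`-th power of the product of the `|x|` over a set of `p`-torsion points lies in
`⟨|b|²⟩`. -/
theorem prod_pow_mem (hφ : CompHom hyp β φ) (hb : A.valuation W.a₄ < 1) (hβ : β ^ 2 = W.a₂)
    {p : ℕ} (hodd : Odd p) (hvp : A.valuation (p : L) = 1) (hS : ∀ R ∈ S, p • R = 0) :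
    ∃ K : ℤ, (∏ R : S, xv1 A (Φ (R : G))) ^ p = (A.valuation W.a₄ ^ 2) ^ K := by
  rw [← Finset.prod_pow]
  refine Finset.prod_induction _ (fun g => ∃ K : ℤ, g = (A.valuation W.a₄ ^ 2) ^ K) ?_ ?_ ?_
  · rintro a b ⟨K, rfl⟩ ⟨K', rfl⟩
    exact ⟨K + K', (zpow_add₀ (pow_ne_zero 2 (val_b_pos hyp).ne') _ _).symm⟩
  · exact ⟨0, (zpow_zero _).symm⟩
  · intro R _
    exact xv1_pow_mem hφ hb hβ hodd hvp (by rw [← map_nsmul, hS R R.2, _root_.map_zero])

end coset

end valB

end Fermat.Agent.S12.H87
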