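/-
S12, package VAL-B (helper87), part 2: application to the Frey curve.

At a valuation subring `A` of `Q̄` over an odd bad prime `ℓ ≠ p` where the line `N` is not
node-free: in the model centred at a colliding root `e_i` (other colliding root `e_j`, unit root
`e_k`) all `x_S(T) - e_k` are units, `|x_S(T) - e_j| = |x_S(T) - e_i|` for all `p`-torsion points
`T ≠ 0`, and the products of the `|x_S - e_i|` over `N` and over a coset `Q + N` agree.

Main result: `Fermat.Agent.S12.H87.stmt_val_B : Stmt_val_B`.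
-/
import Fermat.Agent.S12.H11_StarDefs
import Fermat.Agent.S12.H87_ValBLocal
import Fermat.Agent.S12.H87_ValOdd

set_option autoImplicit false

namespace Fermat.Agent.S12.H87

open WeierstrassCurve WeierstrassCurve.Affine WeierstrassCurve.Affine.Point
open Fermat.Agent.S05 Fermat.Agent.S13

section centre

open Fermat.Agent.S05.H15

variable (P : FreyPackage) {e r s : ℤ}

omit P in
lemma Centre.swap {P : FreyPackage} (hc : Centre P e r s) : Centre P e s r where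
  h2 := by rw [hc.h2]; ring
  h4 := by rw [hc.h4]; ring
  he := hc.he
  hr := hc.hs
  hs := hc.hr

lemma frey_four_a₂ : 4 * P.freyCurve.a₂ + 1 = ((P.b ^ P.p - P.a ^ P.p : ℤ) : ℚ) := by
  simp only [FreyPackage.freyCurve]
  push_cast
  ring

lemma frey_sixteen_a₄ : 16 * P.freyCurve.a₄ = ((-(P.a ^ P.p * P.b ^ P.p) : ℤ) : ℚ) := by
  simp only [FreyPackage.freyCurve]
  push_cast
  ring

variable {P}

lemma Centre.he_rat (hc : Centre P e r s) :
    ((e : ℤ) : ℚ) ^ 3 + (4 * P.freyCurve.a₂ + 1) * ((e : ℤ) : ℚ) ^ 2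
      + 16 * P.freyCurve.a₄ * ((e : ℤ) : ℚ) = 0 := by
  rw [frey_four_a₂, frey_sixteen_a₄]
  have := congrArg (Int.cast : ℤ → ℚ) hc.he
  push_cast at this ⊢
  linear_combination this

/-- The model centred at `e`, over `Q̄`. -/
noncomputable abbrev modelC (P : FreyPackage) (e : ℤ) : Affine Qbar :=
  (modelOf P.freyCurve ((e : ℤ) : ℚ))⁄Qbar

lemma Centre.a₂ (hc : Centre P e r s) : (modelC P e).a₂ = ((-(r + s) : ℤ) : Qbar) := by
  have ha2 : (modelOf P.freyCurve ((e : ℤ) : ℚ)).a₂ = ((-(r + s) : ℤ) : ℚ) := by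
    simp only [modelOf]
    rw [frey_four_a₂, ← hc.h2]
    push_cast
    ring
  show algebraMap ℚ Qbar _ = _
  rw [ha2]
  simp

lemma Centre.a₄ (hc : Centre P e r s) : (modelC P e).a₄ = ((r * s : ℤ) : Qbar) := by
  have ha4 : (modelOf P.freyCurve ((e : ℤ) : ℚ)).a₄ = ((r * s : ℤ) : ℚ) := by
    simp only [modelOf]
    rw [frey_four_a₂, frey_sixteen_a₄, ← hc.h4]
    push_cast
    ring
  show algebraMap ℚ Qbar _ = _
  rw [ha4]
  simp

lemma Centre.modelHyp (hc : Centre P e r s) {ℓ : ℕ} (hℓ : ℓ.Prime) (hℓ2 : ℓ ≠ 2)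
    (A : ValuationSubring Qbar) (hA : A.LiesOverPrime ℓ) (hdisc : ¬ (ℓ : ℤ) ∣ r - s) :
    ModelHyp A (modelC P e) := by
  have hqK : ((ℓ : ℕ) : Qbar) ∈ A.nonunits := hA
  have hval2 : A.valuation (2 : Qbar) = 1 := by
    have := valuation_natCast_eq_one_of_ne (A := A) hℓ hqK Nat.prime_two (Ne.symm hℓ2)
    simpa using this
  refine ⟨by simp [modelOf], by simp [modelOf], by simp [modelOf], ?_, ?_, ?_, hval2, ?_⟩
  · rw [hc.a₂]; exact valuation_intCast_le_one A _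
  · rw [hc.a₄]; exact valuation_intCast_le_one A _
  · rw [hc.a₄]
    have : (r * s : ℤ) ≠ 0 := mul_ne_zero hc.hr hc.hs
    exact_mod_cast this
  · rw [hc.a₂, hc.a₄]
    have : (((-(r + s) : ℤ) : Qbar)) ^ 2 - 4 * ((r * s : ℤ) : Qbar)
        = (((r - s) ^ 2 : ℤ) : Qbar) := by
      push_cast; ring
    rw [this]
    exact valuation_intCast_eq_one_of_not_dvd hℓ hqK (H15.not_dvd_pow hℓ hdisc _)

lemma Centre.varChange (hc : Centre P e r s) :
    H14.IsVarChange (P.freyCurve⁄Qbar) (modelC P e) (2 : Qbar)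
      (algebraMap ℚ Qbar (-((e : ℤ) : ℚ))) (1 : Qbar) (0 : Qbar) :=
  H14.isVarChange_modelOf (L := Qbar) P.freyCurve rfl rfl rfl ((e : ℤ) : ℚ) hc.he_rat

/-- The isomorphism to the model centred at `e`. -/
noncomputable def Centre.map (hc : Centre P e r s) :
    (P.freyCurve⁄Qbar).Point →+ (modelC P e).Point :=
  hc.varChange.addEquiv.toAddMonoidHom

lemma Centre.map_injective (hc : Centre P e r s) : Function.Injective hc.map :=
  hc.varChange.addEquiv.injective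

lemma Centre.map_some (hc : Centre P e r s) {X Y : Qbar}
    (h : (P.freyCurve⁄Qbar).Nonsingular X Y) :
    ∃ (y : Qbar) (h' : (modelC P e).Nonsingular (4 * X - ((e : ℤ) : Qbar)) y),
      hc.map (Point.some X Y h) = Point.some (4 * X - ((e : ℤ) : Qbar)) y h' := by
  have hfx : H14.fx (2 : Qbar) (algebraMap ℚ Qbar (-((e : ℤ) : ℚ))) X
      = 4 * X - ((e : ℤ) : Qbar) := by
    rw [H14.fx, map_neg]
    simp
    ring
  have h1 : hc.map (Point.some X Y h) = _ := hc.varChange.addEquiv_some h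
  rw [h1]
  refine ⟨_, hfx ▸ (hc.varChange.nonsingular_iff X Y).2 h, ?_⟩
  exact H14.IsVarChange.some_congr hfx rfl _ _

/-- `|x_S(T) - e|` is the `|x|` of the image in the model centred at `e`. -/
lemma Centre.xv1_map (hc : Centre P e r s) (A : ValuationSubring Qbar) (i : Fin 3)
    (hi : eRoot P i = e) (T : (P.freyCurve⁄Qbar).Point) :
    xv1 A (hc.map T) = A.valuation (xiFactor P i T) := by
  rcases T with _ | ⟨X, Y, h⟩
  · show xv1 A (hc.map 0) = A.valuation 1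
    rw [_root_.map_zero, xv1_zero, _root_.map_one]
  · obtain ⟨y, h', hy⟩ := hc.map_some h
    rw [hy, xv1_some]
    show _ = A.valuation (4 * X - ((eRoot P i : ℤ) : Qbar))
    rw [hi]

end centre

section main

open Fermat.Agent.S05.H15

variable {P : FreyPackage} {e r s : ℤ}

/-- The component homomorphism of a model over an algebraically closed field. -/
lemma exists_compHom {K : Type*} [Field K] [DecidableEq K] [IsAlgClosed K]
    {A : ValuationSubring K} {W : Affine K} (hyp : ModelHyp A W)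
    (hb : A.valuation W.a₄ < 1) :
    ∃ (β : K) (φ : W.Point →+ Additive (CompGroup hyp)), β ^ 2 = W.a₂ ∧ CompHom hyp β φ := by
  obtain ⟨β, hβ⟩ := IsAlgClosed.exists_pow_nat_eq W.a₂ (n := 2) (by norm_num)
  obtain ⟨φ, hker, hval⟩ := S05.M1 A W hyp hb β hβ
  exact ⟨β, φ, hβ, ⟨hker, hval⟩⟩

lemma one_le_xv1_of_InE0 {A : ValuationSubring Qbar} {W : Affine Qbar} {T : W.Point}
    (h : S05.InE0 A T) : 1 ≤ xv1 A T := by
  rcases T with _ | ⟨x, y, hxy⟩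
  · exact le_refl _
  · exact h

/-- For a `p`-torsion point `T`: `|x_S(T) - e_j| = |x_S(T) - e_i|` (colliding roots) and
`|x_S(T) - e_k| = 1` (unit root). -/
theorem xiFactor_vals (hc : Centre P e r s) {ℓ : ℕ} (hℓ : ℓ.Prime) (hℓ2 : ℓ ≠ 2)
    (hℓp : ℓ ≠ P.p) (A : ValuationSubring Qbar) (hA : A.LiesOverPrime ℓ) (hr : (ℓ : ℤ) ∣ r)
    (hs : ¬ (ℓ : ℤ) ∣ s) {i j k : Fin 3} (hi : eRoot P i = e) (hj : eRoot P j = e + r)
    (hk : eRoot P k = e + s) {T : (P.freyCurve⁄Qbar).Point} (hT : P.p • T = 0) :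
    A.valuation (xiFactor P j T) = A.valuation (xiFactor P i T) ∧
      A.valuation (xiFactor P k T) = 1 := by
  rcases T with _ | ⟨X, Y, h⟩
  · exact ⟨rfl, _root_.map_one _⟩
  have hqK : ((ℓ : ℕ) : Qbar) ∈ A.nonunits := hA
  have hdisc : ¬ (ℓ : ℤ) ∣ r - s := fun hd => hs ((dvd_sub_right hr).1 hd)
  have hyp := hc.modelHyp hℓ hℓ2 A hA hdisc
  have hvs : A.valuation ((s : ℤ) : Qbar) = 1 := valuation_intCast_eq_one_of_not_dvd hℓ hqK hs
  have hbr : A.valuation (modelC P e).a₄ = A.valuation ((r : ℤ) : Qbar) := by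
    rw [hc.a₄, Int.cast_mul, map_mul, hvs, mul_one]
  have hb : A.valuation (modelC P e).a₄ < 1 := by
    rw [hbr]; exact valuation_intCast_lt_one_of_dvd hqK hr
  have hvalp : A.valuation ((P.p : ℕ) : Qbar) = 1 :=
    valuation_natCast_eq_one_of_ne (A := A) hℓ hqK P.pp (Ne.symm hℓp)
  obtain ⟨β, φ, hβ, hφ⟩ := exists_compHom hyp hb
  obtain ⟨y, h', hy⟩ := hc.map_some h
  have hΦ : P.p • Point.some (4 * X - ((e : ℤ) : Qbar)) y h' = 0 := by
    rw [← hy, ← map_nsmul, hT, _root_.map_zero]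
  constructor
  · have := val_sub_small hφ hb P.hp_odd hvalp h' hΦ (r := ((r : ℤ) : Qbar)) (le_of_eq hbr.symm)
    show A.valuation (4 * X - ((eRoot P j : ℤ) : Qbar))
      = A.valuation (4 * X - ((eRoot P i : ℤ) : Qbar))
    rw [hi, hj, ← this]
    congr 1
    push_cast
    ring
  · have hquad : ((s : ℤ) : Qbar) ^ 2 + (modelC P e).a₂ * (s : Qbar) + (modelC P e).a₄ = 0 := by
      rw [hc.a₂, hc.a₄]
      push_cast
      ring
    have := val_sub_unit hyp P.hp_odd hvalp h' hΦ hquad hvs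
    show A.valuation (4 * X - ((eRoot P k : ℤ) : Qbar)) = 1
    rw [hk, ← this]
    congr 1
    push_cast
    ring

/-- VAL-B in the model centred at the colliding root `e = e_i`. -/
theorem valB_centre (L : CofLine P) (hc : Centre P e r s) {ℓ : ℕ} (hℓ : ℓ.Prime)
    (hℓ2 : ℓ ≠ 2) (hℓp : ℓ ≠ P.p) (A : ValuationSubring Qbar) (hA : A.LiesOverPrime ℓ)
    (hr : (ℓ : ℤ) ∣ r) (hs : ¬ (ℓ : ℤ) ∣ s) {i j k : Fin 3} (hi : eRoot P i = e)
    (hj : eRoot P j = e + r) (hk : eRoot P k = e + s) (R₀ : Vp P) (hR₀ : R₀ ∈ L.N)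
    (hR₀lt : A.valuation (xiFactor P i (R₀ : (P.freyCurve⁄Qbar).Point)) < 1) (Q : Vp P)
    (hQ : Q ∉ L.N) :
    ∃ ρ : A.ValueGroup, ρ ≠ 0 ∧ A.valuation (Xi P L.N i) = ρ ∧ A.valuation (Xi P L.N j) = ρ ∧
      A.valuation (Xi P L.N k) = 1 ∧ A.valuation (H11.ThetaS P L.N i Q) = ρ ∧
      A.valuation (H11.ThetaS P L.N j Q) = ρ ∧ A.valuation (H11.ThetaS P L.N k Q) = 1 ∧
      A.valuation ((r : ℤ) : Qbar) ^ P.p ≠ ρ ^ 2 ∧ A.valuation ((r : ℤ) : Qbar) < 1 ∧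
      A.valuation ((s : ℤ) : Qbar) = 1 ∧ A.valuation ((r - s : ℤ) : Qbar) = 1 := by
  classical
  have hqK : ((ℓ : ℕ) : Qbar) ∈ A.nonunits := hA
  have hdisc : ¬ (ℓ : ℤ) ∣ r - s := fun hd => hs ((dvd_sub_right hr).1 hd)
  have hyp := hc.modelHyp hℓ hℓ2 A hA hdisc
  have hvs : A.valuation ((s : ℤ) : Qbar) = 1 := valuation_intCast_eq_one_of_not_dvd hℓ hqK hs
  have hvr : A.valuation ((r : ℤ) : Qbar) < 1 := valuation_intCast_lt_one_of_dvd hqK hr
  have hbr : A.valuation (modelC P e).a₄ = A.valuation ((r : ℤ) : Qbar) := by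
    rw [hc.a₄, Int.cast_mul, map_mul, hvs, mul_one]
  have hb : A.valuation (modelC P e).a₄ < 1 := by
    rw [hbr]; exact hvr
  have hvalp : A.valuation ((P.p : ℕ) : Qbar) = 1 :=
    valuation_natCast_eq_one_of_ne (A := A) hℓ hqK P.pp (Ne.symm hℓp)
  obtain ⟨β, φ, hβ, hφ⟩ := exists_compHom hyp hb
  have : Finite (H11.lineSub P L.N) := H11.finite_lineSub P L.N
  let _ : Fintype (H11.lineSub P L.N) := Fintype.ofFinite _
  -- torsion
  have htor : ∀ v : Vp P, P.p • (v : (P.freyCurve⁄Qbar).Point) = 0 := by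
    intro v
    have := v.2
    rw [Submodule.mem_torsionBy_iff] at this
    rw [← natCast_zsmul]
    exact this
  have hStor : ∀ R ∈ H11.lineSub P L.N, P.p • R = 0 := by
    intro R hR
    obtain ⟨v, _, rfl⟩ := H11.mem_lineSub.1 hR
    exact htor v
  have hQS : (Q : (P.freyCurve⁄Qbar).Point) ∉ H11.lineSub P L.N :=
    (H11.generic_of_not_mem P L.N Q hQ).1
  have hQR : ∀ R : H11.lineSub P L.N,
      P.p • ((Q : (P.freyCurve⁄Qbar).Point) + (R : (P.freyCurve⁄Qbar).Point)) = 0 := by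
    intro R
    rw [nsmul_add, htor Q, hStor R R.2, add_zero]
  -- products
  have hXi : ∀ m, A.valuation (Xi P L.N m) =
      ∏ R : H11.lineSub P L.N, A.valuation (xiFactor P m (R : (P.freyCurve⁄Qbar).Point)) := by
    intro m
    unfold Xi
    rw [H11.finprod_line P L.N (fun T => xiFactor P m T), map_prod]
  have hTh : ∀ m, A.valuation (H11.ThetaS P L.N m Q) =
      ∏ R : H11.lineSub P L.N, A.valuation (xiFactor P m
        ((Q : (P.freyCurve⁄Qbar).Point) + (R : (P.freyCurve⁄Qbar).Point))) := by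
    intro m
    unfold H11.ThetaS
    rw [H11.finprod_line P L.N (fun T => xiFactor P m ((Q : (P.freyCurve⁄Qbar).Point) + T)),
      map_prod]
  have hvals := fun (T : (P.freyCurve⁄Qbar).Point) (hT : P.p • T = 0) =>
    xiFactor_vals hc hℓ hℓ2 hℓp A hA hr hs hi hj hk hT
  -- the data for `prod_coset_eq`
  have hcard : Nat.card (H11.lineSub P L.N) = P.p := by
    rw [Nat.card_eq_fintype_card]
    exact H11.card_lineSub P L.N L.ne_bot L.ne_top
  have hR₀S : (R₀ : (P.freyCurve⁄Qbar).Point) ∈ H11.lineSub P L.N :=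
    (H11.coe_mem_lineSub R₀).2 hR₀
  have hR₀E : ¬ S05.InE0 A (hc.map (R₀ : (P.freyCurve⁄Qbar).Point)) := by
    intro hE
    have := one_le_xv1_of_InE0 hE
    rw [hc.xv1_map A i hi] at this
    exact absurd hR₀lt (not_lt.2 this)
  have hcoset := prod_coset_eq hc.map (H11.lineSub P L.N) hφ hb hβ P.pp P.hp_odd hvalp hcard
    hStor hR₀S hR₀E (htor Q) hQS
  obtain ⟨K, hK⟩ := prod_pow_mem hc.map (H11.lineSub P L.N) hφ hb hβ P.hp_odd hvalp hStor
  have hρi : A.valuation (Xi P L.N i) =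
      ∏ R : H11.lineSub P L.N, xv1 A (hc.map (R : (P.freyCurve⁄Qbar).Point)) := by
    rw [hXi i]
    exact Finset.prod_congr rfl (fun R _ => (hc.xv1_map A i hi _).symm)
  refine ⟨∏ R : H11.lineSub P L.N, xv1 A (hc.map (R : (P.freyCurve⁄Qbar).Point)), ?_, hρi, ?_,
    ?_, ?_, ?_, ?_, ?_, hvr, hvs, valuation_intCast_eq_one_of_not_dvd hℓ hqK hdisc⟩
  · rw [← hρi]
    exact (Valuation.ne_zero_iff _).2 (H11.Xi_ne_zero' P L i)
  · rw [hXi j]
    exact Finset.prod_congr rfl (fun R _ => by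
      rw [(hvals R (hStor R R.2)).1, hc.xv1_map A i hi])
  · rw [hXi k]
    exact Finset.prod_eq_one (fun R _ => (hvals R (hStor R R.2)).2)
  · rw [hTh i, ← hcoset]
    exact Finset.prod_congr rfl (fun R _ => (hc.xv1_map A i hi _).symm)
  · rw [hTh j, ← hcoset]
    exact Finset.prod_congr rfl (fun R _ => by
      rw [(hvals _ (hQR R)).1, hc.xv1_map A i hi])
  · rw [hTh k]
    exact Finset.prod_eq_one (fun R _ => (hvals _ (hQR R)).2)
  · -- parity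
    intro heq
    rw [hbr] at hK
    have hr0 : (0 : A.ValueGroup) < A.valuation ((r : ℤ) : Qbar) :=
      zero_lt_iff.2 ((Valuation.ne_zero_iff _).2 (by exact_mod_cast hc.hr))
    have h1 : A.valuation ((r : ℤ) : Qbar) ^ ((P.p * P.p : ℕ) : ℤ)
        = A.valuation ((r : ℤ) : Qbar) ^ (2 * K * 2 : ℤ) := by
      rw [zpow_natCast, pow_mul, heq, ← pow_mul, mul_comm 2 P.p, pow_mul, hK, zpow_mul,
        zpow_mul, zpow_ofNat, zpow_ofNat]
    have h2 := zpow_right_injective₀ hr0 hvr.ne h1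
    have h3 : Odd ((P.p * P.p : ℕ) : ℤ) := by
      exact_mod_cast P.hp_odd.mul P.hp_odd
    rw [h2] at h3
    exact (Int.not_even_iff_odd.2 h3) ⟨2 * K, by ring⟩

end main

section final

open Fermat.Agent.S05.H15

variable {P : FreyPackage}

/-- The conclusion of VAL-B from the valuations. -/
lemma valB_concl_of (L : CofLine P) (V : ValuationSubring Qbar) (Q : Vp P)
    {ρ : V.ValueGroup} (hρ : ρ ≠ 0)
    (hX : V.valuation (H11.quotX1 P L.N Q) = ρ ^ 2)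
    (hXA : V.valuation (H11.quotX1 P L.N Q - H11.quotA1 P L.N) = ρ ^ 2)
    (hXB : V.valuation (H11.quotX1 P L.N Q + H11.quotB1 P L.N) = ρ ^ 2)
    (h : (V.valuation (H11.quotA1 P L.N) = ρ ^ 2 ∧ V.valuation (H11.quotB1 P L.N) = ρ ^ 2 ∧
          V.valuation (H11.quotC1 P L.N) ≠ ρ ^ 2) ∨
        (V.valuation (H11.quotA1 P L.N) = ρ ^ 2 ∧ V.valuation (H11.quotC1 P L.N) = ρ ^ 2 ∧
          V.valuation (H11.quotB1 P L.N) ≠ ρ ^ 2) ∨
        (V.valuation (H11.quotB1 P L.N) = ρ ^ 2 ∧ V.valuation (H11.quotC1 P L.N) = ρ ^ 2 ∧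
          V.valuation (H11.quotA1 P L.N) ≠ ρ ^ 2)) :
    ∃ M : V.ValueGroup,
      V.valuation (H11.quotA1 P L.N) ≤ M ∧ V.valuation (H11.quotB1 P L.N) ≤ M ∧
      V.valuation (H11.quotC1 P L.N) ≤ M ∧
      (V.valuation (H11.quotA1 P L.N) = M ∨ V.valuation (H11.quotB1 P L.N) = M) ∧
      V.valuation (H11.quotX1 P L.N Q) = M ∧
      V.valuation (H11.quotX1 P L.N Q - H11.quotA1 P L.N) = M ∧
      V.valuation (H11.quotX1 P L.N Q + H11.quotB1 P L.N) = M ∧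
      V.valuation (H11.quotA1 P L.N * H11.quotB1 P L.N * H11.quotC1 P L.N) < M ^ 3 := by
  have hM0 : (0 : V.ValueGroup) < ρ ^ 2 := zero_lt_iff.2 (pow_ne_zero 2 hρ)
  have key := H11.quotA1_add_quotB1 P L
  refine ⟨ρ ^ 2, ?_⟩
  rcases h with ⟨hA, hB, hC⟩ | ⟨hA, hC, hB⟩ | ⟨hB, hC, hA⟩
  · have hle : V.valuation (H11.quotC1 P L.N) ≤ ρ ^ 2 := by
      rw [← key]
      exact le_trans (V.valuation.map_add _ _) (by rw [hA, hB, max_self])
    have hlt := lt_of_le_of_ne hle hC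
    refine ⟨hA.le, hB.le, hle, Or.inl hA, hX, hXA, hXB, ?_⟩
    rw [map_mul, map_mul, hA, hB, pow_three' (ρ ^ 2)]
    exact mul_lt_mul_of_pos_left hlt (mul_pos hM0 hM0)
  · have hle : V.valuation (H11.quotB1 P L.N) ≤ ρ ^ 2 := by
      have : H11.quotB1 P L.N = H11.quotC1 P L.N - H11.quotA1 P L.N := by
        rw [← key]; ring
      rw [this]
      exact le_trans (V.valuation.map_sub _ _) (by rw [hA, hC, max_self])
    have hlt := lt_of_le_of_ne hle hB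
    refine ⟨hA.le, hle, hC.le, Or.inl hA, hX, hXA, hXB, ?_⟩
    rw [map_mul, map_mul, hA, hC, pow_three' (ρ ^ 2)]
    exact mul_lt_mul_of_pos_right (mul_lt_mul_of_pos_left hlt hM0) hM0
  · have hle : V.valuation (H11.quotA1 P L.N) ≤ ρ ^ 2 := by
      have : H11.quotA1 P L.N = H11.quotC1 P L.N - H11.quotB1 P L.N := by
        rw [← key]; ring
      rw [this]
      exact le_trans (V.valuation.map_sub _ _) (by rw [hB, hC, max_self])
    have hlt := lt_of_le_of_ne hle hA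
    refine ⟨hle, hB.le, hC.le, Or.inr hB, hX, hXA, hXB, ?_⟩
    rw [map_mul, map_mul, hB, hC, pow_three' (ρ ^ 2)]
    exact mul_lt_mul_of_pos_right (mul_lt_mul_of_pos_right hlt hM0) hM0

/-- If the roots `e_i`, `e_j` collide and `x_S(T) - e_i` is small then so is `x_S(T) - e_j`. -/
lemma xiFactor_lt_of_collide (V : ValuationSubring Qbar) (i j : Fin 3)
    (T : (P.freyCurve⁄Qbar).Point)
    (hcol : V.valuation (((eRoot P i : ℤ) : Qbar) - ((eRoot P j : ℤ) : Qbar)) < 1)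
    (hlt : ¬ 1 ≤ V.valuation (xiFactor P i T)) : V.valuation (xiFactor P j T) < 1 := by
  rcases T with _ | ⟨X, Y, h⟩
  · exact absurd (le_of_eq (_root_.map_one _).symm) hlt
  · show V.valuation (4 * X - ((eRoot P j : ℤ) : Qbar)) < 1
    have : 4 * X - ((eRoot P j : ℤ) : Qbar)
        = (4 * X - ((eRoot P i : ℤ) : Qbar)) + (((eRoot P i : ℤ) : Qbar) - ((eRoot P j : ℤ) : Qbar)) := by
      ring
    rw [this]
    exact lt_of_le_of_lt (V.valuation.map_add _ _) (max_lt (not_le.1 hlt) hcol)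

/-- The case `ℓ ∣ a`: the roots `0` and `a^p` collide. -/
theorem valB_case_a (L : CofLine P) {ℓ : ℕ} (hℓ : ℓ.Prime) (hℓ2 : ℓ ≠ 2) (hℓp : ℓ ≠ P.p)
    (V : ValuationSubring Qbar) (hV : V.LiesOverPrime ℓ) (ha : (ℓ : ℤ) ∣ P.a ^ P.p)
    (R₀ : Vp P) (hR₀ : R₀ ∈ L.N)
    (hlt : V.valuation (xiFactor P 0 (R₀ : (P.freyCurve⁄Qbar).Point)) < 1) (Q : Vp P)
    (hQ : Q ∉ L.N) :
    ∃ M : V.ValueGroup,
      V.valuation (H11.quotA1 P L.N) ≤ M ∧ V.valuation (H11.quotB1 P L.N) ≤ M ∧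
      V.valuation (H11.quotC1 P L.N) ≤ M ∧
      (V.valuation (H11.quotA1 P L.N) = M ∨ V.valuation (H11.quotB1 P L.N) = M) ∧
      V.valuation (H11.quotX1 P L.N Q) = M ∧
      V.valuation (H11.quotX1 P L.N Q - H11.quotA1 P L.N) = M ∧
      V.valuation (H11.quotX1 P L.N Q + H11.quotB1 P L.N) = M ∧
      V.valuation (H11.quotA1 P L.N * H11.quotB1 P L.N * H11.quotC1 P L.N) < M ^ 3 := by
  obtain ⟨hab, hac, hbc⟩ := not_dvd_pair P hℓ
  have hs : ¬ (ℓ : ℤ) ∣ -(P.b ^ P.p) := fun h => hab ⟨ha, (dvd_neg).1 h⟩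
  obtain ⟨ρ, hρ, hΞ0, hΞ1, hΞ2, hΘ0, hΘ1, hΘ2, hne, hvr, hvs, hvrs⟩ :=
    valB_centre L (centre0 P) hℓ hℓ2 hℓp V hV ha hs (i := 0) (j := 1) (k := 2) rfl
      (by simp [eRoot]) (by simp [eRoot]) R₀ hR₀ hlt Q hQ
  have hva : V.valuation ((P.a : Qbar) ^ P.p) = V.valuation ((P.a ^ P.p : ℤ) : Qbar) := by
    push_cast; rfl
  have hvb : V.valuation ((P.b : Qbar) ^ P.p) = 1 := by
    have : ((P.b : Qbar) ^ P.p) = -((-(P.b ^ P.p) : ℤ) : Qbar) := by push_cast; ring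
    rw [this, Valuation.map_neg, hvs]
  have hvc : V.valuation ((P.c : Qbar) ^ P.p) = 1 := by
    have : ((P.c : Qbar) ^ P.p) = ((P.a ^ P.p - -(P.b ^ P.p) : ℤ) : Qbar) := by
      rw [sub_neg_eq_add, P.hFLT]; push_cast; rfl
    rw [this, hvrs]
  apply valB_concl_of L V Q hρ
  · show V.valuation (Xi P L.N 1 * Xi P L.N 2 * H11.ThetaS P L.N 0 Q) = ρ ^ 2
    rw [map_mul, map_mul, hΞ1, hΞ2, hΘ0, mul_one, sq]
  · rw [H11.quotX1_sub_A1 P L Q hQ, map_mul, map_mul, hΞ0, hΞ2, hΘ1, mul_one, sq]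
  · rw [H11.quotX1_add_B1 P L Q hQ, map_mul, map_mul, hΞ0, hΞ1, hΘ2, mul_one, sq]
  · right; right
    refine ⟨?_, ?_, ?_⟩
    · show V.valuation (((P.b : Qbar) ^ P.p) ^ P.p * Xi P L.N 1 ^ 2) = ρ ^ 2
      rw [map_mul, map_pow, map_pow _ (Xi P L.N 1), hvb, one_pow, one_mul, hΞ1]
    · show V.valuation (((P.c : Qbar) ^ P.p) ^ P.p * Xi P L.N 0 ^ 2) = ρ ^ 2
      rw [map_mul, map_pow, map_pow _ (Xi P L.N 0), hvc, one_pow, one_mul, hΞ0]
    · show V.valuation (((P.a : Qbar) ^ P.p) ^ P.p * Xi P L.N 2 ^ 2) ≠ ρ ^ 2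
      rw [map_mul, map_pow, map_pow _ (Xi P L.N 2), hΞ2, one_pow, mul_one, hva]
      exact hne

/-- The case `ℓ ∣ b`: the roots `0` and `-b^p` collide. -/
theorem valB_case_b (L : CofLine P) {ℓ : ℕ} (hℓ : ℓ.Prime) (hℓ2 : ℓ ≠ 2) (hℓp : ℓ ≠ P.p)
    (V : ValuationSubring Qbar) (hV : V.LiesOverPrime ℓ) (hb : (ℓ : ℤ) ∣ P.b ^ P.p)
    (R₀ : Vp P) (hR₀ : R₀ ∈ L.N)
    (hlt : V.valuation (xiFactor P 0 (R₀ : (P.freyCurve⁄Qbar).Point)) < 1) (Q : Vp P)
    (hQ : Q ∉ L.N) :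
    ∃ M : V.ValueGroup,
      V.valuation (H11.quotA1 P L.N) ≤ M ∧ V.valuation (H11.quotB1 P L.N) ≤ M ∧
      V.valuation (H11.quotC1 P L.N) ≤ M ∧
      (V.valuation (H11.quotA1 P L.N) = M ∨ V.valuation (H11.quotB1 P L.N) = M) ∧
      V.valuation (H11.quotX1 P L.N Q) = M ∧
      V.valuation (H11.quotX1 P L.N Q - H11.quotA1 P L.N) = M ∧
      V.valuation (H11.quotX1 P L.N Q + H11.quotB1 P L.N) = M ∧
      V.valuation (H11.quotA1 P L.N * H11.quotB1 P L.N * H11.quotC1 P L.N) < M ^ 3 := by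
  obtain ⟨hab, hac, hbc⟩ := not_dvd_pair P hℓ
  have hr : (ℓ : ℤ) ∣ -(P.b ^ P.p) := (dvd_neg).2 hb
  have hs : ¬ (ℓ : ℤ) ∣ P.a ^ P.p := fun h => hab ⟨h, hb⟩
  obtain ⟨ρ, hρ, hΞ0, hΞ2, hΞ1, hΘ0, hΘ2, hΘ1, hne, hvr, hvs, hvrs⟩ :=
    valB_centre L (centre0 P).swap hℓ hℓ2 hℓp V hV hr hs (i := 0) (j := 2) (k := 1) rfl
      (by simp [eRoot]) (by simp [eRoot]) R₀ hR₀ hlt Q hQ
  have hvb : V.valuation ((P.b : Qbar) ^ P.p) = V.valuation ((-(P.b ^ P.p) : ℤ) : Qbar) := by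
    have : ((P.b : Qbar) ^ P.p) = -((-(P.b ^ P.p) : ℤ) : Qbar) := by push_cast; ring
    rw [this, Valuation.map_neg]
  have hva : V.valuation ((P.a : Qbar) ^ P.p) = 1 := by
    have : ((P.a : Qbar) ^ P.p) = ((P.a ^ P.p : ℤ) : Qbar) := by push_cast; rfl
    rw [this, hvs]
  have hvc : V.valuation ((P.c : Qbar) ^ P.p) = 1 := by
    have hc' : ((P.c ^ P.p : ℤ) : Qbar) = ((P.a ^ P.p + P.b ^ P.p : ℤ) : Qbar) := by
      rw [P.hFLT]
    have : ((P.c : Qbar) ^ P.p) = -((-(P.b ^ P.p) - P.a ^ P.p : ℤ) : Qbar) := by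
      push_cast at hc' ⊢
      linear_combination hc'
    rw [this, Valuation.map_neg, hvrs]
  apply valB_concl_of L V Q hρ
  · show V.valuation (Xi P L.N 1 * Xi P L.N 2 * H11.ThetaS P L.N 0 Q) = ρ ^ 2
    rw [map_mul, map_mul, hΞ1, hΞ2, hΘ0, one_mul, sq]
  · rw [H11.quotX1_sub_A1 P L Q hQ, map_mul, map_mul, hΞ0, hΞ2, hΘ1, mul_one, sq]
  · rw [H11.quotX1_add_B1 P L Q hQ, map_mul, map_mul, hΞ0, hΞ1, hΘ2, mul_one, sq]
  · right; left
    refine ⟨?_, ?_, ?_⟩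
    · show V.valuation (((P.a : Qbar) ^ P.p) ^ P.p * Xi P L.N 2 ^ 2) = ρ ^ 2
      rw [map_mul, map_pow, map_pow _ (Xi P L.N 2), hva, one_pow, one_mul, hΞ2]
    · show V.valuation (((P.c : Qbar) ^ P.p) ^ P.p * Xi P L.N 0 ^ 2) = ρ ^ 2
      rw [map_mul, map_pow, map_pow _ (Xi P L.N 0), hvc, one_pow, one_mul, hΞ0]
    · show V.valuation (((P.b : Qbar) ^ P.p) ^ P.p * Xi P L.N 1 ^ 2) ≠ ρ ^ 2
      rw [map_mul, map_pow, map_pow _ (Xi P L.N 1), hΞ1, one_pow, mul_one, hvb]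
      exact hne

/-- The case `ℓ ∣ c`: the roots `a^p` and `-b^p` collide. -/
theorem valB_case_c (L : CofLine P) {ℓ : ℕ} (hℓ : ℓ.Prime) (hℓ2 : ℓ ≠ 2) (hℓp : ℓ ≠ P.p)
    (V : ValuationSubring Qbar) (hV : V.LiesOverPrime ℓ) (hc : (ℓ : ℤ) ∣ P.c ^ P.p)
    (R₀ : Vp P) (hR₀ : R₀ ∈ L.N)
    (hlt : V.valuation (xiFactor P 1 (R₀ : (P.freyCurve⁄Qbar).Point)) < 1) (Q : Vp P)
    (hQ : Q ∉ L.N) :
    ∃ M : V.ValueGroup,
      V.valuation (H11.quotA1 P L.N) ≤ M ∧ V.valuation (H11.quotB1 P L.N) ≤ M ∧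
      V.valuation (H11.quotC1 P L.N) ≤ M ∧
      (V.valuation (H11.quotA1 P L.N) = M ∨ V.valuation (H11.quotB1 P L.N) = M) ∧
      V.valuation (H11.quotX1 P L.N Q) = M ∧
      V.valuation (H11.quotX1 P L.N Q - H11.quotA1 P L.N) = M ∧
      V.valuation (H11.quotX1 P L.N Q + H11.quotB1 P L.N) = M ∧
      V.valuation (H11.quotA1 P L.N * H11.quotB1 P L.N * H11.quotC1 P L.N) < M ^ 3 := by
  obtain ⟨hab, hac, hbc⟩ := not_dvd_pair P hℓ
  have hr : (ℓ : ℤ) ∣ -(P.c ^ P.p) := (dvd_neg).2 hc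
  have hs : ¬ (ℓ : ℤ) ∣ -(P.a ^ P.p) := fun h => hac ⟨(dvd_neg).1 h, hc⟩
  have hj : eRoot P 2 = P.a ^ P.p + -(P.c ^ P.p) := by
    rw [← P.hFLT]; simp [eRoot]
  obtain ⟨ρ, hρ, hΞ1, hΞ2, hΞ0, hΘ1, hΘ2, hΘ0, hne, hvr, hvs, hvrs⟩ :=
    valB_centre L (centre1 P).swap hℓ hℓ2 hℓp V hV hr hs (i := 1) (j := 2) (k := 0) rfl
      hj (by simp [eRoot]) R₀ hR₀ hlt Q hQ
  have hvc : V.valuation ((P.c : Qbar) ^ P.p) = V.valuation ((-(P.c ^ P.p) : ℤ) : Qbar) := by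
    have : ((P.c : Qbar) ^ P.p) = -((-(P.c ^ P.p) : ℤ) : Qbar) := by push_cast; ring
    rw [this, Valuation.map_neg]
  have hva : V.valuation ((P.a : Qbar) ^ P.p) = 1 := by
    have : ((P.a : Qbar) ^ P.p) = -((-(P.a ^ P.p) : ℤ) : Qbar) := by push_cast; ring
    rw [this, Valuation.map_neg, hvs]
  have hvb : V.valuation ((P.b : Qbar) ^ P.p) = 1 := by
    have : ((P.b : Qbar) ^ P.p) = -((-(P.c ^ P.p) - -(P.a ^ P.p) : ℤ) : Qbar) := by
      rw [← P.hFLT]; push_cast; ring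
    rw [this, Valuation.map_neg, hvrs]
  apply valB_concl_of L V Q hρ
  · show V.valuation (Xi P L.N 1 * Xi P L.N 2 * H11.ThetaS P L.N 0 Q) = ρ ^ 2
    rw [map_mul, map_mul, hΞ1, hΞ2, hΘ0, mul_one, sq]
  · rw [H11.quotX1_sub_A1 P L Q hQ, map_mul, map_mul, hΞ0, hΞ2, hΘ1, one_mul, sq]
  · rw [H11.quotX1_add_B1 P L Q hQ, map_mul, map_mul, hΞ0, hΞ1, hΘ2, one_mul, sq]
  · left
    refine ⟨?_, ?_, ?_⟩
    · show V.valuation (((P.a : Qbar) ^ P.p) ^ P.p * Xi P L.N 2 ^ 2) = ρ ^ 2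
      rw [map_mul, map_pow, map_pow _ (Xi P L.N 2), hva, one_pow, one_mul, hΞ2]
    · show V.valuation (((P.b : Qbar) ^ P.p) ^ P.p * Xi P L.N 1 ^ 2) = ρ ^ 2
      rw [map_mul, map_pow, map_pow _ (Xi P L.N 1), hvb, one_pow, one_mul, hΞ1]
    · show V.valuation (((P.c : Qbar) ^ P.p) ^ P.p * Xi P L.N 0 ^ 2) ≠ ρ ^ 2
      rw [map_mul, map_pow, map_pow _ (Xi P L.N 0), hΞ0, one_pow, mul_one, hvc]
      exact hne

/-- (VAL-B). -/
theorem stmt_val_B : Stmt_val_B := by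
  intro P L ℓ hℓ hℓ2 hℓp _ V hV hNF Q hQ
  have hqK : ((ℓ : ℕ) : Qbar) ∈ V.nonunits := hV
  unfold NodeFreeAt at hNF
  push Not at hNF
  obtain ⟨R₀, hR₀, -, i, j, hij, hcol, hlt⟩ := hNF
  have hlt' := xiFactor_lt_of_collide V i j _ hcol (not_le.2 hlt)
  have hd : (ℓ : ℤ) ∣ eRoot P i - eRoot P j := by
    rw [← Int.cast_sub] at hcol
    exact (valuation_intCast_lt_one_iff hℓ hqK).1 hcol
  have e0 : eRoot P 0 = 0 := rfl
  have e1 : eRoot P 1 = P.a ^ P.p := rfl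
  have e2 : eRoot P 2 = -(P.b ^ P.p) := rfl
  have hcab : P.c ^ P.p = P.a ^ P.p + P.b ^ P.p := P.hFLT.symm
  have h3 : ∀ m : Fin 3, m = 0 ∨ m = 1 ∨ m = 2 := by decide
  rcases h3 i with rfl | rfl | rfl <;> rcases h3 j with rfl | rfl | rfl
  · exact absurd rfl hij
  · rw [e0, e1, zero_sub, dvd_neg] at hd
    exact valB_case_a L hℓ hℓ2 hℓp V hV hd R₀ hR₀ hlt Q hQ
  · rw [e0, e2, zero_sub, neg_neg] at hd
    exact valB_case_b L hℓ hℓ2 hℓp V hV hd R₀ hR₀ hlt Q hQ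
  · rw [e0, e1, sub_zero] at hd
    exact valB_case_a L hℓ hℓ2 hℓp V hV hd R₀ hR₀ hlt' Q hQ
  · exact absurd rfl hij
  · rw [e1, e2, sub_neg_eq_add, ← hcab] at hd
    exact valB_case_c L hℓ hℓ2 hℓp V hV hd R₀ hR₀ hlt Q hQ
  · rw [e0, e2, sub_zero, dvd_neg] at hd
    exact valB_case_b L hℓ hℓ2 hℓp V hV hd R₀ hR₀ hlt' Q hQ
  · have : -(P.b ^ P.p) - P.a ^ P.p = -(P.c ^ P.p) := by rw [hcab]; ring
    rw [e1, e2, this, dvd_neg] at hd
    exact valB_case_c L hℓ hℓ2 hℓp V hV hd R₀ hR₀ hlt' Q hQ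
  · exact absurd rfl hij

end final

end Fermat.Agent.S12.H87
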