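/-
S12 (row owner helper67): the whole of S12 from Mazur's key step S15 (in its frozen type).
Every other package is a theorem.  When `Fermat.Agent.S15.result` exists, `S12.lean` is
`exact Fermat.Agent.S12.H67.result_of_S15 (fun hp hp' W hΔ Q ... => Fermat.Agent.S15.result ...) P hp`.
-/
import Fermat.Agent.S12.H67_Assemble
import Fermat.Agent.S12.H11_StarFinal
import Fermat.Agent.S12.H87_ValB

set_option autoImplicit false

namespace Fermat.Agent.S12.H67

open WeierstrassCurve WeierstrassCurve.Affine WeierstrassCurve.Affine.Point

/-- **S12 from S15.** -/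
theorem result_of_S15 (h15 : Stmt_S15) (P : FreyPackage) (hp : 17 ≤ P.p) :
    ¬ HasGaloisStableCofixedLine (K := AlgebraicClosure ℚ) ℚ P.freyCurve P.p :=
  result_of_star H66.stmt_star_three
    (H11.stmt_star_of_S15_valB h15 H87.stmt_val_B) P hp

end Fermat.Agent.S12.H67
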