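/-
S12, package VAL-2: the interface (UV) `H87.Stmt_unramVal` is PROVED (helper6),
from `Fermat.Agent.Lib.UnramVal.valuation_eq_zpow`.
-/
import Fermat.Agent.S12.H87_ValTwoDefs
import Fermat.Agent.Lib.UnramVal

set_option autoImplicit false

namespace Fermat.Agent.S12.H6

/-- (UV) holds. -/
theorem stmt_unramVal : Fermat.Agent.S12.H87.Stmt_unramVal := by
  intro ℓ hℓ A hA K hfin hnorm hfix x hx hx0
  exact Fermat.Agent.Lib.UnramVal.valuation_eq_zpow K ℓ hℓ A hA hfix x hx hx0

end Fermat.Agent.S12.H6
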